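import Mathlib
import Fermat.Prelude.Def_ModularCurve_X0

/-!
# S28 helper (helper84): Taylor power series of analytic functions at `0`

`taylorPS g` is the formal Taylor series at `0`.  It is multiplicative on germs of analytic
functions and continuous for locally uniform limits of holomorphic functions.
-/

namespace Fermat.Agent.S28.H84

open Filter Topology

noncomputable section

/-- The formal Taylor series at `0` of a function `ℂ → ℂ`. -/
def taylorPS (g : ℂ → ℂ) : PowerSeries ℂ :=
  PowerSeries.mk fun m => ((m.factorial : ℂ))⁻¹ * iteratedDeriv m g 0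

theorem taylorPS_coeff (g : ℂ → ℂ) (m : ℕ) :
    PowerSeries.coeff m (taylorPS g) = ((m.factorial : ℂ))⁻¹ * iteratedDeriv m g 0 := by
  simp [taylorPS]

theorem qExpansion_eq_taylorPS (h : ℝ) (f : UpperHalfPlane → ℂ) :
    UpperHalfPlane.qExpansion h f = taylorPS (UpperHalfPlane.cuspFunction h f) := rfl

theorem taylorPS_congr {f g : ℂ → ℂ} (h : f =ᶠ[𝓝 0] g) : taylorPS f = taylorPS g := by
  ext m
  rw [taylorPS_coeff, taylorPS_coeff, h.iteratedDeriv_eq m]

theorem taylorPS_mul {f g : ℂ → ℂ} (hf : AnalyticAt ℂ f 0) (hg : AnalyticAt ℂ g 0) :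
    taylorPS (f * g) = taylorPS f * taylorPS g := by
  ext n
  simp only [taylorPS_coeff, iteratedDeriv_mul hf.contDiffAt hg.contDiffAt, Finset.mul_sum,
    PowerSeries.coeff_mul, Finset.Nat.sum_antidiagonal_eq_sum_range_succ_mk, Nat.succ_eq_add_one]
  refine Finset.sum_congr rfl fun i hi ↦ ?_
  rw [Nat.cast_choose _ (by grind)]
  field_simp [Nat.factorial_ne_zero]

theorem taylorPS_const (c : ℂ) : taylorPS (fun _ => c) = PowerSeries.C c := by
  ext m
  rw [taylorPS_coeff, PowerSeries.coeff_C]
  rcases m with _ | m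
  · simp
  · simp [iteratedDeriv_succ']

theorem taylorPS_one : taylorPS (1 : ℂ → ℂ) = 1 := by
  have := taylorPS_const 1
  rw [map_one] at this
  exact this

theorem taylorPS_id : taylorPS (fun q : ℂ => q) = PowerSeries.X := by
  ext m
  rw [taylorPS_coeff, PowerSeries.coeff_X]
  rcases m with _ | _ | m
  · simp
  · simp [iteratedDeriv_succ']
  · have : deriv (fun q : ℂ => q) = fun _ => 1 := by
      funext x; simp
    simp [iteratedDeriv_succ', this]

theorem taylorPS_sub {f g : ℂ → ℂ} (hf : AnalyticAt ℂ f 0) (hg : AnalyticAt ℂ g 0) :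
    taylorPS (f - g) = taylorPS f - taylorPS g := by
  ext m
  simp [taylorPS_coeff, iteratedDeriv_sub hf.contDiffAt hg.contDiffAt, mul_sub]

theorem taylorPS_pow {f : ℂ → ℂ} (hf : AnalyticAt ℂ f 0) (n : ℕ) :
    taylorPS (f ^ n) = taylorPS f ^ n := by
  induction n with
  | zero => simpa using taylorPS_one
  | succ n ih =>
    rw [pow_succ, pow_succ, taylorPS_mul (hf.pow n) hf, ih]

theorem taylorPS_prod {ι : Type*} (s : Finset ι) {f : ι → ℂ → ℂ}
    (hf : ∀ i ∈ s, AnalyticAt ℂ (f i) 0) :
    taylorPS (∏ i ∈ s, f i) = ∏ i ∈ s, taylorPS (f i) := by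
  classical
  induction s using Finset.induction_on with
  | empty => simpa using taylorPS_one
  | insert a s ha ih =>
    rw [Finset.prod_insert ha, Finset.prod_insert ha,
      taylorPS_mul (hf a (Finset.mem_insert_self a s))
        (Finset.analyticAt_prod _ fun i hi => hf i (Finset.mem_insert_of_mem hi)),
      ih fun i hi => hf i (Finset.mem_insert_of_mem hi)]

theorem differentiableOn_iteratedDeriv {f : ℂ → ℂ} {U : Set ℂ} (hU : IsOpen U)
    (hf : DifferentiableOn ℂ f U) (m : ℕ) : DifferentiableOn ℂ (iteratedDeriv m f) U := by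
  induction m with
  | zero => simpa [iteratedDeriv_zero] using hf
  | succ m ih =>
    rw [iteratedDeriv_succ]
    exact ih.deriv hU

theorem tendstoLocallyUniformlyOn_iteratedDeriv {ι : Type*} {φ : Filter ι} {F : ι → ℂ → ℂ}
    {f : ℂ → ℂ} {U : Set ℂ} (hU : IsOpen U) (hf : TendstoLocallyUniformlyOn F f φ U)
    (hF : ∀ᶠ n in φ, DifferentiableOn ℂ (F n) U) (m : ℕ) :
    TendstoLocallyUniformlyOn (fun n => iteratedDeriv m (F n)) (iteratedDeriv m f) φ U := by
  induction m with
  | zero => simpa [iteratedDeriv_zero] using hf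
  | succ m ih =>
    have h1 := ih.deriv (hF.mono fun n hn => differentiableOn_iteratedDeriv hU hn m) hU
    simpa [Function.comp_def, iteratedDeriv_succ] using h1

/-- Taylor coefficients are continuous for locally uniform limits of holomorphic functions. -/
theorem tendsto_taylorPS_coeff {ι : Type*} {φ : Filter ι} {F : ι → ℂ → ℂ}
    {f : ℂ → ℂ} {U : Set ℂ} (hU : IsOpen U) (h0 : (0 : ℂ) ∈ U)
    (hf : TendstoLocallyUniformlyOn F f φ U)
    (hF : ∀ᶠ n in φ, DifferentiableOn ℂ (F n) U) (m : ℕ) :
    Tendsto (fun n => PowerSeries.coeff m (taylorPS (F n))) φ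
      (𝓝 (PowerSeries.coeff m (taylorPS f))) := by
  simp only [taylorPS_coeff]
  exact ((tendstoLocallyUniformlyOn_iteratedDeriv hU hf hF m).tendsto_at h0).const_mul _

end

end Fermat.Agent.S28.H84
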