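import Mathlib
import Fermat.Prelude.Def_ModularCurve_X0
import Fermat.Agent.S28.H84Taylor

/-!
# S28 helper (helper84): the formal `q`-series of the Prelude are the analytic `q`-expansions

* `qExpansion_E4_eq` : `qExpansion 1 E₄ = eisenstein4.map (Int.castRingHom ℂ)`
* `qExpansion_discriminant_eq` :
    `qExpansion 1 Δ = X * (etaProd ^ 24).map (Int.castRingHom ℂ)`
-/

namespace Fermat.Agent.S28.H84

open Filter Topology
open scoped PowerSeries.WithPiTopology

noncomputable section

/-- The Taylor series of Euler's product is the formal Euler product. -/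
theorem taylorPS_tprod_one_sub_pow :
    taylorPS (fun q : ℂ => ∏' n : ℕ, (1 - q ^ (n + 1))) =
      (∏' n : ℕ, (1 - PowerSeries.X ^ (n + 1)) : PowerSeries ℂ) := by
  ext m
  have hloc := ModularForm.multipliableLocallyUniformlyOn_one_sub_pow.hasProdLocallyUniformlyOn
  rw [hasProdLocallyUniformlyOn_iff_tendstoLocallyUniformlyOn] at hloc
  have h1 := tendsto_taylorPS_coeff (Metric.isOpen_ball) (Metric.mem_ball_self one_pos) hloc
    (Eventually.of_forall fun s => by
      have := DifferentiableOn.finsetProd (𝕜 := ℂ) (s := Metric.ball (0 : ℂ) 1) (u := s)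
        (f := fun (i : ℕ) (q : ℂ) => 1 - q ^ (i + 1)) (fun i _ => by fun_prop)
      simpa [Finset.prod_fn] using this) m
  have h2 : ∀ s : Finset ℕ, taylorPS (fun q : ℂ => ∏ i ∈ s, (1 - q ^ (i + 1))) =
      ∏ i ∈ s, (1 - PowerSeries.X ^ (i + 1) : PowerSeries ℂ) := by
    intro s
    have e : (fun q : ℂ => ∏ i ∈ s, (1 - q ^ (i + 1))) =
        ∏ i ∈ s, ((1 : ℂ → ℂ) - (fun q : ℂ => q) ^ (i + 1)) := by
      funext q
      simp [Finset.prod_apply]
    rw [e, taylorPS_prod]
    · refine Finset.prod_congr rfl fun i _ => ?_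
      rw [taylorPS_sub, taylorPS_one, taylorPS_pow, taylorPS_id]
      · exact analyticAt_id
      · exact analyticAt_const
      · exact analyticAt_id.pow _
    · intro i _
      exact analyticAt_const.sub (analyticAt_id.pow _)
  simp only [h2] at h1
  have h3 := ((PowerSeries.WithPiTopology.continuous_coeff ℂ m).tendsto _).comp
    (PowerSeries.WithPiTopology.multipliable_one_sub_X_pow ℂ).hasProd
  exact tendsto_nhds_unique h1 h3

theorem map_etaProd :
    (ModularCurve.etaProd).map (Int.castRingHom ℂ) =
      (∏' n : ℕ, (1 - PowerSeries.X ^ (n + 1)) : PowerSeries ℂ) := by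
  have hcont : Continuous (PowerSeries.map (Int.castRingHom ℂ)) := by
    rw [continuous_iff_continuousAt]
    intro f
    rw [ContinuousAt, PowerSeries.WithPiTopology.tendsto_iff_coeff_tendsto]
    intro d
    simp only [PowerSeries.coeff_map]
    exact (continuous_of_discreteTopology.tendsto _).comp
      ((PowerSeries.WithPiTopology.continuous_coeff ℤ d).tendsto f)
  rw [ModularCurve.etaProd,
    (PowerSeries.WithPiTopology.multipliable_one_sub_X_pow ℤ).map_tprod _ hcont]
  simp

theorem analyticAt_tprod_one_sub_pow :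
    AnalyticAt ℂ (fun q : ℂ => ∏' n : ℕ, (1 - q ^ (n + 1))) 0 :=
  ModularForm.differentiableOn_tprod_one_sub_pow.analyticAt
    (Metric.isOpen_ball.mem_nhds (Metric.mem_ball_self one_pos))

/-- The `q`-expansion of the modular discriminant is the formal series `q ∏ (1 - q^n)^24`. -/
theorem qExpansion_discriminant_eq :
    UpperHalfPlane.qExpansion 1 ModularForm.discriminant =
      PowerSeries.X * (ModularCurve.etaProd ^ 24).map (Int.castRingHom ℂ) := by
  rw [qExpansion_eq_taylorPS]
  have hev : UpperHalfPlane.cuspFunction 1 ModularForm.discriminant =ᶠ[𝓝 0]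
      ((fun q : ℂ => q) * (fun q : ℂ => ∏' n : ℕ, (1 - q ^ (n + 1))) ^ 24) := by
    filter_upwards [Metric.isOpen_ball.mem_nhds (Metric.mem_ball_self (x := (0 : ℂ)) one_pos)]
      with q hq
    rw [ModularForm.discriminant_cuspFunction_eqOn hq]
    simp only [Pi.mul_apply, Pi.pow_apply]
    rw [(ModularForm.multipliable_one_sub_pow (by simpa using hq)).tprod_pow]
  have hid : AnalyticAt ℂ (fun q : ℂ => q) 0 := analyticAt_id
  rw [taylorPS_congr hev, taylorPS_mul hid (analyticAt_tprod_one_sub_pow.pow 24),
    taylorPS_id, taylorPS_pow analyticAt_tprod_one_sub_pow, taylorPS_tprod_one_sub_pow,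
    map_pow, map_etaProd]

/-- The `q`-expansion of `E₄` is the formal series `1 + 240 ∑ σ₃(n) qⁿ`. -/
theorem qExpansion_E4_eq :
    UpperHalfPlane.qExpansion 1 ModularForm.E₄ =
      (ModularCurve.eisenstein4).map (Int.castRingHom ℂ) := by
  ext m
  rw [EisensteinSeries.E_qExpansion_coeff _ ⟨2, rfl⟩, PowerSeries.coeff_map,
    ModularCurve.eisenstein4, PowerSeries.coeff_mk]
  by_cases hm : m = 0
  · simp [hm]
  · simp only [hm, if_false]
    have hb : bernoulli 4 = -1 / 30 := by decide +kernel
    rw [hb, ArithmeticFunction.sigma_apply]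
    push_cast
    norm_num

end

end Fermat.Agent.S28.H84
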