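import Fermat.Agent.S28.BridgeBase
import Fermat.Agent.S28.H84Bridge

/-!
# S28 Part I, task T6b (helper19): bridge formal ↔ analytic

The four statements of the Part I skeleton:

* `hasTExp_deltaAn : HasTExp 1 deltaAn (cEmb deltaSeries)`
* `hasTExp_jAn     : HasTExp 1 jAn (cEmb jq)`
* `hasTExp_jAt     : 0 < d → HasTExp 1 (jAt d) (cEmb (jSub d))`
* `hasTExp_UAn     : 0 < N → HasTExp 1 (UAn N) (cEmb (modUnit N))`

plus the expansions of `1/Δ`, `Δ(δτ)`, `1/Δ(δτ)`.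
-/

set_option autoImplicit false

open ModularCurve UpperHalfPlane Complex Filter Topology
open scoped MatrixGroups

noncomputable section

namespace Fermat.Agent.S28

theorem h19_eulerProd_ne_zero {q : ℂ} (hq : ‖q‖ < 1) : ∏' n : ℕ, (1 - q ^ (n + 1)) ≠ 0 := by
  rcases eq_or_ne q 0 with rfl | hq0
  · simp
  · obtain ⟨τ, hτ⟩ := exists_tParam_eq one_pos hq0 hq
    have := ModularForm.eta_tprod_ne_zero τ.2
    simp only [ModularForm.eta_q_eq_pow] at this
    rw [← hτ]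
    simpa [tParam, Function.Periodic.qParam] using this

/-- the inverse of the 24-th power of the Euler product, as a function on the disc. -/
def h19_invFun (q : ℂ) : ℂ := ((∏' n : ℕ, (1 - q ^ (n + 1))) ^ 24)⁻¹

theorem h19_differentiableOn_invFun : DifferentiableOn ℂ h19_invFun (Metric.ball 0 1) := by
  refine DifferentiableOn.inv (ModularForm.differentiableOn_tprod_one_sub_pow.pow 24) ?_
  intro x hx
  exact pow_ne_zero _ (h19_eulerProd_ne_zero (by simpa using hx))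

theorem h19_hasSum_invFun {q : ℂ} (hq : ‖q‖ < 1) :
    HasSum (fun n : ℕ => PowerSeries.coeff n (H84.taylorPS h19_invFun) * q ^ n)
      (h19_invFun q) := by
  have hq' : q ∈ Metric.ball (0 : ℂ) 1 := by simpa using hq
  have h := hasSum_taylorSeries_on_ball h19_differentiableOn_invFun hq'
  have hfun : (fun n : ℕ => PowerSeries.coeff n (H84.taylorPS h19_invFun) * q ^ n) =
      fun n : ℕ => ((n.factorial : ℂ))⁻¹ • (q - 0) ^ n • iteratedDeriv n h19_invFun 0 := by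
    funext n
    simp only [H84.taylorPS_coeff, sub_zero, smul_eq_mul]
    ring
  rw [hfun]
  exact h

theorem h19_taylorPS_invFun_mul :
    H84.taylorPS h19_invFun * (etaProd.map (Int.castRingHom ℂ)) ^ 24 = 1 := by
  have h0 : (0 : ℂ) ∈ Metric.ball (0 : ℂ) 1 := Metric.mem_ball_self one_pos
  have hQ : AnalyticAt ℂ h19_invFun 0 :=
    h19_differentiableOn_invFun.analyticAt (Metric.isOpen_ball.mem_nhds h0)
  have hP := H84.analyticAt_tprod_one_sub_pow
  rw [H84.map_etaProd, ← H84.taylorPS_tprod_one_sub_pow, ← H84.taylorPS_pow hP,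
    ← H84.taylorPS_mul hQ (hP.pow 24), ← H84.taylorPS_one]
  apply H84.taylorPS_congr
  filter_upwards [Metric.isOpen_ball.mem_nhds h0] with q hq
  simp only [Pi.mul_apply, Pi.pow_apply, Pi.one_apply, h19_invFun]
  exact inv_mul_cancel₀ (pow_ne_zero _ (h19_eulerProd_ne_zero (by simpa using hq)))

theorem h19_hasTExp_invFun :
    HasTExp 1 (fun τ => h19_invFun (tParam 1 τ))
      ((HahnSeries.ofPowerSeries ℤ ℂ (etaProd.map (Int.castRingHom ℂ))) ^ 24)⁻¹ := by
  have h1 : HasTExp 1 (fun τ => h19_invFun (tParam 1 τ))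
      (HahnSeries.ofPowerSeries ℤ ℂ (H84.taylorPS h19_invFun)) :=
    h19_hasTExp_of_powerSeries fun τ => h19_hasSum_invFun (norm_tParam_lt_one one_pos τ)
  have h2 : HahnSeries.ofPowerSeries ℤ ℂ (H84.taylorPS h19_invFun) =
      ((HahnSeries.ofPowerSeries ℤ ℂ (etaProd.map (Int.castRingHom ℂ))) ^ 24)⁻¹ := by
    apply eq_inv_of_mul_eq_one_left
    rw [← map_pow, ← map_mul, h19_taylorPS_invFun_mul, map_one]
  rw [← h2]
  exact h1

theorem h19_single_neg_one_eq : (HahnSeries.single (-1 : ℤ) (1 : ℂ) : LaurentSeries ℂ) =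
    (HahnSeries.single (1 : ℤ) (1 : ℂ))⁻¹ := by
  apply eq_inv_of_mul_eq_one_left
  rw [HahnSeries.single_mul_single]
  simp

theorem h19_hasTExp_tParam_inv (N : ℕ) :
    HasTExp N (fun τ => (tParam N τ)⁻¹) (HahnSeries.single (-1 : ℤ) (1 : ℂ)) := by
  refine ⟨1, 1, by simp, fun τ => ?_⟩
  have h := hasSum_single (f := fun n : ℕ => PowerSeries.coeff n (1 : PowerSeries ℂ) *
      tParam N τ ^ n) 0 (fun n hn => by simp [PowerSeries.coeff_one, hn])
  simpa [inv_mul_cancel₀ (tParam_ne_zero N τ)] using h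

theorem h19_hasTExp_deltaAn_inv_aux :
    HasTExp 1 ((fun τ => (tParam 1 τ)⁻¹) * (fun τ => h19_invFun (tParam 1 τ)))
      (HahnSeries.single (-1 : ℤ) (1 : ℂ) *
        ((HahnSeries.ofPowerSeries ℤ ℂ (etaProd.map (Int.castRingHom ℂ))) ^ 24)⁻¹) :=
  (h19_hasTExp_tParam_inv 1).mul one_pos h19_hasTExp_invFun

theorem h19_deltaAn_inv_aux (τ : ℍ) :
    ((fun τ => (tParam 1 τ)⁻¹) * (fun τ => h19_invFun (tParam 1 τ))) τ = (deltaAn τ)⁻¹ := by
  simp only [Pi.mul_apply, h19_invFun, h19_deltaAn_eq, mul_inv]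

/-- (★) the expansion of `1/Δ`. -/
theorem h19_hasTExp_deltaAn_inv :
    HasTExp 1 (fun τ => (deltaAn τ)⁻¹) (cEmb deltaSeries)⁻¹ := by
  rw [h19_cEmb_deltaSeries, mul_inv, ← h19_single_neg_one_eq]
  exact h19_hasTExp_deltaAn_inv_aux.congr h19_deltaAn_inv_aux


/-! ### the four skeleton statements -/

theorem h19_hasTExp_deltaAn_aux :
    HasTExp 1 ((fun τ => tParam 1 τ) * (fun τ => ∏' n : ℕ, (1 - tParam 1 τ ^ (n + 1))) ^ 24)
      (HahnSeries.single (1 : ℤ) (1 : ℂ) *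
        (HahnSeries.ofPowerSeries ℤ ℂ (etaProd.map (Int.castRingHom ℂ))) ^ 24) :=
  (h19_hasTExp_tParam 1).mul one_pos (h19_hasTExp_eulerProd.pow one_pos 24)

theorem h19_deltaAn_aux (τ : ℍ) :
    ((fun τ => tParam 1 τ) * (fun τ => ∏' n : ℕ, (1 - tParam 1 τ ^ (n + 1))) ^ 24) τ =
      deltaAn τ := by
  simp only [Pi.mul_apply, Pi.pow_apply, h19_deltaAn_eq]

theorem hasTExp_deltaAn : HasTExp 1 deltaAn (cEmb deltaSeries) := by
  rw [h19_cEmb_deltaSeries]
  exact h19_hasTExp_deltaAn_aux.congr h19_deltaAn_aux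

theorem h19_hasTExp_jAn_aux :
    HasTExp 1 ((fun τ => ModularForm.E₄ τ) ^ 3 * (fun τ => (deltaAn τ)⁻¹))
      ((HahnSeries.ofPowerSeries ℤ ℂ (eisenstein4.map (Int.castRingHom ℂ))) ^ 3 *
        (cEmb deltaSeries)⁻¹) :=
  (h19_hasTExp_E4.pow one_pos 3).mul one_pos h19_hasTExp_deltaAn_inv

theorem h19_jAn_aux (τ : ℍ) :
    ((fun τ => ModularForm.E₄ τ) ^ 3 * (fun τ => (deltaAn τ)⁻¹)) τ = jAn τ := by
  simp only [Pi.mul_apply, Pi.pow_apply, jAn, deltaAn, div_eq_mul_inv]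

theorem hasTExp_jAn : HasTExp 1 jAn (cEmb jq) := by
  rw [h19_cEmb_jq]
  exact h19_hasTExp_jAn_aux.congr h19_jAn_aux

theorem h19_cEmb_qExpand (d : ℕ) [NeZero d] (x : LaurentSeries ℚ) :
    cEmb (qExpand ℚ d x) = qExpand ℂ d (cEmb x) :=
  coeffMap_qExpand _ d x

theorem hasTExp_jAt (d : ℕ) (hd : 0 < d) : HasTExp 1 (jAt d) (cEmb (jSub d)) := by
  have : NeZero d := ⟨hd.ne'⟩
  have h := h19_hasTExp_scale d hasTExp_jAn
  rw [jSub, dif_neg hd.ne', h19_cEmb_qExpand]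
  exact h

/-- expansion of `Δ(δτ)`. -/
theorem h19_hasTExp_deltaAt (δ : ℕ) (hδ : 0 < δ) :
    HasTExp 1 (deltaAt δ) (cEmb (deltaSub δ)) := by
  have : NeZero δ := ⟨hδ.ne'⟩
  have h := h19_hasTExp_scale δ hasTExp_deltaAn
  rw [deltaSub, dif_neg hδ.ne', deltaSeriesN, h19_cEmb_qExpand]
  exact h

/-- expansion of `1/Δ(δτ)`. -/
theorem h19_hasTExp_deltaAt_inv (δ : ℕ) (hδ : 0 < δ) :
    HasTExp 1 (fun τ => (deltaAt δ τ)⁻¹) (cEmb (deltaSub δ))⁻¹ := by
  have : NeZero δ := ⟨hδ.ne'⟩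
  have h := h19_hasTExp_scale δ h19_hasTExp_deltaAn_inv
  rw [deltaSub, dif_neg hδ.ne', deltaSeriesN, h19_cEmb_qExpand, ← map_inv₀]
  exact h

/-- integer powers, given expansions of `g` and `1/g`. -/
theorem h19_hasTExp_zpow {N : ℕ} (hN : 0 < N) {g : ℍ → ℂ} {s : LaurentSeries ℂ}
    (h : HasTExp N g s) (hinv : HasTExp N (fun τ => (g τ)⁻¹) s⁻¹) (k : ℤ) :
    HasTExp N (fun τ => g τ ^ k) (s ^ k) := by
  rcases k with n | n
  · simp only [Int.ofNat_eq_natCast, zpow_natCast]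
    exact (h.pow hN n).congr fun τ => by simp
  · simp only [zpow_negSucc, ← inv_pow]
    exact (hinv.pow hN (n + 1)).congr fun τ => by simp

set_option linter.unusedVariables false in
theorem hasTExp_UAn (N : ℕ) (hN : 0 < N) : HasTExp 1 (UAn N) (cEmb (modUnit N)) := by
  have h1 : HasTExp 1
      (∏ δ ∈ N.divisors, fun τ => deltaAt δ τ ^ ((δ : ℤ) * ArithmeticFunction.moebius (N / δ)))
      (∏ δ ∈ N.divisors, cEmb (deltaSub δ) ^ ((δ : ℤ) * ArithmeticFunction.moebius (N / δ))) := by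
    refine HasTExp.finset_prod one_pos _ fun δ hδ => ?_
    have hδ0 : 0 < δ := Nat.pos_of_mem_divisors hδ
    exact h19_hasTExp_zpow one_pos (h19_hasTExp_deltaAt δ hδ0) (h19_hasTExp_deltaAt_inv δ hδ0) _
  have h2 : HasTExp 1 ((fun τ => (deltaAn τ)⁻¹) ^ N.totient)
      ((cEmb deltaSeries)⁻¹ ^ N.totient) := h19_hasTExp_deltaAn_inv.pow one_pos N.totient
  have h := h1.mul one_pos h2
  have hs : cEmb (modUnit N) =
      (∏ δ ∈ N.divisors, cEmb (deltaSub δ) ^ ((δ : ℤ) * ArithmeticFunction.moebius (N / δ))) *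
        (cEmb deltaSeries)⁻¹ ^ N.totient := by
    rw [modUnit, unitW, map_mul, map_prod, map_inv₀, map_pow, inv_pow]
    congr 1
    refine Finset.prod_congr rfl fun δ _ => ?_
    rw [map_zpow₀]
  rw [hs]
  refine h.congr fun τ => ?_
  simp only [Pi.mul_apply, Pi.pow_apply, Finset.prod_apply, UAn, deltaAn, inv_pow]

end Fermat.Agent.S28
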