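import Fermat.Agent.S28.Cusp

/-!
# S28 / T6d: the `q`-expansion of `j` and the final form of `hasTExp_jAt_translate`
-/

set_option autoImplicit false

open ModularCurve UpperHalfPlane Complex
open scoped MatrixGroups Manifold ModularForm

noncomputable section

namespace Fermat.Agent.S28

open Cusp

namespace Cusp

theorem cEmb_jq_eq :
    cEmb jq = HahnSeries.single (-1 : ℤ) (1 : ℂ) *
      HahnSeries.ofPowerSeries ℤ ℂ (jNum.map (Int.castRingHom ℂ)) := by
  rw [cEmb, ← jqModC_rat, coeffMap_jqModC, jqModC]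

theorem cEmb_deltaSeries_inv :
    (cEmb deltaSeries)⁻¹ = HahnSeries.single (-1 : ℤ) (1 : ℂ) *
      HahnSeries.ofPowerSeries ℤ ℂ (dedekindEtaUnitInv.map (Int.castRingHom ℂ)) := by
  apply inv_eq_of_mul_eq_one_right
  rw [cEmb_deltaSeries_eq]
  calc HahnSeries.single (1 : ℤ) (1 : ℂ) *
        HahnSeries.ofPowerSeries ℤ ℂ (dedekindEtaUnit.map (Int.castRingHom ℂ)) *
        (HahnSeries.single (-1 : ℤ) (1 : ℂ) *
          HahnSeries.ofPowerSeries ℤ ℂ (dedekindEtaUnitInv.map (Int.castRingHom ℂ)))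
      = (HahnSeries.single (1 : ℤ) (1 : ℂ) * HahnSeries.single (-1 : ℤ) (1 : ℂ)) *
        (HahnSeries.ofPowerSeries ℤ ℂ (dedekindEtaUnit.map (Int.castRingHom ℂ)) *
          HahnSeries.ofPowerSeries ℤ ℂ (dedekindEtaUnitInv.map (Int.castRingHom ℂ))) := by ring
    _ = 1 := by
        have h1 : HahnSeries.single (1 : ℤ) (1 : ℂ) * HahnSeries.single (-1 : ℤ) (1 : ℂ) = 1 := by
          rw [HahnSeries.single_mul_single, add_neg_cancel, mul_one]
          rfl
        have h2 : HahnSeries.ofPowerSeries ℤ ℂ (dedekindEtaUnit.map (Int.castRingHom ℂ)) *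
            HahnSeries.ofPowerSeries ℤ ℂ (dedekindEtaUnitInv.map (Int.castRingHom ℂ)) = 1 := by
          rw [← map_mul, ← map_mul, dedekindEtaUnit_mul_inv, map_one, map_one]
        rw [h1, h2, mul_one]

/-- formal identity `j = E₄³ / Δ`. -/
theorem cEmb_jq_eq_mul :
    cEmb jq = HahnSeries.ofPowerSeries ℤ ℂ (eisenstein4.map (Int.castRingHom ℂ)) ^ 3 *
      (cEmb deltaSeries)⁻¹ := by
  rw [cEmb_jq_eq, cEmb_deltaSeries_inv, jNum, map_mul, map_pow, map_mul, map_pow]
  ring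

/-- The `q`-expansion of the analytic `j`-function is the formal `jq`. -/
theorem hasTExp_jAn' : HasTExp 1 jAn (cEmb jq) := by
  rw [cEmb_jq_eq_mul]
  have h1 := (h84_hasTExp_E4.pow one_pos 3).mul one_pos
    (h84_hasTExp_deltaAn.inv one_pos deltaAn_ne_zero)
  refine h1.congr fun τ => ?_
  simp only [Pi.mul_apply, Pi.pow_apply, jAn, deltaAn, div_eq_mul_inv]

end Cusp

/-- **T6d** (`SKEL1` form with pole bound): expansion of `j(d·) ∘ γ` at every cusp. -/
theorem hasTExp_jAt_translate (N d : ℕ) (hN : 0 < N) (hd : d ∣ N) (γ : SL(2, ℤ)) :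
    ∃ s : LaurentSeries ℂ, HasTExp N (fun τ => jAt d (γ • τ)) s ∧ CoeffIn (cycRing N) s ∧
      ∀ n : ℤ, n < -((N : ℤ) * N) → s.coeff n = 0 :=
  hasTExp_jAt_translate_of Cusp.hasTExp_jAn' N d hN hd γ

end Fermat.Agent.S28
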