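import Mathlib

/-!
# S28, task T6c: Hermite decomposition and transformation of level-one forms

For `δ ≥ 1` and `γ ∈ SL(2, ℤ)` with bottom row `(c, w)` we factor
`(δ 0; 0 1) * γ = γ' * (a b; 0 d)` with `γ' ∈ SL(2, ℤ)`, `a = gcd(δ, c)`, `a * d = δ`,
`0 ≤ b < d`.  Consequently, for every function `f` on the upper half plane which is
slash-invariant of weight `k` under `SL(2, ℤ)`,
`f (δ • (γ • τ)) = ((c τ + w) / d) ^ k * f ((a τ + b) / d)`.

All statements are phrased "representation independently": points of `ℍ` are specified by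
their coercion to `ℂ`.
-/

set_option autoImplicit false

open UpperHalfPlane ModularForm
open scoped MatrixGroups

noncomputable section

namespace Fermat.Agent.S28

/-- The point `(a τ + b) / d` of the upper half plane, for real `a, d > 0`. -/
def affH (a b d : ℝ) (ha : 0 < a) (hd : 0 < d) (τ : ℍ) : ℍ :=
  ⟨((a : ℂ) * (τ : ℂ) + (b : ℂ)) / (d : ℂ), by
    have h1 : (((a : ℂ) * (τ : ℂ) + (b : ℂ)) / (d : ℂ)).im = a * τ.im / d := by
      rw [Complex.div_ofReal_im]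
      simp [Complex.add_im, Complex.mul_im]
    rw [h1]
    exact div_pos (mul_pos ha τ.im_pos) hd⟩

@[simp] theorem coe_affH (a b d : ℝ) (ha : 0 < a) (hd : 0 < d) (τ : ℍ) :
    ((affH a b d ha hd τ : ℍ) : ℂ) = ((a : ℂ) * (τ : ℂ) + (b : ℂ)) / (d : ℂ) := rfl

/-- Arithmetic core: Hermite normal form of `(δ x, δ y; c, w)` with `x w - y c = 1`. -/
theorem hermite_arith (δ x y c w : ℤ) (hδ : 0 < δ) (hdet : x * w - y * c = 1) :
    ∃ x' y' c' w' a b d : ℤ, x' * w' - y' * c' = 1 ∧ 0 < a ∧ 0 < d ∧ a * d = δ ∧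
      a = Int.gcd δ c ∧ 0 ≤ b ∧ b < d ∧
      δ * x = x' * a ∧ δ * y = x' * b + y' * d ∧ c = c' * a ∧ w = c' * b + w' * d := by
  -- `a = gcd(δ, c)`, `δ = a δ₁`, `c = a c₁`, `gcd(δ₁, c₁) = 1`
  have hg_pos : (0 : ℤ) < (Int.gcd δ c : ℤ) := by
    have : 0 < Int.gcd δ c := Int.gcd_pos_of_ne_zero_left _ hδ.ne'
    exact_mod_cast this
  obtain ⟨δ₁, hδ₁⟩ : (Int.gcd δ c : ℤ) ∣ δ := Int.gcd_dvd_left δ c
  obtain ⟨c₁, hc₁⟩ : (Int.gcd δ c : ℤ) ∣ c := Int.gcd_dvd_right δ c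
  have hbez : (Int.gcd δ c : ℤ) = δ * Int.gcdA δ c + c * Int.gcdB δ c := Int.gcd_eq_gcd_ab δ c
  have hgdef : (Int.gcd δ c : ℤ) = Int.gcd δ c := rfl
  generalize (Int.gcd δ c : ℤ) = a at hg_pos hδ₁ hc₁ hbez hgdef
  generalize Int.gcdA δ c = s at hbez
  generalize Int.gcdB δ c = t at hbez
  have hbez' : δ₁ * s + c₁ * t = 1 := by
    have h1 : a * (δ₁ * s + c₁ * t) = a * 1 := by
      rw [mul_one]
      conv_rhs => rw [hbez]
      conv_rhs => rw [hδ₁, hc₁]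
      ring
    exact mul_left_cancel₀ hg_pos.ne' h1
  have hδ₁_pos : 0 < δ₁ := by
    have : 0 < a * δ₁ := by rw [← hδ₁]; exact hδ
    exact (mul_pos_iff_of_pos_left hg_pos).mp this
  -- coprimality of `δ₁ x` and `c₁`: explicit Bezout coefficients
  -- (δ₁ x) * (s w + ... ) ... we use: gcd(x, c₁) = 1 via x w - y a c₁ = 1 and gcd(δ₁, c₁) = 1
  -- Bezout: (δ₁ x) * S + c₁ * T = 1 with
  --   S = s * w, T = t * (x * w) - ... ; derive from (δ₁ s + c₁ t)(x w - y a c₁) = 1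
  set S : ℤ := s * w with hS
  set T : ℤ := t * x * w - δ₁ * s * y * a - c₁ * t * y * a with hT
  have hbez2 : (δ₁ * x) * S + c₁ * T = 1 := by
    have h2 : x * w - y * (a * c₁) = 1 := by rw [← hc₁]; exact hdet
    have : (δ₁ * s + c₁ * t) * (x * w - y * (a * c₁)) = 1 := by rw [hbez', h2, mul_one]
    rw [hS, hT]
    linear_combination this
  -- first version (without normalising b): γ'' = (δ₁ x, -T; c₁, S), b₀ = S δ y + T w, d = δ₁
  set b₀ : ℤ := S * (δ * y) + T * w with hb₀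
  -- normalise `b` modulo `d = δ₁`
  set q : ℤ := b₀ / δ₁ with hq
  set b : ℤ := b₀ % δ₁ with hb
  have hbq : b₀ = δ₁ * q + b := by rw [hq, hb]; exact (Int.mul_ediv_add_emod b₀ δ₁).symm
  refine ⟨δ₁ * x, -T + (δ₁ * x) * q, c₁, S + c₁ * q, a, b, δ₁, ?_, hg_pos, hδ₁_pos, ?_, hgdef,
    Int.emod_nonneg _ hδ₁_pos.ne', Int.emod_lt_of_pos _ hδ₁_pos, ?_, ?_, ?_, ?_⟩
  · linear_combination hbez2
  · rw [hδ₁]
  · rw [hδ₁]; ring
  · -- δ y = x' b + y' d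
    have hb' : b = b₀ - δ₁ * q := by rw [hbq]; ring
    have hdet' : x * w = 1 + y * c := by linear_combination hdet
    rw [hb', hb₀]
    -- goal: δ * y = δ₁ * x * (S * (δ * y) + T * w - δ₁ * q) + (-T + δ₁ * x * q) * δ₁
    have key : δ₁ * x * (S * (δ * y) + T * w) - T * δ₁ = δ * y := by
      -- use hbez2: δ₁ x S = 1 - c₁ T
      have e1 : δ₁ * x * S = 1 - c₁ * T := by linear_combination hbez2
      have e2 : δ₁ * (x * w) = δ₁ + δ₁ * (y * c) := by rw [hdet']; ring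
      calc δ₁ * x * (S * (δ * y) + T * w) - T * δ₁
          = (δ₁ * x * S) * (δ * y) + T * (δ₁ * (x * w)) - T * δ₁ := by ring
        _ = (1 - c₁ * T) * (δ * y) + T * (δ₁ + δ₁ * (y * c)) - T * δ₁ := by rw [e1, e2]
        _ = δ * y + T * y * (δ₁ * c - c₁ * δ) := by ring
        _ = δ * y + T * y * (δ₁ * (a * c₁) - c₁ * (a * δ₁)) := by rw [← hc₁, ← hδ₁]
        _ = δ * y := by ring
    linear_combination -key
  · rw [hc₁]; ring
  · -- w = c' b + w' d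
    have hb' : b = b₀ - δ₁ * q := by rw [hbq]; ring
    rw [hb', hb₀]
    have key : c₁ * (S * (δ * y) + T * w) + S * δ₁ = w := by
      have e1 : c₁ * T = 1 - δ₁ * x * S := by linear_combination hbez2
      have hdet' : x * w = 1 + y * c := by linear_combination hdet
      calc c₁ * (S * (δ * y) + T * w) + S * δ₁
          = S * (c₁ * δ) * y + (c₁ * T) * w + S * δ₁ := by ring
        _ = S * (c₁ * (a * δ₁)) * y + (1 - δ₁ * x * S) * w + S * δ₁ := by rw [e1, ← hδ₁]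
        _ = S * δ₁ * (y * (a * c₁)) + w - δ₁ * S * (x * w) + S * δ₁ := by ring
        _ = S * δ₁ * (y * c) + w - δ₁ * S * (1 + y * c) + S * δ₁ := by rw [← hc₁, hdet']
        _ = w := by ring
    linear_combination -key

/-- **Hermite decomposition** `(δ 0; 0 1) * γ = γ' * (a b; 0 d)` with `a = gcd(δ, c)`. -/
theorem exists_hermite (δ : ℕ) (hδ : 0 < δ) (γ : SL(2, ℤ)) :
    ∃ (γ' : SL(2, ℤ)) (a b d : ℤ), 0 < a ∧ 0 < d ∧ a * d = δ ∧ a = Int.gcd δ (γ 1 0) ∧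
      0 ≤ b ∧ b < d ∧
      !![(δ : ℤ), 0; 0, 1] * (γ : Matrix (Fin 2) (Fin 2) ℤ) =
        (γ' : Matrix (Fin 2) (Fin 2) ℤ) * !![a, b; 0, d] := by
  have hdet : γ 0 0 * γ 1 1 - γ 0 1 * γ 1 0 = 1 := by
    have := γ.det_coe
    rw [Matrix.det_fin_two] at this
    exact this
  obtain ⟨x', y', c', w', a, b, d, hdet', ha, hd, had, hgcd, hb0, hbd, h00, h01, h10, h11⟩ :=
    hermite_arith δ (γ 0 0) (γ 0 1) (γ 1 0) (γ 1 1) (by exact_mod_cast hδ) hdet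
  refine ⟨⟨!![x', y'; c', w'], ?_⟩, a, b, d, ha, hd, had, hgcd, hb0, hbd, ?_⟩
  · rw [Matrix.det_fin_two_of]; exact hdet'
  · ext i j
    fin_cases i <;> fin_cases j
    · simp [Matrix.mul_apply, Fin.sum_univ_two, h00]
    · simp [Matrix.mul_apply, Fin.sum_univ_two, h01]
    · simp [Matrix.mul_apply, Fin.sum_univ_two, h10]
    · simp [Matrix.mul_apply, Fin.sum_univ_two, h11]


/-- Pointwise form of slash invariance under `SL(2, ℤ)`. -/
theorem apply_smul_of_slashInvariant {k : ℤ} {f : ℍ → ℂ} (hf : ∀ g : SL(2, ℤ), f ∣[k] g = f)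
    (g : SL(2, ℤ)) (z : ℍ) :
    f (g • z) = ((g 1 0 : ℂ) * (z : ℂ) + (g 1 1 : ℂ)) ^ k * f z := by
  have h := congrFun (hf g) z
  rw [ModularForm.SL_slash_apply, ModularGroup.denom_apply] at h
  have hne : ((g 1 0 : ℂ) * (z : ℂ) + (g 1 1 : ℂ)) ≠ 0 := by
    have := UpperHalfPlane.denom_ne_zero (g : GL (Fin 2) ℝ) z
    rwa [ModularGroup.denom_apply] at this
  rw [zpow_neg] at h
  have hne' : ((g 1 0 : ℂ) * (z : ℂ) + (g 1 1 : ℂ)) ^ k ≠ 0 := zpow_ne_zero _ hne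
  field_simp at h
  rw [h]

/-- **Transformation under `(δ 0; 0 1) γ = γ' (a b; 0 d)`** of a function which is
slash-invariant of weight `k` under `SL(2, ℤ)`. -/
theorem slashInvariant_transform {k : ℤ} {f : ℍ → ℂ} (hf : ∀ g : SL(2, ℤ), f ∣[k] g = f)
    {δ : ℕ} {γ γ' : SL(2, ℤ)} {a b d : ℤ} (hd : 0 < d)
    (h : !![(δ : ℤ), 0; 0, 1] * (γ : Matrix (Fin 2) (Fin 2) ℤ) =
      (γ' : Matrix (Fin 2) (Fin 2) ℤ) * !![a, b; 0, d])
    {τ z z' : ℍ} (hz : (z : ℂ) = (δ : ℂ) * ((γ • τ : ℍ) : ℂ))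
    (hz' : (z' : ℂ) = ((a : ℂ) * (τ : ℂ) + (b : ℂ)) / (d : ℂ)) :
    f z = (((γ 1 0 : ℂ) * (τ : ℂ) + (γ 1 1 : ℂ)) / (d : ℂ)) ^ k * f z' := by
  -- entries
  have h00 : (δ : ℤ) * γ 0 0 = γ' 0 0 * a := by
    have := congrFun (congrFun h 0) 0
    simpa [Matrix.mul_apply, Fin.sum_univ_two] using this
  have h01 : (δ : ℤ) * γ 0 1 = γ' 0 0 * b + γ' 0 1 * d := by
    have := congrFun (congrFun h 0) 1
    simpa [Matrix.mul_apply, Fin.sum_univ_two] using this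
  have h10 : γ 1 0 = γ' 1 0 * a := by
    have := congrFun (congrFun h 1) 0
    simpa [Matrix.mul_apply, Fin.sum_univ_two] using this
  have h11 : γ 1 1 = γ' 1 0 * b + γ' 1 1 * d := by
    have := congrFun (congrFun h 1) 1
    simpa [Matrix.mul_apply, Fin.sum_univ_two] using this
  have h00c : (δ : ℂ) * (γ 0 0 : ℂ) = (γ' 0 0 : ℂ) * (a : ℂ) := by exact_mod_cast h00
  have h01c : (δ : ℂ) * (γ 0 1 : ℂ) = (γ' 0 0 : ℂ) * (b : ℂ) + (γ' 0 1 : ℂ) * (d : ℂ) := by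
    exact_mod_cast h01
  have h10c : (γ 1 0 : ℂ) = (γ' 1 0 : ℂ) * (a : ℂ) := by exact_mod_cast h10
  have h11c : (γ 1 1 : ℂ) = (γ' 1 0 : ℂ) * (b : ℂ) + (γ' 1 1 : ℂ) * (d : ℂ) := by
    exact_mod_cast h11
  have hdc : (d : ℂ) ≠ 0 := by exact_mod_cast hd.ne'
  -- denominators
  have hden : ((γ 1 0 : ℂ) * (τ : ℂ) + (γ 1 1 : ℂ)) ≠ 0 := by
    have := UpperHalfPlane.denom_ne_zero (γ : GL (Fin 2) ℝ) τ
    rwa [ModularGroup.denom_apply] at this
  have hden' : ((γ' 1 0 : ℂ) * (z' : ℂ) + (γ' 1 1 : ℂ)) ≠ 0 := by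
    have := UpperHalfPlane.denom_ne_zero (γ' : GL (Fin 2) ℝ) z'
    rwa [ModularGroup.denom_apply] at this
  have hfac : (γ' 1 0 : ℂ) * (z' : ℂ) + (γ' 1 1 : ℂ) =
      ((γ 1 0 : ℂ) * (τ : ℂ) + (γ 1 1 : ℂ)) / (d : ℂ) := by
    rw [hz', h10c, h11c]
    field_simp
    ring
  -- `z = γ' • z'`
  have hzz : z = γ' • z' := by
    apply UpperHalfPlane.ext
    rw [hz, UpperHalfPlane.coe_specialLinearGroup_apply, UpperHalfPlane.coe_specialLinearGroup_apply]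
    simp only [algebraMap_int_eq, Int.coe_castRingHom, Complex.ofReal_intCast]
    have hnum : (γ' 0 0 : ℂ) * (z' : ℂ) + (γ' 0 1 : ℂ) =
        (δ : ℂ) * ((γ 0 0 : ℂ) * (τ : ℂ) + (γ 0 1 : ℂ)) / (d : ℂ) := by
      rw [hz']
      field_simp
      linear_combination -(τ : ℂ) * h00c - h01c
    rw [hfac, hnum]
    field_simp
  rw [hzz, apply_smul_of_slashInvariant hf γ' z', hfac]

/-- Slash invariance of a level-one slash invariant form, in the `∀ g : SL(2, ℤ)` shape. -/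
theorem slash_eq_of_levelOne {F : Type*} [FunLike F ℍ ℂ] {k : ℤ}
    [SlashInvariantFormClass F 𝒮ℒ k] (f : F)
    (g : SL(2, ℤ)) : (f : ℍ → ℂ) ∣[k] g = f :=
  SlashInvariantFormClass.slash_action_eq f _ ⟨g, rfl⟩

/-- The discriminant is slash invariant of weight `12` under `SL(2, ℤ)`. -/
theorem discriminant_slash (g : SL(2, ℤ)) :
    (ModularForm.discriminant : ℍ → ℂ) ∣[(12 : ℤ)] g = ModularForm.discriminant :=
  slash_eq_of_levelOne CuspForm.discriminant g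

/-- `E₄` is slash invariant of weight `4` under `SL(2, ℤ)`. -/
theorem E4_slash (g : SL(2, ℤ)) :
    ((ModularForm.E₄ : ModularForm 𝒮ℒ 4) : ℍ → ℂ) ∣[(4 : ℤ)] g = ModularForm.E₄ :=
  slash_eq_of_levelOne ModularForm.E₄ g

/-- Transformation of `Δ` under `(δ 0; 0 1) γ = γ' (a b; 0 d)`:
`Δ(δ (γ τ)) = ((c τ + w) / d) ^ 12 * Δ((a τ + b) / d)`. -/
theorem discriminant_transform
    {δ : ℕ} {γ γ' : SL(2, ℤ)} {a b d : ℤ} (hd : 0 < d)
    (h : !![(δ : ℤ), 0; 0, 1] * (γ : Matrix (Fin 2) (Fin 2) ℤ) =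
      (γ' : Matrix (Fin 2) (Fin 2) ℤ) * !![a, b; 0, d])
    {τ z z' : ℍ} (hz : (z : ℂ) = (δ : ℂ) * ((γ • τ : ℍ) : ℂ))
    (hz' : (z' : ℂ) = ((a : ℂ) * (τ : ℂ) + (b : ℂ)) / (d : ℂ)) :
    ModularForm.discriminant z =
      (((γ 1 0 : ℂ) * (τ : ℂ) + (γ 1 1 : ℂ)) / (d : ℂ)) ^ 12 * ModularForm.discriminant z' := by
  have := slashInvariant_transform (k := 12) discriminant_slash hd h hz hz'
  simpa using this

/-- Transformation of `E₄` under `(δ 0; 0 1) γ = γ' (a b; 0 d)`. -/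
theorem E4_transform
    {δ : ℕ} {γ γ' : SL(2, ℤ)} {a b d : ℤ} (hd : 0 < d)
    (h : !![(δ : ℤ), 0; 0, 1] * (γ : Matrix (Fin 2) (Fin 2) ℤ) =
      (γ' : Matrix (Fin 2) (Fin 2) ℤ) * !![a, b; 0, d])
    {τ z z' : ℍ} (hz : (z : ℂ) = (δ : ℂ) * ((γ • τ : ℍ) : ℂ))
    (hz' : (z' : ℂ) = ((a : ℂ) * (τ : ℂ) + (b : ℂ)) / (d : ℂ)) :
    ModularForm.E₄ z =
      (((γ 1 0 : ℂ) * (τ : ℂ) + (γ 1 1 : ℂ)) / (d : ℂ)) ^ 4 * ModularForm.E₄ z' := by
  have := slashInvariant_transform (k := 4) E4_slash hd h hz hz'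
  simpa using this

/-- Transformation of an `SL(2, ℤ)`-invariant function (weight `0`). -/
theorem invariant_transform {F : ℍ → ℂ} (hF : ∀ (g : SL(2, ℤ)) (z : ℍ), F (g • z) = F z)
    {δ : ℕ} {γ γ' : SL(2, ℤ)} {a b d : ℤ} (hd : 0 < d)
    (h : !![(δ : ℤ), 0; 0, 1] * (γ : Matrix (Fin 2) (Fin 2) ℤ) =
      (γ' : Matrix (Fin 2) (Fin 2) ℤ) * !![a, b; 0, d])
    {τ z z' : ℍ} (hz : (z : ℂ) = (δ : ℂ) * ((γ • τ : ℍ) : ℂ))
    (hz' : (z' : ℂ) = ((a : ℂ) * (τ : ℂ) + (b : ℂ)) / (d : ℂ)) :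
    F z = F z' := by
  have hF' : ∀ g : SL(2, ℤ), F ∣[(0 : ℤ)] g = F := by
    intro g
    funext z
    rw [ModularForm.SL_slash_apply, hF g z]
    simp
  have := slashInvariant_transform (k := 0) hF' hd h hz hz'
  simpa using this

end Fermat.Agent.S28
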