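import Fermat.Agent.S28.ADefs2
import Fermat.Agent.S28.Hermite

/-!
# S28, task T6c: holomorphy and `Γ₀(N)`-invariance of `j(dτ)` and of the modular unit

* `holo_jAn`, `holo_jAt`, `holo_UAn` : holomorphy on `ℍ`.
* `jAn_smul` : `j` is `SL(2, ℤ)`-invariant.
* `jAt_smul_of_mem_Gamma0`, `UAn_smul_of_mem_Gamma0` : `Γ₀(N)`-invariance.
* `UAn_ne_zero` : the modular unit does not vanish on `ℍ`.
* `deltaAt_smul_eq`, `jAt_smul_eq` : the transforms under an arbitrary `γ ∈ SL(2, ℤ)`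
  (for the expansions at the other cusps).
-/

set_option autoImplicit false

open ModularCurve UpperHalfPlane Complex
open scoped MatrixGroups Manifold

noncomputable section

namespace Fermat.Agent.S28

/-! ## `scaleH` -/

theorem coe_scaleH {d : ℕ} (hd : 0 < d) (τ : ℍ) :
    ((scaleH d τ : ℍ) : ℂ) = (d : ℂ) * (τ : ℂ) := by
  rw [scaleH, dif_pos hd]

theorem scaleH_zero (τ : ℍ) : scaleH 0 τ = τ := by
  rw [scaleH, dif_neg (lt_irrefl 0)]

theorem scaleH_one (τ : ℍ) : scaleH 1 τ = τ := by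
  apply UpperHalfPlane.ext
  rw [coe_scaleH one_pos]
  simp

theorem scaleH_eq_ofComplex {d : ℕ} (hd : 0 < d) {z : ℂ} (hz : 0 < z.im) :
    scaleH d (ofComplex z) = ofComplex ((d : ℂ) * z) := by
  have hd' : (0 : ℝ) < d := by exact_mod_cast hd
  have h2 : 0 < ((d : ℂ) * z).im := by
    simpa using mul_pos hd' hz
  apply UpperHalfPlane.ext
  rw [coe_scaleH hd, ofComplex_apply_of_im_pos hz, ofComplex_apply_of_im_pos h2]

/-! ## Holomorphy -/

theorem holo_discriminant : Holo ModularForm.discriminant :=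
  CuspForm.discriminant.holo'

theorem holo_E4 : Holo (ModularForm.E₄ : ℍ → ℂ) :=
  ModularForm.E₄.holo'

theorem Holo.comp_scaleH {f : ℍ → ℂ} (hf : Holo f) (d : ℕ) :
    Holo (fun τ => f (scaleH d τ)) := by
  rcases Nat.eq_zero_or_pos d with rfl | hd
  · simpa only [scaleH_zero] using hf
  · have hd' : (0 : ℝ) < d := by exact_mod_cast hd
    rw [Holo, UpperHalfPlane.mdifferentiable_iff] at hf ⊢
    have hmaps : Set.MapsTo (fun z : ℂ => (d : ℂ) * z) {z : ℂ | 0 < z.im} {z : ℂ | 0 < z.im} := by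
      intro z hz
      simpa using mul_pos hd' hz
    have hdiff : DifferentiableOn ℂ (fun z : ℂ => (d : ℂ) * z) {z : ℂ | 0 < z.im} :=
      (differentiable_id.const_mul (d : ℂ)).differentiableOn
    refine (hf.comp hdiff hmaps).congr ?_
    intro z hz
    simp only [Function.comp_apply]
    rw [scaleH_eq_ofComplex hd hz]

theorem holo_jAn : Holo jAn := by
  have hE := holo_E4
  have hΔ := holo_discriminant
  rw [Holo, UpperHalfPlane.mdifferentiable_iff] at hE hΔ ⊢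
  refine ((hE.pow 3).div hΔ ?_).congr ?_
  · intro z _
    exact ModularForm.discriminant_ne_zero _
  · intro z _
    rfl

theorem holo_jAt (d : ℕ) : Holo (jAt d) :=
  holo_jAn.comp_scaleH d

theorem holo_deltaAt (δ : ℕ) : Holo (deltaAt δ) :=
  holo_discriminant.comp_scaleH δ

theorem deltaAt_ne_zero (δ : ℕ) (τ : ℍ) : deltaAt δ τ ≠ 0 :=
  ModularForm.discriminant_ne_zero _

theorem holo_UAn (N : ℕ) : Holo (UAn N) := by
  have hΔ := holo_discriminant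
  have hδ : ∀ δ : ℕ, DifferentiableOn ℂ (deltaAt δ ∘ ofComplex) {z : ℂ | 0 < z.im} := by
    intro δ
    have := holo_deltaAt δ
    rwa [Holo, UpperHalfPlane.mdifferentiable_iff] at this
  rw [Holo, UpperHalfPlane.mdifferentiable_iff] at hΔ ⊢
  have h1 : DifferentiableOn ℂ
      (fun z : ℂ => ∏ δ ∈ N.divisors,
        (deltaAt δ ∘ ofComplex) z ^ ((δ : ℤ) * ArithmeticFunction.moebius (N / δ)))
      {z : ℂ | 0 < z.im} := by
    refine DifferentiableOn.fun_finsetProd ?_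
    intro δ _
    exact (hδ δ).zpow (Or.inl fun z _ => deltaAt_ne_zero δ _)
  have h2 : DifferentiableOn ℂ
      (fun z : ℂ => ((ModularForm.discriminant ∘ ofComplex) z ^ N.totient)⁻¹)
      {z : ℂ | 0 < z.im} := by
    refine (hΔ.pow N.totient).inv ?_
    intro z _
    exact pow_ne_zero _ (ModularForm.discriminant_ne_zero _)
  refine (h1.mul h2).congr ?_
  intro z _
  rfl

theorem UAn_ne_zero (N : ℕ) (τ : ℍ) : UAn N τ ≠ 0 := by
  rw [UAn]
  refine mul_ne_zero ?_ ?_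
  · rw [Finset.prod_ne_zero_iff]
    intro δ _
    exact zpow_ne_zero _ (deltaAt_ne_zero δ τ)
  · exact inv_ne_zero (pow_ne_zero _ (ModularForm.discriminant_ne_zero _))

/-! ## Arithmetic: `∑_{δ ∣ N} δ μ(N/δ) = φ(N)` -/

theorem sum_divisors_mul_moebius_eq_totient (N : ℕ) (hN : 0 < N) :
    ∑ δ ∈ N.divisors, (δ : ℤ) * ArithmeticFunction.moebius (N / δ) = (N.totient : ℤ) := by
  have key := (ArithmeticFunction.sum_eq_iff_sum_mul_moebius_eq (R := ℤ)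
    (f := fun n : ℕ => (n.totient : ℤ)) (g := fun n : ℕ => (n : ℤ))).mp
    (fun n _ => by
      have := Nat.sum_totient n
      exact_mod_cast this) N hN
  simp only [Int.cast_id] at key
  rw [← key, Nat.sum_divisorsAntidiagonal'
    (fun a b => (ArithmeticFunction.moebius a : ℤ) * (b : ℤ))]
  exact Finset.sum_congr rfl fun δ _ => mul_comm _ _

/-- `∏ x ^ e i = x ^ ∑ e i` for `x ≠ 0`. -/
theorem prod_zpow_eq_zpow_sum {ι : Type*} (s : Finset ι) (e : ι → ℤ) {x : ℂ} (hx : x ≠ 0) :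
    ∏ i ∈ s, x ^ e i = x ^ ∑ i ∈ s, e i := by
  classical
  induction s using Finset.induction_on with
  | empty => simp
  | insert a s ha ih =>
    rw [Finset.prod_insert ha, Finset.sum_insert ha, ih, zpow_add₀ hx]

/-! ## Invariance -/

theorem denom_ne_zero_SL (γ : SL(2, ℤ)) (τ : ℍ) :
    ((γ 1 0 : ℂ) * (τ : ℂ) + (γ 1 1 : ℂ)) ≠ 0 := by
  have := UpperHalfPlane.denom_ne_zero (γ : GL (Fin 2) ℝ) τ
  rwa [ModularGroup.denom_apply] at this

theorem discriminant_smul (γ : SL(2, ℤ)) (τ : ℍ) :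
    ModularForm.discriminant (γ • τ) =
      ((γ 1 0 : ℂ) * (τ : ℂ) + (γ 1 1 : ℂ)) ^ 12 * ModularForm.discriminant τ := by
  have h := apply_smul_of_slashInvariant (k := 12) discriminant_slash γ τ
  rw [h]
  norm_cast

theorem E4_smul (γ : SL(2, ℤ)) (τ : ℍ) :
    ModularForm.E₄ (γ • τ) =
      ((γ 1 0 : ℂ) * (τ : ℂ) + (γ 1 1 : ℂ)) ^ 4 * ModularForm.E₄ τ := by
  have h := apply_smul_of_slashInvariant (k := 4) E4_slash γ τ
  rw [h]
  norm_cast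

theorem jAn_smul (γ : SL(2, ℤ)) (τ : ℍ) : jAn (γ • τ) = jAn τ := by
  have hden := denom_ne_zero_SL γ τ
  have hne := ModularForm.discriminant_ne_zero τ
  rw [jAn, jAn, discriminant_smul, E4_smul]
  field_simp

/-- The transforms of `Δ(δτ)` and `j(δτ)` under an arbitrary `γ ∈ SL(2, ℤ)`, with the Hermite
data `a = gcd(δ, c)`, `a d = δ`, `0 ≤ b < d` depending only on `δ` and `γ`. -/
theorem exists_hermite_transform (δ : ℕ) (hδ : 0 < δ) (γ : SL(2, ℤ)) :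
    ∃ (a b d : ℤ) (ha : 0 < a) (hd : 0 < d), a * d = δ ∧ a = Int.gcd δ (γ 1 0) ∧
      0 ≤ b ∧ b < d ∧
      ∀ τ : ℍ,
        deltaAt δ (γ • τ) = (((γ 1 0 : ℂ) * (τ : ℂ) + (γ 1 1 : ℂ)) / (d : ℂ)) ^ 12 *
          ModularForm.discriminant
            (affH (a : ℝ) (b : ℝ) (d : ℝ) (Int.cast_pos.mpr ha) (Int.cast_pos.mpr hd) τ) ∧
        jAt δ (γ • τ) =
          jAn (affH (a : ℝ) (b : ℝ) (d : ℝ) (Int.cast_pos.mpr ha) (Int.cast_pos.mpr hd) τ) := by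
  obtain ⟨γ', a, b, d, ha, hd, had, hgcd, hb0, hbd, hmat⟩ := exists_hermite δ hδ γ
  refine ⟨a, b, d, ha, hd, had, hgcd, hb0, hbd, fun τ => ?_⟩
  have hz : ((scaleH δ (γ • τ) : ℍ) : ℂ) = (δ : ℂ) * ((γ • τ : ℍ) : ℂ) := coe_scaleH hδ _
  have hz' : ((affH (a : ℝ) (b : ℝ) (d : ℝ) (Int.cast_pos.mpr ha) (Int.cast_pos.mpr hd) τ : ℍ) : ℂ)
      = ((a : ℂ) * (τ : ℂ) + (b : ℂ)) / (d : ℂ) := by
    rw [coe_affH]
    push_cast
    rfl
  exact ⟨discriminant_transform hd hmat hz hz', invariant_transform jAn_smul hd hmat hz hz'⟩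

/-- For `γ ∈ Γ₀(N)` and `δ ∣ N`: `Δ(δ γτ) = (cτ + w)^12 Δ(δτ)` and `j(δ γτ) = j(δτ)`. -/
theorem deltaAt_jAt_smul_of_mem_Gamma0 (N δ : ℕ) (hδ : δ ∣ N) (hN : 0 < N)
    (γ : SL(2, ℤ)) (hγ : γ ∈ CongruenceSubgroup.Gamma0 N) (τ : ℍ) :
    deltaAt δ (γ • τ) = ((γ 1 0 : ℂ) * (τ : ℂ) + (γ 1 1 : ℂ)) ^ 12 * deltaAt δ τ ∧
      jAt δ (γ • τ) = jAt δ τ := by
  have hδpos : 0 < δ := Nat.pos_of_dvd_of_pos hδ hN
  have hδZ : (0 : ℤ) < (δ : ℤ) := by exact_mod_cast hδpos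
  obtain ⟨a, b, d, ha, hd, had, hgcd, hb0, hbd, h⟩ := exists_hermite_transform δ hδpos γ
  -- `N ∣ c`
  have hNc : (N : ℤ) ∣ γ 1 0 := by
    rw [CongruenceSubgroup.Gamma0_mem] at hγ
    exact (ZMod.intCast_zmod_eq_zero_iff_dvd _ _).mp hγ
  have hδc : (δ : ℤ) ∣ γ 1 0 := (Int.natCast_dvd_natCast.mpr hδ).trans hNc
  have hgcd' : Int.gcd (δ : ℤ) (γ 1 0) = δ := by
    have := Int.gcd_eq_left hδZ.le hδc
    exact_mod_cast this
  have ha' : a = (δ : ℤ) := by rw [hgcd, hgcd']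
  have hd' : d = 1 := by
    rw [ha'] at had
    have : (δ : ℤ) * d = (δ : ℤ) * 1 := by rw [had, mul_one]
    exact mul_left_cancel₀ hδZ.ne' this
  have hb' : b = 0 := by
    rw [hd'] at hbd
    omega
  subst ha' hd' hb'
  have haff : affH (((δ : ℤ) : ℝ)) (((0 : ℤ)) : ℝ) (((1 : ℤ)) : ℝ) (Int.cast_pos.mpr ha)
      (Int.cast_pos.mpr hd) τ = scaleH δ τ := by
    apply UpperHalfPlane.ext
    rw [coe_affH, coe_scaleH hδpos]
    push_cast
    ring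
  obtain ⟨h1, h2⟩ := h τ
  rw [haff] at h1 h2
  refine ⟨?_, h2⟩
  rw [h1]
  push_cast
  rw [div_one]
  rfl

theorem jAt_smul_of_mem_Gamma0 (N d : ℕ) (hd : d ∣ N) (hN : 0 < N)
    (γ : SL(2, ℤ)) (hγ : γ ∈ CongruenceSubgroup.Gamma0 N) (τ : ℍ) :
    jAt d (γ • τ) = jAt d τ :=
  (deltaAt_jAt_smul_of_mem_Gamma0 N d hd hN γ hγ τ).2

theorem deltaAt_smul_of_mem_Gamma0 (N δ : ℕ) (hδ : δ ∣ N) (hN : 0 < N)
    (γ : SL(2, ℤ)) (hγ : γ ∈ CongruenceSubgroup.Gamma0 N) (τ : ℍ) :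
    deltaAt δ (γ • τ) = ((γ 1 0 : ℂ) * (τ : ℂ) + (γ 1 1 : ℂ)) ^ 12 * deltaAt δ τ :=
  (deltaAt_jAt_smul_of_mem_Gamma0 N δ hδ hN γ hγ τ).1

theorem UAn_smul_of_mem_Gamma0 (N : ℕ) (hN : 0 < N)
    (γ : SL(2, ℤ)) (hγ : γ ∈ CongruenceSubgroup.Gamma0 N) (τ : ℍ) :
    UAn N (γ • τ) = UAn N τ := by
  have hden := denom_ne_zero_SL γ τ
  have hx0 : ((γ 1 0 : ℂ) * (τ : ℂ) + (γ 1 1 : ℂ)) ^ 12 ≠ 0 := pow_ne_zero _ hden
  have hΔ := ModularForm.discriminant_ne_zero τ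
  have h1 : ∏ δ ∈ N.divisors,
        deltaAt δ (γ • τ) ^ ((δ : ℤ) * ArithmeticFunction.moebius (N / δ)) =
      (((γ 1 0 : ℂ) * (τ : ℂ) + (γ 1 1 : ℂ)) ^ 12) ^ N.totient *
        ∏ δ ∈ N.divisors, deltaAt δ τ ^ ((δ : ℤ) * ArithmeticFunction.moebius (N / δ)) := by
    rw [← zpow_natCast, ← sum_divisors_mul_moebius_eq_totient N hN,
      ← prod_zpow_eq_zpow_sum _ _ hx0, ← Finset.prod_mul_distrib]
    refine Finset.prod_congr rfl fun δ hδ => ?_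
    rw [deltaAt_smul_of_mem_Gamma0 N δ (Nat.dvd_of_mem_divisors hδ) hN γ hγ τ, mul_zpow]
  rw [UAn, UAn, discriminant_smul, h1, mul_pow]
  have hx1 : (((γ 1 0 : ℂ) * (τ : ℂ) + (γ 1 1 : ℂ)) ^ 12) ^ N.totient ≠ 0 := pow_ne_zero _ hx0
  have hΔ1 : ModularForm.discriminant τ ^ N.totient ≠ 0 := pow_ne_zero _ hΔ
  generalize (((γ 1 0 : ℂ) * (τ : ℂ) + (γ 1 1 : ℂ)) ^ 12) ^ N.totient = X at hx1 ⊢
  generalize ModularForm.discriminant τ ^ N.totient = D at hΔ1 ⊢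
  field_simp

end Fermat.Agent.S28
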