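import Fermat.Agent.S28.Cusp

/-!
# S28 / T6d: pole bound for the expansions of `U ∘ γ`
-/

set_option autoImplicit false

open ModularCurve UpperHalfPlane Complex
open scoped MatrixGroups Manifold ModularForm

noncomputable section

namespace Fermat.Agent.S28

/-- **T6d** (pole-bound form): `U ∘ γ` has an expansion in `𝕋 = q^(1/N)` with coefficients in
`ℤ[ζ_N, 1/N]` and pole order at most `φ(N)·N`. -/
theorem hasTExp_UAn_translate_bound (N : ℕ) (hN : 0 < N) (γ : SL(2, ℤ)) :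
    ∃ s : LaurentSeries ℂ, HasTExp N (fun τ => UAn N (γ • τ)) s ∧ CoeffIn (cycRing N) s ∧
      ∀ n : ℤ, n < -((N.totient : ℤ) * N) → s.coeff n = 0 := by
  obtain ⟨s, hs, hU, ho⟩ := Cusp.hasTExp_UAn_translate_strong N hN γ
  refine ⟨s, hs, hU.mem, fun n hn => HahnSeries.coeff_eq_zero_of_lt_order ?_⟩
  rw [ho]
  have hJ : (0 : ℤ) ≤ (if (N : ℤ) ∣ γ 1 0 then jordanTwo N else 0) := by
    split_ifs
    · rw [← jordan2_eq_jordanTwo]; exact (jordan2_pos N hN).le
    · exact le_rfl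
  have hN' : (0 : ℤ) ≤ (N : ℤ) := by positivity
  nlinarith [mul_nonneg hN' hJ]

end Fermat.Agent.S28
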