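import Fermat.Agent.S28.TExp
import Fermat.Agent.S28.H84Bridge

/-!
# S28 helper (helper84): T6b core in `HasTExp` form

* `h84_hasTExp_deltaAn : HasTExp 1 deltaAn (cEmb deltaSeries)`
* `h84_hasTExp_E4 : HasTExp 1 E₄ (ofPowerSeries (eisenstein4.map (Int.castRingHom ℂ)))`
-/

set_option autoImplicit false

open ModularCurve UpperHalfPlane Complex ModularForm ModularFormClass
open scoped MatrixGroups

noncomputable section

namespace Fermat.Agent.S28

/-- A level-one modular form has the `𝕋`-expansion given by its `q`-expansion. -/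
theorem h84_hasTExp_of_modularForm {k : ℤ} {F : Type*} [FunLike F ℍ ℂ]
    [ModularFormClass F 𝒮ℒ k] (f : F) :
    HasTExp 1 (fun τ => f τ) (HahnSeries.ofPowerSeries ℤ ℂ (qExpansion 1 f)) := by
  refine ⟨0, qExpansion 1 f, ?_, fun τ => ?_⟩
  · simp
  · have h := ModularForm.hasSum_qExpansion (f := f) one_pos one_mem_strictPeriods_SL τ
    simpa [tParam] using h

theorem h84_cEmb_ofPowerSeries (p : PowerSeries ℚ) :
    cEmb (HahnSeries.ofPowerSeries ℤ ℚ p) =
      HahnSeries.ofPowerSeries ℤ ℂ (p.map (algebraMap ℚ ℂ)) := by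
  ext k
  rw [cEmb, coeffMap_coeff]
  rcases le_or_gt 0 k with hk | hk
  · lift k to ℕ using hk
    rw [HahnSeries.ofPowerSeries_apply_coeff, HahnSeries.ofPowerSeries_apply_coeff,
      PowerSeries.coeff_map]
  · rw [ofPowerSeries_coeff_of_neg _ hk, ofPowerSeries_coeff_of_neg _ hk, map_zero]

theorem h84_map_map_int (F : PowerSeries ℤ) :
    (F.map (Int.castRingHom ℚ)).map (algebraMap ℚ ℂ) = F.map (Int.castRingHom ℂ) := by
  ext n
  simp

theorem h84_cEmb_deltaSeries :
    cEmb deltaSeries = HahnSeries.ofPowerSeries ℤ ℂ (qExpansion 1 ModularForm.discriminant) := by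
  rw [deltaSeries, map_mul, h84_cEmb_ofPowerSeries, dedekindEtaUnitQ, h84_map_map_int,
    H84.qExpansion_discriminant_eq, map_mul, HahnSeries.ofPowerSeries_X, dedekindEtaUnit]
  congr 1
  rw [cEmb, coeffMap_single]
  simp

/-- **T6b (Δ)**: the analytic discriminant has the formal expansion `deltaSeries`. -/
theorem h84_hasTExp_deltaAn : HasTExp 1 deltaAn (cEmb deltaSeries) := by
  rw [h84_cEmb_deltaSeries]
  exact h84_hasTExp_of_modularForm (k := 12) CuspForm.discriminant

/-- **T6b (E₄)**. -/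
theorem h84_hasTExp_E4 :
    HasTExp 1 (fun τ => ModularForm.E₄ τ)
      (HahnSeries.ofPowerSeries ℤ ℂ (eisenstein4.map (Int.castRingHom ℂ))) := by
  rw [← H84.qExpansion_E4_eq]
  exact h84_hasTExp_of_modularForm (k := 4) ModularForm.E₄

end Fermat.Agent.S28
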