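import Fermat.Agent.S28.TExp
import Fermat.Agent.S28.Invariance

/-!
# Modular functions with expansions at all cusps: closure under ring operations (S28, Part I)

`h44Good N f` says that `f : ℚ((q))` is the `q`-expansion of a holomorphic `Γ₀(N)`-invariant
function all of whose `SL₂(ℤ)`-translates have `𝕋`-expansions with bounded pole order.  The class
is closed under the ring operations; hence it contains `ℚ[U, j(q^d) : d ∣ N]` as soon as it
contains the generators.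
-/

set_option autoImplicit false

open ModularCurve UpperHalfPlane Complex
open scoped MatrixGroups Manifold

noncomputable section

namespace Fermat.Agent.S28

/-- `f : ℚ((q))` is the `q`-expansion of a holomorphic `Γ₀(N)`-invariant function all of whose
`SL₂(ℤ)`-translates have `𝕋`-expansions with pole order bounded by `M·N`. -/
def h44Good (N : ℕ) (f : LaurentSeries ℚ) : Prop :=
  ∃ (F : ℍ → ℂ) (M : ℕ), Holo F ∧
    (∀ γ ∈ CongruenceSubgroup.Gamma0 N, ∀ τ : ℍ, F (γ • τ) = F τ) ∧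
    HasTExp 1 F (cEmb f) ∧
    ∀ γ : SL(2, ℤ), ∃ s : LaurentSeries ℂ, HasTExp N (fun τ => F (γ • τ)) s ∧
      ∀ n : ℤ, n < -((M : ℤ) * N) → s.coeff n = 0

theorem h44_cEmb_algebraMap (r : ℚ) :
    cEmb (algebraMap ℚ (LaurentSeries ℚ) r) = HahnSeries.C (r : ℂ) := by
  rw [algebraMap_apply_eq_single, cEmb, coeffMap_single]
  rfl

theorem h44_le_order_of_coeff {s : LaurentSeries ℂ} {a : ℤ} (hs : s ≠ 0)
    (h : ∀ n : ℤ, n < a → s.coeff n = 0) : a ≤ s.order := by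
  by_contra hlt
  rw [not_le] at hlt
  exact hs (HahnSeries.coeff_order_eq_zero.mp (h _ hlt))

theorem h44_coeff_mul_eq_zero {s₁ s₂ : LaurentSeries ℂ} {a₁ a₂ : ℤ}
    (h₁ : ∀ n : ℤ, n < a₁ → s₁.coeff n = 0) (h₂ : ∀ n : ℤ, n < a₂ → s₂.coeff n = 0) :
    ∀ n : ℤ, n < a₁ + a₂ → (s₁ * s₂).coeff n = 0 := by
  intro n hn
  by_cases hs₁ : s₁ = 0
  · simp [hs₁]
  by_cases hs₂ : s₂ = 0
  · simp [hs₂]
  refine HahnSeries.coeff_eq_zero_of_lt_order ?_
  rw [HahnSeries.order_mul hs₁ hs₂]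
  have := h44_le_order_of_coeff hs₁ h₁
  have := h44_le_order_of_coeff hs₂ h₂
  omega

theorem h44Good_algebraMap (N : ℕ) (r : ℚ) : h44Good N (algebraMap ℚ (LaurentSeries ℚ) r) := by
  refine ⟨fun _ => (r : ℂ), 0, mdifferentiable_const, fun _ _ _ => rfl, ?_, fun γ => ?_⟩
  · rw [h44_cEmb_algebraMap]
    exact HasTExp.const 1 _
  · refine ⟨HahnSeries.C (r : ℂ), HasTExp.const N _, fun n hn => ?_⟩
    have hn0 : n ≠ 0 := by
      intro h
      rw [h] at hn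
      simp at hn
    rw [HahnSeries.C_apply, HahnSeries.coeff_single_of_ne hn0]

theorem h44Good_add (N : ℕ) {f₁ f₂ : LaurentSeries ℚ} (h₁ : h44Good N f₁) (h₂ : h44Good N f₂) :
    h44Good N (f₁ + f₂) := by
  obtain ⟨F₁, M₁, hol₁, inv₁, exp₁, tr₁⟩ := h₁
  obtain ⟨F₂, M₂, hol₂, inv₂, exp₂, tr₂⟩ := h₂
  refine ⟨F₁ + F₂, M₁ + M₂, MDifferentiable.add hol₁ hol₂, fun γ hγ τ => ?_, ?_, fun γ => ?_⟩
  · simp only [Pi.add_apply, inv₁ γ hγ τ, inv₂ γ hγ τ]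
  · rw [map_add]
    exact HasTExp.add exp₁ exp₂
  · obtain ⟨s₁, hs₁, hb₁⟩ := tr₁ γ
    obtain ⟨s₂, hs₂, hb₂⟩ := tr₂ γ
    refine ⟨s₁ + s₂, HasTExp.add hs₁ hs₂, fun n hn => ?_⟩
    have hN0 : (0 : ℤ) ≤ N := Int.natCast_nonneg N
    have hM₁ : (0 : ℤ) ≤ M₁ := Int.natCast_nonneg M₁
    have hM₂ : (0 : ℤ) ≤ M₂ := Int.natCast_nonneg M₂
    push_cast at hn
    rw [HahnSeries.coeff_add, hb₁ n (by nlinarith), hb₂ n (by nlinarith), add_zero]

theorem h44Good_mul (N : ℕ) (hN : 0 < N) {f₁ f₂ : LaurentSeries ℚ} (h₁ : h44Good N f₁)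
    (h₂ : h44Good N f₂) : h44Good N (f₁ * f₂) := by
  obtain ⟨F₁, M₁, hol₁, inv₁, exp₁, tr₁⟩ := h₁
  obtain ⟨F₂, M₂, hol₂, inv₂, exp₂, tr₂⟩ := h₂
  refine ⟨F₁ * F₂, M₁ + M₂, MDifferentiable.mul hol₁ hol₂, fun γ hγ τ => ?_, ?_, fun γ => ?_⟩
  · simp only [Pi.mul_apply, inv₁ γ hγ τ, inv₂ γ hγ τ]
  · rw [map_mul]
    exact HasTExp.mul one_pos exp₁ exp₂
  · obtain ⟨s₁, hs₁, hb₁⟩ := tr₁ γ
    obtain ⟨s₂, hs₂, hb₂⟩ := tr₂ γ
    refine ⟨s₁ * s₂, HasTExp.mul hN hs₁ hs₂, fun n hn => ?_⟩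
    refine h44_coeff_mul_eq_zero hb₁ hb₂ n ?_
    push_cast at hn
    linarith

/-- The interface of task T6b (bridge formal ↔ analytic), as consumed by the assembly. -/
def BridgeStatement (N : ℕ) : Prop :=
  HasTExp 1 jAn (cEmb jq) ∧
    (∀ d : ℕ, 0 < d → HasTExp 1 (jAt d) (cEmb (jSub d))) ∧
    HasTExp 1 (UAn N) (cEmb (modUnit N))

/-- The interface of task T6d (expansions at all cusps), as consumed by the assembly:
coefficients in `ℤ[ζ_N, 1/N]` and pole bounds. -/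
def CuspStatement (N : ℕ) : Prop :=
  (∀ d : ℕ, d ∣ N → ∀ γ : SL(2, ℤ), ∃ s : LaurentSeries ℂ,
      HasTExp N (fun τ => jAt d (γ • τ)) s ∧ CoeffIn (cycRing N) s ∧
      ∀ n : ℤ, n < -((N : ℤ) * N) → s.coeff n = 0) ∧
    (∀ γ : SL(2, ℤ), ∃ s : LaurentSeries ℂ,
      HasTExp N (fun τ => UAn N (γ • τ)) s ∧ CoeffIn (cycRing N) s ∧
      ∀ n : ℤ, n < -((N.totient : ℤ) * N) → s.coeff n = 0)

theorem h44Good_modUnit (N : ℕ) (hN : 0 < N) (hb : BridgeStatement N) (hc : CuspStatement N) :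
    h44Good N (modUnit N) := by
  refine ⟨UAn N, N.totient, holo_UAn N, fun γ hγ τ => UAn_smul_of_mem_Gamma0 N hN γ hγ τ,
    hb.2.2, fun γ => ?_⟩
  obtain ⟨s, hs, -, hbd⟩ := hc.2 γ
  exact ⟨s, hs, hbd⟩

theorem h44Good_jSub (N d : ℕ) (hN : 0 < N) (hd : d ∣ N) (hb : BridgeStatement N)
    (hc : CuspStatement N) : h44Good N (jSub d) := by
  have hd0 : 0 < d := Nat.pos_of_dvd_of_pos hd hN
  refine ⟨jAt d, N, holo_jAt d, fun γ hγ τ => jAt_smul_of_mem_Gamma0 N d hd hN γ hγ τ,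
    hb.2.1 d hd0, fun γ => ?_⟩
  obtain ⟨s, hs, -, hbd⟩ := hc.1 d hd γ
  exact ⟨s, hs, hbd⟩

theorem h44Good_of_mem_adjoin (N : ℕ) [NeZero N] (hb : BridgeStatement N)
    (hc : CuspStatement N) {f : LaurentSeries ℚ}
    (hf : f ∈ Algebra.adjoin ℚ (insert (modUnit N) (divisorExpansions N))) : h44Good N f := by
  have hN : 0 < N := Nat.pos_of_ne_zero (NeZero.ne N)
  induction hf using Algebra.adjoin_induction with
  | mem x hx =>
    rcases hx with rfl | ⟨d, hd0, hd, rfl⟩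
    · exact h44Good_modUnit N hN hb hc
    · have h1 : qExpand ℚ d jq = jSub d := by
        unfold jSub
        rw [dif_neg (NeZero.ne d)]
      rw [h1]
      exact h44Good_jSub N d hN hd hb hc
  | algebraMap r => exact h44Good_algebraMap N r
  | add x y _ _ hx hy => exact h44Good_add N hx hy
  | mul x y _ _ hx hy => exact h44Good_mul N hN hx hy

end Fermat.Agent.S28
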