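import Fermat.Agent.S28.TExp
import Fermat.Agent.S28.Invariance
import Fermat.Agent.S28.H84BridgeTExp
import Fermat.Agent.S28.ModFun
import Fermat.Prelude.Thm_ModularCurve_coeffMap_qExpand

/-!
# S28 Part I, T6b: the `q`-expansions of `j`, `j(dτ)` and the modular unit `U`

From the expansions of `Δ` and `E₄` (`H84BridgeTExp.lean`) and the expansion calculus
(`TExp.lean`) we obtain `BridgeStatement N`.
-/

set_option autoImplicit false

open ModularCurve UpperHalfPlane Complex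
open scoped MatrixGroups Manifold

noncomputable section

namespace Fermat.Agent.S28

/-- the formal identity `j · Δ = E₄³`. -/
theorem h44_jq_mul_deltaSeries :
    jq * deltaSeries =
      HahnSeries.ofPowerSeries ℤ ℚ ((eisenstein4 ^ 3).map (Int.castRingHom ℚ)) := by
  have h1 : jNumQ * dedekindEtaUnitQ = (eisenstein4 ^ 3).map (Int.castRingHom ℚ) := by
    rw [jNumQ, dedekindEtaUnitQ, ← map_mul, jNum, mul_assoc, mul_comm dedekindEtaUnitInv,
      dedekindEtaUnit_mul_inv, mul_one]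
  rw [jq, deltaSeries, ← h1, map_mul]
  have h2 : (HahnSeries.single (-1 : ℤ) (1 : ℚ)) * HahnSeries.single (1 : ℤ) (1 : ℚ) = 1 := by
    rw [HahnSeries.single_mul_single]
    simp
  calc HahnSeries.single (-1 : ℤ) (1 : ℚ) * HahnSeries.ofPowerSeries ℤ ℚ jNumQ *
        (HahnSeries.single (1 : ℤ) 1 * HahnSeries.ofPowerSeries ℤ ℚ dedekindEtaUnitQ)
      = (HahnSeries.single (-1 : ℤ) (1 : ℚ) * HahnSeries.single (1 : ℤ) (1 : ℚ)) *
        (HahnSeries.ofPowerSeries ℤ ℚ jNumQ * HahnSeries.ofPowerSeries ℤ ℚ dedekindEtaUnitQ) := by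
        ring
    _ = _ := by rw [h2, one_mul]

theorem h44_cEmb_deltaSeries_ne_zero : cEmb deltaSeries ≠ 0 := by
  rw [Ne, map_eq_zero_iff cEmb (RingHom.injective _)]
  exact deltaSeries_ne_zero

/-- the formal identity `j = E₄³ / Δ` over `ℂ`. -/
theorem h44_cEmb_jq :
    cEmb jq = (HahnSeries.ofPowerSeries ℤ ℂ (eisenstein4.map (Int.castRingHom ℂ))) ^ 3 *
      (cEmb deltaSeries)⁻¹ := by
  rw [eq_mul_inv_iff_mul_eq₀ h44_cEmb_deltaSeries_ne_zero, ← map_mul, h44_jq_mul_deltaSeries,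
    h84_cEmb_ofPowerSeries, h84_map_map_int, map_pow, map_pow]

/-- **T6b (`j`)**. -/
theorem h44_hasTExp_jAn : HasTExp 1 jAn (cEmb jq) := by
  rw [h44_cEmb_jq]
  have h1 := (h84_hasTExp_E4.pow one_pos 3).mul one_pos
    (h84_hasTExp_deltaAn.inv one_pos (fun τ => ModularForm.discriminant_ne_zero τ))
  refine h1.congr fun τ => ?_
  simp [jAn, deltaAn, div_eq_mul_inv]

theorem h44_cEmb_qExpand (d : ℕ) [NeZero d] (x : LaurentSeries ℚ) :
    cEmb (qExpand ℚ d x) = qExpand ℂ d (cEmb x) :=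
  coeffMap_qExpand _ d x

/-- **T6b (`j(dτ)`)**. -/
theorem h44_hasTExp_jAt (d : ℕ) (hd : 0 < d) : HasTExp 1 (jAt d) (cEmb (jSub d)) := by
  have : NeZero d := ⟨hd.ne'⟩
  have h1 : jSub d = qExpand ℚ d jq := by
    unfold jSub
    rw [dif_neg hd.ne']
  rw [h1, h44_cEmb_qExpand]
  exact h44_hasTExp_jAn.scale d

/-- `Δ(δτ)` has the formal expansion `deltaSub δ`. -/
theorem h44_hasTExp_deltaAt (δ : ℕ) (hδ : 0 < δ) : HasTExp 1 (deltaAt δ) (cEmb (deltaSub δ)) := by
  have : NeZero δ := ⟨hδ.ne'⟩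
  have h1 : deltaSub δ = qExpand ℚ δ deltaSeries := by
    unfold deltaSub
    rw [dif_neg hδ.ne']
    rfl
  rw [h1, h44_cEmb_qExpand]
  exact h84_hasTExp_deltaAn.scale δ

/-- **T6b (`U`)**. -/
theorem h44_hasTExp_UAn (N : ℕ) (_hN : 0 < N) : HasTExp 1 (UAn N) (cEmb (modUnit N)) := by
  have h1 : cEmb (modUnit N) =
      (∏ δ ∈ N.divisors, (cEmb (deltaSub δ)) ^ ((δ : ℤ) * ArithmeticFunction.moebius (N / δ))) *
        ((cEmb deltaSeries) ^ N.totient)⁻¹ := by
    rw [modUnit, unitW, map_mul, map_inv₀, map_pow, map_prod]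
    congr 1
    refine Finset.prod_congr rfl fun δ _ => ?_
    rw [map_zpow₀]
  rw [h1]
  have h2 : HasTExp 1 (∏ δ ∈ N.divisors,
      fun τ => deltaAt δ τ ^ ((δ : ℤ) * ArithmeticFunction.moebius (N / δ)))
      (∏ δ ∈ N.divisors, (cEmb (deltaSub δ)) ^ ((δ : ℤ) * ArithmeticFunction.moebius (N / δ))) :=
    HasTExp.finset_prod one_pos _ fun δ hδ =>
      (h44_hasTExp_deltaAt δ (Nat.pos_of_mem_divisors hδ)).zpow one_pos
        (fun τ => deltaAt_ne_zero δ τ) _
  have h3 : HasTExp 1 (fun τ => (deltaAn τ ^ N.totient)⁻¹) ((cEmb deltaSeries) ^ N.totient)⁻¹ := by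
    have := (h84_hasTExp_deltaAn.pow one_pos N.totient).inv one_pos
      (fun τ => pow_ne_zero _ (ModularForm.discriminant_ne_zero τ))
    exact this
  refine (h2.mul one_pos h3).congr fun τ => ?_
  simp [UAn, deltaAn, Finset.prod_apply]

/-- **T6b**: the bridge statement consumed by the assembly. -/
theorem h44_bridgeStatement (N : ℕ) (hN : 0 < N) : BridgeStatement N :=
  ⟨h44_hasTExp_jAn, fun d hd => h44_hasTExp_jAt d hd, h44_hasTExp_UAn N hN⟩

end Fermat.Agent.S28
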