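import Fermat.Agent.S28.AssemblyCore
import Fermat.Agent.S28.H44Bridge
import Fermat.Agent.S28.CuspBound

/-!
# S28 Part I: the characteristic-zero input `IgusaInput N ℓ` exists
-/

set_option autoImplicit false

open ModularCurve UpperHalfPlane Complex
open scoped MatrixGroups Manifold

noncomputable section

namespace Fermat.Agent.S28

/-- **T6d**: the cusp statement consumed by the assembly. -/
theorem h44_cuspStatement (N : ℕ) (hN : 0 < N) : CuspStatement N :=
  ⟨fun d hd γ => hasTExp_jAt_translate_of h44_hasTExp_jAn N d hN hd γ,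
    fun γ => hasTExp_UAn_translate_bound N hN γ⟩

/-- **Part I of S28**: the characteristic-zero input exists. -/
theorem exists_igusaInput (N ℓ : ℕ) [NeZero N] [Fact ℓ.Prime] (hℓN : ¬ ℓ ∣ N) :
    Nonempty (IgusaInput N ℓ) :=
  exists_igusaInput_core N ℓ hℓN (h44_bridgeStatement N (Nat.pos_of_ne_zero (NeZero.ne N)))
    (h44_cuspStatement N (Nat.pos_of_ne_zero (NeZero.ne N)))

end Fermat.Agent.S28
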