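import Fermat.Agent.S28.ADefs

/-!
# S28 Part I, task T6a: expansion calculus for `HasTExp`

Main tool: `hasTExp_iff`, the `ℤ`-indexed characterisation
`HasTExp N g s ↔ ∀ τ, HasSum (fun n : ℤ => s.coeff n * tParam N τ ^ n) (g τ)`.
-/

set_option autoImplicit false

open ModularCurve UpperHalfPlane Complex HahnSeries

noncomputable section

namespace Fermat.Agent.S28

/-! ### the parameter -/

theorem tParam_ne_zero (N : ℕ) (τ : ℍ) : tParam N τ ≠ 0 :=
  Function.Periodic.qParam_ne_zero _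

theorem norm_tParam_lt_one {N : ℕ} (hN : 0 < N) (τ : ℍ) : ‖tParam N τ‖ < 1 :=
  Function.Periodic.norm_qParam_lt_one (by exact_mod_cast hN) τ.im_pos

/-- every point of the punctured open unit disc is a value of `tParam N`. -/
theorem exists_tParam_eq {N : ℕ} (hN : 0 < N) {t : ℂ} (ht0 : t ≠ 0) (ht1 : ‖t‖ < 1) :
    ∃ τ : ℍ, tParam N τ = t := by
  have hN' : (0 : ℝ) < N := by exact_mod_cast hN
  refine ⟨⟨Function.Periodic.invQParam N t,
    Function.Periodic.im_invQParam_pos_of_norm_lt_one hN' ht1 ht0⟩, ?_⟩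
  exact Function.Periodic.qParam_right_inv hN'.ne' ht0

/-! ### `ℤ`-indexed sums versus shifted `ℕ`-indexed sums -/

/-- A `ℤ`-indexed family vanishing below `M` is summable iff its shift to `ℕ` is. -/
theorem hasSum_int_iff_shift {f : ℤ → ℂ} (M : ℤ) (hf : ∀ n : ℤ, n < M → f n = 0) (a : ℂ) :
    HasSum f a ↔ HasSum (fun k : ℕ => f (M + k)) a := by
  have hinj : Function.Injective (fun k : ℕ => M + (k : ℤ)) := by
    intro x y hxy
    simpa using hxy
  have hrange : ∀ x : ℤ, x ∉ Set.range (fun k : ℕ => M + (k : ℤ)) → f x = 0 := by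
    intro x hx
    apply hf
    by_contra hlt
    apply hx
    refine ⟨(x - M).toNat, ?_⟩
    have : (0 : ℤ) ≤ x - M := by omega
    simp only
    omega
  exact (hinj.hasSum_iff hrange).symm

/-- coefficients of `single (-M) 1 * ofPowerSeries p`. -/
theorem coeff_single_neg_mul_ofPowerSeries (M : ℕ) (p : PowerSeries ℂ) (k : ℕ) :
    (HahnSeries.single (-(M : ℤ)) (1 : ℂ) * HahnSeries.ofPowerSeries ℤ ℂ p).coeff
      (-(M : ℤ) + k) = PowerSeries.coeff k p := by
  have h := HahnSeries.coeff_single_mul_add (r := (1 : ℂ))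
    (x := HahnSeries.ofPowerSeries ℤ ℂ p) (a := (k : ℤ)) (b := -(M : ℤ))
  rw [show -(M : ℤ) + (k : ℤ) = (k : ℤ) + -(M : ℤ) by ring, h, one_mul,
    HahnSeries.ofPowerSeries_apply_coeff]

theorem coeff_single_neg_mul_ofPowerSeries_of_lt (M : ℕ) (p : PowerSeries ℂ) {n : ℤ}
    (hn : n < -(M : ℤ)) :
    (HahnSeries.single (-(M : ℤ)) (1 : ℂ) * HahnSeries.ofPowerSeries ℤ ℂ p).coeff n = 0 := by
  have h := HahnSeries.coeff_single_mul_add (r := (1 : ℂ))
    (x := HahnSeries.ofPowerSeries ℤ ℂ p) (a := n + M) (b := -(M : ℤ))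
  rw [show n + (M : ℤ) + -(M : ℤ) = n by ring] at h
  rw [h, one_mul]
  exact ModularCurve.ofPowerSeries_coeff_of_neg p (by omega)

/-- every Laurent series is `q^(-M) * (power series)`. -/
theorem exists_eq_single_mul_ofPowerSeries (s : LaurentSeries ℂ) :
    ∃ (M : ℕ) (p : PowerSeries ℂ),
      s = HahnSeries.single (-(M : ℤ)) 1 * HahnSeries.ofPowerSeries ℤ ℂ p := by
  refine ⟨(-s.order).toNat, PowerSeries.X ^ (s.order + (-s.order).toNat).toNat *
    s.powerSeriesPart, ?_⟩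
  have h1 := LaurentSeries.single_order_mul_powerSeriesPart s
  have hnn : (0 : ℤ) ≤ s.order + (-s.order).toNat := by omega
  rw [map_mul, map_pow, HahnSeries.ofPowerSeries_X, HahnSeries.single_pow, one_pow,
    ← mul_assoc, HahnSeries.single_mul_single, one_mul, nsmul_eq_mul, mul_one]
  conv_lhs => rw [← h1]
  rw [Int.toNat_of_nonneg hnn]
  have he : -((-s.order).toNat : ℤ) + (s.order + ((-s.order).toNat : ℤ)) = s.order := by ring
  rw [he]

/-- The `ℤ`-indexed characterisation of `HasTExp`. -/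
theorem hasTExp_iff {N : ℕ} {g : ℍ → ℂ} {s : LaurentSeries ℂ} :
    HasTExp N g s ↔ ∀ τ : ℍ, HasSum (fun n : ℤ => s.coeff n * tParam N τ ^ n) (g τ) := by
  have key : ∀ (M : ℕ) (p : PowerSeries ℂ),
      s = HahnSeries.single (-(M : ℤ)) 1 * HahnSeries.ofPowerSeries ℤ ℂ p → ∀ τ : ℍ,
      (HasSum (fun n : ℤ => s.coeff n * tParam N τ ^ n) (g τ) ↔
        HasSum (fun n : ℕ => PowerSeries.coeff n p * tParam N τ ^ n)
          (g τ * tParam N τ ^ M)) := by
    intro M p hs τ
    have ht := tParam_ne_zero N τ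
    rw [hasSum_int_iff_shift (-(M : ℤ))]
    · have hfun : (fun k : ℕ => s.coeff (-(M : ℤ) + k) * tParam N τ ^ (-(M : ℤ) + k)) =
          fun k : ℕ => (PowerSeries.coeff k p * tParam N τ ^ k) * (tParam N τ ^ M)⁻¹ := by
        funext k
        rw [hs, coeff_single_neg_mul_ofPowerSeries, zpow_add₀ ht, zpow_neg, zpow_natCast,
          zpow_natCast]
        ring
      rw [hfun]
      have hM : tParam N τ ^ M ≠ 0 := pow_ne_zero _ ht
      constructor
      · intro h
        have := h.mul_right (tParam N τ ^ M)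
        simpa [mul_assoc, inv_mul_cancel₀ hM] using this
      · intro h
        have := h.mul_right (tParam N τ ^ M)⁻¹
        simpa [mul_assoc, mul_inv_cancel₀ hM] using this
    · intro n hn
      rw [hs, coeff_single_neg_mul_ofPowerSeries_of_lt M p hn, zero_mul]
  constructor
  · rintro ⟨M, p, hs, h⟩ τ
    exact (key M p hs τ).mpr (h τ)
  · intro h
    obtain ⟨M, p, hs⟩ := exists_eq_single_mul_ofPowerSeries s
    exact ⟨M, p, hs, fun τ => (key M p hs τ).mp (h τ)⟩

/-! ### linear structure -/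

theorem HasTExp.const (N : ℕ) (c : ℂ) : HasTExp N (fun _ => c) (HahnSeries.C c) := by
  rw [hasTExp_iff]
  intro τ
  have h : ∀ n : ℤ, n ∉ ({0} : Finset ℤ) →
      (HahnSeries.C c : LaurentSeries ℂ).coeff n * tParam N τ ^ n = 0 := by
    intro n hn
    have hn' : n ≠ 0 := by simpa using hn
    rw [HahnSeries.C_apply, HahnSeries.coeff_single_of_ne hn', zero_mul]
  have := hasSum_sum_of_ne_finset_zero (L := SummationFilter.unconditional ℤ) (f := fun n : ℤ =>
    (HahnSeries.C c : LaurentSeries ℂ).coeff n * tParam N τ ^ n) h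
  simpa [HahnSeries.C_apply] using this

theorem HasTExp.zero (N : ℕ) : HasTExp N (fun _ => 0) 0 := by
  simpa using HasTExp.const N 0

theorem HasTExp.one (N : ℕ) : HasTExp N (fun _ => 1) 1 := by
  simpa using HasTExp.const N 1

theorem HasTExp.add {N : ℕ} {g₁ g₂ : ℍ → ℂ} {s₁ s₂ : LaurentSeries ℂ}
    (h₁ : HasTExp N g₁ s₁) (h₂ : HasTExp N g₂ s₂) : HasTExp N (g₁ + g₂) (s₁ + s₂) := by
  rw [hasTExp_iff] at *
  intro τ
  have := (h₁ τ).add (h₂ τ)
  simpa [add_mul] using this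

theorem HasTExp.neg {N : ℕ} {g : ℍ → ℂ} {s : LaurentSeries ℂ}
    (h : HasTExp N g s) : HasTExp N (-g) (-s) := by
  rw [hasTExp_iff] at *
  intro τ
  have := (h τ).neg
  simpa [neg_mul] using this

theorem HasTExp.sub {N : ℕ} {g₁ g₂ : ℍ → ℂ} {s₁ s₂ : LaurentSeries ℂ}
    (h₁ : HasTExp N g₁ s₁) (h₂ : HasTExp N g₂ s₂) : HasTExp N (g₁ - g₂) (s₁ - s₂) := by
  rw [sub_eq_add_neg, sub_eq_add_neg]
  exact h₁.add h₂.neg

theorem HasTExp.congr {N : ℕ} {g₁ g₂ : ℍ → ℂ} {s : LaurentSeries ℂ}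
    (h : HasTExp N g₁ s) (hg : ∀ τ, g₁ τ = g₂ τ) : HasTExp N g₂ s := by
  have : g₁ = g₂ := funext hg
  rwa [← this]

theorem HasTExp.finset_sum {N : ℕ} {ι : Type} (t : Finset ι) {g : ι → ℍ → ℂ}
    {s : ι → LaurentSeries ℂ} (h : ∀ i ∈ t, HasTExp N (g i) (s i)) :
    HasTExp N (∑ i ∈ t, g i) (∑ i ∈ t, s i) := by
  classical
  induction t using Finset.induction_on with
  | empty =>
    simp only [Finset.sum_empty]
    exact HasTExp.zero N
  | insert a t ha ih =>
    rw [Finset.sum_insert ha, Finset.sum_insert ha]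
    exact (h a (Finset.mem_insert_self a t)).add
      (ih fun i hi => h i (Finset.mem_insert_of_mem hi))


/-! ### multiplicative structure -/


/-- the shear `(n, i) ↦ (i, n - i)` on `ℤ × ℤ`. -/
def shearEquiv : ℤ × ℤ ≃ ℤ × ℤ where
  toFun x := (x.2, x.1 - x.2)
  invFun x := (x.1 + x.2, x.1)
  left_inv x := by ext <;> simp
  right_inv x := by ext <;> simp

theorem hasSum_shear {F : ℤ × ℤ → ℂ} {a : ℂ} (h : HasSum F a) :
    HasSum (fun x : ℤ × ℤ => F (x.2, x.1 - x.2)) a :=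
  (shearEquiv.hasSum_iff (f := F)).mpr h

/-- sheared product of two summable `ℤ`-families. -/
theorem hasSum_mul_shear {f g : ℤ → ℂ} {a b : ℂ} (hf : HasSum f a) (hg : HasSum g b) :
    HasSum (fun x : ℤ × ℤ => f x.2 * g (x.1 - x.2)) (a * b) := by
  have hs₁ : Summable (fun n : ℤ => ‖f n‖) := hf.summable.norm
  have hs₂ : Summable (fun n : ℤ => ‖g n‖) := hg.summable.norm
  have hprod : Summable (fun x : ℤ × ℤ => f x.1 * g x.2) :=
    summable_mul_of_summable_norm hs₁ hs₂
  exact hasSum_shear (F := fun x : ℤ × ℤ => f x.1 * g x.2) (hf.mul hg hprod)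

/-- Cauchy product for `ℤ`-indexed Laurent sums. -/
theorem hasSum_coeff_mul {s₁ s₂ : LaurentSeries ℂ} {t a₁ a₂ : ℂ} (ht : t ≠ 0)
    (h₁ : HasSum (fun n : ℤ => s₁.coeff n * t ^ n) a₁)
    (h₂ : HasSum (fun n : ℤ => s₂.coeff n * t ^ n) a₂) :
    HasSum (fun n : ℤ => (s₁ * s₂).coeff n * t ^ n) (a₁ * a₂) := by
  classical
  have H' := hasSum_mul_shear h₁ h₂
  refine H'.prod_fiberwise (fun n => ?_)
  set F : Finset ℤ :=
    (Finset.antidiagonal s₁.isPWO_support s₂.isPWO_support n).image Prod.fst with hF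
  have hfun : (fun i : ℤ => (s₁.coeff i * t ^ i) * (s₂.coeff (n - i) * t ^ (n - i))) =
      fun i : ℤ => (s₁.coeff i * s₂.coeff (n - i)) * t ^ n := by
    funext i
    have : t ^ n = t ^ i * t ^ (n - i) := by rw [← zpow_add₀ ht]; congr 1; ring
    rw [this]; ring
  show HasSum (fun i : ℤ => (s₁.coeff i * t ^ i) * (s₂.coeff (n - i) * t ^ (n - i))) _
  rw [hfun]
  have hzero : ∀ i : ℤ, i ∉ F → (s₁.coeff i * s₂.coeff (n - i)) * t ^ n = 0 := by
    intro i hi
    by_contra hne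
    apply hi
    rw [hF, Finset.mem_image]
    refine ⟨(i, n - i), ?_, rfl⟩
    rw [Finset.mem_antidiagonal]
    refine ⟨?_, ?_, by simp⟩
    · intro h0
      apply hne
      simp only at h0
      rw [h0, zero_mul, zero_mul]
    · intro h0
      apply hne
      simp only at h0
      rw [h0, mul_zero, zero_mul]
  have hsum := hasSum_sum_of_ne_finset_zero (L := SummationFilter.unconditional ℤ) hzero
  have heq : ∑ i ∈ F, (s₁.coeff i * s₂.coeff (n - i)) * t ^ n = (s₁ * s₂).coeff n * t ^ n := by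
    rw [← Finset.sum_mul, HahnSeries.coeff_mul, hF, Finset.sum_image]
    · refine congrArg (· * t ^ n) (Finset.sum_congr rfl ?_)
      intro x hx
      rw [Finset.mem_antidiagonal] at hx
      have : n - x.1 = x.2 := by rw [← hx.2.2]; ring
      rw [this]
    · intro x hx y hy hxy
      rw [Finset.mem_coe, Finset.mem_antidiagonal] at hx hy
      ext
      · exact hxy
      · have h1 := hx.2.2
        have h2 := hy.2.2
        omega
  rw [← heq]
  exact hsum


set_option linter.unusedVariables false in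
theorem HasTExp.mul {N : ℕ} (hN : 0 < N) {g₁ g₂ : ℍ → ℂ} {s₁ s₂ : LaurentSeries ℂ}
    (h₁ : HasTExp N g₁ s₁) (h₂ : HasTExp N g₂ s₂) : HasTExp N (g₁ * g₂) (s₁ * s₂) := by
  rw [hasTExp_iff] at *
  intro τ
  exact hasSum_coeff_mul (tParam_ne_zero N τ) (h₁ τ) (h₂ τ)

theorem HasTExp.const_mul {N : ℕ} (hN : 0 < N) (c : ℂ) {g : ℍ → ℂ} {s : LaurentSeries ℂ}
    (h : HasTExp N g s) : HasTExp N (fun τ => c * g τ) (HahnSeries.C c * s) :=
  (HasTExp.const N c).mul hN h

theorem HasTExp.pow {N : ℕ} (hN : 0 < N) {g : ℍ → ℂ} {s : LaurentSeries ℂ}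
    (h : HasTExp N g s) (n : ℕ) : HasTExp N (g ^ n) (s ^ n) := by
  induction n with
  | zero =>
    simp only [pow_zero]
    exact HasTExp.one N
  | succ n ih =>
    rw [pow_succ, pow_succ]
    exact ih.mul hN h

theorem HasTExp.finset_prod {N : ℕ} (hN : 0 < N) {ι : Type} (t : Finset ι) {g : ι → ℍ → ℂ}
    {s : ι → LaurentSeries ℂ} (h : ∀ i ∈ t, HasTExp N (g i) (s i)) :
    HasTExp N (∏ i ∈ t, g i) (∏ i ∈ t, s i) := by
  classical
  induction t using Finset.induction_on with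
  | empty =>
    simp only [Finset.prod_empty]
    exact HasTExp.one N
  | insert a t ha ih =>
    rw [Finset.prod_insert ha, Finset.prod_insert ha]
    exact (h a (Finset.mem_insert_self a t)).mul hN
      (ih fun i hi => h i (Finset.mem_insert_of_mem hi))


/-! ### identity theorem and inverses -/


/-- A scalar power series which converges at every point of the punctured open unit disc has
radius of convergence at least `1`. -/
theorem one_le_radius_ofScalars {a : ℕ → ℂ}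
    (h : ∀ t : ℂ, t ≠ 0 → ‖t‖ < 1 → Summable (fun k : ℕ => a k * t ^ k)) :
    1 ≤ (FormalMultilinearSeries.ofScalars ℂ a).radius := by
  refine ENNReal.le_of_forall_nnreal_lt (fun r hr => ?_)
  by_cases hr0 : r = 0
  · rw [hr0]; simp
  apply FormalMultilinearSeries.le_radius_of_summable
  have hr1 : (r : ℝ) < 1 := by exact_mod_cast hr
  have hrpos : (0 : ℝ) < r := by
    have : (0 : ℝ) ≤ r := r.coe_nonneg
    rcases this.lt_or_eq with h | h
    · exact h
    · exact absurd (by exact_mod_cast h.symm) hr0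
  have hs := (h (r : ℝ) (by exact_mod_cast hrpos.ne') (by
    rw [Complex.norm_real, Real.norm_of_nonneg hrpos.le]; exact hr1)).norm
  refine hs.congr (fun n => ?_)
  rw [FormalMultilinearSeries.ofScalars_norm, norm_mul, norm_pow, Complex.norm_real,
    Real.norm_of_nonneg hrpos.le]

/-- The sum of a scalar power series converging on the punctured unit disc is holomorphic on the
unit disc. -/
theorem differentiableOn_tsum_pow {a : ℕ → ℂ}
    (h : ∀ t : ℂ, t ≠ 0 → ‖t‖ < 1 → Summable (fun k : ℕ => a k * t ^ k)) :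
    DifferentiableOn ℂ (fun t : ℂ => ∑' k : ℕ, a k * t ^ k) (Metric.ball 0 1) := by
  have hrad := one_le_radius_ofScalars h
  have hpos : 0 < (FormalMultilinearSeries.ofScalars ℂ a).radius :=
    lt_of_lt_of_le one_pos hrad
  have hball := ((FormalMultilinearSeries.ofScalars ℂ a).hasFPowerSeriesOnBall hpos).mono
    one_pos hrad
  have hd := hball.differentiableOn
  rw [← ENNReal.ofReal_one, Metric.eball_ofReal] at hd
  have hfun : (FormalMultilinearSeries.ofScalars ℂ a).sum = fun t : ℂ => ∑' k : ℕ, a k * t ^ k := by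
    funext t
    have := FormalMultilinearSeries.ofScalars_sum_eq (E := ℂ) a t
    simpa [FormalMultilinearSeries.ofScalarsSum, smul_eq_mul] using this
  rwa [hfun] at hd

theorem tsum_pow_zero (a : ℕ → ℂ) : (∑' k : ℕ, a k * (0 : ℂ) ^ k) = a 0 := by
  rw [tsum_eq_single 0]
  · simp
  · intro b hb
    simp [hb]

/-- Identity theorem: if a power series sums to zero on the punctured unit disc, its constant
coefficient vanishes. -/
theorem coeff_zero_eq_zero_of_hasSum {a : ℕ → ℂ}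
    (h : ∀ t : ℂ, t ≠ 0 → ‖t‖ < 1 → HasSum (fun k : ℕ => a k * t ^ k) 0) : a 0 = 0 := by
  have hd := differentiableOn_tsum_pow (fun t ht0 ht1 => (h t ht0 ht1).summable)
  have hc : ContinuousAt (fun t : ℂ => ∑' k : ℕ, a k * t ^ k) 0 :=
    (hd.continuousOn).continuousAt (Metric.ball_mem_nhds 0 one_pos)
  have hev : (fun t : ℂ => ∑' k : ℕ, a k * t ^ k) =ᶠ[nhdsWithin 0 {0}ᶜ] fun _ => (0 : ℂ) := by
    have hmem : Metric.ball (0 : ℂ) 1 ∩ {0}ᶜ ∈ nhdsWithin (0 : ℂ) {0}ᶜ :=
      Filter.inter_mem (mem_nhdsWithin_of_mem_nhds (Metric.ball_mem_nhds 0 one_pos))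
        self_mem_nhdsWithin
    filter_upwards [hmem] with t ht
    exact (h t ht.2 (by simpa using ht.1)).tsum_eq
  have h1 : Filter.Tendsto (fun t : ℂ => ∑' k : ℕ, a k * t ^ k) (nhdsWithin 0 {0}ᶜ)
      (nhds (∑' k : ℕ, a k * (0 : ℂ) ^ k)) := hc.tendsto.mono_left nhdsWithin_le_nhds
  have h2 : Filter.Tendsto (fun t : ℂ => ∑' k : ℕ, a k * t ^ k) (nhdsWithin 0 {0}ᶜ)
      (nhds 0) := (tendsto_const_nhds).congr' hev.symm
  have := tendsto_nhds_unique h1 h2
  rwa [tsum_pow_zero] at this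


/-- Laurent sum versus shifted power series sum. -/
theorem hasSum_laurent_iff {d : LaurentSeries ℂ} {t : ℂ} (ht : t ≠ 0) (M : ℤ)
    (hM : ∀ n : ℤ, n < M → d.coeff n = 0) (v : ℂ) :
    HasSum (fun n : ℤ => d.coeff n * t ^ n) (v * t ^ M) ↔
      HasSum (fun k : ℕ => d.coeff (M + k) * t ^ k) v := by
  rw [hasSum_int_iff_shift M (fun n hn => by rw [hM n hn, zero_mul])]
  have hfun : (fun k : ℕ => d.coeff (M + k) * t ^ (M + (k : ℤ))) =
      fun k : ℕ => (d.coeff (M + k) * t ^ k) * t ^ M := by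
    funext k
    rw [zpow_add₀ ht, zpow_natCast]
    ring
  rw [hfun]
  exact hasSum_mul_right_iff (zpow_ne_zero M ht)

theorem HasTExp.eq_zero {N : ℕ} (hN : 0 < N) {d : LaurentSeries ℂ}
    (h : HasTExp N (fun _ => 0) d) : d = 0 := by
  by_contra hd
  rw [hasTExp_iff] at h
  have hM : ∀ n : ℤ, n < d.order → d.coeff n = 0 := fun n hn =>
    HahnSeries.coeff_eq_zero_of_lt_order hn
  have key : ∀ t : ℂ, t ≠ 0 → ‖t‖ < 1 →
      HasSum (fun k : ℕ => d.coeff (d.order + k) * t ^ k) 0 := by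
    intro t ht0 ht1
    obtain ⟨τ, rfl⟩ := exists_tParam_eq hN ht0 ht1
    have h1 := h τ
    rw [show (0 : ℂ) = 0 * tParam N τ ^ d.order by rw [zero_mul]] at h1
    exact (hasSum_laurent_iff ht0 d.order hM 0).mp h1
  have h0 := coeff_zero_eq_zero_of_hasSum (a := fun k : ℕ => d.coeff (d.order + k)) key
  simp only [Nat.cast_zero, add_zero] at h0
  exact hd (HahnSeries.coeff_order_eq_zero.mp h0)

/-- identity theorem -/
theorem HasTExp.unique {N : ℕ} (hN : 0 < N) {g : ℍ → ℂ} {s₁ s₂ : LaurentSeries ℂ}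
    (h₁ : HasTExp N g s₁) (h₂ : HasTExp N g s₂) : s₁ = s₂ := by
  have h := (h₁.sub h₂).congr (g₂ := fun _ => 0) (fun τ => by simp)
  exact sub_eq_zero.mp (HasTExp.eq_zero hN h)

/-- coefficients of `single m 1 * ofPowerSeries p`. -/
theorem coeff_single_mul_ofPowerSeries (m : ℤ) (p : PowerSeries ℂ) (k : ℕ) :
    (HahnSeries.single m (1 : ℂ) * HahnSeries.ofPowerSeries ℤ ℂ p).coeff (m + k) =
      PowerSeries.coeff k p := by
  have h := HahnSeries.coeff_single_mul_add (r := (1 : ℂ))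
    (x := HahnSeries.ofPowerSeries ℤ ℂ p) (a := (k : ℤ)) (b := m)
  rw [show m + (k : ℤ) = (k : ℤ) + m by ring, h, one_mul, HahnSeries.ofPowerSeries_apply_coeff]

theorem coeff_single_mul_ofPowerSeries_of_lt (m : ℤ) (p : PowerSeries ℂ) {n : ℤ} (hn : n < m) :
    (HahnSeries.single m (1 : ℂ) * HahnSeries.ofPowerSeries ℤ ℂ p).coeff n = 0 := by
  have h := HahnSeries.coeff_single_mul_add (r := (1 : ℂ))
    (x := HahnSeries.ofPowerSeries ℤ ℂ p) (a := n - m) (b := m)
  rw [show n - m + m = n by ring] at h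
  rw [h, one_mul]
  exact ModularCurve.ofPowerSeries_coeff_of_neg p (by omega)

/-- inverse of a nowhere vanishing function -/
theorem HasTExp.inv {N : ℕ} (hN : 0 < N) {g : ℍ → ℂ} {s : LaurentSeries ℂ}
    (h : HasTExp N g s) (hg : ∀ τ, g τ ≠ 0) : HasTExp N (fun τ => (g τ)⁻¹) s⁻¹ := by
  have h' := hasTExp_iff.mp h
  have hs : s ≠ 0 := by
    rintro rfl
    have := h' UpperHalfPlane.I
    simp only [HahnSeries.coeff_zero, zero_mul] at this
    exact hg _ (this.unique hasSum_zero)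
  set M : ℤ := s.order with hMdef
  have hM : ∀ n : ℤ, n < M → s.coeff n = 0 := fun n hn =>
    HahnSeries.coeff_eq_zero_of_lt_order hn
  set a : ℕ → ℂ := fun k => s.coeff (M + k) with ha
  have ha0 : a 0 ≠ 0 := by
    simp only [ha, Nat.cast_zero, add_zero]
    exact fun h0 => hs (HahnSeries.coeff_order_eq_zero.mp h0)
  -- the power series part converges on the punctured disc
  have hA : ∀ τ : ℍ, HasSum (fun k : ℕ => a k * tParam N τ ^ k)
      (g τ * tParam N τ ^ (-M)) := by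
    intro τ
    have ht := tParam_ne_zero N τ
    refine (hasSum_laurent_iff ht M hM _).mp ?_
    rw [mul_assoc, ← zpow_add₀ ht, neg_add_cancel, zpow_zero, mul_one]
    exact h' τ
  have hsum : ∀ t : ℂ, t ≠ 0 → ‖t‖ < 1 → Summable (fun k : ℕ => a k * t ^ k) := by
    intro t ht0 ht1
    obtain ⟨τ, rfl⟩ := exists_tParam_eq hN ht0 ht1
    exact (hA τ).summable
  set A : ℂ → ℂ := fun t => ∑' k : ℕ, a k * t ^ k with hAdef
  have hAd : DifferentiableOn ℂ A (Metric.ball 0 1) := differentiableOn_tsum_pow hsum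
  have hAτ : ∀ τ : ℍ, A (tParam N τ) = g τ * tParam N τ ^ (-M) := fun τ => (hA τ).tsum_eq
  have hAne : ∀ t ∈ Metric.ball (0 : ℂ) 1, A t ≠ 0 := by
    intro t ht
    by_cases ht0 : t = 0
    · rw [ht0, hAdef]
      simp only
      rw [tsum_pow_zero]
      exact ha0
    · obtain ⟨τ, rfl⟩ := exists_tParam_eq hN ht0 (by simpa using ht)
      rw [hAτ]
      exact mul_ne_zero (hg τ) (zpow_ne_zero _ ht0)
  have hBd : DifferentiableOn ℂ (fun t => (A t)⁻¹) (Metric.ball 0 1) := hAd.inv hAne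
  have hT := Complex.hasSum_taylorSeries_on_ball hBd
  set b : ℕ → ℂ := fun k => (k.factorial : ℂ)⁻¹ * iteratedDeriv k (fun t => (A t)⁻¹) 0 with hb
  have hB : ∀ t ∈ Metric.ball (0 : ℂ) 1, HasSum (fun k : ℕ => b k * t ^ k) (A t)⁻¹ := by
    intro t ht
    have := hT ht
    refine this.congr_fun (fun k => ?_)   -- may need adjusting
    simp only [hb, sub_zero, smul_eq_mul]
    ring
  set s' : LaurentSeries ℂ :=
    HahnSeries.single (-M) 1 * HahnSeries.ofPowerSeries ℤ ℂ (PowerSeries.mk b) with hs'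
  have hs'exp : HasTExp N (fun τ => (g τ)⁻¹) s' := by
    rw [hasTExp_iff]
    intro τ
    have ht := tParam_ne_zero N τ
    have hmem : tParam N τ ∈ Metric.ball (0 : ℂ) 1 := by
      simpa using norm_tParam_lt_one hN τ
    have h1 := hB _ hmem
    rw [hAτ] at h1
    have h2 : (g τ)⁻¹ = (g τ * tParam N τ ^ (-M))⁻¹ * tParam N τ ^ (-M) := by
      rw [mul_inv, mul_assoc, inv_mul_cancel₀ (zpow_ne_zero _ ht), mul_one]
    rw [h2]
    refine (hasSum_laurent_iff ht (-M)
      (fun n hn => coeff_single_mul_ofPowerSeries_of_lt (-M) _ hn) _).mpr ?_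
    refine h1.congr_fun (fun k => ?_)
    rw [coeff_single_mul_ofPowerSeries, PowerSeries.coeff_mk]
  have hprod := (h.mul hN hs'exp).congr (g₂ := fun _ => 1)
    (fun τ => by simp [mul_inv_cancel₀ (hg τ)])
  have hone : s * s' = 1 := HasTExp.unique hN hprod (HasTExp.one N)
  have : s⁻¹ = s' := by
    rw [inv_eq_iff_eq_inv]
    exact eq_inv_of_mul_eq_one_left hone
  rw [this]
  exact hs'exp




/-! ### integer powers -/

theorem HasTExp.zpow {N : ℕ} (hN : 0 < N) {g : ℍ → ℂ} {s : LaurentSeries ℂ}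
    (h : HasTExp N g s) (hg : ∀ τ, g τ ≠ 0) (n : ℤ) :
    HasTExp N (fun τ => g τ ^ n) (s ^ n) := by
  rcases n with k | k
  · have := h.pow hN k
    simp only [Int.ofNat_eq_natCast, zpow_natCast]
    exact this.congr (fun τ => by simp)
  · have := (h.pow hN (k + 1)).inv hN (fun τ => by simpa using pow_ne_zero (k + 1) (hg τ))
    simp only [zpow_negSucc]
    exact this.congr (fun τ => by simp)

/-! ### substitution -/

/-- General substitution lemma: if `tParam M (φ τ) = ω * (tParam N τ) ^ e`, then `F ∘ φ` has the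
expansion `Σ sₙ ωⁿ 𝕋^(e n)`; the target series `t` is given by its characterising properties. -/
theorem HasTExp.subst {M N : ℕ} {F : ℍ → ℂ} {s : LaurentSeries ℂ} (hF : HasTExp M F s)
    (φ : ℍ → ℍ) (ω : ℂ) (e : ℕ) (he : 0 < e)
    (hφ : ∀ τ : ℍ, tParam M (φ τ) = ω * tParam N τ ^ e)
    (t : LaurentSeries ℂ) (ht : ∀ n : ℤ, t.coeff ((e : ℤ) * n) = s.coeff n * ω ^ n)
    (ht0 : ∀ k : ℤ, ¬ (e : ℤ) ∣ k → t.coeff k = 0) :
    HasTExp N (fun τ => F (φ τ)) t := by
  rw [hasTExp_iff] at hF ⊢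
  intro τ
  have h1 := hF (φ τ)
  have he' : (e : ℤ) ≠ 0 := by exact_mod_cast he.ne'
  have hinj : Function.Injective (fun n : ℤ => (e : ℤ) * n) := mul_right_injective₀ he'
  have hrange : ∀ k : ℤ, k ∉ Set.range (fun n : ℤ => (e : ℤ) * n) →
      t.coeff k * tParam N τ ^ k = 0 := by
    intro k hk
    rw [ht0 k (fun ⟨c, hc⟩ => hk ⟨c, hc.symm⟩), zero_mul]
  refine (hinj.hasSum_iff hrange).mp ?_
  refine h1.congr_fun (fun n => ?_)
  simp only [Function.comp_apply]
  rw [ht, hφ, mul_zpow, mul_assoc, zpow_mul, zpow_natCast]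

/-- the parameter at an affine image. -/
theorem tParam_affine {M N a d e : ℕ} {b : ℤ} (hd : 0 < d) (hM : 0 < M) (hN : 0 < N)
    (he : a * N = e * (d * M)) (τ τ' : ℍ) (h : (τ' : ℂ) = ((a : ℂ) * (τ : ℂ) + (b : ℂ)) / (d : ℂ)) :
    tParam M τ' = Complex.exp (2 * Real.pi * Complex.I * (b : ℂ) / ((d : ℂ) * (M : ℂ))) *
      tParam N τ ^ e := by
  have hd' : (d : ℂ) ≠ 0 := by exact_mod_cast hd.ne'
  have hM' : (M : ℂ) ≠ 0 := by exact_mod_cast hM.ne'
  have hN' : (N : ℂ) ≠ 0 := by exact_mod_cast hN.ne'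
  have he' : (a : ℂ) * (N : ℂ) = (e : ℂ) * ((d : ℂ) * (M : ℂ)) := by exact_mod_cast he
  simp only [tParam, Function.Periodic.qParam, Complex.ofReal_natCast]
  rw [← Complex.exp_nat_mul, ← Complex.exp_add, h]
  congr 1
  field_simp
  linear_combination (τ : ℂ) * he'


/-! ### twisting and dilating a Laurent series -/

/-- `twist ω s = Σ sₙ ωⁿ qⁿ`. -/
def twist (ω : ℂ) (s : LaurentSeries ℂ) : LaurentSeries ℂ where
  coeff n := s.coeff n * ω ^ n
  isPWO_support' := s.isPWO_support.mono (fun n hn => by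
    simp only [Function.mem_support, ne_eq] at hn ⊢
    exact fun h0 => hn (by rw [h0, zero_mul]))

@[simp] theorem coeff_twist (ω : ℂ) (s : LaurentSeries ℂ) (n : ℤ) :
    (twist ω s).coeff n = s.coeff n * ω ^ n := rfl

/-- `twistDil ω e s = Σ sₙ ωⁿ q^(e n)`. -/
def twistDil (ω : ℂ) (e : ℕ) [NeZero e] (s : LaurentSeries ℂ) : LaurentSeries ℂ :=
  qExpand ℂ e (twist ω s)

theorem coeff_twistDil_mul (ω : ℂ) (e : ℕ) [NeZero e] (s : LaurentSeries ℂ) (n : ℤ) :
    (twistDil ω e s).coeff ((e : ℤ) * n) = s.coeff n * ω ^ n := by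
  rw [twistDil, qExpand_coeff_mul, coeff_twist]

theorem coeff_twistDil_of_not_dvd (ω : ℂ) (e : ℕ) [NeZero e] (s : LaurentSeries ℂ) {k : ℤ}
    (hk : ¬ (e : ℤ) ∣ k) : (twistDil ω e s).coeff k = 0 := by
  rw [twistDil, qExpand_coeff_of_not_dvd e _ hk]

theorem twist_one (s : LaurentSeries ℂ) : twist 1 s = s := by
  ext n
  simp

theorem twistDil_one_left (e : ℕ) [NeZero e] (s : LaurentSeries ℂ) :
    twistDil 1 e s = qExpand ℂ e s := by
  rw [twistDil, twist_one]

/-- substitution with the explicit series `twistDil`. -/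
theorem HasTExp.subst_twistDil {M N : ℕ} {F : ℍ → ℂ} {s : LaurentSeries ℂ} (hF : HasTExp M F s)
    (φ : ℍ → ℍ) (ω : ℂ) (e : ℕ) [NeZero e]
    (hφ : ∀ τ : ℍ, tParam M (φ τ) = ω * tParam N τ ^ e) :
    HasTExp N (fun τ => F (φ τ)) (twistDil ω e s) :=
  hF.subst φ ω e (Nat.pos_of_ne_zero (NeZero.ne e)) hφ _ (coeff_twistDil_mul ω e s)
    (fun _ hk => coeff_twistDil_of_not_dvd ω e s hk)

/-- affine substitution `τ ↦ (a τ + b) / d`, explicit series. -/
theorem HasTExp.affine {M N a d e : ℕ} [NeZero e] {b : ℤ} {F : ℍ → ℂ} {s : LaurentSeries ℂ}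
    (hF : HasTExp M F s) (hd : 0 < d) (hM : 0 < M) (hN : 0 < N) (he : a * N = e * (d * M))
    (φ : ℍ → ℍ) (hφ : ∀ τ : ℍ, ((φ τ : ℍ) : ℂ) = ((a : ℂ) * (τ : ℂ) + (b : ℂ)) / (d : ℂ)) :
    HasTExp N (fun τ => F (φ τ))
      (twistDil (Complex.exp (2 * Real.pi * Complex.I * (b : ℂ) / ((d : ℂ) * (M : ℂ)))) e s) :=
  hF.subst_twistDil φ _ e (fun τ => tParam_affine hd hM hN he τ (φ τ) (hφ τ))

/-- change of period: a `q`-expansion is a `𝕋`-expansion in powers of `𝕋^N`. -/
theorem HasTExp.of_one {N : ℕ} [NeZero N] {g : ℍ → ℂ} {s : LaurentSeries ℂ}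
    (h : HasTExp 1 g s) : HasTExp N g (qExpand ℂ N s) := by
  have hN : 0 < N := Nat.pos_of_ne_zero (NeZero.ne N)
  have := h.affine (a := 1) (d := 1) (e := N) (b := 0) (N := N) one_pos one_pos hN (by ring) id
    (fun τ => by simp)
  simp only [Int.cast_zero, mul_zero, zero_div, Complex.exp_zero, id] at this
  rwa [twistDil_one_left] at this

/-- scaling `τ ↦ d τ`. -/
theorem HasTExp.scale {g : ℍ → ℂ} {s : LaurentSeries ℂ} (h : HasTExp 1 g s) (d : ℕ) [NeZero d] :
    HasTExp 1 (fun τ => g (scaleH d τ)) (qExpand ℂ d s) := by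
  have hd : 0 < d := Nat.pos_of_ne_zero (NeZero.ne d)
  have := h.affine (a := d) (d := 1) (e := d) (b := 0) (N := 1) one_pos one_pos one_pos (by ring)
    (scaleH d) (fun τ => by simp [scaleH, hd])
  simp only [Int.cast_zero, mul_zero, zero_div, Complex.exp_zero] at this
  rwa [twistDil_one_left] at this

/-- the translate `τ ↦ τ + 1` multiplies `tParam N` by `exp (2πi/N)`. -/
theorem tParam_vadd_one {N : ℕ} (hN : 0 < N) (τ : ℍ) :
    tParam N ((1 : ℝ) +ᵥ τ) = Complex.exp (2 * Real.pi * Complex.I / (N : ℂ)) * tParam N τ := by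
  have hN' : (N : ℂ) ≠ 0 := by exact_mod_cast hN.ne'
  simp only [tParam, Function.Periodic.qParam, Complex.ofReal_natCast, UpperHalfPlane.coe_vadd]
  rw [← Complex.exp_add]
  congr 1
  push_cast
  field_simp

/-- a `𝕋`-expansion of a `1`-periodic function is a `q`-expansion. -/
theorem HasTExp.to_one {N : ℕ} [NeZero N] {g : ℍ → ℂ} {s : LaurentSeries ℂ}
    (h : HasTExp N g s) (hper : ∀ τ : ℍ, g ((1 : ℝ) +ᵥ τ) = g τ) :
    ∃ s₁ : LaurentSeries ℂ, HasTExp 1 g s₁ ∧ s = qExpand ℂ N s₁ := by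
  have hN : 0 < N := Nat.pos_of_ne_zero (NeZero.ne N)
  have hNz : (N : ℤ) ≠ 0 := by exact_mod_cast hN.ne'
  set ζ : ℂ := Complex.exp (2 * Real.pi * Complex.I / (N : ℂ)) with hζ
  have hprim : IsPrimitiveRoot ζ N := Complex.isPrimitiveRoot_exp N hN.ne'
  -- `s` is invariant under the twist by `ζ`
  have h1 : HasTExp N (fun τ => g ((1 : ℝ) +ᵥ τ)) (twist ζ s) := by
    refine h.subst (fun τ => (1 : ℝ) +ᵥ τ) ζ 1 one_pos (fun τ => ?_) _ (fun n => ?_)
      (fun k hk => absurd (one_dvd k) (by simp at hk))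
    · rw [pow_one]; exact tParam_vadd_one hN τ
    · simp
  have h2 : twist ζ s = s := HasTExp.unique hN (h1.congr hper) h
  have hvan : ∀ n : ℤ, ¬ (N : ℤ) ∣ n → s.coeff n = 0 := by
    intro n hn
    have h3 : (twist ζ s).coeff n = s.coeff n := by rw [h2]
    rw [coeff_twist] at h3
    by_contra hne
    have h4 : ζ ^ n = 1 := by
      have := mul_left_cancel₀ hne (h3.trans (mul_one _).symm)
      exact this
    exact hn ((hprim.zpow_eq_one_iff_dvd n).mp h4)
  -- the contracted series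
  have hbdd : BddBelow (Function.support (fun k : ℤ => s.coeff ((N : ℤ) * k))) := by
    refine ⟨min s.order 0, fun k hk => ?_⟩
    simp only [Function.mem_support, ne_eq] at hk
    by_contra hlt
    rw [not_le] at hlt
    apply hk
    apply HahnSeries.coeff_eq_zero_of_lt_order
    have hk0 : k < 0 := lt_of_lt_of_le hlt (min_le_right _ _)
    have hks : k < s.order := lt_of_lt_of_le hlt (min_le_left _ _)
    have hN1 : (1 : ℤ) ≤ N := by exact_mod_cast hN
    nlinarith
  set s₁ : LaurentSeries ℂ := HahnSeries.ofSuppBddBelow _ hbdd with hs₁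
  have hs₁c : ∀ k : ℤ, s₁.coeff k = s.coeff ((N : ℤ) * k) := fun k => by
    rw [hs₁, HahnSeries.coeff_ofSuppBddBelow]
  have hs : s = qExpand ℂ N s₁ := by
    ext n
    by_cases hn : (N : ℤ) ∣ n
    · obtain ⟨k, rfl⟩ := hn
      rw [qExpand_coeff_mul, hs₁c]
    · rw [hvan n hn, qExpand_coeff_of_not_dvd N _ hn]
  refine ⟨s₁, ?_, hs⟩
  rw [hasTExp_iff] at h ⊢
  intro τ
  have hinj : Function.Injective (fun n : ℤ => (N : ℤ) * n) := mul_right_injective₀ hNz
  have hrange : ∀ k : ℤ, k ∉ Set.range (fun n : ℤ => (N : ℤ) * n) →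
      s.coeff k * tParam N τ ^ k = 0 := by
    intro k hk
    rw [hvan k (fun ⟨c, hc⟩ => hk ⟨c, hc.symm⟩), zero_mul]
  refine ((hinj.hasSum_iff hrange).mpr (h τ)).congr_fun (fun n => ?_)
  simp only [Function.comp_apply]
  have ht : tParam 1 τ = tParam N τ ^ N := by
    have := tParam_affine (M := 1) (N := N) (a := 1) (d := 1) (e := N) (b := 0) one_pos one_pos hN
      (by ring) τ τ (by simp)
    simpa using this
  rw [hs₁c, ht, ← zpow_natCast, ← zpow_mul]


end Fermat.Agent.S28
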