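import Fermat.Agent.S28.TExp

/-!
# S28 Part I: algebra of Laurent series with coefficients in a subring `S ⊆ ℂ`

* closure of `CoeffIn S` under ring operations, `twist`, `qExpand`, `twistDil`, and under
  inverses / integer powers when the leading coefficient is a unit of `S`;
* `order` / `leadingCoeff` of `twist`, `qExpand`, `twistDil`, inverses, integer powers, products.
-/

set_option autoImplicit false

open ModularCurve HahnSeries

noncomputable section

namespace Fermat.Agent.S28

variable {S : Subring ℂ}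

/-! ### order characterisation -/

/-- characterisation of the order of a Laurent series. -/
theorem order_eq_of_coeff {R : Type*} [Zero R] {x : LaurentSeries R} {m : ℤ}
    (hm : x.coeff m ≠ 0) (hlt : ∀ n : ℤ, n < m → x.coeff n = 0) : x.order = m := by
  refine le_antisymm (HahnSeries.order_le_of_coeff_ne_zero hm) ?_
  by_contra hlt'
  rw [not_le] at hlt'
  exact HahnSeries.ne_zero_of_coeff_ne_zero hm (HahnSeries.coeff_order_eq_zero.mp (hlt _ hlt'))

theorem coeff_order_ne_zero' {R : Type*} [Zero R] {x : LaurentSeries R} (hx : x ≠ 0) :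
    x.coeff x.order ≠ 0 := fun h => hx (HahnSeries.coeff_order_eq_zero.mp h)

/-! ### lifting to `LaurentSeries S` -/

/-- the lift of a series with coefficients in `S`. -/
def liftCoeff (S : Subring ℂ) (s : LaurentSeries ℂ) (hs : CoeffIn S s) : LaurentSeries S where
  coeff n := ⟨s.coeff n, hs n⟩
  isPWO_support' := s.isPWO_support.mono (fun n hn => by
    simp only [Function.mem_support, ne_eq] at hn ⊢
    intro h0
    apply hn
    exact Subtype.ext h0)

@[simp] theorem coeff_liftCoeff (s : LaurentSeries ℂ) (hs : CoeffIn S s) (n : ℤ) :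
    ((liftCoeff S s hs).coeff n : ℂ) = s.coeff n := rfl

theorem coeffMap_liftCoeff (s : LaurentSeries ℂ) (hs : CoeffIn S s) :
    coeffMap S.subtype (liftCoeff S s hs) = s := by
  ext n
  simp

theorem coeffIn_coeffMap (x : LaurentSeries S) : CoeffIn S (coeffMap S.subtype x) :=
  fun n => (x.coeff n).2

theorem coeffIn_iff {s : LaurentSeries ℂ} :
    CoeffIn S s ↔ ∃ x : LaurentSeries S, coeffMap S.subtype x = s :=
  ⟨fun hs => ⟨liftCoeff S s hs, coeffMap_liftCoeff s hs⟩, fun ⟨x, hx⟩ => hx ▸ coeffIn_coeffMap x⟩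

/-! ### closure under ring operations -/

theorem coeffIn_zero : CoeffIn S 0 := fun n => by simp [S.zero_mem]

theorem coeffIn_one : CoeffIn S 1 :=
  coeffIn_iff.mpr ⟨1, map_one _⟩

theorem coeffIn_single (n : ℤ) {c : ℂ} (hc : c ∈ S) : CoeffIn S (HahnSeries.single n c) := by
  intro m
  rcases eq_or_ne m n with rfl | hm
  · simpa using hc
  · rw [HahnSeries.coeff_single_of_ne hm]; exact S.zero_mem

theorem coeffIn_C {c : ℂ} (hc : c ∈ S) : CoeffIn S (HahnSeries.C c) :=
  coeffIn_single 0 hc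

theorem CoeffIn.add {s₁ s₂ : LaurentSeries ℂ} (h₁ : CoeffIn S s₁) (h₂ : CoeffIn S s₂) :
    CoeffIn S (s₁ + s₂) := fun n => by
  rw [HahnSeries.coeff_add]; exact S.add_mem (h₁ n) (h₂ n)

theorem CoeffIn.neg {s : LaurentSeries ℂ} (h : CoeffIn S s) : CoeffIn S (-s) := fun n => by
  rw [HahnSeries.coeff_neg]; exact S.neg_mem (h n)

theorem CoeffIn.sub {s₁ s₂ : LaurentSeries ℂ} (h₁ : CoeffIn S s₁) (h₂ : CoeffIn S s₂) :
    CoeffIn S (s₁ - s₂) := by
  rw [sub_eq_add_neg]; exact h₁.add h₂.neg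

theorem CoeffIn.mul {s₁ s₂ : LaurentSeries ℂ} (h₁ : CoeffIn S s₁) (h₂ : CoeffIn S s₂) :
    CoeffIn S (s₁ * s₂) := by
  obtain ⟨x₁, rfl⟩ := coeffIn_iff.mp h₁
  obtain ⟨x₂, rfl⟩ := coeffIn_iff.mp h₂
  rw [← map_mul]
  exact coeffIn_coeffMap _

theorem CoeffIn.pow {s : LaurentSeries ℂ} (h : CoeffIn S s) (k : ℕ) : CoeffIn S (s ^ k) := by
  induction k with
  | zero => rw [pow_zero]; exact coeffIn_one
  | succ k ih => rw [pow_succ]; exact ih.mul h

theorem CoeffIn.finset_sum {ι : Type*} (t : Finset ι) {s : ι → LaurentSeries ℂ}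
    (h : ∀ i ∈ t, CoeffIn S (s i)) : CoeffIn S (∑ i ∈ t, s i) := by
  classical
  induction t using Finset.induction_on with
  | empty => rw [Finset.sum_empty]; exact coeffIn_zero
  | insert a t ha ih =>
    rw [Finset.sum_insert ha]
    exact (h a (Finset.mem_insert_self a t)).add (ih fun i hi => h i (Finset.mem_insert_of_mem hi))

theorem CoeffIn.finset_prod {ι : Type*} (t : Finset ι) {s : ι → LaurentSeries ℂ}
    (h : ∀ i ∈ t, CoeffIn S (s i)) : CoeffIn S (∏ i ∈ t, s i) := by
  classical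
  induction t using Finset.induction_on with
  | empty => rw [Finset.prod_empty]; exact coeffIn_one
  | insert a t ha ih =>
    rw [Finset.prod_insert ha]
    exact (h a (Finset.mem_insert_self a t)).mul (ih fun i hi => h i (Finset.mem_insert_of_mem hi))

theorem CoeffIn.mono {S T : Subring ℂ} (hST : S ≤ T) {s : LaurentSeries ℂ} (h : CoeffIn S s) :
    CoeffIn T s := fun n => hST (h n)

/-! ### inverses -/

theorem order_liftCoeff (s : LaurentSeries ℂ) (hs : CoeffIn S s) :
    (liftCoeff S s hs).order = s.order := by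
  by_cases h0 : s = 0
  · subst h0
    have : liftCoeff S 0 hs = 0 := by
      ext n
      simp
    rw [this, HahnSeries.order_zero, HahnSeries.order_zero]
  · refine order_eq_of_coeff ?_ ?_
    · intro h
      apply coeff_order_ne_zero' h0
      have := congrArg (Subtype.val) h
      simpa using this
    · intro n hn
      apply Subtype.ext
      simpa using HahnSeries.coeff_eq_zero_of_lt_order hn

theorem leadingCoeff_liftCoeff (s : LaurentSeries ℂ) (hs : CoeffIn S s) :
    ((liftCoeff S s hs).leadingCoeff : ℂ) = s.leadingCoeff := by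
  rw [HahnSeries.leadingCoeff_eq, HahnSeries.leadingCoeff_eq, order_liftCoeff, coeff_liftCoeff]

/-- the inverse of a series with coefficients in `S` whose leading coefficient is a unit of `S`
has coefficients in `S`. -/
theorem CoeffIn.inv {s : LaurentSeries ℂ} (hs : CoeffIn S s) (hu : (s.leadingCoeff)⁻¹ ∈ S) :
    CoeffIn S s⁻¹ := by
  by_cases h0 : s = 0
  · subst h0
    rw [inv_zero]; exact coeffIn_zero
  have hlc : s.leadingCoeff ≠ 0 := HahnSeries.leadingCoeff_ne_zero.mpr h0
  have hunit : IsUnit (liftCoeff S s hs).leadingCoeff := by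
    refine IsUnit.of_mul_eq_one ⟨(s.leadingCoeff)⁻¹, hu⟩ ?_
    apply Subtype.ext
    rw [Subring.coe_mul, leadingCoeff_liftCoeff, Subring.coe_one]
    exact mul_inv_cancel₀ hlc
  obtain ⟨u, hu'⟩ := HahnSeries.isUnit_iff.mpr hunit
  have h1 : coeffMap S.subtype (liftCoeff S s hs) * coeffMap S.subtype (↑u⁻¹ : LaurentSeries S)
      = 1 := by
    rw [← map_mul, ← hu', Units.mul_inv, map_one]
  rw [coeffMap_liftCoeff] at h1
  have : s⁻¹ = coeffMap S.subtype (↑u⁻¹ : LaurentSeries S) := by
    rw [inv_eq_iff_eq_inv]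
    exact eq_inv_of_mul_eq_one_left h1
  rw [this]
  exact coeffIn_coeffMap _

theorem leadingCoeff_pow' (s : LaurentSeries ℂ) (k : ℕ) :
    (s ^ k).leadingCoeff = s.leadingCoeff ^ k := by
  induction k with
  | zero => rw [pow_zero, pow_zero, HahnSeries.leadingCoeff_one]
  | succ k ih => rw [pow_succ, pow_succ, HahnSeries.leadingCoeff_mul, ih]

theorem CoeffIn.zpow {s : LaurentSeries ℂ} (hs : CoeffIn S s) (hu : (s.leadingCoeff)⁻¹ ∈ S)
    (n : ℤ) : CoeffIn S (s ^ n) := by
  rcases n with k | k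
  · simpa using hs.pow k
  · rw [zpow_negSucc]
    refine (hs.pow (k + 1)).inv ?_
    rw [leadingCoeff_pow', ← inv_pow]
    exact S.pow_mem hu _

/-! ### `order` and `leadingCoeff` of inverses, powers, products -/

theorem order_mul' {s₁ s₂ : LaurentSeries ℂ} (h₁ : s₁ ≠ 0) (h₂ : s₂ ≠ 0) :
    (s₁ * s₂).order = s₁.order + s₂.order :=
  HahnSeries.order_mul_of_ne_zero (mul_ne_zero (HahnSeries.leadingCoeff_ne_zero.mpr h₁)
    (HahnSeries.leadingCoeff_ne_zero.mpr h₂))

theorem order_inv' {s : LaurentSeries ℂ} (h : s ≠ 0) : (s⁻¹).order = -s.order := by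
  have h1 := order_mul' h (inv_ne_zero h)
  rw [mul_inv_cancel₀ h, HahnSeries.order_one] at h1
  omega

theorem leadingCoeff_inv' (s : LaurentSeries ℂ) : (s⁻¹).leadingCoeff = (s.leadingCoeff)⁻¹ := by
  by_cases h : s = 0
  · subst h; simp
  have h1 := HahnSeries.leadingCoeff_mul s s⁻¹
  rw [mul_inv_cancel₀ h, HahnSeries.leadingCoeff_one] at h1
  exact eq_inv_of_mul_eq_one_right h1.symm

theorem order_pow' {s : LaurentSeries ℂ} (h : s ≠ 0) (k : ℕ) : (s ^ k).order = k * s.order := by
  induction k with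
  | zero => simp
  | succ k ih =>
    rw [pow_succ, order_mul' (pow_ne_zero k h) h, ih]
    push_cast
    ring

theorem order_zpow' {s : LaurentSeries ℂ} (h : s ≠ 0) (n : ℤ) : (s ^ n).order = n * s.order := by
  rcases n with k | k
  · simp
  · rw [zpow_negSucc, order_inv' (pow_ne_zero _ h), order_pow' h, Int.negSucc_eq]
    push_cast
    ring

theorem leadingCoeff_zpow' (s : LaurentSeries ℂ) (n : ℤ) :
    (s ^ n).leadingCoeff = s.leadingCoeff ^ n := by
  rcases n with k | k
  · simpa using leadingCoeff_pow' s k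
  · rw [zpow_negSucc, zpow_negSucc, leadingCoeff_inv', leadingCoeff_pow']

theorem order_finset_prod {ι : Type*} (t : Finset ι) {s : ι → LaurentSeries ℂ}
    (h : ∀ i ∈ t, s i ≠ 0) : (∏ i ∈ t, s i).order = ∑ i ∈ t, (s i).order := by
  classical
  induction t using Finset.induction_on with
  | empty => simp [HahnSeries.order_one]
  | insert a t ha ih =>
    rw [Finset.prod_insert ha, Finset.sum_insert ha,
      order_mul' (h a (Finset.mem_insert_self a t))
        (Finset.prod_ne_zero_iff.mpr fun i hi => h i (Finset.mem_insert_of_mem hi)),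
      ih fun i hi => h i (Finset.mem_insert_of_mem hi)]

theorem leadingCoeff_finset_prod {ι : Type*} (t : Finset ι) (s : ι → LaurentSeries ℂ) :
    (∏ i ∈ t, s i).leadingCoeff = ∏ i ∈ t, (s i).leadingCoeff := by
  classical
  induction t using Finset.induction_on with
  | empty => simp [HahnSeries.leadingCoeff_one]
  | insert a t ha ih =>
    rw [Finset.prod_insert ha, Finset.prod_insert ha, HahnSeries.leadingCoeff_mul, ih]

/-! ### `twist`, `qExpand`, `twistDil` -/

theorem zpow_mem_of_inv_mem {ω : ℂ} (hω : ω ∈ S) (hω' : ω⁻¹ ∈ S) (n : ℤ) : ω ^ n ∈ S := by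
  rcases n with k | k
  · simpa using S.pow_mem hω k
  · rw [zpow_negSucc, ← inv_pow]
    exact S.pow_mem hω' _

theorem CoeffIn.twist {s : LaurentSeries ℂ} (hs : CoeffIn S s) {ω : ℂ} (hω : ω ∈ S)
    (hω' : ω⁻¹ ∈ S) : CoeffIn S (twist ω s) := fun n => by
  rw [coeff_twist]
  exact S.mul_mem (hs n) (zpow_mem_of_inv_mem hω hω' n)

theorem CoeffIn.qExpand {s : LaurentSeries ℂ} (hs : CoeffIn S s) (e : ℕ) [NeZero e] :
    CoeffIn S (qExpand ℂ e s) := fun n => by
  by_cases hn : (e : ℤ) ∣ n
  · obtain ⟨k, rfl⟩ := hn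
    rw [qExpand_coeff_mul]; exact hs k
  · rw [qExpand_coeff_of_not_dvd e s hn]; exact S.zero_mem

theorem CoeffIn.twistDil {s : LaurentSeries ℂ} (hs : CoeffIn S s) {ω : ℂ} (hω : ω ∈ S)
    (hω' : ω⁻¹ ∈ S) (e : ℕ) [NeZero e] : CoeffIn S (twistDil ω e s) :=
  (hs.twist hω hω').qExpand e

theorem twist_ne_zero {ω : ℂ} (hω : ω ≠ 0) {s : LaurentSeries ℂ} (hs : s ≠ 0) :
    twist ω s ≠ 0 := by
  refine HahnSeries.ne_zero_of_coeff_ne_zero (g := s.order) ?_
  rw [coeff_twist]
  exact mul_ne_zero (coeff_order_ne_zero' hs) (zpow_ne_zero _ hω)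

theorem order_twist {ω : ℂ} (hω : ω ≠ 0) (s : LaurentSeries ℂ) :
    (twist ω s).order = s.order := by
  by_cases hs : s = 0
  · subst hs
    have : twist ω 0 = 0 := by ext n; simp
    rw [this]
  · refine order_eq_of_coeff ?_ ?_
    · rw [coeff_twist]
      exact mul_ne_zero (coeff_order_ne_zero' hs) (zpow_ne_zero _ hω)
    · intro n hn
      rw [coeff_twist, HahnSeries.coeff_eq_zero_of_lt_order hn, zero_mul]

theorem leadingCoeff_twist {ω : ℂ} (hω : ω ≠ 0) (s : LaurentSeries ℂ) :
    (twist ω s).leadingCoeff = s.leadingCoeff * ω ^ s.order := by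
  rw [HahnSeries.leadingCoeff_eq, HahnSeries.leadingCoeff_eq, order_twist hω, coeff_twist]

theorem qExpand_ne_zero (e : ℕ) [NeZero e] {s : LaurentSeries ℂ} (hs : s ≠ 0) :
    qExpand ℂ e s ≠ 0 := fun h => hs (qExpand_injective e (by rw [h, map_zero]))

theorem order_qExpand (e : ℕ) [NeZero e] (s : LaurentSeries ℂ) :
    (qExpand ℂ e s).order = (e : ℤ) * s.order := by
  by_cases hs : s = 0
  · subst hs
    rw [map_zero, HahnSeries.order_zero, mul_zero]
  · have he : (0 : ℤ) < e := by exact_mod_cast Nat.pos_of_ne_zero (NeZero.ne e)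
    refine order_eq_of_coeff ?_ ?_
    · rw [qExpand_coeff_mul]
      exact coeff_order_ne_zero' hs
    · intro n hn
      by_cases hdvd : (e : ℤ) ∣ n
      · obtain ⟨k, rfl⟩ := hdvd
        rw [qExpand_coeff_mul]
        exact HahnSeries.coeff_eq_zero_of_lt_order (lt_of_mul_lt_mul_left hn he.le)
      · exact qExpand_coeff_of_not_dvd e s hdvd

theorem leadingCoeff_qExpand (e : ℕ) [NeZero e] (s : LaurentSeries ℂ) :
    (qExpand ℂ e s).leadingCoeff = s.leadingCoeff := by
  rw [HahnSeries.leadingCoeff_eq, HahnSeries.leadingCoeff_eq, order_qExpand, qExpand_coeff_mul]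

theorem twistDil_ne_zero {ω : ℂ} (hω : ω ≠ 0) (e : ℕ) [NeZero e] {s : LaurentSeries ℂ}
    (hs : s ≠ 0) : twistDil ω e s ≠ 0 :=
  qExpand_ne_zero e (twist_ne_zero hω hs)

theorem order_twistDil {ω : ℂ} (hω : ω ≠ 0) (e : ℕ) [NeZero e] (s : LaurentSeries ℂ) :
    (twistDil ω e s).order = (e : ℤ) * s.order := by
  rw [twistDil, order_qExpand, order_twist hω]

theorem leadingCoeff_twistDil {ω : ℂ} (hω : ω ≠ 0) (e : ℕ) [NeZero e] (s : LaurentSeries ℂ) :
    (twistDil ω e s).leadingCoeff = s.leadingCoeff * ω ^ s.order := by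
  rw [twistDil, leadingCoeff_qExpand, leadingCoeff_twist hω]

/-! ### coefficients of `cEmb` -/

theorem coeff_cEmb (s : LaurentSeries ℚ) (n : ℤ) : (cEmb s).coeff n = ((s.coeff n : ℚ) : ℂ) := by
  simp [cEmb]

/-- a rational series with integer coefficients has coefficients in every subring of `ℂ`. -/
theorem coeffIn_cEmb_of_int {s : LaurentSeries ℚ} (hs : ∀ n : ℤ, ∃ k : ℤ, s.coeff n = (k : ℚ)) :
    CoeffIn S (cEmb s) := fun n => by
  obtain ⟨k, hk⟩ := hs n
  rw [coeff_cEmb, hk]
  push_cast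
  exact intCast_mem S k

theorem cEmb_ne_zero {s : LaurentSeries ℚ} (hs : s ≠ 0) : cEmb s ≠ 0 := by
  intro h
  apply hs
  ext n
  have := congrArg (fun x => x.coeff n) h
  simpa [coeff_cEmb] using this

theorem order_cEmb (s : LaurentSeries ℚ) : (cEmb s).order = s.order := by
  by_cases hs : s = 0
  · subst hs; simp
  · refine order_eq_of_coeff ?_ ?_
    · rw [coeff_cEmb]
      exact_mod_cast coeff_order_ne_zero' hs
    · intro n hn
      rw [coeff_cEmb, HahnSeries.coeff_eq_zero_of_lt_order hn]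
      simp

theorem leadingCoeff_cEmb (s : LaurentSeries ℚ) :
    (cEmb s).leadingCoeff = ((s.leadingCoeff : ℚ) : ℂ) := by
  rw [HahnSeries.leadingCoeff_eq, HahnSeries.leadingCoeff_eq, order_cEmb, coeff_cEmb]

end Fermat.Agent.S28
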