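import Fermat.Agent.S28.Defs

/-!
# S28 Part I: analytic definitions (sorry-free, shared)

* `HasTExp N g s` : the function `g : ℍ → ℂ` has the Laurent expansion `s` in the
  parameter `𝕋 = exp (2πiτ/N)`.
* `jAn`, `deltaAt`, `jAt`, `UAn` : analytic `j`, `Δ(δτ)`, `j(dτ)`, and the modular unit.
* `cEmb` : coefficient embedding `ℚ((q)) → ℂ((q))`.
-/

set_option autoImplicit false

open ModularCurve UpperHalfPlane Complex
open scoped MatrixGroups

noncomputable section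

namespace Fermat.Agent.S28

/-- The parameter `𝕋 = exp (2πiτ/N)` at the cusp `∞` for period `N`. -/
def tParam (N : ℕ) (τ : ℍ) : ℂ := Function.Periodic.qParam (N : ℝ) (τ : ℂ)

/-- `g` has Laurent expansion `s` in `𝕋 = exp (2πiτ/N)`:
`s = 𝕋^(-M) · p(𝕋)` with `p` a power series and `g(τ)·𝕋^M = Σ pₙ 𝕋ⁿ` for all `τ`. -/
def HasTExp (N : ℕ) (g : ℍ → ℂ) (s : LaurentSeries ℂ) : Prop :=
  ∃ (M : ℕ) (p : PowerSeries ℂ),
    s = HahnSeries.single (-(M : ℤ)) 1 * HahnSeries.ofPowerSeries ℤ ℂ p ∧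
    ∀ τ : ℍ, HasSum (fun n : ℕ => PowerSeries.coeff n p * tParam N τ ^ n)
      (g τ * tParam N τ ^ M)

/-- coefficient embedding `ℚ((q)) → ℂ((q))`. -/
def cEmb : LaurentSeries ℚ →+* LaurentSeries ℂ := coeffMap (algebraMap ℚ ℂ)

/-- multiplication by a positive natural number on `ℍ` (junk `τ` for `d = 0`). -/
def scaleH (d : ℕ) (τ : ℍ) : ℍ :=
  if h : 0 < d then ⟨(d : ℂ) * (τ : ℂ), by
    have : (0:ℝ) < d := by exact_mod_cast h
    simpa using mul_pos this τ.im_pos⟩ else τ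

/-- analytic `Δ`. -/
def deltaAn : ℍ → ℂ := ModularForm.discriminant

/-- analytic `j = E₄³ / Δ`. -/
def jAn (τ : ℍ) : ℂ := (ModularForm.E₄ τ) ^ 3 / ModularForm.discriminant τ

/-- analytic `Δ(δτ)`. -/
def deltaAt (δ : ℕ) (τ : ℍ) : ℂ := ModularForm.discriminant (scaleH δ τ)

/-- analytic `j(dτ)`. -/
def jAt (d : ℕ) (τ : ℍ) : ℂ := jAn (scaleH d τ)

/-- analytic modular unit `U = ∏_{δ ∣ N} Δ(δτ)^(δ μ(N/δ)) / Δ(τ)^φ(N)`. -/
def UAn (N : ℕ) (τ : ℍ) : ℂ :=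
  (∏ δ ∈ N.divisors, deltaAt δ τ ^ ((δ : ℤ) * ArithmeticFunction.moebius (N / δ))) *
    (ModularForm.discriminant τ ^ N.totient)⁻¹

/-- the subring `ℤ[ζ_N, 1/N] ⊆ ℂ`. -/
def cycRing (N : ℕ) : Subring ℂ :=
  Subring.closure {Complex.exp (2 * Real.pi * Complex.I / N), (N : ℂ)⁻¹}

/-- all coefficients of `s` lie in the subring `S`. -/
def CoeffIn (S : Subring ℂ) (s : LaurentSeries ℂ) : Prop := ∀ n : ℤ, s.coeff n ∈ S

end Fermat.Agent.S28
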