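import Fermat.Agent.S28.ADefs2

/-!
# S28 Part I (T6h): formal facts about the modular unit

`h52_IntMonic s m` : the rational Laurent series `s` is `q^m · p(q)` with `p ∈ ℤ⟦q⟧`,
`p(0) = 1`.  This class is closed under products, inverses, integer powers and `qExpand`.

Main results:
* `h52_modUnit_isMonicOfOrder` : `modUnit N` is monic of order `jordan2 N - N.totient`;
* `h52_modUnit_coeff_int` / `h52_modUnit_coeff` : its coefficients are integers, in particular
  they lie in `ℤ_(ℓ)`.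
-/

set_option autoImplicit false

open ModularCurve

noncomputable section

namespace Fermat.Agent.S28

/-- `s = q^m · p(q)` with `p ∈ ℤ⟦q⟧`, `p(0) = 1`. -/
def h52_IntMonic (s : LaurentSeries ℚ) (m : ℤ) : Prop :=
  ∃ p : PowerSeries ℤ, PowerSeries.constantCoeff p = 1 ∧
    s = HahnSeries.single m (1 : ℚ) *
      HahnSeries.ofPowerSeries ℤ ℚ (p.map (Int.castRingHom ℚ))

theorem h52_IntMonic.one : h52_IntMonic 1 0 := by
  refine ⟨1, by simp, ?_⟩
  simp

theorem h52_IntMonic.mul {s t : LaurentSeries ℚ} {m n : ℤ} (hs : h52_IntMonic s m)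
    (ht : h52_IntMonic t n) : h52_IntMonic (s * t) (m + n) := by
  obtain ⟨p, hp, rfl⟩ := hs
  obtain ⟨r, hr, rfl⟩ := ht
  refine ⟨p * r, by rw [map_mul, hp, hr, one_mul], ?_⟩
  rw [map_mul, map_mul]
  have : HahnSeries.single (m + n) (1 : ℚ) = HahnSeries.single m 1 * HahnSeries.single n 1 := by
    rw [HahnSeries.single_mul_single, one_mul]
  rw [this]
  ring

theorem h52_IntMonic.ne_zero {s : LaurentSeries ℚ} {m : ℤ} (hs : h52_IntMonic s m) :
    s ≠ 0 := by
  obtain ⟨p, hp, rfl⟩ := hs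
  refine mul_ne_zero (HahnSeries.single_ne_zero one_ne_zero) ?_
  intro h0
  have h1 : (p.map (Int.castRingHom ℚ)) = 0 :=
    HahnSeries.ofPowerSeries_injective (by rw [h0, map_zero])
  have h2 := congrArg (PowerSeries.constantCoeff (R := ℚ)) h1
  rw [← PowerSeries.coeff_zero_eq_constantCoeff, PowerSeries.coeff_map,
    PowerSeries.coeff_zero_eq_constantCoeff, hp] at h2
  simp at h2

theorem h52_IntMonic.inv {s : LaurentSeries ℚ} {m : ℤ} (hs : h52_IntMonic s m) :
    h52_IntMonic s⁻¹ (-m) := by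
  have hne := hs.ne_zero
  obtain ⟨p, hp, rfl⟩ := hs
  have hpu : PowerSeries.constantCoeff p = ((1 : ℤˣ) : ℤ) := by rw [hp]; rfl
  refine ⟨PowerSeries.invOfUnit p 1, by rw [PowerSeries.constantCoeff_invOfUnit]; simp, ?_⟩
  refine inv_eq_of_mul_eq_one_right ?_
  have h1 : HahnSeries.single m (1 : ℚ) * HahnSeries.single (-m) (1 : ℚ) = 1 := by
    rw [HahnSeries.single_mul_single, one_mul, add_neg_cancel]; rfl
  have h2 : HahnSeries.ofPowerSeries ℤ ℚ (p.map (Int.castRingHom ℚ)) *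
      HahnSeries.ofPowerSeries ℤ ℚ ((PowerSeries.invOfUnit p 1).map (Int.castRingHom ℚ)) = 1 := by
    rw [← map_mul, ← map_mul, PowerSeries.mul_invOfUnit p 1 hpu, map_one, map_one]
  calc HahnSeries.single m (1 : ℚ) * HahnSeries.ofPowerSeries ℤ ℚ (p.map (Int.castRingHom ℚ)) *
        (HahnSeries.single (-m) (1 : ℚ) *
          HahnSeries.ofPowerSeries ℤ ℚ ((PowerSeries.invOfUnit p 1).map (Int.castRingHom ℚ)))
      = (HahnSeries.single m (1 : ℚ) * HahnSeries.single (-m) (1 : ℚ)) *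
        (HahnSeries.ofPowerSeries ℤ ℚ (p.map (Int.castRingHom ℚ)) *
          HahnSeries.ofPowerSeries ℤ ℚ
            ((PowerSeries.invOfUnit p 1).map (Int.castRingHom ℚ))) := by ring
    _ = 1 := by rw [h1, h2, one_mul]

theorem h52_IntMonic.pow {s : LaurentSeries ℚ} {m : ℤ} (hs : h52_IntMonic s m) (k : ℕ) :
    h52_IntMonic (s ^ k) ((k : ℤ) * m) := by
  induction k with
  | zero => simpa using h52_IntMonic.one
  | succ k ih =>
    have := ih.mul hs
    rw [pow_succ]
    convert this using 1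
    push_cast; ring

theorem h52_IntMonic.zpow {s : LaurentSeries ℚ} {m : ℤ} (hs : h52_IntMonic s m) (k : ℤ) :
    h52_IntMonic (s ^ k) (k * m) := by
  obtain ⟨n, rfl | rfl⟩ := Int.eq_nat_or_neg k
  · rw [zpow_natCast]; exact hs.pow n
  · rw [zpow_neg, zpow_natCast]
    have := (hs.pow n).inv
    convert this using 1
    ring

theorem h52_IntMonic.prod {ι : Type*} (t : Finset ι) {s : ι → LaurentSeries ℚ} {m : ι → ℤ}
    (h : ∀ i ∈ t, h52_IntMonic (s i) (m i)) :
    h52_IntMonic (∏ i ∈ t, s i) (∑ i ∈ t, m i) := by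
  classical
  induction t using Finset.induction_on with
  | empty => simpa using h52_IntMonic.one
  | insert a t ha ih =>
    rw [Finset.prod_insert ha, Finset.sum_insert ha]
    exact (h a (Finset.mem_insert_self a t)).mul
      (ih fun i hi => h i (Finset.mem_insert_of_mem hi))

/-- The power series `p(q^d)`. -/
def h52_expandPS (d : ℕ) (p : PowerSeries ℤ) : PowerSeries ℤ :=
  PowerSeries.mk fun n => if d ∣ n then PowerSeries.coeff (n / d) p else 0

theorem h52_qExpand_ofPowerSeries (d : ℕ) [NeZero d] (p : PowerSeries ℤ) :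
    qExpand ℚ d (HahnSeries.ofPowerSeries ℤ ℚ (p.map (Int.castRingHom ℚ))) =
      HahnSeries.ofPowerSeries ℤ ℚ ((h52_expandPS d p).map (Int.castRingHom ℚ)) := by
  have hd : 0 < d := Nat.pos_of_ne_zero (NeZero.ne d)
  ext k
  by_cases hk0 : k < 0
  · rw [ofPowerSeries_coeff_of_neg _ hk0]
    by_cases hdk : (d : ℤ) ∣ k
    · obtain ⟨j, rfl⟩ := hdk
      rw [qExpand_coeff_mul]
      refine ofPowerSeries_coeff_of_neg _ ?_
      by_contra hj
      rw [not_lt] at hj
      have : (0 : ℤ) ≤ (d : ℤ) * j := mul_nonneg (by exact_mod_cast hd.le) hj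
      omega
    · exact qExpand_coeff_of_not_dvd d _ hdk
  · rw [not_lt] at hk0
    obtain ⟨n, rfl⟩ := Int.eq_ofNat_of_zero_le hk0
    rw [HahnSeries.ofPowerSeries_apply_coeff, PowerSeries.coeff_map, h52_expandPS,
      PowerSeries.coeff_mk]
    by_cases hdn : d ∣ n
    · obtain ⟨j, rfl⟩ := hdn
      rw [if_pos (dvd_mul_right d j), Nat.mul_div_cancel_left j hd]
      have : ((d * j : ℕ) : ℤ) = (d : ℤ) * (j : ℤ) := by push_cast; ring
      rw [this, qExpand_coeff_mul, HahnSeries.ofPowerSeries_apply_coeff, PowerSeries.coeff_map]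
    · rw [if_neg hdn, map_zero]
      refine qExpand_coeff_of_not_dvd d _ ?_
      intro hcon
      exact hdn (by exact_mod_cast hcon)

theorem h52_constantCoeff_expandPS (d : ℕ) (p : PowerSeries ℤ) :
    PowerSeries.constantCoeff (h52_expandPS d p) = PowerSeries.constantCoeff p := by
  rw [← PowerSeries.coeff_zero_eq_constantCoeff, h52_expandPS, PowerSeries.coeff_mk]
  simp

theorem h52_IntMonic.qExpand {s : LaurentSeries ℚ} {m : ℤ} (hs : h52_IntMonic s m)
    (d : ℕ) [NeZero d] : h52_IntMonic (qExpand ℚ d s) ((d : ℤ) * m) := by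
  obtain ⟨p, hp, rfl⟩ := hs
  refine ⟨h52_expandPS d p, by rw [h52_constantCoeff_expandPS, hp], ?_⟩
  rw [map_mul, qExpand_single, h52_qExpand_ofPowerSeries]

theorem h52_IntMonic.isMonicOfOrder {s : LaurentSeries ℚ} {m : ℤ} (hs : h52_IntMonic s m) :
    IsMonicOfOrder s m := by
  obtain ⟨p, hp, rfl⟩ := hs
  have h1 : PowerSeries.constantCoeff (p.map (Int.castRingHom ℚ)) = 1 := by
    rw [← PowerSeries.coeff_zero_eq_constantCoeff, PowerSeries.coeff_map,
      PowerSeries.coeff_zero_eq_constantCoeff, hp]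
    simp
  have := (IsMonicOfOrder.single m).mul (IsMonicOfOrder.ofPowerSeries h1)
  rwa [add_zero] at this

theorem h52_IntMonic.coeff_int {s : LaurentSeries ℚ} {m : ℤ} (hs : h52_IntMonic s m) (n : ℤ) :
    ∃ k : ℤ, s.coeff n = (k : ℚ) := by
  obtain ⟨p, _, rfl⟩ := hs
  rw [HahnSeries.coeff_single_mul, one_mul]
  by_cases h0 : n - m < 0
  · exact ⟨0, by rw [ofPowerSeries_coeff_of_neg _ h0]; simp⟩
  · rw [not_lt] at h0
    obtain ⟨j, hj⟩ := Int.eq_ofNat_of_zero_le h0
    rw [hj, HahnSeries.ofPowerSeries_apply_coeff, PowerSeries.coeff_map]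
    exact ⟨PowerSeries.coeff j p, rfl⟩

theorem h52_intMonic_deltaSeries : h52_IntMonic deltaSeries 1 :=
  ⟨dedekindEtaUnit, constantCoeff_dedekindEtaUnit, rfl⟩

theorem h52_intMonic_deltaSub (δ : ℕ) (hδ : δ ≠ 0) : h52_IntMonic (deltaSub δ) δ := by
  have _inst : NeZero δ := ⟨hδ⟩
  rw [deltaSub, dif_neg hδ]
  have := h52_intMonic_deltaSeries.qExpand δ
  rwa [mul_one] at this

theorem h52_intMonic_unitW (N : ℕ) :
    h52_IntMonic (unitW N)
      (∑ δ ∈ N.divisors, ((δ : ℤ) * ArithmeticFunction.moebius (N / δ)) * (δ : ℤ)) := by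
  rw [unitW]
  refine h52_IntMonic.prod _ fun δ hδ => ?_
  exact (h52_intMonic_deltaSub δ (Nat.pos_of_mem_divisors hδ).ne').zpow _

theorem h52_intMonic_modUnit (N : ℕ) :
    h52_IntMonic (modUnit N) (jordan2 N - N.totient) := by
  have h1 := h52_intMonic_unitW N
  have h2 := (h52_intMonic_deltaSeries.pow N.totient).inv
  have h3 := h1.mul h2
  rw [modUnit]
  convert h3 using 1
  rw [jordan2, mul_one, sub_eq_add_neg]
  congr 1
  refine Finset.sum_congr rfl fun δ _ => ?_
  ring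

/-- (H3) `modUnit N` is monic of order `J₂(N) - φ(N)`. -/
theorem h52_modUnit_isMonicOfOrder (N : ℕ) :
    IsMonicOfOrder (modUnit N) (jordan2 N - N.totient) :=
  (h52_intMonic_modUnit N).isMonicOfOrder

/-- (H3) `modUnit N` has integer coefficients. -/
theorem h52_modUnit_coeff_int (N : ℕ) (n : ℤ) : ∃ k : ℤ, (modUnit N).coeff n = (k : ℚ) :=
  (h52_intMonic_modUnit N).coeff_int n

/-- (H3) the coefficients of `modUnit N` are `ℓ`-integral. -/
theorem h52_modUnit_coeff (N ℓ : ℕ) (n : ℤ) :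
    (modUnit N).coeff n ∈ GaloisRep.ratLocalizedAt ℓ := by
  obtain ⟨k, hk⟩ := h52_modUnit_coeff_int N n
  rw [hk]
  exact intCast_mem (GaloisRep.ratLocalizedAt ℓ) k

end Fermat.Agent.S28
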