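import Fermat.Agent.S28.Newton

/-!
# S28, task T5d: an integrality lemma

Let `B` be an integrally closed domain, `f : B → L` an injective ring homomorphism into a field,
`p` a prime element of `B` and `Q ∈ B` not divisible by `p`.  If both `p x` and `Q x` are integral
over `B` then so is `x`.
-/

set_option autoImplicit false

open Polynomial

namespace Fermat.Agent.S28

section IntLemma

attribute [local instance] FractionRing.liftAlgebra

/-- The coefficients of the minimal polynomial of `x` over `Frac B`, scaled by powers of `c`,
lie in `B` as soon as `c x` is integral over `B`. -/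
theorem IntLemma.coeff_mul_pow_mem {B L : Type} [CommRing B] [IsDomain B]
    [IsIntegrallyClosed B] [Field L] [Algebra B L] [FaithfulSMul B L]
    (c : B) (hc : c ≠ 0) (x : L)
    (hx : IsIntegral (FractionRing B) x) (h : IsIntegral B (algebraMap B L c * x)) (i : ℕ) :
    ∃ a : B, (minpoly (FractionRing B) x).coeff i *
      algebraMap B (FractionRing B) c ^ ((minpoly (FractionRing B) x).natDegree - i) =
        algebraMap B (FractionRing B) a := by
  have hcK : algebraMap B (FractionRing B) c ≠ 0 := by
    intro h0
    exact hc ((IsFractionRing.injective B (FractionRing B)) (by rw [h0, map_zero]))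
  have hmul : algebraMap (FractionRing B) L (algebraMap B (FractionRing B) c) * x =
      algebraMap B L c * x := by
    rw [← IsScalarTower.algebraMap_apply]
  have key := minpoly.isIntegrallyClosed_eq_field_fractions' (FractionRing B) h
  rw [← hmul, Newton.minpoly_mul_eq_scaleRoots _ hcK x hx] at key
  refine ⟨(minpoly B (algebraMap B L c * x)).coeff i, ?_⟩
  rw [← coeff_map, ← hmul, ← key, coeff_scaleRoots]

end IntLemma

section Main

attribute [local instance] FractionRing.liftAlgebra

/-- **T5d.** -/
theorem isIntegralElem_of_prime_mul_of_mul {B L : Type} [CommRing B] [IsDomain B]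
    [IsIntegrallyClosed B] [Field L] (f : B →+* L) (hf : Function.Injective f)
    (p Q : B) (hp : Prime p) (hQ : ¬ p ∣ Q) (x : L)
    (h1 : f.IsIntegralElem (f p * x)) (h2 : f.IsIntegralElem (f Q * x)) :
    f.IsIntegralElem x := by
  let _ : Algebra B L := f.toAlgebra
  have : FaithfulSMul B L := (faithfulSMul_iff_algebraMap_injective B L).mpr hf
  have hp0 : p ≠ 0 := hp.ne_zero
  have hQ0 : Q ≠ 0 := fun h => hQ (h ▸ dvd_zero p)
  have h1' : IsIntegral B (algebraMap B L p * x) := h1
  have h2' : IsIntegral B (algebraMap B L Q * x) := h2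
  have hinjK : Function.Injective (algebraMap B (FractionRing B)) :=
    IsFractionRing.injective B (FractionRing B)
  have hpK : algebraMap B (FractionRing B) p ≠ 0 := fun h0 =>
    hp0 (hinjK (by rw [h0, map_zero]))
  -- `x` is integral over the fraction field
  have hxK : IsIntegral (FractionRing B) x := by
    have hpx : IsIntegral (FractionRing B) (algebraMap B L p * x) := h1'.tower_top
    have hpL : algebraMap B L p ≠ 0 := by
      intro h0
      exact hp0 (hf (by rw [map_zero]; exact h0))
    have hinv : IsIntegral (FractionRing B)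
        (algebraMap (FractionRing B) L (algebraMap B (FractionRing B) p)⁻¹) :=
      isIntegral_algebraMap
    have := hinv.mul hpx
    rwa [map_inv₀, ← IsScalarTower.algebraMap_apply, ← mul_assoc, inv_mul_cancel₀ hpL,
      one_mul] at this
  set μ := minpoly (FractionRing B) x with hμ
  -- every coefficient of `μ` lies in `B`
  have hcoeff : ∀ i, μ.coeff i ∈ Set.range (algebraMap B (FractionRing B)) := by
    intro i
    obtain ⟨a, ha⟩ := IntLemma.coeff_mul_pow_mem p hp0 x hxK h1' i
    obtain ⟨b, hb⟩ := IntLemma.coeff_mul_pow_mem Q hQ0 x hxK h2' i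
    set e := μ.natDegree - i with he
    have hab : Q ^ e * a = p ^ e * b := by
      apply hinjK
      rw [map_mul, map_mul, map_pow, map_pow, ← ha, ← hb]
      ring
    have hdvd : p ^ e ∣ a := by
      apply Prime.pow_dvd_of_dvd_mul_left hp e (a := Q ^ e)
      · intro hd
        exact hQ (hp.dvd_of_dvd_pow hd)
      · exact ⟨b, hab⟩
    obtain ⟨g, hg⟩ := hdvd
    refine ⟨g, ?_⟩
    have hpe : algebraMap B (FractionRing B) p ^ e ≠ 0 := pow_ne_zero _ hpK
    apply mul_right_cancel₀ hpe
    rw [ha, hg, map_mul, map_pow, mul_comm]
  have hlifts : μ ∈ lifts (algebraMap B (FractionRing B)) :=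
    (lifts_iff_coeff_lifts μ).mpr hcoeff
  obtain ⟨q, hqmap, -, hqmonic⟩ :=
    lifts_and_natDegree_eq_and_monic hlifts (minpoly.monic hxK)
  refine ⟨q, hqmonic, ?_⟩
  have h0 : aeval x μ = 0 := minpoly.aeval _ x
  rw [← hqmap, aeval_map_algebraMap] at h0
  exact h0

end Main

end Fermat.Agent.S28
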