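import Mathlib.RingTheory.LaurentSeries
import Mathlib.RingTheory.HahnSeries.Valuation
import Mathlib.RingTheory.Polynomial.ScaleRoots
import Mathlib.FieldTheory.Minpoly.IsIntegrallyClosed
import Mathlib.FieldTheory.IntermediateField.Adjoin.Basic
import Mathlib.RingTheory.Localization.FractionRing
import Mathlib.RingTheory.Polynomial.UniqueFactorization
import Mathlib.RingTheory.PrincipalIdealDomain
import Mathlib.RingTheory.PowerBasis

/-!
# S28, task T4: the Newton polygon lemma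

Let `x, u ∈ k((q))` with `x` having a simple pole, `u` integral over `k[x]`, `u / x ^ m`
integral over `k[1/x]` and `ord u ≥ m (I - 1)`.  Then `1, u, …, u ^ (I - 1)` are linearly
independent over `k[x]`.
-/

set_option autoImplicit false

open Polynomial

namespace Fermat.Agent.S28.Newton

section Abstract

variable {k L : Type} [Field k] [Field L] [Algebra k L]

/-- Gauss lemma in one chart: if `K₀ = k(z)` inside `L` with `z` transcendental and `w` is a
root of a monic polynomial with coefficients in `k[z]`, then the minimal polynomial of `w` over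
`K₀` has coefficients in `k[z]`. -/
theorem coeff_minpoly_mem_range (K₀ : IntermediateField k L) (z : L) (hzK : z ∈ K₀)
    (hsurj : ∀ y ∈ K₀, ∃ r s : k[X], y = aeval z r / aeval z s)
    (hinj : Function.Injective (aeval z : k[X] →ₐ[k] L))
    (w : L) (hw : ∃ P : Polynomial (Polynomial k), P.Monic ∧
      P.eval₂ ((aeval z : k[X] →ₐ[k] L) : k[X] →+* L) w = 0) (i : ℕ) :
    ∃ r : k[X], algebraMap K₀ L ((minpoly K₀ w).coeff i) = aeval z r := by
  let φ : k[X] →+* K₀ := ((aeval (⟨z, hzK⟩ : K₀) : k[X] →ₐ[k] K₀) : k[X] →+* K₀)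
  have hφ : ∀ r : k[X], algebraMap K₀ L (φ r) = aeval z r := by
    intro r
    have h1 : algebraMap K₀ L (φ r) = aeval (algebraMap K₀ L (⟨z, hzK⟩ : K₀)) r := by
      simp only [φ, RingHom.coe_coe]
      rw [← Polynomial.aeval_algebraMap_apply]
    rw [h1]
    rfl
  let _ : Algebra k[X] K₀ := φ.toAlgebra
  let _ : Algebra k[X] L := ((algebraMap K₀ L).comp φ).toAlgebra
  have : IsScalarTower k[X] K₀ L := IsScalarTower.of_algebraMap_eq (fun _ => rfl)
  have hφinj : Function.Injective φ := by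
    intro a b hab
    apply hinj
    rw [← hφ, ← hφ, hab]
  have : FaithfulSMul k[X] K₀ := (faithfulSMul_iff_algebraMap_injective _ _).mpr hφinj
  have : IsFractionRing k[X] K₀ := by
    refine IsFractionRing.of_field k[X] K₀ ?_
    intro y
    obtain ⟨r, s, hrs⟩ := hsurj y y.2
    refine ⟨r, s, ?_⟩
    apply (algebraMap K₀ L).injective
    rw [map_div₀]
    change (y : L) = algebraMap K₀ L (φ r) / algebraMap K₀ L (φ s)
    rw [hφ, hφ, hrs]
  obtain ⟨P, hPm, hP⟩ := hw
  have hwint : IsIntegral k[X] w := by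
    refine ⟨P, hPm, ?_⟩
    have : (algebraMap k[X] L) = ((aeval z : k[X] →ₐ[k] L) : k[X] →+* L) := by
      ext r
      · change algebraMap K₀ L (φ (C r)) = _
        rw [hφ]
        rfl
      · change algebraMap K₀ L (φ X) = _
        rw [hφ]
        rfl
    rw [this]
    exact hP
  have key := minpoly.isIntegrallyClosed_eq_field_fractions' K₀ hwint
  refine ⟨(minpoly k[X] w).coeff i, ?_⟩
  rw [key, coeff_map, ← hφ]
  rfl

/-- The minimal polynomial of `s • w` is the root-scaling of the minimal polynomial of `w`. -/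
theorem minpoly_mul_eq_scaleRoots {K₀ : Type} [Field K₀] [Algebra K₀ L] (s : K₀) (hs : s ≠ 0)
    (w : L) (hw : IsIntegral K₀ w) :
    minpoly K₀ (algebraMap K₀ L s * w) = (minpoly K₀ w).scaleRoots s := by
  have hsw : IsIntegral K₀ (algebraMap K₀ L s * w) := isIntegral_algebraMap.mul hw
  have h1 : aeval (algebraMap K₀ L s * w) ((minpoly K₀ w).scaleRoots s) = 0 :=
    scaleRoots_aeval_eq_zero (minpoly.aeval K₀ w)
  have hd1 : minpoly K₀ (algebraMap K₀ L s * w) ∣ (minpoly K₀ w).scaleRoots s :=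
    minpoly.dvd K₀ _ h1
  have h2 : aeval w ((minpoly K₀ (algebraMap K₀ L s * w)).scaleRoots s⁻¹) = 0 := by
    have := scaleRoots_aeval_eq_zero (r := s⁻¹) (minpoly.aeval K₀ (algebraMap K₀ L s * w))
    rwa [← mul_assoc, ← map_mul, inv_mul_cancel₀ hs, map_one, one_mul] at this
  have hd2 : minpoly K₀ w ∣ (minpoly K₀ (algebraMap K₀ L s * w)).scaleRoots s⁻¹ :=
    minpoly.dvd K₀ _ h2
  have hm1 : ((minpoly K₀ w).scaleRoots s).Monic :=
    (monic_scaleRoots_iff s).mpr (minpoly.monic hw)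
  have hm2 : ((minpoly K₀ (algebraMap K₀ L s * w)).scaleRoots s⁻¹).Monic :=
    (monic_scaleRoots_iff s⁻¹).mpr (minpoly.monic hsw)
  have hdeg : (minpoly K₀ w).natDegree ≤ (minpoly K₀ (algebraMap K₀ L s * w)).natDegree := by
    have := natDegree_le_of_dvd hd2 hm2.ne_zero
    rwa [natDegree_scaleRoots] at this
  exact (eq_of_monic_of_dvd_of_natDegree_le (minpoly.monic hsw) hm1 hd1
    (by rw [natDegree_scaleRoots]; exact hdeg)).symm

end Abstract

section Valuation

variable {k L : Type} [Field k] [Field L] [Algebra k L] (v : AddValuation L (WithTop ℤ))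

theorem val_aeval_nonneg (hv : ∀ a : k, 0 ≤ v (algebraMap k L a)) (z : L) (hz : 0 ≤ v z)
    (Q : k[X]) : 0 ≤ v (aeval z Q) := by
  rw [aeval_eq_sum_range]
  apply AddValuation.map_le_sum
  intro i _
  rw [Algebra.smul_def, AddValuation.map_mul, AddValuation.map_pow]
  exact add_nonneg (hv _) (nsmul_nonneg hz i)

theorem val_smul_pow (hv : ∀ a : k, a ≠ 0 → v (algebraMap k L a) = 0) (x : L)
    (hx : v x = ((-1 : ℤ) : WithTop ℤ)) (a : k) (ha : a ≠ 0) (i : ℕ) :
    v (a • x ^ i) = ((-(i : ℤ) : ℤ) : WithTop ℤ) := by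
  rw [Algebra.smul_def, AddValuation.map_mul, AddValuation.map_pow, hv a ha, hx, zero_add,
    ← WithTop.coe_nsmul]
  congr 1
  simp

theorem val_smul_pow_ge (hv : ∀ a : k, a ≠ 0 → v (algebraMap k L a) = 0) (x : L)
    (hx : v x = ((-1 : ℤ) : WithTop ℤ)) (a : k) (i : ℕ) :
    ((-(i : ℤ) : ℤ) : WithTop ℤ) ≤ v (a • x ^ i) := by
  by_cases ha : a = 0
  · simp [ha]
  · exact (val_smul_pow v hv x hx a ha i).ge

theorem val_aeval_eq (hv : ∀ a : k, a ≠ 0 → v (algebraMap k L a) = 0) (x : L)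
    (hx : v x = ((-1 : ℤ) : WithTop ℤ)) (Q : k[X]) (hQ : Q ≠ 0) :
    v (aeval x Q) = ((-(Q.natDegree : ℤ) : ℤ) : WithTop ℤ) := by
  rw [aeval_eq_sum_range, Finset.sum_range_succ]
  have h2 : v (Q.coeff Q.natDegree • x ^ Q.natDegree) = ((-(Q.natDegree : ℤ) : ℤ) : WithTop ℤ) :=
    val_smul_pow v hv x hx _ (by simpa using hQ) _
  have h1 : ((-(Q.natDegree : ℤ) : ℤ) : WithTop ℤ) <
      v (∑ i ∈ Finset.range Q.natDegree, Q.coeff i • x ^ i) := by
    apply AddValuation.map_lt_sum v (WithTop.coe_ne_top)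
    intro i hi
    refine lt_of_lt_of_le ?_ (val_smul_pow_ge v hv x hx _ i)
    rw [WithTop.coe_lt_coe]
    have := Finset.mem_range.mp hi
    omega
  rw [← h2] at h1
  rw [AddValuation.map_add_eq_of_lt_right v h1, h2]

theorem val_aeval_le_zero (hv : ∀ a : k, a ≠ 0 → v (algebraMap k L a) = 0) (x : L)
    (hx : v x = ((-1 : ℤ) : WithTop ℤ)) (Q : k[X]) (hQ : aeval x Q ≠ 0) :
    v (aeval x Q) ≤ 0 := by
  have hQ0 : Q ≠ 0 := by
    rintro rfl
    exact hQ (map_zero _)
  rw [val_aeval_eq v hv x hx Q hQ0]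
  rw [← WithTop.coe_zero, WithTop.coe_le_coe]
  omega

theorem aeval_injective_of_val (hv : ∀ a : k, a ≠ 0 → v (algebraMap k L a) = 0) (x : L)
    (hx : v x = ((-1 : ℤ) : WithTop ℤ)) :
    Function.Injective (aeval x : k[X] →ₐ[k] L) := by
  rw [injective_iff_map_eq_zero]
  intro Q hQ
  by_contra hQ0
  have := val_aeval_eq v hv x hx Q hQ0
  rw [hQ, AddValuation.map_zero] at this
  exact WithTop.coe_ne_top this.symm

end Valuation

section Main

variable {k L : Type} [Field k] [Field L] [Algebra k L]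

theorem algebraMap_aeval_subtype (K₀ : IntermediateField k L) (z : L) (hzK : z ∈ K₀) (r : k[X]) :
    algebraMap K₀ L (aeval (⟨z, hzK⟩ : K₀) r) = aeval z r := by
  rw [← Polynomial.aeval_algebraMap_apply]
  rfl

theorem isIntegral_of_monic_root (K₀ : IntermediateField k L) (z : L) (hzK : z ∈ K₀) (w : L)
    (hw : ∃ P : Polynomial (Polynomial k), P.Monic ∧
      P.eval₂ ((aeval z : k[X] →ₐ[k] L) : k[X] →+* L) w = 0) : IsIntegral K₀ w := by
  obtain ⟨P, hPm, hP⟩ := hw
  let φ : k[X] →+* K₀ := ((aeval (⟨z, hzK⟩ : K₀) : k[X] →ₐ[k] K₀) : k[X] →+* K₀)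
  refine ⟨P.map φ, hPm.map φ, ?_⟩
  rw [eval₂_map]
  have : (algebraMap K₀ L).comp φ = ((aeval z : k[X] →ₐ[k] L) : k[X] →+* L) := by
    apply RingHom.ext
    intro r
    exact algebraMap_aeval_subtype K₀ z hzK r
  rw [this]
  exact hP

theorem natDegree_minpoly_ge (v : AddValuation L (WithTop ℤ))
    (hv : ∀ a : k, a ≠ 0 → v (algebraMap k L a) = 0)
    (x u : L) (m I : ℕ) (hm : 0 < m)
    (hx : v x = ((-1 : ℤ) : WithTop ℤ))
    (hu0 : u ≠ 0) (hu : (((m : ℤ) * ((I : ℤ) - 1) : ℤ) : WithTop ℤ) ≤ v u)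
    (hint : ∃ P : Polynomial (Polynomial k), P.Monic ∧
      P.eval₂ ((aeval x : k[X] →ₐ[k] L) : k[X] →+* L) u = 0)
    (hint' : ∃ P : Polynomial (Polynomial k), P.Monic ∧
      P.eval₂ ((aeval x⁻¹ : k[X] →ₐ[k] L) : k[X] →+* L) (u * x⁻¹ ^ m) = 0) :
    I ≤ (minpoly (IntermediateField.adjoin k {x}) u).natDegree := by
  set K₀ := IntermediateField.adjoin k {x} with hK₀
  have hxK : x ∈ K₀ := IntermediateField.mem_adjoin_simple_self k x
  have hxiK : x⁻¹ ∈ K₀ := K₀.inv_mem hxK
  have hx0 : x ≠ 0 := by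
    rintro rfl
    rw [AddValuation.map_zero] at hx
    exact WithTop.coe_ne_top hx.symm
  have hvnn : ∀ a : k, 0 ≤ v (algebraMap k L a) := by
    intro a
    by_cases ha : a = 0
    · simp [ha]
    · exact (hv a ha).ge
  have hinj : Function.Injective (aeval x : k[X] →ₐ[k] L) := aeval_injective_of_val v hv x hx
  have hinj' : Function.Injective (aeval x⁻¹ : k[X] →ₐ[k] L) := by
    rw [← transcendental_iff_injective] at hinj ⊢
    intro h
    exact hinj (IsAlgebraic.inv_iff.mp h)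
  have hsurj : ∀ y ∈ K₀, ∃ r s : k[X], y = aeval x r / aeval x s :=
    fun y hy => (IntermediateField.mem_adjoin_simple_iff k y).mp hy
  have hK₀' : K₀ = IntermediateField.adjoin k {x⁻¹} := by
    apply le_antisymm
    · rw [IntermediateField.adjoin_simple_le_iff]
      have := IntermediateField.inv_mem _ (IntermediateField.mem_adjoin_simple_self k x⁻¹)
      rwa [inv_inv] at this
    · rw [IntermediateField.adjoin_simple_le_iff]
      exact hxiK
  have hsurj' : ∀ y ∈ K₀, ∃ r s : k[X], y = aeval x⁻¹ r / aeval x⁻¹ s := by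
    intro y hy
    rw [hK₀'] at hy
    exact (IntermediateField.mem_adjoin_simple_iff k y).mp hy
  have huint : IsIntegral K₀ u := isIntegral_of_monic_root K₀ x hxK u hint
  set μ := minpoly K₀ u with hμ
  set d := μ.natDegree with hd
  -- chart 1
  have h1 : ∀ j, ∃ r : k[X], algebraMap K₀ L (μ.coeff j) = aeval x r :=
    coeff_minpoly_mem_range K₀ x hxK hsurj hinj u hint
  -- chart 2
  let s : K₀ := (⟨x⁻¹, hxiK⟩ : K₀) ^ m
  have hs : s ≠ 0 := by
    apply pow_ne_zero
    intro h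
    have := congrArg (algebraMap K₀ L) h
    exact inv_ne_zero hx0 (by simpa using this)
  have hsL : algebraMap K₀ L s = x⁻¹ ^ m := by
    simp only [s, map_pow]
    rfl
  have hts : algebraMap K₀ L s * u = u * x⁻¹ ^ m := by
    rw [mul_comm, hsL]
  have hmin' : minpoly K₀ (u * x⁻¹ ^ m) = μ.scaleRoots s := by
    rw [← hts]
    exact minpoly_mul_eq_scaleRoots s hs u huint
  have h2 : ∀ j, ∃ r : k[X],
      algebraMap K₀ L (μ.coeff j) * (x⁻¹) ^ (m * (d - j)) = aeval x⁻¹ r := by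
    intro j
    obtain ⟨r, hr⟩ := coeff_minpoly_mem_range K₀ x⁻¹ hxiK hsurj' hinj' (u * x⁻¹ ^ m) hint' j
    refine ⟨r, ?_⟩
    rw [← hr, hmin', coeff_scaleRoots, map_mul, map_pow, hsL, pow_mul]
  -- valuations
  have hvxi : v x⁻¹ = ((1 : ℤ) : WithTop ℤ) := by
    rw [AddValuation.map_inv, hx]
    rfl
  have hge : ∀ j, (0 : WithTop ℤ) ≤
      v (algebraMap K₀ L (μ.coeff j)) + (((m * (d - j) : ℕ) : ℤ) : WithTop ℤ) := by
    intro j
    obtain ⟨r, hr⟩ := h2 j
    have h := val_aeval_nonneg v hvnn x⁻¹ (by rw [hvxi]; exact_mod_cast zero_le_one) r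
    rw [← hr, AddValuation.map_mul, AddValuation.map_pow, hvxi, ← WithTop.coe_nsmul] at h
    simpa using h
  have hc0 : algebraMap K₀ L (μ.coeff 0) ≠ 0 := by
    intro h
    exact minpoly.coeff_zero_ne_zero huint hu0 ((map_eq_zero _).mp h)
  have h0 : v (algebraMap K₀ L (μ.coeff 0)) ≤ 0 := by
    obtain ⟨r, hr⟩ := h1 0
    rw [hr] at hc0 ⊢
    exact val_aeval_le_zero v hv x hx r hc0
  by_contra hlt
  rw [not_le] at hlt
  have hroot : aeval u μ = 0 := minpoly.aeval K₀ u
  rw [aeval_eq_sum_range, Finset.sum_range_succ', pow_zero, Algebra.smul_def, mul_one] at hroot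
  have hc0eq : algebraMap K₀ L (μ.coeff 0) =
      -∑ j ∈ Finset.range d, μ.coeff (j + 1) • u ^ (j + 1) := by
    rw [eq_neg_iff_add_eq_zero, add_comm]
    exact hroot
  have hpos : (0 : WithTop ℤ) < v (∑ j ∈ Finset.range d, μ.coeff (j + 1) • u ^ (j + 1)) := by
    apply AddValuation.map_lt_sum v (WithTop.zero_ne_top)
    intro j hj
    have hjd : j < d := Finset.mem_range.mp hj
    rw [Algebra.smul_def, AddValuation.map_mul, AddValuation.map_pow]
    by_cases hcj : algebraMap K₀ L (μ.coeff (j + 1)) = 0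
    · rw [hcj, AddValuation.map_zero, top_add]
      exact WithTop.coe_lt_top 0
    · obtain ⟨a, ha⟩ := WithTop.ne_top_iff_exists.mp ((v.ne_top_iff).mpr hcj)
      obtain ⟨b, hb⟩ := WithTop.ne_top_iff_exists.mp ((v.ne_top_iff).mpr hu0)
      have hgej := hge (j + 1)
      rw [← ha, ← WithTop.coe_add, ← WithTop.coe_zero, WithTop.coe_le_coe] at hgej
      rw [← hb, WithTop.coe_le_coe] at hu
      rw [← ha, ← hb, ← WithTop.coe_nsmul, ← WithTop.coe_add, ← WithTop.coe_zero,
        WithTop.coe_lt_coe]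
      simp only [nsmul_eq_mul]
      push_cast at hgej ⊢
      have hdj : ((d - (j + 1) : ℕ) : ℤ) = (d : ℤ) - ((j : ℤ) + 1) := by omega
      rw [hdj] at hgej
      have hI' : (d : ℤ) + 1 ≤ (I : ℤ) := by exact_mod_cast hlt
      have hm' : (1 : ℤ) ≤ (m : ℤ) := by exact_mod_cast hm
      have hj0 : (0 : ℤ) ≤ (j : ℤ) := by positivity
      have e1 : ((j : ℤ) + 1) * ((m : ℤ) * ((I : ℤ) - 1)) ≤ ((j : ℤ) + 1) * b :=
        mul_le_mul_of_nonneg_left hu (by linarith)
      have e2 : (0 : ℤ) ≤ (m : ℤ) * ((j : ℤ) * (I : ℤ)) := by positivity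
      have e3 : (m : ℤ) * 1 ≤ (m : ℤ) * ((I : ℤ) - (d : ℤ)) :=
        mul_le_mul_of_nonneg_left (by linarith) (by linarith)
      nlinarith
  rw [hc0eq, AddValuation.map_neg] at h0
  exact absurd h0 (not_le.mpr hpos)

theorem newton_abstract (v : AddValuation L (WithTop ℤ))
    (hv : ∀ a : k, a ≠ 0 → v (algebraMap k L a) = 0)
    (x u : L) (m I : ℕ) (hm : 0 < m)
    (hx : v x = ((-1 : ℤ) : WithTop ℤ))
    (hu0 : u ≠ 0) (hu : (((m : ℤ) * ((I : ℤ) - 1) : ℤ) : WithTop ℤ) ≤ v u)
    (hint : ∃ P : Polynomial (Polynomial k), P.Monic ∧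
      P.eval₂ ((aeval x : k[X] →ₐ[k] L) : k[X] →+* L) u = 0)
    (hint' : ∃ P : Polynomial (Polynomial k), P.Monic ∧
      P.eval₂ ((aeval x⁻¹ : k[X] →ₐ[k] L) : k[X] →+* L) (u * x⁻¹ ^ m) = 0)
    (c : Fin I → k[X])
    (hc : ∑ i : Fin I, aeval x (c i) * u ^ (i : ℕ) = 0) : c = 0 := by
  have hdeg := natDegree_minpoly_ge v hv x u m I hm hx hu0 hu hint hint'
  have hinj : Function.Injective (aeval x : k[X] →ₐ[k] L) := aeval_injective_of_val v hv x hx
  have hxK : x ∈ IntermediateField.adjoin k {x} := IntermediateField.mem_adjoin_simple_self k x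
  have hli := linearIndependent_pow (K := IntermediateField.adjoin k {x}) u
  have hli' : LinearIndependent (IntermediateField.adjoin k {x})
      (fun i : Fin I => u ^ (i : ℕ)) :=
    hli.comp (Fin.castLE hdeg) (Fin.castLE_injective hdeg)
  rw [Fintype.linearIndependent_iff] at hli'
  have key := hli' (fun i => aeval (⟨x, hxK⟩ : IntermediateField.adjoin k {x}) (c i)) (by
    simp_rw [Algebra.smul_def, algebraMap_aeval_subtype]
    exact hc)
  funext i
  have hi : aeval x (c i) = 0 := by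
    rw [← algebraMap_aeval_subtype (IntermediateField.adjoin k {x}) x hxK, key i, map_zero]
  exact (injective_iff_map_eq_zero _).mp hinj _ hi

end Main

end Fermat.Agent.S28.Newton

namespace Fermat.Agent.S28

/-- **Newton polygon lemma** (S28, task T4). -/
theorem newton_linearIndependent (k : Type) [Field k] (x u : LaurentSeries k) (m I : ℕ)
    (hm : 0 < m) (hI : 0 < I) (hx0 : x ≠ 0) (hx : x.order = -1)
    (hu0 : u ≠ 0) (hu : (m : ℤ) * ((I : ℤ) - 1) ≤ u.order)
    (hint : ∃ P : Polynomial (Polynomial k), P.Monic ∧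
      P.eval₂ (Polynomial.eval₂RingHom (HahnSeries.C : k →+* LaurentSeries k) x) u = 0)
    (hint' : ∃ P : Polynomial (Polynomial k), P.Monic ∧
      P.eval₂ (Polynomial.eval₂RingHom (HahnSeries.C : k →+* LaurentSeries k) x⁻¹)
        (u * x⁻¹ ^ m) = 0)
    (c : Fin I → Polynomial k)
    (hc : ∑ i : Fin I, Polynomial.eval₂ (HahnSeries.C : k →+* LaurentSeries k) x (c i) *
      u ^ (i : ℕ) = 0) : c = 0 := by
  have _hI := hI
  let inst : Algebra k (LaurentSeries k) := HahnSeries.instAlgebra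
  have hC : (HahnSeries.C : k →+* LaurentSeries k) = algebraMap k (LaurentSeries k) :=
    HahnSeries.C_eq_algebraMap
  have hev : ∀ z : LaurentSeries k,
      Polynomial.eval₂RingHom (HahnSeries.C : k →+* LaurentSeries k) z =
        ((aeval z : k[X] →ₐ[k] LaurentSeries k) : k[X] →+* LaurentSeries k) := by
    intro z
    apply RingHom.ext
    intro r
    rw [hC]
    rfl
  refine Newton.newton_abstract (HahnSeries.addVal ℤ k) ?_ x u m I hm ?_ hu0 ?_ ?_ ?_ c ?_
  · intro a ha
    rw [← hC, HahnSeries.addVal_apply_of_ne (HahnSeries.C_ne_zero ha), HahnSeries.order_C]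
    rfl
  · rw [HahnSeries.addVal_apply_of_ne hx0, hx]
  · rw [HahnSeries.addVal_apply_of_ne hu0, WithTop.coe_le_coe]
    exact hu
  · rw [← hev]
    exact hint
  · rw [← hev]
    exact hint'
  · simp_rw [Polynomial.aeval_def, ← hC]
    exact hc

end Fermat.Agent.S28
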