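import Fermat.Agent.S28.Defs

/-!
# S28 task T5e: primitive element / representation lemma (pure field theory)

`rep_of_deg_le`: if every element of the `ℚ`-algebra generated by a finite set `S ∋ t, u` of
Laurent series is a root of a nonzero polynomial of degree `≤ I` over `ℚ[t]`, and
`1, u, …, u^(I-1)` are linearly independent over `ℚ[t]`, then every element of the field
generated by `S` is a `ℚ(t)`-combination of `1, u, …, u^(I-1)`.

The general-field version is `PrimElt.exists_repr_of_deg_le`.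
-/

set_option autoImplicit false

open Polynomial IntermediateField

noncomputable section

namespace Fermat.Agent.S28

namespace PrimElt

variable {E : Type*} [Field E] [Algebra ℚ E]

/-- `x` is transcendental over `ℚ` in the polynomial-evaluation sense. -/
def PolyInj (x : E) : Prop := ∀ b : ℚ[X], aeval x b = 0 → b = 0

/-- the element `b(x)` of `ℚ⟮x⟯`. -/
def k0eval (x : E) : ℚ[X] →+* ℚ⟮x⟯ :=
  (aeval (⟨x, mem_adjoin_simple_self ℚ x⟩ : ℚ⟮x⟯)).toRingHom

theorem coe_k0eval (x : E) (b : ℚ[X]) : ((k0eval x b : ℚ⟮x⟯) : E) = aeval x b := by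
  unfold k0eval
  change algebraMap ℚ⟮x⟯ E (aeval (⟨x, mem_adjoin_simple_self ℚ x⟩ : ℚ⟮x⟯) b) = _
  rw [← aeval_algebraMap_apply]
  rfl

theorem algebraMap_k0eval (x : E) (b : ℚ[X]) :
    algebraMap ℚ⟮x⟯ E (k0eval x b) = aeval x b := coe_k0eval x b

theorem algebraMap_comp_k0eval (x : E) :
    (algebraMap ℚ⟮x⟯ E).comp (k0eval x) = Polynomial.eval₂RingHom (algebraMap ℚ E) x := by
  ext b
  · simp [k0eval]
  · simp [k0eval]

theorem k0eval_injective {x : E} (hx : PolyInj x) : Function.Injective (k0eval x) := by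
  intro a b hab
  have h1 : aeval x a = aeval x b := by rw [← coe_k0eval, ← coe_k0eval, hab]
  have h2 : aeval x (a - b) = 0 := by rw [map_sub, h1, sub_self]
  exact sub_eq_zero.mp (hx _ h2)

/-- every element of `ℚ⟮x⟯` is a quotient `a(x)/b(x)` with `b ≠ 0`. -/
theorem exists_k0eval_div (x : E) (c : ℚ⟮x⟯) :
    ∃ a b : ℚ[X], b ≠ 0 ∧ k0eval x b * c = k0eval x a := by
  obtain ⟨r, s, hrs⟩ := (mem_adjoin_simple_iff ℚ (c : E)).mp c.2
  by_cases hs : aeval x s = 0
  · refine ⟨0, 1, one_ne_zero, ?_⟩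
    apply Subtype.ext
    rw [MulMemClass.coe_mul, coe_k0eval, coe_k0eval, hrs, hs]
    simp
  · refine ⟨r, s, fun h => hs (by rw [h, map_zero]), ?_⟩
    apply Subtype.ext
    rw [MulMemClass.coe_mul, coe_k0eval, coe_k0eval, hrs]
    field_simp

/-- clearing denominators of a finite family in `ℚ⟮x⟯`. -/
theorem exists_common_denom (x : E) {ι : Type*} (s : Finset ι) (r : ι → ℚ⟮x⟯) :
    ∃ (B : ℚ[X]) (c : ι → ℚ[X]), B ≠ 0 ∧ ∀ i ∈ s, k0eval x B * r i = k0eval x (c i) := by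
  classical
  induction s using Finset.induction_on with
  | empty => exact ⟨1, fun _ => 0, one_ne_zero, by simp⟩
  | insert j s hj ih =>
    obtain ⟨B, c, hB, hc⟩ := ih
    obtain ⟨a, b, hb, hab⟩ := exists_k0eval_div x (r j)
    refine ⟨B * b, fun i => if i = j then B * a else b * c i, mul_ne_zero hB hb, ?_⟩
    intro i hi
    rcases Finset.mem_insert.mp hi with rfl | hi'
    · simp only [if_true, map_mul]
      rw [mul_assoc, hab]
    · have hij : i ≠ j := fun h => hj (h ▸ hi')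
      simp only [if_neg hij, map_mul]
      rw [mul_comm (k0eval x B), mul_assoc, hc i hi']

/-- algebraic degree bound over `ℚ⟮x⟯` from a two-variable polynomial relation. -/
theorem isIntegral_and_natDegree_minpoly_le {x : E} (hx : PolyInj x) {f : E} {I : ℕ}
    (P : Polynomial (Polynomial ℚ)) (hP : P ≠ 0) (hdeg : P.natDegree ≤ I)
    (h : P.eval₂ (Polynomial.eval₂RingHom (algebraMap ℚ E) x) f = 0) :
    IsIntegral ℚ⟮x⟯ f ∧ (minpoly ℚ⟮x⟯ f).natDegree ≤ I := by
  have hinj := k0eval_injective hx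
  set Q : Polynomial ℚ⟮x⟯ := P.map (k0eval x) with hQ
  have hQ0 : Q ≠ 0 := (Polynomial.map_ne_zero_iff hinj).mpr hP
  have hQd : Q.natDegree = P.natDegree := Polynomial.natDegree_map_eq_of_injective hinj P
  have hQf : aeval f Q = 0 := by
    rw [hQ, aeval_def, Polynomial.eval₂_map, algebraMap_comp_k0eval]
    exact h
  have hint : IsIntegral ℚ⟮x⟯ f := (isAlgebraic_iff_isIntegral).mp ⟨Q, hQ0, hQf⟩
  refine ⟨hint, ?_⟩
  have := minpoly.degree_le_of_ne_zero ℚ⟮x⟯ f hQ0 hQf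
  have h2 := Polynomial.natDegree_le_natDegree this
  omega

/-- The independence hypothesis (in the shape of the Newton lemma's conclusion). -/
def PowInd (x u : E) (I : ℕ) : Prop :=
  ∀ c : Fin I → Polynomial ℚ,
    ∑ i : Fin I, Polynomial.eval₂ (algebraMap ℚ E) x (c i) * u ^ (i : ℕ) = 0 → c = 0

theorem polyInj_of_powInd {x u : E} {I : ℕ} (hI : 0 < I) (hind : PowInd x u I) : PolyInj x := by
  intro b hb
  have key := hind (fun i => if (i : ℕ) = 0 then b else 0) ?_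
  · have h0 := congrFun key ⟨0, hI⟩
    simpa using h0
  · rw [Finset.sum_eq_single ⟨0, hI⟩]
    · simp only [if_true, pow_zero, mul_one]
      rw [← aeval_def]; exact hb
    · intro i _ hi
      have : (i : ℕ) ≠ 0 := fun h => hi (Fin.ext h)
      simp [this]
    · simp

theorem le_natDegree_minpoly_of_powInd {x u : E} {I : ℕ} (hu : IsIntegral ℚ⟮x⟯ u)
    (hind : PowInd x u I) : I ≤ (minpoly ℚ⟮x⟯ u).natDegree := by
  classical
  by_contra hlt
  rw [not_le] at hlt
  have hI : 0 < I := by omega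
  have hx := polyInj_of_powInd hI hind
  set p := minpoly ℚ⟮x⟯ u with hp
  set d := p.natDegree with hd
  obtain ⟨B, c, hB, hc⟩ := exists_common_denom x (Finset.range (d + 1)) (fun i => p.coeff i)
  have hrel : ∑ i : Fin I, Polynomial.eval₂ (algebraMap ℚ E) x
      (if (i : ℕ) ≤ d then c i else 0) * u ^ (i : ℕ) = 0 := by
    have h1 : ∀ i : Fin I, Polynomial.eval₂ (algebraMap ℚ E) x
        (if (i : ℕ) ≤ d then c i else 0) * u ^ (i : ℕ)
        = aeval x B * (algebraMap ℚ⟮x⟯ E (p.coeff i) * u ^ (i : ℕ)) := by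
      intro i
      by_cases hid : (i : ℕ) ≤ d
      · rw [if_pos hid, ← aeval_def, ← algebraMap_k0eval, ← hc i (Finset.mem_range.mpr (by omega)),
          map_mul, algebraMap_k0eval, mul_assoc]
      · rw [if_neg hid, Polynomial.coeff_eq_zero_of_natDegree_lt (by omega)]
        simp
    rw [Finset.sum_congr rfl (fun i _ => h1 i), ← Finset.mul_sum]
    have h2 : ∑ i : Fin I, algebraMap ℚ⟮x⟯ E (p.coeff i) * u ^ (i : ℕ) = aeval u p := by
      rw [aeval_eq_sum_range' (n := I) (by omega), Finset.sum_range]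
      simp [Algebra.smul_def]
    rw [h2, hp, minpoly.aeval, mul_zero]
  have key := hind _ hrel
  have hdz := congrFun key ⟨d, hlt⟩
  simp only [le_refl, if_true, Pi.zero_apply] at hdz
  have h3 := hc d (Finset.mem_range.mpr (by omega))
  have hmonic : p.coeff d = 1 := by
    rw [hd]; exact (minpoly.monic hu).coeff_natDegree
  rw [hmonic, mul_one, hdz, map_zero] at h3
  exact hB (k0eval_injective hx (by rw [h3, map_zero]))

/-- scaling an element of the `ℚ⟮x⟯`-algebra generated by `S` into the `ℚ`-algebra generated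
by `S`. -/
theorem exists_scale_mem_adjoin {x : E} {S : Set E} (hxS : x ∈ Algebra.adjoin ℚ S) {θ : E}
    (hθ : θ ∈ Algebra.adjoin ℚ⟮x⟯ S) :
    ∃ b : ℚ[X], b ≠ 0 ∧ aeval x b * θ ∈ Algebra.adjoin ℚ S := by
  have hmem : ∀ b : ℚ[X], aeval x b ∈ Algebra.adjoin ℚ S := fun b => by
    have := Subalgebra.aeval_coe (Algebra.adjoin ℚ S) ⟨x, hxS⟩ b
    simp only at this
    rw [this]
    exact SetLike.coe_mem _
  induction hθ using Algebra.adjoin_induction with
  | mem s hs => exact ⟨1, one_ne_zero, by simpa using Algebra.subset_adjoin hs⟩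
  | algebraMap c =>
    obtain ⟨a, b, hb, hab⟩ := exists_k0eval_div x c
    refine ⟨b, hb, ?_⟩
    have : aeval x b * algebraMap ℚ⟮x⟯ E c = aeval x a := by
      rw [← algebraMap_k0eval, ← map_mul, hab, algebraMap_k0eval]
    rw [this]; exact hmem a
  | add θ₁ θ₂ _ _ h₁ h₂ =>
    obtain ⟨b₁, hb₁, hm₁⟩ := h₁
    obtain ⟨b₂, hb₂, hm₂⟩ := h₂
    refine ⟨b₁ * b₂, mul_ne_zero hb₁ hb₂, ?_⟩
    have : aeval x (b₁ * b₂) * (θ₁ + θ₂)
        = aeval x b₂ * (aeval x b₁ * θ₁) + aeval x b₁ * (aeval x b₂ * θ₂) := by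
      rw [map_mul]; ring
    rw [this]
    exact add_mem (mul_mem (hmem _) hm₁) (mul_mem (hmem _) hm₂)
  | mul θ₁ θ₂ _ _ h₁ h₂ =>
    obtain ⟨b₁, hb₁, hm₁⟩ := h₁
    obtain ⟨b₂, hb₂, hm₂⟩ := h₂
    refine ⟨b₁ * b₂, mul_ne_zero hb₁ hb₂, ?_⟩
    have : aeval x (b₁ * b₂) * (θ₁ * θ₂) = (aeval x b₁ * θ₁) * (aeval x b₂ * θ₂) := by
      rw [map_mul]; ring
    rw [this]
    exact mul_mem hm₁ hm₂


/-- **Step C.** If every element of the `ℚ`-algebra generated by the finite set `S ∋ x, u` is a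
root of a nonzero polynomial of degree `≤ I` over `ℚ[x]`, and `1, u, …, u^(I-1)` are linearly
independent over `ℚ[x]`, then every element of the field generated by `S` is a `ℚ(x)`-linear
combination of `1, u, …, u^(I-1)`. -/
theorem exists_repr_of_deg_le (x u : E) (S : Set E) (hS : S.Finite)
    (hxS : x ∈ Algebra.adjoin ℚ S) (huS : u ∈ S) (I : ℕ) (hI : 0 < I)
    (hdeg : ∀ f ∈ Algebra.adjoin ℚ S, ∃ P : Polynomial (Polynomial ℚ), P ≠ 0 ∧
      P.natDegree ≤ I ∧ P.eval₂ (Polynomial.eval₂RingHom (algebraMap ℚ E) x) f = 0)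
    (hind : PowInd x u I) :
    ∀ f ∈ IntermediateField.adjoin ℚ S, ∃ (a : Fin I → Polynomial ℚ) (b : Polynomial ℚ),
      b ≠ 0 ∧ Polynomial.eval₂ (algebraMap ℚ E) x b * f =
        ∑ i : Fin I, Polynomial.eval₂ (algebraMap ℚ E) x (a i) * u ^ (i : ℕ) := by
  classical
  have hx := polyInj_of_powInd hI hind
  have hSint : ∀ s ∈ S, IsIntegral ℚ⟮x⟯ s := fun s hs => by
    obtain ⟨P, hP, hd, h⟩ := hdeg s (Algebra.subset_adjoin hs)
    exact (isIntegral_and_natDegree_minpoly_le hx P hP hd h).1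
  set M : IntermediateField ℚ⟮x⟯ E := IntermediateField.adjoin ℚ⟮x⟯ S with hMdef
  have : Finite S := hS.to_subtype
  have hfd : FiniteDimensional ℚ⟮x⟯ M := finiteDimensional_adjoin hSint
  obtain ⟨α, hα⟩ := Field.exists_primitive_element ℚ⟮x⟯ M
  have hαmem : (α : E) ∈ Algebra.adjoin ℚ⟮x⟯ S := by
    have h1 := adjoin_toSubalgebra_of_isAlgebraic (F := ℚ⟮x⟯) (S := S)
      (fun s hs => (hSint s hs).isAlgebraic)
    rw [← h1]
    exact α.2
  obtain ⟨b, hb, hbα⟩ := exists_scale_mem_adjoin hxS hαmem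
  obtain ⟨P, hP, hPd, hPz⟩ := hdeg _ hbα
  obtain ⟨hθint, hθdeg⟩ := isIntegral_and_natDegree_minpoly_le hx P hP hPd hPz
  have hMα : M ≤ ℚ⟮x⟯⟮(α : E)⟯ := by
    have h1 := congrArg (IntermediateField.map M.val) hα
    rw [IntermediateField.adjoin_map, Set.image_singleton] at h1
    intro y hy
    have h2 : y ∈ IntermediateField.map M.val (⊤ : IntermediateField ℚ⟮x⟯ M) :=
      ⟨⟨y, hy⟩, IntermediateField.mem_top, rfl⟩
    rw [← h1] at h2
    exact h2
  have hM_le : M ≤ ℚ⟮x⟯⟮aeval x b * (α : E)⟯ := by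
    refine hMα.trans ?_
    rw [adjoin_simple_le_iff]
    have hb0 : aeval x b ≠ 0 := fun h => hb (hx b h)
    have h2 : (α : E) = (algebraMap ℚ⟮x⟯ E (k0eval x b))⁻¹ * (aeval x b * (α : E)) := by
      rw [algebraMap_k0eval]; field_simp
    have h3 : (algebraMap ℚ⟮x⟯ E (k0eval x b))⁻¹ * (aeval x b * (α : E)) ∈
        ℚ⟮x⟯⟮aeval x b * (α : E)⟯ :=
      mul_mem (inv_mem (IntermediateField.algebraMap_mem _ _)) (mem_adjoin_simple_self ℚ⟮x⟯ _)
    rwa [← h2] at h3
  have hfin_le : Module.finrank ℚ⟮x⟯ M ≤ I := by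
    have : FiniteDimensional ℚ⟮x⟯ ℚ⟮x⟯⟮aeval x b * (α : E)⟯ :=
      adjoin.finiteDimensional hθint
    calc Module.finrank ℚ⟮x⟯ M
        ≤ Module.finrank ℚ⟮x⟯ ℚ⟮x⟯⟮aeval x b * (α : E)⟯ :=
          IntermediateField.finrank_le_of_le_right hM_le
      _ = (minpoly ℚ⟮x⟯ (aeval x b * (α : E))).natDegree := adjoin.finrank hθint
      _ ≤ I := hθdeg
  have hu_int : IsIntegral ℚ⟮x⟯ u := hSint u huS
  have hu_le : ℚ⟮x⟯⟮u⟯ ≤ M := adjoin_simple_le_iff.mpr (subset_adjoin ℚ⟮x⟯ S huS)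
  have hu_fin : Module.finrank ℚ⟮x⟯ ℚ⟮x⟯⟮u⟯ = (minpoly ℚ⟮x⟯ u).natDegree :=
    adjoin.finrank hu_int
  have hu_ge : I ≤ (minpoly ℚ⟮x⟯ u).natDegree := le_natDegree_minpoly_of_powInd hu_int hind
  have hu_le' : (minpoly ℚ⟮x⟯ u).natDegree ≤ I := by
    obtain ⟨P, hP, hd, h⟩ := hdeg u (Algebra.subset_adjoin huS)
    exact (isIntegral_and_natDegree_minpoly_le hx P hP hd h).2
  have hEq : ℚ⟮x⟯⟮u⟯ = M := IntermediateField.eq_of_le_of_finrank_le hu_le (by omega)
  intro f hf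
  have hfM : f ∈ M := by
    have h1 : IntermediateField.adjoin ℚ S ≤ M.restrictScalars ℚ :=
      adjoin_le_iff.mpr (fun s hs => subset_adjoin ℚ⟮x⟯ S hs)
    exact h1 hf
  rw [← hEq] at hfM
  have hfA : f ∈ Algebra.adjoin ℚ⟮x⟯ {u} := by
    rw [← adjoin_simple_toSubalgebra_of_isAlgebraic hu_int.isAlgebraic]
    exact hfM
  rw [Algebra.adjoin_singleton_eq_range_aeval] at hfA
  obtain ⟨g, hg⟩ := hfA
  set g' := g %ₘ minpoly ℚ⟮x⟯ u with hg'def
  have hmonic := minpoly.monic hu_int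
  have hg' : aeval u g' = f := by
    rw [hg'def, Polynomial.aeval_modByMonic_eq_self_of_root (minpoly.aeval ℚ⟮x⟯ u)]
    exact hg
  have hg'deg : ∀ i, I ≤ i → g'.coeff i = 0 := by
    intro i hi
    by_cases hg0 : g' = 0
    · rw [hg0, Polynomial.coeff_zero]
    · apply Polynomial.coeff_eq_zero_of_natDegree_lt
      have h1 : g'.degree < (minpoly ℚ⟮x⟯ u).degree :=
        Polynomial.degree_modByMonic_lt g hmonic
      have h2 := Polynomial.natDegree_lt_natDegree hg0 h1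
      omega
  obtain ⟨B, c, hB, hc⟩ := exists_common_denom x (Finset.range I) (fun i => g'.coeff i)
  refine ⟨fun i => c i, B, hB, ?_⟩
  have hsum : f = ∑ i : Fin I, algebraMap ℚ⟮x⟯ E (g'.coeff i) * u ^ (i : ℕ) := by
    rw [← hg', aeval_eq_sum_range' (n := I), Finset.sum_range]
    · simp [Algebra.smul_def]
    · by_cases hg0 : g' = 0
      · rw [hg0]; simpa using hI
      · have h1 : g'.degree < (minpoly ℚ⟮x⟯ u).degree :=
          Polynomial.degree_modByMonic_lt g hmonic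
        have h2 := Polynomial.natDegree_lt_natDegree hg0 h1
        omega
  rw [← aeval_def, hsum, Finset.mul_sum]
  refine Finset.sum_congr rfl (fun i _ => ?_)
  rw [← aeval_def, ← algebraMap_k0eval, ← algebraMap_k0eval, ← hc i (Finset.mem_range.mpr i.2),
    map_mul, mul_assoc]

end PrimElt

open ModularCurve in
/-- **T5e** (exact SKEL2 signature). -/
theorem rep_of_deg_le (S : Set (LaurentSeries ℚ)) (hS : S.Finite) (t u : LaurentSeries ℚ)
    (I : ℕ) (hI : 0 < I) (ht : t ∈ S) (hu : u ∈ S)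
    (htrans : Function.Injective (evalAtQ t))
    (hindep : ∀ c : Fin I → Polynomial ℚ,
      ∑ i : Fin I, evalAtQ t (c i) * u ^ (i : ℕ) = 0 → c = 0)
    (hdeg : ∀ f ∈ Algebra.adjoin ℚ S, ∃ P : Polynomial (Polynomial ℚ),
      P ≠ 0 ∧ P.natDegree ≤ I ∧ P.eval₂ (evalAtQ t) f = 0)
    (x : LaurentSeries ℚ) (hx : x ∈ IntermediateField.adjoin ℚ S) :
    ∃ (D₀ : Polynomial ℚ) (P : Fin I → Polynomial ℚ), D₀ ≠ 0 ∧
      evalAtQ t D₀ * x = ∑ i : Fin I, evalAtQ t (P i) * u ^ (i : ℕ) := by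
  obtain ⟨a, b, hb, hab⟩ := PrimElt.exists_repr_of_deg_le t u S hS (Algebra.subset_adjoin ht) hu I hI
    hdeg hindep x hx
  exact ⟨b, a, hb, hab⟩

end Fermat.Agent.S28
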