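import Fermat.Agent.S28.RDefs

/-!
# S28, task T5g: bridge between the chart algebras and `RingHom.IsIntegralElem`

`chartAlgFin N ℓ` is the integral closure of `ℤ_(ℓ)[j]` in the function field `F`, and
`chartAlgInf N ℓ` that of `ℤ_(ℓ)[1/j]`.  Membership is equivalent to integrality with respect to
the ring homomorphism `evalAt ℤ_(ℓ) j : ℤ_(ℓ)[Y] → ℚ((q))` (resp. `evalAt ℤ_(ℓ) j⁻¹`).
-/

set_option autoImplicit false

open ModularCurve ModularCurve.IgusaScheme

noncomputable section

namespace Fermat.Agent.S28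

/-- Ring homomorphisms from a subring of `ℚ` to a division ring of characteristic zero are
unique. -/
theorem ringHom_subring_rat_ext {L : Type*} [DivisionRing L] [CharZero L] (R : Subring ℚ)
    (f g : R →+* L) : f = g := by
  ext a
  have h : a * (((a : ℚ).den : ℕ) : R) = (((a : ℚ).num : ℤ) : R) := by
    apply Subtype.ext
    push_cast
    exact Rat.mul_den_eq_num _
  have hf := congrArg f h
  have hg := congrArg g h
  rw [map_mul, map_natCast, map_intCast] at hf hg
  have hden : (((a : ℚ).den : ℕ) : L) ≠ 0 := Nat.cast_ne_zero.mpr (a : ℚ).den_nz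
  exact mul_right_cancel₀ hden (hf.trans hg.symm)

/-- The structure map `ℤ_(ℓ) → F → ℚ((q))` is the inclusion of constants. -/
theorem coe_algebraMap_ratLocalizedAt (N ℓ : ℕ) [NeZero N] [Fact ℓ.Prime]
    (a : GaloisRep.ratLocalizedAt ℓ) :
    ((algebraMap (GaloisRep.ratLocalizedAt ℓ) (modularFunctionFieldFull N) a :
      modularFunctionFieldFull N) : LaurentSeries ℚ) =
      ((algebraMap ℚ (LaurentSeries ℚ)).comp (GaloisRep.ratLocalizedAt ℓ).subtype) a := by
  have key : ∀ g : GaloisRep.ratLocalizedAt ℓ →+* LaurentSeries ℚ,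
      ((SubringClass.subtype (modularFunctionFieldFull N)).comp
        (algebraMap (GaloisRep.ratLocalizedAt ℓ) (modularFunctionFieldFull N))) = g := by
    intro g
    have hchar : CharZero (LaurentSeries ℚ) :=
      charZero_of_injective_algebraMap (algebraMap ℚ (LaurentSeries ℚ)).injective
    exact ringHom_subring_rat_ext _ _ _
  exact congrArg (fun f : GaloisRep.ratLocalizedAt ℓ →+* LaurentSeries ℚ => f a) (key _)

/-- The coercion to Laurent series of `aeval s Q` is `evalAt ℤ_(ℓ) s Q`. -/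
theorem coe_aeval_eq_evalAt (N ℓ : ℕ) [NeZero N] [Fact ℓ.Prime]
    (s : modularFunctionFieldFull N) (Q : Polynomial (GaloisRep.ratLocalizedAt ℓ)) :
    ((Polynomial.aeval s Q : modularFunctionFieldFull N) : LaurentSeries ℚ) =
      evalAt (GaloisRep.ratLocalizedAt ℓ) (s : LaurentSeries ℚ) Q := by
  induction Q using Polynomial.induction_on' with
  | add p q hp hq =>
    rw [map_add, map_add, ← hp, ← hq]
    rfl
  | monomial n a =>
    rw [Polynomial.aeval_monomial]
    simp only [evalAt, Polynomial.coe_eval₂RingHom, Polynomial.eval₂_monomial]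
    rw [MulMemClass.coe_mul, SubmonoidClass.coe_pow, coe_algebraMap_ratLocalizedAt]

/-- General bridge: for `s : F`, membership in `chartAlg N ℓ {s}` is integrality with respect to
`evalAt ℤ_(ℓ) s`. -/
theorem mem_chartAlg_singleton_iff (N ℓ : ℕ) [NeZero N] [Fact ℓ.Prime]
    (s x : modularFunctionFieldFull N) :
    x ∈ chartAlg N ℓ {s} ↔
      (evalAt (GaloisRep.ratLocalizedAt ℓ) (s : LaurentSeries ℚ)).IsIntegralElem
        (x : LaurentSeries ℚ) := by
  classical
  rw [mem_chartAlg_iff]
  -- the surjection `ℤ_(ℓ)[Y] → ℤ_(ℓ)[s]`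
  have hmem : ∀ Q : Polynomial (GaloisRep.ratLocalizedAt ℓ),
      Polynomial.aeval s Q ∈ Algebra.adjoin (GaloisRep.ratLocalizedAt ℓ)
        ({s} : Set (modularFunctionFieldFull N)) := by
    intro Q
    rw [Algebra.adjoin_singleton_eq_range_aeval]
    exact ⟨Q, rfl⟩
  let φ : Polynomial (GaloisRep.ratLocalizedAt ℓ) →+*
      Algebra.adjoin (GaloisRep.ratLocalizedAt ℓ) ({s} : Set (modularFunctionFieldFull N)) :=
    ((Polynomial.aeval s).toRingHom).codRestrict
      (Algebra.adjoin (GaloisRep.ratLocalizedAt ℓ)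
        ({s} : Set (modularFunctionFieldFull N))).toSubring
      hmem
  have hφ : ∀ Q, ((φ Q : modularFunctionFieldFull N) : LaurentSeries ℚ) =
      evalAt (GaloisRep.ratLocalizedAt ℓ) (s : LaurentSeries ℚ) Q := fun Q =>
    coe_aeval_eq_evalAt N ℓ s Q
  have hφsurj : Function.Surjective φ := by
    rintro ⟨y, hy⟩
    rw [Algebra.adjoin_singleton_eq_range_aeval] at hy
    obtain ⟨Q, hQ⟩ := hy
    exact ⟨Q, Subtype.ext hQ⟩
  -- evaluation of a mapped polynomial
  have heval : ∀ P : Polynomial (Polynomial (GaloisRep.ratLocalizedAt ℓ)),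
      ((Polynomial.eval₂ (algebraMap (Algebra.adjoin (GaloisRep.ratLocalizedAt ℓ)
          ({s} : Set (modularFunctionFieldFull N))) (modularFunctionFieldFull N)) x
          (P.map φ) : modularFunctionFieldFull N) : LaurentSeries ℚ) =
        Polynomial.eval₂ (evalAt (GaloisRep.ratLocalizedAt ℓ) (s : LaurentSeries ℚ))
          (x : LaurentSeries ℚ) P := by
    intro P
    rw [Polynomial.eval₂_map]
    induction P using Polynomial.induction_on' with
    | add p q hp hq =>
      rw [Polynomial.eval₂_add, Polynomial.eval₂_add, ← hp, ← hq]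
      rfl
    | monomial n a =>
      rw [Polynomial.eval₂_monomial, Polynomial.eval₂_monomial, ← hφ a]
      rfl
  constructor
  · rintro ⟨p, hmonic, hroot⟩
    have hlifts : p ∈ Polynomial.lifts φ :=
      (Polynomial.lifts_iff_coeff_lifts p).mpr fun i => hφsurj (p.coeff i)
    obtain ⟨P, hPp, -, hPmonic⟩ := Polynomial.lifts_and_natDegree_eq_and_monic hlifts hmonic
    refine ⟨P, hPmonic, ?_⟩
    rw [← heval P, hPp, hroot]
    rfl
  · rintro ⟨P, hPmonic, hroot⟩
    refine ⟨P.map φ, hPmonic.map φ, ?_⟩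
    apply Subtype.ext
    rw [heval P, hroot]
    rfl

/-- **T5g (finite chart).** -/
theorem mem_chartAlgFin_iff' (N ℓ : ℕ) [NeZero N] [Fact ℓ.Prime]
    (x : modularFunctionFieldFull N) :
    x ∈ chartAlgFin N ℓ ↔
      (evalAt (GaloisRep.ratLocalizedAt ℓ) jq).IsIntegralElem (x : LaurentSeries ℚ) :=
  mem_chartAlg_singleton_iff N ℓ (jFull N) x

/-- **T5g (chart at infinity).** -/
theorem mem_chartAlgInf_iff' (N ℓ : ℕ) [NeZero N] [Fact ℓ.Prime]
    (x : modularFunctionFieldFull N) :
    x ∈ chartAlgInf N ℓ ↔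
      (evalAt (GaloisRep.ratLocalizedAt ℓ) jq⁻¹).IsIntegralElem (x : LaurentSeries ℚ) := by
  have h := mem_chartAlg_singleton_iff N ℓ (jFull N)⁻¹ x
  have hcoe : (((jFull N)⁻¹ : modularFunctionFieldFull N) : LaurentSeries ℚ) = jq⁻¹ := by
    rw [IntermediateField.coe_inv, coe_jFull]
  rw [hcoe] at h
  exact h

end Fermat.Agent.S28
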