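import Fermat.Agent.S28.RBasic

/-!
# S28, task T5c (core): the Gauss-localised ring `OT` and its reduction map `redT`

The construction takes the statements of task T5b (series lemmas) as a hypothesis
`SeriesFacts ℓ`; the hypothesis-free form `exists_redT` lives in `ROT.lean`.

`OT = {x ∈ ℚ((q)) | ∃ Q ∈ ℤ_(ℓ)[Y], Q ≢ 0 mod ℓ, Q(j)·x ∈ ℤ_(ℓ)((q))}` and
`redT x = (Q(j)·x mod ℓ) / Q̄(j̄)`.
-/

set_option autoImplicit false

open ModularCurve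

noncomputable section

namespace Fermat.Agent.S28

/-- The statements of task T5b that the construction of `redT` uses. -/
structure SeriesFacts (ℓ : ℕ) [Fact ℓ.Prime] : Prop where
  embR_injective : Function.Injective (embR ℓ)
  redR_eq_zero_iff : ∀ y : LaurentSeries (GaloisRep.ratLocalizedAt ℓ),
    redR ℓ y = 0 ↔ ∃ z, y = (ℓ : LaurentSeries (GaloisRep.ratLocalizedAt ℓ)) * z
  embR_jqModC : embR ℓ (jqModC (GaloisRep.ratLocalizedAt ℓ)) = jq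
  redR_jqModC : redR ℓ (jqModC (GaloisRep.ratLocalizedAt ℓ)) = jqModC (ZMod ℓ)
  embR_evalC : ∀ (y : LaurentSeries (GaloisRep.ratLocalizedAt ℓ))
    (Q : Polynomial (GaloisRep.ratLocalizedAt ℓ)),
    embR ℓ (evalC y Q) = evalAt (GaloisRep.ratLocalizedAt ℓ) (embR ℓ y) Q
  redR_evalC : ∀ (y : LaurentSeries (GaloisRep.ratLocalizedAt ℓ))
    (Q : Polynomial (GaloisRep.ratLocalizedAt ℓ)),
    redR ℓ (evalC y Q) = evalC (redR ℓ y) (Q.map (resL ℓ))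
  evalC_jqModC_ne_zero : ∀ (Q : Polynomial (ZMod ℓ)), Q ≠ 0 → evalC (jqModC (ZMod ℓ)) Q ≠ 0

namespace SeriesFacts

variable {ℓ : ℕ} [Fact ℓ.Prime] (H : SeriesFacts ℓ)

local notation "R" => GaloisRep.ratLocalizedAt ℓ

/-- `Q(j)` as a series with `ℓ`-integral coefficients. -/
def jR (ℓ : ℕ) (Q : Polynomial (GaloisRep.ratLocalizedAt ℓ)) :
    LaurentSeries (GaloisRep.ratLocalizedAt ℓ) :=
  evalC (jqModC (GaloisRep.ratLocalizedAt ℓ)) Q

include H in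
theorem embR_jR (Q : Polynomial R) : embR ℓ (jR ℓ Q) = evalAt R jq Q := by
  rw [jR, H.embR_evalC, H.embR_jqModC]

include H in
theorem redR_jR (Q : Polynomial R) :
    redR ℓ (jR ℓ Q) = evalC (jqModC (ZMod ℓ)) (Q.map (resL ℓ)) := by
  rw [jR, H.redR_evalC, H.redR_jqModC]

/-- The data witnessing `InOT`. -/
def IsWit (ℓ : ℕ) [Fact ℓ.Prime] (x : LaurentSeries ℚ)
    (Q : Polynomial (GaloisRep.ratLocalizedAt ℓ))
    (y : LaurentSeries (GaloisRep.ratLocalizedAt ℓ)) : Prop :=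
  Q.map (resL ℓ) ≠ 0 ∧ embR ℓ y = evalAt (GaloisRep.ratLocalizedAt ℓ) jq Q * x

theorem inOT_iff_exists_isWit (x : LaurentSeries ℚ) : InOT ℓ x ↔ ∃ Q y, IsWit ℓ x Q y :=
  ⟨fun ⟨Q, hQ, y, hy⟩ => ⟨Q, y, hQ, hy⟩, fun ⟨Q, y, hQ, hy⟩ => ⟨Q, hQ, y, hy⟩⟩

theorem isWit_zero : IsWit ℓ 0 1 0 := by
  refine ⟨?_, ?_⟩
  · rw [Polynomial.map_one]; exact one_ne_zero
  · rw [map_zero, mul_zero]

theorem isWit_of_embR (y : LaurentSeries R) : IsWit ℓ (embR ℓ y) 1 y := by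
  refine ⟨?_, ?_⟩
  · rw [Polynomial.map_one]; exact one_ne_zero
  · rw [map_one, one_mul]

theorem isWit_one : IsWit ℓ 1 1 1 := by
  have := isWit_of_embR (ℓ := ℓ) 1
  rwa [map_one] at this

theorem map_mul_ne_zero {Q₁ Q₂ : Polynomial R} (h₁ : Q₁.map (resL ℓ) ≠ 0)
    (h₂ : Q₂.map (resL ℓ) ≠ 0) : (Q₁ * Q₂).map (resL ℓ) ≠ 0 := by
  rw [Polynomial.map_mul]
  exact mul_ne_zero h₁ h₂

include H in
theorem isWit_add {x₁ x₂ : LaurentSeries ℚ} {Q₁ Q₂ : Polynomial R} {y₁ y₂ : LaurentSeries R}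
    (h₁ : IsWit ℓ x₁ Q₁ y₁) (h₂ : IsWit ℓ x₂ Q₂ y₂) :
    IsWit ℓ (x₁ + x₂) (Q₁ * Q₂) (jR ℓ Q₂ * y₁ + jR ℓ Q₁ * y₂) := by
  refine ⟨map_mul_ne_zero h₁.1 h₂.1, ?_⟩
  rw [map_add, map_mul, map_mul, H.embR_jR, H.embR_jR, h₁.2, h₂.2, map_mul]
  ring

theorem isWit_mul {x₁ x₂ : LaurentSeries ℚ} {Q₁ Q₂ : Polynomial R} {y₁ y₂ : LaurentSeries R}
    (h₁ : IsWit ℓ x₁ Q₁ y₁) (h₂ : IsWit ℓ x₂ Q₂ y₂) :
    IsWit ℓ (x₁ * x₂) (Q₁ * Q₂) (y₁ * y₂) := by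
  refine ⟨map_mul_ne_zero h₁.1 h₂.1, ?_⟩
  rw [map_mul, h₁.2, h₂.2, map_mul]
  ring

theorem isWit_neg {x : LaurentSeries ℚ} {Q : Polynomial R} {y : LaurentSeries R}
    (h : IsWit ℓ x Q y) : IsWit ℓ (-x) Q (-y) := by
  refine ⟨h.1, ?_⟩
  rw [map_neg, h.2, mul_neg]

/-- The ring `OT`. -/
def OT (ℓ : ℕ) [Fact ℓ.Prime] (H : SeriesFacts ℓ) : Subring (LaurentSeries ℚ) where
  carrier := {x | InOT ℓ x}
  zero_mem' := (inOT_iff_exists_isWit 0).mpr ⟨_, _, isWit_zero⟩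
  one_mem' := (inOT_iff_exists_isWit 1).mpr ⟨_, _, isWit_one⟩
  add_mem' := fun {a b} ha hb => by
    obtain ⟨Q₁, y₁, h₁⟩ := (inOT_iff_exists_isWit a).mp ha
    obtain ⟨Q₂, y₂, h₂⟩ := (inOT_iff_exists_isWit b).mp hb
    exact (inOT_iff_exists_isWit _).mpr ⟨_, _, H.isWit_add h₁ h₂⟩
  mul_mem' := fun {a b} ha hb => by
    obtain ⟨Q₁, y₁, h₁⟩ := (inOT_iff_exists_isWit a).mp ha
    obtain ⟨Q₂, y₂, h₂⟩ := (inOT_iff_exists_isWit b).mp hb
    exact (inOT_iff_exists_isWit _).mpr ⟨_, _, isWit_mul h₁ h₂⟩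
  neg_mem' := fun {a} ha => by
    obtain ⟨Q, y, h⟩ := (inOT_iff_exists_isWit a).mp ha
    exact (inOT_iff_exists_isWit _).mpr ⟨_, _, isWit_neg h⟩

theorem mem_OT (x : LaurentSeries ℚ) : x ∈ OT ℓ H ↔ InOT ℓ x := Iff.rfl

/-- The value of the reduction attached to a witness. -/
def redVal (ℓ : ℕ) [Fact ℓ.Prime] (Q : Polynomial (GaloisRep.ratLocalizedAt ℓ))
    (y : LaurentSeries (GaloisRep.ratLocalizedAt ℓ)) : LaurentSeries (ZMod ℓ) :=
  redR ℓ y / evalC (jqModC (ZMod ℓ)) (Q.map (resL ℓ))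

include H in
/-- Independence of the witness. -/
theorem redVal_eq {x : LaurentSeries ℚ} {Q₁ Q₂ : Polynomial R} {y₁ y₂ : LaurentSeries R}
    (h₁ : IsWit ℓ x Q₁ y₁) (h₂ : IsWit ℓ x Q₂ y₂) : redVal ℓ Q₁ y₁ = redVal ℓ Q₂ y₂ := by
  have hne₁ := H.evalC_jqModC_ne_zero _ h₁.1
  have hne₂ := H.evalC_jqModC_ne_zero _ h₂.1
  rw [redVal, redVal, div_eq_div_iff hne₁ hne₂, ← H.redR_jR, ← H.redR_jR, ← map_mul, ← map_mul]
  congr 1
  apply H.embR_injective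
  rw [map_mul, map_mul, H.embR_jR, H.embR_jR, h₁.2, h₂.2]
  ring

/-- The reduction map on `OT`, as a function. -/
def redTFun (x : OT ℓ H) : LaurentSeries (ZMod ℓ) :=
  redVal ℓ ((inOT_iff_exists_isWit (x : LaurentSeries ℚ)).mp x.2).choose
    ((inOT_iff_exists_isWit (x : LaurentSeries ℚ)).mp x.2).choose_spec.choose

theorem redTFun_eq (x : OT ℓ H) {Q : Polynomial R} {y : LaurentSeries R}
    (h : IsWit ℓ (x : LaurentSeries ℚ) Q y) : redTFun H x = redVal ℓ Q y :=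
  H.redVal_eq ((inOT_iff_exists_isWit (x : LaurentSeries ℚ)).mp x.2).choose_spec.choose_spec h

theorem redVal_one_left (y : LaurentSeries R) : redVal ℓ 1 y = redR ℓ y := by
  rw [redVal, Polynomial.map_one, map_one, div_one]

/-- The reduction map on `OT`. -/
def redT : OT ℓ H →+* LaurentSeries (ZMod ℓ) where
  toFun := redTFun H
  map_one' := by
    rw [redTFun_eq H 1 (Q := 1) (y := 1) isWit_one, redVal_one_left, map_one]
  map_zero' := by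
    rw [redTFun_eq H 0 (Q := 1) (y := 0) isWit_zero, redVal_one_left, map_zero]
  map_mul' := fun a b => by
    obtain ⟨Q₁, y₁, h₁⟩ := (inOT_iff_exists_isWit (a : LaurentSeries ℚ)).mp a.2
    obtain ⟨Q₂, y₂, h₂⟩ := (inOT_iff_exists_isWit (b : LaurentSeries ℚ)).mp b.2
    rw [redTFun_eq H a h₁, redTFun_eq H b h₂,
      redTFun_eq H (a * b) (Q := Q₁ * Q₂) (y := y₁ * y₂) (isWit_mul h₁ h₂)]
    rw [redVal, redVal, redVal, Polynomial.map_mul, map_mul, map_mul, mul_div_mul_comm]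
  map_add' := fun a b => by
    obtain ⟨Q₁, y₁, h₁⟩ := (inOT_iff_exists_isWit (a : LaurentSeries ℚ)).mp a.2
    obtain ⟨Q₂, y₂, h₂⟩ := (inOT_iff_exists_isWit (b : LaurentSeries ℚ)).mp b.2
    have hne₁ := H.evalC_jqModC_ne_zero _ h₁.1
    have hne₂ := H.evalC_jqModC_ne_zero _ h₂.1
    rw [redTFun_eq H a h₁, redTFun_eq H b h₂,
      redTFun_eq H (a + b) (Q := Q₁ * Q₂) (y := jR ℓ Q₂ * y₁ + jR ℓ Q₁ * y₂)
        (H.isWit_add h₁ h₂)]
    rw [redVal, redVal, redVal, Polynomial.map_mul, map_mul, map_add, map_mul, map_mul,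
      H.redR_jR, H.redR_jR]
    field_simp

theorem redT_apply (x : OT ℓ H) {Q : Polynomial R} {y : LaurentSeries R}
    (h : IsWit ℓ (x : LaurentSeries ℚ) Q y) : redT H x = redVal ℓ Q y :=
  redTFun_eq H x h

theorem redT_of_embR (x : OT ℓ H) (y : LaurentSeries R)
    (h : embR ℓ y = (x : LaurentSeries ℚ)) : redT H x = redR ℓ y := by
  have hw : IsWit ℓ (x : LaurentSeries ℚ) 1 y := by
    have := isWit_of_embR (ℓ := ℓ) y
    rwa [h] at this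
  rw [redT_apply H x hw, redVal_one_left]

theorem exists_eq_mul_of_redT_eq_zero (a : OT ℓ H) (ha : redT H a = 0) :
    ∃ s : OT ℓ H, a = ((ℓ : ℕ) : OT ℓ H) * s := by
  have hℓ : ℓ.Prime := Fact.out
  obtain ⟨Q, y, h⟩ := (inOT_iff_exists_isWit (a : LaurentSeries ℚ)).mp a.2
  have hne := H.evalC_jqModC_ne_zero _ h.1
  rw [redT_apply H a h, redVal, div_eq_zero_iff] at ha
  rcases ha with ha | ha
  · obtain ⟨z, rfl⟩ := (H.redR_eq_zero_iff y).mp ha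
    have hℓ0 : ((ℓ : ℕ) : LaurentSeries ℚ) ≠ 0 := by
      rw [← map_natCast (algebraMap ℚ (LaurentSeries ℚ)) ℓ]
      intro h0
      have := (algebraMap ℚ (LaurentSeries ℚ)).injective (h0.trans (map_zero _).symm)
      exact hℓ.ne_zero (by exact_mod_cast this)
    have hz : IsWit ℓ ((a : LaurentSeries ℚ) / ((ℓ : ℕ) : LaurentSeries ℚ)) Q z := by
      refine ⟨h.1, ?_⟩
      have h2 := h.2
      rw [map_mul, map_natCast] at h2
      field_simp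
      rw [← h2]
      ring
    refine ⟨⟨_, (inOT_iff_exists_isWit _).mpr ⟨Q, z, hz⟩⟩, Subtype.ext ?_⟩
    rw [Subring.coe_mul, Subring.coe_natCast]
    field_simp
  · exact absurd ha hne

include H in
/-- **T5c**, from the statements of T5b. -/
theorem exists_redT_of :
    ∃ (OT : Subring (LaurentSeries ℚ)) (redT : OT →+* LaurentSeries (ZMod ℓ)),
      (∀ x, x ∈ OT ↔ InOT ℓ x) ∧
      (∀ (x : OT) (y : LaurentSeries (GaloisRep.ratLocalizedAt ℓ)),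
        embR ℓ y = (x : LaurentSeries ℚ) → redT x = redR ℓ y) ∧
      (∀ a : OT, redT a = 0 → ∃ s : OT, a = ((ℓ : ℕ) : OT) * s) :=
  ⟨OT ℓ H, redT H, mem_OT H, redT_of_embR H, exists_eq_mul_of_redT_eq_zero H⟩

end SeriesFacts

end Fermat.Agent.S28
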