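import Fermat.Agent.S28.RDefs
import Fermat.Prelude.Def_ModularCurve_X0ModL

/-!
# S28, task T5b: series lemmas

`embR : ℤ_(ℓ)((q)) → ℚ((q))`, `redR : ℤ_(ℓ)((q)) → 𝔽_ℓ((q))`, evaluation maps `evalC`, `evalAt`,
`evalAtQ`, and the formal `j`-series.
-/

set_option autoImplicit false

open ModularCurve ModularCurve.IgusaScheme

noncomputable section

namespace Fermat.Agent.S28

/-! ### `embR` -/

theorem h8_embR_coeff (ℓ : ℕ) (y : LaurentSeries (GaloisRep.ratLocalizedAt ℓ)) (n : ℤ) :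
    (embR ℓ y).coeff n = ((y.coeff n : GaloisRep.ratLocalizedAt ℓ) : ℚ) := rfl

theorem embR_injective (ℓ : ℕ) : Function.Injective (embR ℓ) := by
  intro x y h
  ext n
  have h1 := congrArg (fun z => HahnSeries.coeff z n) h
  simp only [h8_embR_coeff] at h1
  exact_mod_cast h1

theorem exists_embR_eq_iff (ℓ : ℕ) (x : LaurentSeries ℚ) :
    (∃ y, embR ℓ y = x) ↔ ∀ n, x.coeff n ∈ GaloisRep.ratLocalizedAt ℓ := by
  constructor
  · rintro ⟨y, rfl⟩ n
    rw [h8_embR_coeff]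
    exact (y.coeff n).2
  · intro h
    refine ⟨⟨fun n => ⟨x.coeff n, h n⟩, ?_⟩, ?_⟩
    · refine x.isPWO_support.mono ?_
      intro n hn
      simp only [Function.mem_support, ne_eq] at hn ⊢
      intro h0
      apply hn
      exact Subtype.ext h0
    · ext n
      rfl

/-! ### `redR` -/

theorem h8_redR_coeff (ℓ : ℕ) [Fact ℓ.Prime] (y : LaurentSeries (GaloisRep.ratLocalizedAt ℓ))
    (n : ℤ) : (redR ℓ y).coeff n = resL ℓ (y.coeff n) := rfl

/-- Local copy of the T5a statement `resL_eq_zero_iff` (kept under a different name so that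
`RSeries` does not depend on `RBasic`). -/
theorem h8_resL_eq_zero_iff (ℓ : ℕ) [Fact ℓ.Prime] (x : GaloisRep.ratLocalizedAt ℓ) :
    resL ℓ x = 0 ↔ ∃ y : GaloisRep.ratLocalizedAt ℓ, x = (ℓ : GaloisRep.ratLocalizedAt ℓ) * y := by
  constructor
  · intro h
    have hden : ((((x : ℚ).den : ℕ)) : ZMod ℓ) ≠ 0 := den_ne_zero_of_mem ℓ x.2
    have h1 : (((x : ℚ).num : ℤ) : ZMod ℓ) = 0 := by
      have h2 : ((x : ℚ) : ZMod ℓ) = 0 := h
      rw [Rat.cast_def, div_eq_zero_iff] at h2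
      rcases h2 with h2 | h2
      · exact h2
      · exact absurd h2 hden
    rw [ZMod.intCast_zmod_eq_zero_iff_dvd] at h1
    obtain ⟨k, hk⟩ := h1
    have hk_mem : ((k : ℚ)) ∈ GaloisRep.ratLocalizedAt ℓ := intCast_mem _ k
    have hinv_mem : (((x : ℚ).den : ℚ))⁻¹ ∈ GaloisRep.ratLocalizedAt ℓ := by
      show ((((x : ℚ).den : ℚ))⁻¹).den.Coprime ℓ
      rw [Rat.inv_natCast_den_of_pos (x : ℚ).den_pos]
      exact x.2
    refine ⟨⟨(k : ℚ) * (((x : ℚ).den : ℚ))⁻¹, mul_mem hk_mem hinv_mem⟩, ?_⟩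
    apply Subtype.ext
    have hx : (x : ℚ) = ((x : ℚ).num : ℚ) / ((x : ℚ).den : ℚ) := (Rat.num_div_den (x : ℚ)).symm
    have hd : (((x : ℚ).den : ℚ)) ≠ 0 := by exact_mod_cast (x : ℚ).den_ne_zero
    have hk' : (((x : ℚ).num : ℤ) : ℚ) = (ℓ : ℚ) * (k : ℚ) := by exact_mod_cast congrArg (Int.cast : ℤ → ℚ) hk
    show (x : ℚ) = ((ℓ : GaloisRep.ratLocalizedAt ℓ) : ℚ) * ((k : ℚ) * (((x : ℚ).den : ℚ))⁻¹)
    calc (x : ℚ) = ((x : ℚ).num : ℚ) / ((x : ℚ).den : ℚ) := hx
      _ = ((ℓ : GaloisRep.ratLocalizedAt ℓ) : ℚ) * ((k : ℚ) * (((x : ℚ).den : ℚ))⁻¹) := by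
        rw [hk']
        push_cast
        field_simp
  · rintro ⟨y, rfl⟩
    rw [map_mul, map_natCast]
    simp

theorem h8_natCast_laurent_mul_coeff {A : Type} [CommRing A] (ℓ : ℕ) (z : LaurentSeries A) (n : ℤ) :
    (((ℓ : ℕ) : LaurentSeries A) * z).coeff n = (ℓ : A) * z.coeff n := by
  rw [← map_natCast (HahnSeries.C : A →+* LaurentSeries A) ℓ, HahnSeries.C_apply,
    HahnSeries.coeff_single_zero_mul]

theorem redR_eq_zero_iff (ℓ : ℕ) [Fact ℓ.Prime]
    (y : LaurentSeries (GaloisRep.ratLocalizedAt ℓ)) :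
    redR ℓ y = 0 ↔ ∃ z, y = (ℓ : LaurentSeries (GaloisRep.ratLocalizedAt ℓ)) * z := by
  constructor
  · intro h
    have h1 : ∀ n, ∃ w : GaloisRep.ratLocalizedAt ℓ,
        y.coeff n = (ℓ : GaloisRep.ratLocalizedAt ℓ) * w := by
      intro n
      rw [← h8_resL_eq_zero_iff, ← h8_redR_coeff, h, HahnSeries.coeff_zero]
    choose w hw using h1
    refine ⟨⟨w, ?_⟩, ?_⟩
    · refine y.isPWO_support.mono ?_
      intro n hn
      simp only [Function.mem_support, ne_eq] at hn ⊢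
      intro h0
      apply hn
      have h2 := hw n
      rw [show y.coeff n = 0 from h0] at h2
      have hℓ : (ℓ : GaloisRep.ratLocalizedAt ℓ) ≠ 0 := by
        have : (ℓ : ℕ) ≠ 0 := (Fact.out : ℓ.Prime).ne_zero
        exact_mod_cast this
      rcases mul_eq_zero.mp h2.symm with h3 | h3
      · exact absurd h3 hℓ
      · exact h3
    · refine HahnSeries.ext ?_
      funext n
      rw [h8_natCast_laurent_mul_coeff]
      exact hw n
  · rintro ⟨z, rfl⟩
    rw [map_mul, map_natCast]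
    have : ((ℓ : ℕ) : LaurentSeries (ZMod ℓ)) = 0 := by
      rw [← map_natCast (HahnSeries.C : ZMod ℓ →+* LaurentSeries (ZMod ℓ)) ℓ]
      simp
    rw [this, zero_mul]

/-! ### the `j`-series -/

theorem embR_jqModC (ℓ : ℕ) : embR ℓ (jqModC (GaloisRep.ratLocalizedAt ℓ)) = jq := by
  rw [embR, coeffMap_jqModC, jqModC_rat]

theorem redR_jqModC (ℓ : ℕ) [Fact ℓ.Prime] :
    redR ℓ (jqModC (GaloisRep.ratLocalizedAt ℓ)) = jqModC (ZMod ℓ) := by
  rw [redR, coeffMap_jqModC]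

/-! ### evaluation maps -/

theorem embR_evalC (ℓ : ℕ) (y : LaurentSeries (GaloisRep.ratLocalizedAt ℓ))
    (Q : Polynomial (GaloisRep.ratLocalizedAt ℓ)) :
    embR ℓ (evalC y Q) = evalAt (GaloisRep.ratLocalizedAt ℓ) (embR ℓ y) Q := by
  have hcomp : (embR ℓ).comp (HahnSeries.C : GaloisRep.ratLocalizedAt ℓ →+* _) =
      (algebraMap ℚ (LaurentSeries ℚ)).comp (GaloisRep.ratLocalizedAt ℓ).subtype := by
    ext a : 1
    simp only [RingHom.comp_apply, HahnSeries.C_apply, embR, coeffMap_single,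
      algebraMap_laurentSeries_eq_single]
  show embR ℓ (Polynomial.eval₂ _ y Q) = Polynomial.eval₂ _ (embR ℓ y) Q
  rw [Polynomial.hom_eval₂, hcomp]

theorem redR_evalC (ℓ : ℕ) [Fact ℓ.Prime] (y : LaurentSeries (GaloisRep.ratLocalizedAt ℓ))
    (Q : Polynomial (GaloisRep.ratLocalizedAt ℓ)) :
    redR ℓ (evalC y Q) = evalC (redR ℓ y) (Q.map (resL ℓ)) := by
  have hcomp : (redR ℓ).comp (HahnSeries.C : GaloisRep.ratLocalizedAt ℓ →+* _) =
      (HahnSeries.C : ZMod ℓ →+* LaurentSeries (ZMod ℓ)).comp (resL ℓ) := by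
    ext a : 1
    simp only [RingHom.comp_apply, HahnSeries.C_apply, redR, coeffMap_single]
  show redR ℓ (Polynomial.eval₂ _ y Q) = Polynomial.eval₂ _ (redR ℓ y) (Q.map (resL ℓ))
  rw [Polynomial.hom_eval₂, hcomp, Polynomial.eval₂_map]

theorem h8_evalC_eq_aeval (k : Type) [Field k] (x : LaurentSeries k) (Q : Polynomial k) :
    evalC x Q = Polynomial.aeval x Q := by
  have hC : (HahnSeries.C : k →+* LaurentSeries k) = algebraMap k (LaurentSeries k) := by
    ext a : 1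
    rw [algebraMap_laurentSeries_eq_single, HahnSeries.C_apply]
  show Polynomial.eval₂ _ x Q = _
  rw [Polynomial.aeval_def, hC]

theorem evalC_jqModC_ne_zero (k : Type) [Field k] (Q : Polynomial k) (hQ : Q ≠ 0) :
    evalC (jqModC k) Q ≠ 0 := by
  intro h
  rw [h8_evalC_eq_aeval] at h
  exact hQ
    (P2MW.S_ModularCurve_coeff_jqModC_neg_one.ModularCurve.CharLRows.aeval_jqModC_eq_zero k h)

theorem exists_jqInvR (ℓ : ℕ) :
    ∃ y : LaurentSeries (GaloisRep.ratLocalizedAt ℓ),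
      y * jqModC (GaloisRep.ratLocalizedAt ℓ) = 1 := by
  set u : PowerSeries (GaloisRep.ratLocalizedAt ℓ) :=
    jNum.map (Int.castRingHom (GaloisRep.ratLocalizedAt ℓ)) with hu
  have hc : PowerSeries.constantCoeff u = 1 :=
    P2MW.S_ModularCurve_coeff_jqModC_neg_one.ModularCurve.CharLRows.constantCoeff_jNum_map _
  have hunit : IsUnit u := by
    rw [PowerSeries.isUnit_iff_constantCoeff, hc]
    exact isUnit_one
  obtain ⟨v, hv⟩ := hunit.exists_left_inv
  refine ⟨HahnSeries.single (1 : ℤ) 1 * HahnSeries.ofPowerSeries ℤ _ v, ?_⟩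
  rw [jqModC, ← hu]
  calc HahnSeries.single (1 : ℤ) (1 : GaloisRep.ratLocalizedAt ℓ) *
        HahnSeries.ofPowerSeries ℤ _ v *
        (HahnSeries.single (-1 : ℤ) 1 * HahnSeries.ofPowerSeries ℤ _ u)
      = (HahnSeries.single (1 : ℤ) (1 : GaloisRep.ratLocalizedAt ℓ) *
          HahnSeries.single (-1 : ℤ) 1) *
        (HahnSeries.ofPowerSeries ℤ _ v * HahnSeries.ofPowerSeries ℤ _ u) := by ring
    _ = 1 := by
        have h1 : HahnSeries.ofPowerSeries ℤ (GaloisRep.ratLocalizedAt ℓ) v *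
            HahnSeries.ofPowerSeries ℤ (GaloisRep.ratLocalizedAt ℓ) u = 1 := by
          rw [← map_mul, hv, map_one]
        have h2 : HahnSeries.single (1 : ℤ) (1 : GaloisRep.ratLocalizedAt ℓ) *
            HahnSeries.single (-1 : ℤ) 1 = 1 := by
          rw [HahnSeries.single_mul_single]
          simp
        rw [h1, h2, mul_one]

/-! ### `evalAtQ` -/

theorem h8_evalAtQ_eq_aeval (x : LaurentSeries ℚ) (Q : Polynomial ℚ) :
    evalAtQ x Q = Polynomial.aeval x Q := by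
  show Polynomial.eval₂ _ x Q = _
  rw [Polynomial.aeval_def]

theorem h8_transcendental_jq : Transcendental ℚ jq :=
  P2MW.S_ModularCurve_coeff_jqModC_neg_one.ModularCurve.CharLRows.transcendental_jqModC ℚ

theorem evalAtQ_jq_injective : Function.Injective (evalAtQ jq) := by
  have h := transcendental_iff_injective.mp h8_transcendental_jq
  intro P Q hPQ
  apply h
  rw [← h8_evalAtQ_eq_aeval, ← h8_evalAtQ_eq_aeval]
  exact hPQ

theorem evalAtQ_jq_inv_injective : Function.Injective (evalAtQ jq⁻¹) := by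
  have h0 : Transcendental ℚ jq⁻¹ := by
    intro halg
    exact h8_transcendental_jq (IsAlgebraic.inv_iff.mp halg)
  have h := transcendental_iff_injective.mp h0
  intro P Q hPQ
  apply h
  rw [← h8_evalAtQ_eq_aeval, ← h8_evalAtQ_eq_aeval]
  exact hPQ

theorem evalAt_eq_evalAtQ_map (R : Subring ℚ) (x : LaurentSeries ℚ) (Q : Polynomial R) :
    evalAt R x Q = evalAtQ x (Q.map R.subtype) := by
  show Polynomial.eval₂ _ x Q = Polynomial.eval₂ _ x (Q.map R.subtype)
  rw [Polynomial.eval₂_map]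

end Fermat.Agent.S28
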