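import Fermat.Agent.S28.RBasic
import Fermat.Agent.S28.RSeries
import Fermat.Agent.S28.ROTCore
import Fermat.Agent.S28.IntLemma
import Fermat.Agent.S28.PrimElt
import Fermat.Agent.S28.RBridge
import Fermat.Agent.S28.Newton

/-!
# S28, task T5h: assembly of the q-expansion principle

`exists_reduction_chartAlgFin`, `exists_reduction_chartAlgInf` from the leaf lemmas
(T4 Newton polygon, T5a–T5g).
-/

set_option autoImplicit false

open ModularCurve ModularCurve.IgusaScheme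

noncomputable section

namespace Fermat.Agent.S28.Asm

open Fermat.Agent.S28

/-- **T5c**: the ring `OT` and its reduction map. -/
theorem exists_redT' (ℓ : ℕ) [Fact ℓ.Prime] :
    ∃ (OT : Subring (LaurentSeries ℚ)) (redT : OT →+* LaurentSeries (ZMod ℓ)),
      (∀ x, x ∈ OT ↔ InOT ℓ x) ∧
      (∀ (x : OT) (y : LaurentSeries (GaloisRep.ratLocalizedAt ℓ)),
        embR ℓ y = (x : LaurentSeries ℚ) → redT x = redR ℓ y) ∧
      (∀ a : OT, redT a = 0 → ∃ s : OT, a = ((ℓ : ℕ) : OT) * s) :=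
  SeriesFacts.exists_redT_of
    { embR_injective := embR_injective ℓ
      redR_eq_zero_iff := redR_eq_zero_iff ℓ
      embR_jqModC := embR_jqModC ℓ
      redR_jqModC := redR_jqModC ℓ
      embR_evalC := embR_evalC ℓ
      redR_evalC := redR_evalC ℓ
      evalC_jqModC_ne_zero := evalC_jqModC_ne_zero (ZMod ℓ) }

theorem order_jqModC' (k : Type) [Field k] : (jqModC k).order = -1 := by
  refine le_antisymm (HahnSeries.order_le_of_coeff_ne_zero ?_) ?_
  · rw [coeff_jqModC_neg_one]; exact one_ne_zero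
  · by_contra hlt
    rw [not_le] at hlt
    exact HahnSeries.coeff_order_eq_zero.not.mpr (jqModC_ne_zero_of_nontrivial k)
      (coeff_jqModC_of_lt k hlt)

/-- `embR` of the inverse of `j` over `R` is `j⁻¹`. -/
theorem exists_jqInvR' (ℓ : ℕ) [Fact ℓ.Prime] : ∃ y : LaurentSeries (GaloisRep.ratLocalizedAt ℓ),
    embR ℓ y = jq⁻¹ ∧ redR ℓ y = (jqModC (ZMod ℓ))⁻¹ := by
  obtain ⟨y, hy⟩ := exists_jqInvR ℓ
  refine ⟨y, ?_, ?_⟩
  · have h := congrArg (embR ℓ) hy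
    rw [map_mul, map_one, embR_jqModC] at h
    exact eq_inv_of_mul_eq_one_left h
  · have h := congrArg (redR ℓ) hy
    rw [map_mul, map_one, redR_jqModC] at h
    exact eq_inv_of_mul_eq_one_left h

theorem embR_comp_evalC (ℓ : ℕ) (y : LaurentSeries (GaloisRep.ratLocalizedAt ℓ)) :
    (embR ℓ).comp (evalC y) = evalAt (GaloisRep.ratLocalizedAt ℓ) (embR ℓ y) :=
  RingHom.ext fun Q => embR_evalC ℓ y Q

theorem redR_comp_evalC (ℓ : ℕ) [Fact ℓ.Prime] (y : LaurentSeries (GaloisRep.ratLocalizedAt ℓ)) :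
    (redR ℓ).comp (evalC y) = (evalC (redR ℓ y)).comp (Polynomial.mapRingHom (resL ℓ)) :=
  RingHom.ext fun Q => redR_evalC ℓ y Q

/-- Transfer a monic relation from characteristic `0` to characteristic `ℓ`. -/
theorem transfer_monic_relation (ℓ : ℕ) [Fact ℓ.Prime]
    (tR vR : LaurentSeries (GaloisRep.ratLocalizedAt ℓ))
    (h : ∃ P : Polynomial (Polynomial (GaloisRep.ratLocalizedAt ℓ)), P.Monic ∧
      P.eval₂ (evalAt (GaloisRep.ratLocalizedAt ℓ) (embR ℓ tR)) (embR ℓ vR) = 0) :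
    ∃ P : Polynomial (Polynomial (ZMod ℓ)), P.Monic ∧
      P.eval₂ (evalC (redR ℓ tR)) (redR ℓ vR) = 0 := by
  obtain ⟨P, hP, h0⟩ := h
  refine ⟨P.map (Polynomial.mapRingHom (resL ℓ)), hP.map _, ?_⟩
  rw [← embR_comp_evalC, ← Polynomial.hom_eval₂] at h0
  have h1 : P.eval₂ (evalC tR) vR = 0 := embR_injective ℓ (by rw [h0, map_zero])
  rw [Polynomial.eval₂_map, ← redR_comp_evalC, ← Polynomial.hom_eval₂, h1, map_zero]

theorem le_order_of_forall_lt {k : Type} [Field k] (u : LaurentSeries k) (a : ℤ) (hu : u ≠ 0)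
    (h : ∀ n < a, u.coeff n = 0) : a ≤ u.order := by
  by_contra hlt
  rw [not_le] at hlt
  exact HahnSeries.coeff_order_eq_zero.not.mpr hu (h _ hlt)

theorem coeff_UR (ℓ : ℕ) (UR : LaurentSeries (GaloisRep.ratLocalizedAt ℓ)) (n : ℤ) :
    ((UR.coeff n : GaloisRep.ratLocalizedAt ℓ) : ℚ) = (embR ℓ UR).coeff n := rfl

/-- The combination `Σ P_i(j) U^i` over `R`. -/
def comb (ℓ : ℕ) (I : ℕ) (UR : LaurentSeries (GaloisRep.ratLocalizedAt ℓ))
    (P : Fin I → Polynomial (GaloisRep.ratLocalizedAt ℓ)) :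
    LaurentSeries (GaloisRep.ratLocalizedAt ℓ) :=
  ∑ i : Fin I, evalC (jqModC (GaloisRep.ratLocalizedAt ℓ)) (P i) * UR ^ (i : ℕ)

theorem embR_comb (ℓ : ℕ) (I : ℕ) (UR : LaurentSeries (GaloisRep.ratLocalizedAt ℓ))
    (P : Fin I → Polynomial (GaloisRep.ratLocalizedAt ℓ)) :
    embR ℓ (comb ℓ I UR P) =
      ∑ i : Fin I, evalAt (GaloisRep.ratLocalizedAt ℓ) jq (P i) * (embR ℓ UR) ^ (i : ℕ) := by
  rw [comb, map_sum]
  refine Finset.sum_congr rfl fun i _ => ?_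
  rw [map_mul, map_pow, embR_evalC, embR_jqModC]

/-- Claim A′: nontrivial mod-`ℓ` combinations of `1, U, …, U^(I-1)` do not reduce to zero. -/
theorem redR_comb_ne_zero (N ℓ : ℕ) [Fact ℓ.Prime] (D : IgusaInput N ℓ)
    (UR : LaurentSeries (GaloisRep.ratLocalizedAt ℓ))
    (hUR : embR ℓ UR = D.U) (P : Fin D.I → Polynomial (GaloisRep.ratLocalizedAt ℓ))
    (hP : ∃ i, (P i).map (resL ℓ) ≠ 0) :
    redR ℓ (comb ℓ D.I UR P) ≠ 0 := by
  intro h0
  obtain ⟨i, hi⟩ := hP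
  obtain ⟨jinv, hjinv, hjinv'⟩ := exists_jqInvR' ℓ
  -- facts about ū
  have hcoeff : ∀ n, (redR ℓ UR).coeff n = resL ℓ (UR.coeff n) := fun n => rfl
  have hone : (redR ℓ UR).coeff ((D.m : ℤ) * ((D.I : ℤ) - 1)) = 1 := by
    rw [hcoeff]
    have : UR.coeff ((D.m : ℤ) * ((D.I : ℤ) - 1)) = 1 := by
      apply Subtype.ext
      rw [coeff_UR, hUR, D.U_monic.coeff_self]; rfl
    rw [this, map_one]
  have hu0 : redR ℓ UR ≠ 0 := by
    intro h
    rw [h, HahnSeries.coeff_zero] at hone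
    exact zero_ne_one hone
  have hu : (D.m : ℤ) * ((D.I : ℤ) - 1) ≤ (redR ℓ UR).order := by
    refine le_order_of_forall_lt _ _ hu0 fun n hn => ?_
    rw [hcoeff]
    have : UR.coeff n = 0 := by
      apply Subtype.ext
      rw [coeff_UR, hUR, D.U_monic.coeff_of_lt hn]; rfl
    rw [this, map_zero]
  have hint := transfer_monic_relation ℓ (jqModC _) UR (by
    rw [embR_jqModC, hUR]; exact D.U_int)
  rw [redR_jqModC] at hint
  have hint' := transfer_monic_relation ℓ jinv (UR * jinv ^ D.m) (by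
    rw [hjinv, map_mul, map_pow, hjinv, hUR]; exact D.Uj_int)
  rw [map_mul, map_pow, hjinv'] at hint'
  have key := newton_linearIndependent (ZMod ℓ) (jqModC (ZMod ℓ)) (redR ℓ UR) D.m D.I
    D.m_pos D.I_pos (jqModC_ne_zero_of_nontrivial _) (order_jqModC' _) hu0 hu hint hint'
    (fun i => (P i).map (resL ℓ)) (by
      rw [comb, map_sum] at h0
      rw [← h0]
      refine Finset.sum_congr rfl fun i _ => ?_
      rw [map_mul, map_pow, redR_evalC, redR_jqModC]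
      rfl)
  exact hi (congrFun key i)

theorem evalAt_eq_evalAtQ_map' (R : Subring ℚ) (x : LaurentSeries ℚ) (Q : Polynomial R) :
    evalAt R x Q = evalAtQ x (Q.map R.subtype) := by
  simp only [evalAt, evalAtQ, Polynomial.coe_eval₂RingHom, Polynomial.eval₂_map]

theorem natCast_ne_zero' (ℓ : ℕ) [Fact ℓ.Prime] : ((ℓ : LaurentSeries ℚ)) ≠ 0 := by
  rw [← map_natCast (algebraMap ℚ (LaurentSeries ℚ))]
  exact (map_ne_zero _).mpr (Nat.cast_ne_zero.mpr (Fact.out : ℓ.Prime).ne_zero)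

theorem natCast_zpow_ne_zero (ℓ : ℕ) [Fact ℓ.Prime] (b : ℤ) :
    ((ℓ : LaurentSeries ℚ)) ^ b ≠ 0 :=
  zpow_ne_zero _ (natCast_ne_zero' ℓ)

theorem evalAtQ_C_zpow_mul (ℓ : ℕ) (b : ℤ) (x : LaurentSeries ℚ)
    (Q : Polynomial (GaloisRep.ratLocalizedAt ℓ)) :
    evalAtQ x (Polynomial.C ((ℓ : ℚ) ^ b) * Q.map (GaloisRep.ratLocalizedAt ℓ).subtype) =
      (ℓ : LaurentSeries ℚ) ^ b * evalAt (GaloisRep.ratLocalizedAt ℓ) x Q := by
  rw [map_mul, evalAt_eq_evalAtQ_map']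
  congr 1
  simp only [evalAtQ, Polynomial.coe_eval₂RingHom, Polynomial.eval₂_C, map_zpow₀, map_natCast]

/-- Claim A: `1, U, …, U^(I-1)` are linearly independent over `ℚ[j]`. -/
theorem indep_char0 (N ℓ : ℕ) [Fact ℓ.Prime] (D : IgusaInput N ℓ)
    (c : Fin D.I → Polynomial ℚ)
    (hc : ∑ i : Fin D.I, evalAtQ jq (c i) * D.U ^ (i : ℕ) = 0) : c = 0 := by
  by_contra hne
  obtain ⟨UR, hUR⟩ := (exists_embR_eq_iff ℓ D.U).2 D.U_coeff
  obtain ⟨b, P', hP', hcP⟩ := exists_normalize_family ℓ c hne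
  have h1 : (ℓ : LaurentSeries ℚ) ^ b * embR ℓ (comb ℓ D.I UR P') = 0 := by
    rw [embR_comb, hUR, Finset.mul_sum, ← hc]
    refine Finset.sum_congr rfl fun i _ => ?_
    rw [hcP i, evalAtQ_C_zpow_mul, mul_assoc]
  have h2 : comb ℓ D.I UR P' = 0 := by
    apply embR_injective ℓ
    rw [map_zero]
    exact (mul_eq_zero.mp h1).resolve_left (natCast_zpow_ne_zero ℓ b)
  exact redR_comb_ne_zero N ℓ D UR hUR P' hP' (by rw [h2, map_zero])


/-! ### Part 4: the normalised representation -/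

theorem algebraMap_eq_C : algebraMap ℚ (LaurentSeries ℚ) = HahnSeries.C := by
  ext c : 1
  rw [algebraMap_laurentSeries_eq_single]
  rfl

theorem evalAtQ_eq_evalC (x : LaurentSeries ℚ) : evalAtQ x = evalC x := by
  rw [evalAtQ, evalC, algebraMap_eq_C]

theorem evalAtQ_jq_injective' : Function.Injective (evalAtQ jq) := by
  rw [injective_iff_map_eq_zero]
  intro Q hQ
  by_contra hne
  rw [evalAtQ_eq_evalC] at hQ
  exact evalC_jqModC_ne_zero ℚ Q hne hQ

theorem evalAt_jq_injective' (ℓ : ℕ) :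
    Function.Injective (evalAt (GaloisRep.ratLocalizedAt ℓ) jq) := by
  intro P Q h
  rw [evalAt_eq_evalAtQ_map', evalAt_eq_evalAtQ_map'] at h
  exact Polynomial.map_injective _ Subtype.val_injective (evalAtQ_jq_injective' h)

theorem jq_mem_divisorExpansions (N : ℕ) : jq ∈ divisorExpansions N := by
  have h := mem_divisorExpansions N (d := 1) (one_dvd N)
  rwa [qExpand_one_apply] at h

theorem finite_divisorExpansions (N : ℕ) [NeZero N] : (divisorExpansions N).Finite := by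
  refine (N.divisors.finite_toSet.image jSub).subset ?_
  rintro x ⟨d, hd, hdN, rfl⟩
  refine ⟨d, ?_, ?_⟩
  · simpa using ⟨hdN, NeZero.ne N⟩
  · simp only [jSub, dif_neg (NeZero.ne d)]

theorem full_le_adjoin_insert (N : ℕ) [NeZero N] (u : LaurentSeries ℚ) :
    modularFunctionFieldFull N ≤ IntermediateField.adjoin ℚ (insert u (divisorExpansions N)) :=
  IntermediateField.adjoin.mono ℚ _ _ (Set.subset_insert _ _)

theorem exists_normalized_rep (N ℓ : ℕ) [NeZero N] [Fact ℓ.Prime] (D : IgusaInput N ℓ)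
    (UR : LaurentSeries (GaloisRep.ratLocalizedAt ℓ)) (hUR : embR ℓ UR = D.U)
    (x : LaurentSeries ℚ) (hx : x ∈ modularFunctionFieldFull N) (hx0 : x ≠ 0) :
    ∃ (k : ℤ) (Dn : Polynomial (GaloisRep.ratLocalizedAt ℓ))
      (P : Fin D.I → Polynomial (GaloisRep.ratLocalizedAt ℓ)),
      Dn.map (resL ℓ) ≠ 0 ∧ (∃ i, (P i).map (resL ℓ) ≠ 0) ∧
      (ℓ : LaurentSeries ℚ) ^ k * (evalAt (GaloisRep.ratLocalizedAt ℓ) jq Dn * x) =
        embR ℓ (comb ℓ D.I UR P) := by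
  obtain ⟨D₀, P₀, hD₀, hrep⟩ := rep_of_deg_le (insert D.U (divisorExpansions N))
    ((finite_divisorExpansions N).insert _) jq D.U D.I D.I_pos
    (Set.mem_insert_of_mem _ (jq_mem_divisorExpansions N)) (Set.mem_insert _ _)
    evalAtQ_jq_injective' (indep_char0 N ℓ D) D.deg_le x (full_le_adjoin_insert N D.U hx)
  have hP₀ : P₀ ≠ 0 := by
    rintro rfl
    simp only [Pi.zero_apply, map_zero, zero_mul, Finset.sum_const_zero, mul_eq_zero] at hrep
    rcases hrep with h | h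
    · exact hD₀ (evalAtQ_jq_injective' (by rw [h, map_zero]))
    · exact hx0 h
  have hD₀' : (fun _ : Fin 1 => D₀) ≠ 0 := fun h => hD₀ (congrFun h 0)
  obtain ⟨a, Dn, ⟨_, hDn⟩, hDa⟩ := exists_normalize_family ℓ (fun _ : Fin 1 => D₀) hD₀'
  obtain ⟨b, P, hP, hPb⟩ := exists_normalize_family ℓ P₀ hP₀
  refine ⟨a - b, Dn 0, P, ?_, hP, ?_⟩
  · rwa [Subsingleton.elim 0 _]
  · have h1 : (ℓ : LaurentSeries ℚ) ^ a *
        (evalAt (GaloisRep.ratLocalizedAt ℓ) jq (Dn 0) * x) =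
        (ℓ : LaurentSeries ℚ) ^ b * embR ℓ (comb ℓ D.I UR P) := by
      rw [embR_comb, hUR, Finset.mul_sum, ← mul_assoc, ← evalAtQ_C_zpow_mul, ← hDa 0, hrep]
      refine Finset.sum_congr rfl fun i _ => ?_
      rw [hPb i, evalAtQ_C_zpow_mul, mul_assoc]
    rw [zpow_sub₀ (natCast_ne_zero' ℓ), div_mul_eq_mul_div, h1,
      mul_div_cancel_left₀ _ (natCast_zpow_ne_zero ℓ b)]


/-! ### Part 5 -/

theorem redR_natCast (ℓ : ℕ) [Fact ℓ.Prime] :
    redR ℓ ((ℓ : ℕ) : LaurentSeries (GaloisRep.ratLocalizedAt ℓ)) = 0 := by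
  rw [map_natCast, ← map_natCast (HahnSeries.C : ZMod ℓ →+* LaurentSeries (ZMod ℓ)),
    ZMod.natCast_self, map_zero]

/-- For `k ≥ 1`, `ℓ^k · Dn(j)` comes from an element of `R((q))` which reduces to `0`. -/
theorem exists_scalar (ℓ : ℕ) [Fact ℓ.Prime] (k : ℤ) (hk : 0 < k)
    (Dn : Polynomial (GaloisRep.ratLocalizedAt ℓ)) :
    ∃ cR : LaurentSeries (GaloisRep.ratLocalizedAt ℓ), redR ℓ cR = 0 ∧
      embR ℓ cR = (ℓ : LaurentSeries ℚ) ^ k * evalAt (GaloisRep.ratLocalizedAt ℓ) jq Dn := by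
  obtain ⟨n, rfl⟩ : ∃ n : ℕ, k = (n : ℤ) + 1 := ⟨(k - 1).toNat, by omega⟩
  refine ⟨(ℓ : LaurentSeries (GaloisRep.ratLocalizedAt ℓ)) ^ (n + 1) *
    evalC (jqModC (GaloisRep.ratLocalizedAt ℓ)) Dn, ?_, ?_⟩
  · rw [map_mul, map_pow, redR_natCast, pow_succ, mul_zero, zero_mul]
  · rw [map_mul, map_pow, map_natCast, embR_evalC, embR_jqModC]
    norm_cast

/-- Lemma (a): integrality over `R((q))` forces `k ≤ 0`. -/
theorem nonpos_of_isIntegralElem (ℓ : ℕ) [Fact ℓ.Prime] (x : LaurentSeries ℚ) (k : ℤ)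
    (Dn : Polynomial (GaloisRep.ratLocalizedAt ℓ))
    (bb : LaurentSeries (GaloisRep.ratLocalizedAt ℓ)) (hbb : redR ℓ bb ≠ 0)
    (hrep : (ℓ : LaurentSeries ℚ) ^ k * (evalAt (GaloisRep.ratLocalizedAt ℓ) jq Dn * x) =
      embR ℓ bb)
    (hint : (embR ℓ).IsIntegralElem x) : k ≤ 0 := by
  by_contra hk
  rw [not_le] at hk
  obtain ⟨cR, hc0, hc⟩ := exists_scalar ℓ k hk Dn
  obtain ⟨p, hp, hpx⟩ := hint
  have h1 : Polynomial.eval₂ (embR ℓ) (embR ℓ bb) (p.scaleRoots cR) = 0 := by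
    rw [← hrep, ← mul_assoc, ← hc]
    exact Polynomial.scaleRoots_eval₂_eq_zero _ hpx
  rw [Polynomial.eval₂_at_apply] at h1
  have h2 : (p.scaleRoots cR).eval bb = 0 := embR_injective ℓ (by rw [h1, map_zero])
  have h3 := congrArg (redR ℓ) h2
  rw [map_zero, ← Polynomial.eval₂_at_apply, ← Polynomial.eval_map,
    Polynomial.map_scaleRoots _ _ _ (by rw [hp.leadingCoeff, map_one]; exact one_ne_zero),
    hc0, Polynomial.scaleRoots_zero, (hp.map _).leadingCoeff, one_smul,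
    Polynomial.eval_pow, Polynomial.eval_X] at h3
  exact hbb (eq_zero_of_pow_eq_zero h3)


/-! ### Part 5b -/

/-- Lemma (b): membership in `OT` forces `k ≤ 0`. -/
theorem nonpos_of_inOT (ℓ : ℕ) [Fact ℓ.Prime] (x : LaurentSeries ℚ) (k : ℤ)
    (Dn : Polynomial (GaloisRep.ratLocalizedAt ℓ))
    (bb : LaurentSeries (GaloisRep.ratLocalizedAt ℓ)) (hbb : redR ℓ bb ≠ 0)
    (hrep : (ℓ : LaurentSeries ℚ) ^ k * (evalAt (GaloisRep.ratLocalizedAt ℓ) jq Dn * x) =
      embR ℓ bb)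
    (hx : InOT ℓ x) : k ≤ 0 := by
  by_contra hk
  rw [not_le] at hk
  obtain ⟨cR, hc0, hc⟩ := exists_scalar ℓ k hk Dn
  obtain ⟨Q, hQ, y, hy⟩ := hx
  have h1 : evalC (jqModC (GaloisRep.ratLocalizedAt ℓ)) Q * bb = cR * y := by
    apply embR_injective ℓ
    rw [map_mul, map_mul, embR_evalC, embR_jqModC, ← hrep, hy, hc]
    ring
  have h2 := congrArg (redR ℓ) h1
  rw [map_mul, map_mul, hc0, zero_mul, redR_evalC, redR_jqModC] at h2
  rcases mul_eq_zero.mp h2 with h | h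
  · exact evalC_jqModC_ne_zero (ZMod ℓ) _ hQ h
  · exact hbb h

/-- If `k ≤ 0` the representation can be rewritten without the power of `ℓ`. -/
theorem rep_of_nonpos (ℓ : ℕ) [Fact ℓ.Prime] (I : ℕ)
    (UR : LaurentSeries (GaloisRep.ratLocalizedAt ℓ)) (x : LaurentSeries ℚ) (k : ℤ)
    (hk : k ≤ 0) (Dn : Polynomial (GaloisRep.ratLocalizedAt ℓ))
    (P : Fin I → Polynomial (GaloisRep.ratLocalizedAt ℓ))
    (hrep : (ℓ : LaurentSeries ℚ) ^ k * (evalAt (GaloisRep.ratLocalizedAt ℓ) jq Dn * x) =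
      embR ℓ (comb ℓ I UR P)) :
    ∃ P' : Fin I → Polynomial (GaloisRep.ratLocalizedAt ℓ),
      evalAt (GaloisRep.ratLocalizedAt ℓ) jq Dn * x = embR ℓ (comb ℓ I UR P') := by
  obtain ⟨n, rfl⟩ : ∃ n : ℕ, k = -(n : ℤ) := ⟨(-k).toNat, by omega⟩
  refine ⟨fun i => Polynomial.C ((ℓ : GaloisRep.ratLocalizedAt ℓ) ^ n) * P i, ?_⟩
  have h1 : comb ℓ I UR (fun i => Polynomial.C ((ℓ : GaloisRep.ratLocalizedAt ℓ) ^ n) * P i) =
      (ℓ : LaurentSeries (GaloisRep.ratLocalizedAt ℓ)) ^ n * comb ℓ I UR P := by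
    rw [comb, comb, Finset.mul_sum]
    refine Finset.sum_congr rfl fun i _ => ?_
    rw [map_mul, mul_assoc, Polynomial.C_pow, map_pow, Polynomial.C_eq_natCast, map_natCast]
  rw [h1, map_mul, map_pow, map_natCast, ← hrep, zpow_neg, zpow_natCast, ← mul_assoc,
    mul_inv_cancel₀ (pow_ne_zero _ (natCast_ne_zero' ℓ)), one_mul]

theorem inOT_of_rep (ℓ : ℕ) [Fact ℓ.Prime] (x : LaurentSeries ℚ)
    (Dn : Polynomial (GaloisRep.ratLocalizedAt ℓ)) (hDn : Dn.map (resL ℓ) ≠ 0)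
    (bb : LaurentSeries (GaloisRep.ratLocalizedAt ℓ))
    (hrep : evalAt (GaloisRep.ratLocalizedAt ℓ) jq Dn * x = embR ℓ bb) : InOT ℓ x :=
  ⟨Dn, hDn, bb, hrep.symm⟩

theorem inOT_zero (ℓ : ℕ) [Fact ℓ.Prime] : InOT ℓ 0 :=
  ⟨1, by simp, 0, by simp⟩

/-- Closure of `RingHom.IsIntegralElem` under polynomial combinations. -/
theorem isIntegralElem_sum_mul_pow {A L : Type*} [CommRing A] [CommRing L] (f : A →+* L) (u : L)
    (hu : f.IsIntegralElem u) (n : ℕ) (c : Fin n → A) :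
    f.IsIntegralElem (∑ i : Fin n, f (c i) * u ^ (i : ℕ)) := by
  let _ := f.toAlgebra
  show IsIntegral A _
  exact IsIntegral.sum _ fun i _ => (isIntegral_algebraMap (x := c i)).mul (IsIntegral.pow hu _)

theorem isIntegralElem_of_comp {A B L : Type*} [CommRing A] [CommRing B] [CommRing L]
    (f : A →+* B) (g : B →+* L) (x : L) (h : (g.comp f).IsIntegralElem x) :
    g.IsIntegralElem x := by
  obtain ⟨p, hp, hpx⟩ := h
  exact ⟨p.map f, hp.map f, by rwa [Polynomial.eval₂_map]⟩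


theorem evalAt_reflect (R : Subring ℚ) (t : LaurentSeries ℚ) (ht : t ≠ 0) (n : ℕ)
    (P : Polynomial R) (hP : P.natDegree ≤ n) :
    evalAt R t⁻¹ (P.reflect n) = evalAt R t P * t⁻¹ ^ n := by
  let _ : Invertible t := invertibleOfNonzero ht
  have h := Polynomial.eval₂_reflect_mul_pow ((algebraMap ℚ (LaurentSeries ℚ)).comp R.subtype)
    t n P hP
  rw [invOf_eq_inv] at h
  simp only [evalAt, Polynomial.coe_eval₂RingHom]
  rw [← h, mul_assoc, ← mul_pow, mul_inv_cancel₀ ht, one_pow, mul_one]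

theorem evalAt_C_natCast (ℓ : ℕ) (t : LaurentSeries ℚ) :
    evalAt (GaloisRep.ratLocalizedAt ℓ) t (Polynomial.C ((ℓ : ℕ) : GaloisRep.ratLocalizedAt ℓ)) =
      (ℓ : LaurentSeries ℚ) := by
  rw [Polynomial.C_eq_natCast, map_natCast]

theorem not_C_dvd (ℓ : ℕ) [Fact ℓ.Prime] (Q : Polynomial (GaloisRep.ratLocalizedAt ℓ))
    (hQ : Q.map (resL ℓ) ≠ 0) :
    ¬ Polynomial.C ((ℓ : ℕ) : GaloisRep.ratLocalizedAt ℓ) ∣ Q := by
  rintro ⟨Q', rfl⟩
  apply hQ
  rw [Polynomial.map_mul, Polynomial.map_C, map_natCast, ZMod.natCast_self, map_zero, zero_mul]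


/-! ### Part 6: the core statements -/

/-- Integrality over `R[t]` (for `t` with `ℓ`-integral expansion) implies membership in `OT`. -/
theorem inOT_of_isIntegralElem (N ℓ : ℕ) [NeZero N] [Fact ℓ.Prime] (D : IgusaInput N ℓ)
    (tR : LaurentSeries (GaloisRep.ratLocalizedAt ℓ)) (x : LaurentSeries ℚ)
    (hx : x ∈ modularFunctionFieldFull N)
    (hint : (evalAt (GaloisRep.ratLocalizedAt ℓ) (embR ℓ tR)).IsIntegralElem x) : InOT ℓ x := by
  by_cases hx0 : x = 0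
  · subst hx0; exact inOT_zero ℓ
  obtain ⟨UR, hUR⟩ := (exists_embR_eq_iff ℓ D.U).2 D.U_coeff
  obtain ⟨k, Dn, P, hDn, hP, hrep⟩ := exists_normalized_rep N ℓ D UR hUR x hx hx0
  have hk := nonpos_of_isIntegralElem ℓ x k Dn _ (redR_comb_ne_zero N ℓ D UR hUR P hP) hrep
    (isIntegralElem_of_comp (evalC tR) (embR ℓ) x (by rwa [embR_comp_evalC]))
  obtain ⟨P', hP'⟩ := rep_of_nonpos ℓ D.I UR x k hk Dn P hrep
  exact inOT_of_rep ℓ x Dn hDn _ hP'

/-- Elements of `OT ∩ F` have a denominator-free representation in the basis `U^i`. -/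
theorem exists_rep_of_inOT (N ℓ : ℕ) [NeZero N] [Fact ℓ.Prime] (D : IgusaInput N ℓ)
    (x : LaurentSeries ℚ) (hx : x ∈ modularFunctionFieldFull N) (hOT : InOT ℓ x) :
    ∃ (Dn : Polynomial (GaloisRep.ratLocalizedAt ℓ))
      (P : Fin D.I → Polynomial (GaloisRep.ratLocalizedAt ℓ)), Dn.map (resL ℓ) ≠ 0 ∧
      evalAt (GaloisRep.ratLocalizedAt ℓ) jq Dn * x =
        ∑ i : Fin D.I, evalAt (GaloisRep.ratLocalizedAt ℓ) jq (P i) * D.U ^ (i : ℕ) := by
  by_cases hx0 : x = 0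
  · subst hx0
    exact ⟨1, fun _ => 0, by simp, by simp⟩
  obtain ⟨UR, hUR⟩ := (exists_embR_eq_iff ℓ D.U).2 D.U_coeff
  obtain ⟨k, Dn, P, hDn, hP, hrep⟩ := exists_normalized_rep N ℓ D UR hUR x hx hx0
  have hk := nonpos_of_inOT ℓ x k Dn _ (redR_comb_ne_zero N ℓ D UR hUR P hP) hrep hOT
  obtain ⟨P', hP'⟩ := rep_of_nonpos ℓ D.I UR x k hk Dn P hrep
  exact ⟨Dn, P', hDn, by rw [hP', embR_comb, hUR]⟩

theorem prime_C_natCast (ℓ : ℕ) [Fact ℓ.Prime] :
    Prime (Polynomial.C ((ℓ : ℕ) : GaloisRep.ratLocalizedAt ℓ)) :=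
  Polynomial.prime_C_iff.mpr (prime_natCast_ratLocalizedAt ℓ)

/-- Core statement, finite chart. -/
theorem core_fin (N ℓ : ℕ) [NeZero N] [Fact ℓ.Prime] (D : IgusaInput N ℓ)
    (x : LaurentSeries ℚ) (hx : x ∈ modularFunctionFieldFull N) (hOT : InOT ℓ x)
    (hint : (evalAt (GaloisRep.ratLocalizedAt ℓ) jq).IsIntegralElem ((ℓ : LaurentSeries ℚ) * x)) :
    (evalAt (GaloisRep.ratLocalizedAt ℓ) jq).IsIntegralElem x := by
  obtain ⟨Dn, P, hDn, hrep⟩ := exists_rep_of_inOT N ℓ D x hx hOT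
  have := isIntegrallyClosed_ratLocalizedAt ℓ
  refine isIntegralElem_of_prime_mul_of_mul (evalAt (GaloisRep.ratLocalizedAt ℓ) jq)
    (evalAt_jq_injective' ℓ) _ Dn (prime_C_natCast ℓ) (not_C_dvd ℓ Dn hDn) x ?_ ?_
  · rwa [evalAt_C_natCast]
  · rw [hrep]
    exact isIntegralElem_sum_mul_pow _ _ D.U_int _ _

theorem evalAt_jq_inv_injective' (ℓ : ℕ) :
    Function.Injective (evalAt (GaloisRep.ratLocalizedAt ℓ) jq⁻¹) := by
  rw [injective_iff_map_eq_zero]
  intro Q hQ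
  have h := evalAt_reflect (GaloisRep.ratLocalizedAt ℓ) jq⁻¹ (inv_ne_zero jq_ne_zero)
    Q.natDegree Q le_rfl
  rw [inv_inv, hQ, zero_mul] at h
  have h2 := evalAt_jq_injective' ℓ (h.trans (map_zero _).symm)
  exact (Polynomial.reflect_eq_zero_iff).mp h2

/-- Core statement, chart at infinity. -/
theorem core_inf (N ℓ : ℕ) [NeZero N] [Fact ℓ.Prime] (D : IgusaInput N ℓ)
    (x : LaurentSeries ℚ) (hx : x ∈ modularFunctionFieldFull N) (hOT : InOT ℓ x)
    (hint : (evalAt (GaloisRep.ratLocalizedAt ℓ) jq⁻¹).IsIntegralElem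
      ((ℓ : LaurentSeries ℚ) * x)) :
    (evalAt (GaloisRep.ratLocalizedAt ℓ) jq⁻¹).IsIntegralElem x := by
  obtain ⟨Dn, P, hDn, hrep⟩ := exists_rep_of_inOT N ℓ D x hx hOT
  have := isIntegrallyClosed_ratLocalizedAt ℓ
  -- a uniform bound
  set M : ℕ := Dn.natDegree + ∑ i : Fin D.I, ((P i).natDegree + D.m * (i : ℕ)) with hM
  have hMi : ∀ i : Fin D.I, (P i).natDegree + D.m * (i : ℕ) ≤ M := fun i =>
    le_trans (Finset.single_le_sum (f := fun i : Fin D.I => (P i).natDegree + D.m * (i : ℕ))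
      (fun _ _ => Nat.zero_le _) (Finset.mem_univ i)) (Nat.le_add_left _ _)
  have hQ : (Dn.reflect M).map (resL ℓ) ≠ 0 := by
    rw [← Polynomial.reflect_map]
    exact fun h => hDn (Polynomial.reflect_eq_zero_iff.mp h)
  refine isIntegralElem_of_prime_mul_of_mul (evalAt (GaloisRep.ratLocalizedAt ℓ) jq⁻¹)
    (evalAt_jq_inv_injective' ℓ) _ (Dn.reflect M) (prime_C_natCast ℓ)
    (not_C_dvd ℓ _ hQ) x ?_ ?_
  · rwa [evalAt_C_natCast]
  · have key : evalAt (GaloisRep.ratLocalizedAt ℓ) jq⁻¹ (Dn.reflect M) * x =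
        ∑ i : Fin D.I, evalAt (GaloisRep.ratLocalizedAt ℓ) jq⁻¹
          ((P i).reflect (M - D.m * (i : ℕ))) * (D.U * jq⁻¹ ^ D.m) ^ (i : ℕ) := by
      rw [evalAt_reflect _ jq jq_ne_zero M Dn (Nat.le_add_right _ _), mul_right_comm, hrep,
        Finset.sum_mul]
      refine Finset.sum_congr rfl fun i _ => ?_
      have hi := hMi i
      rw [evalAt_reflect _ jq jq_ne_zero _ (P i) (by omega), mul_pow, ← pow_mul]
      have hsplit : jq⁻¹ ^ M = jq⁻¹ ^ (M - D.m * (i : ℕ)) * jq⁻¹ ^ (D.m * (i : ℕ)) := by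
        rw [← pow_add]; congr 1; omega
      rw [hsplit]
      ring
    rw [key]
    exact isIntegralElem_sum_mul_pow _ _ D.Uj_int _ _

/-! ### Part 7: the reduction maps on the two charts -/

/-- Generic construction: a subalgebra of `F` all of whose elements lie in `OT`, and which is
"saturated" with respect to division by `ℓ` inside `OT`, has a reduction map with kernel `(ℓ)`. -/
theorem exists_reduction_of_core (N ℓ : ℕ) [NeZero N] [Fact ℓ.Prime]
    (A : Subalgebra (GaloisRep.ratLocalizedAt ℓ) (modularFunctionFieldFull N))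
    (h1 : ∀ a : modularFunctionFieldFull N, a ∈ A → InOT ℓ (a : LaurentSeries ℚ))
    (h2 : ∀ a : modularFunctionFieldFull N, InOT ℓ (a : LaurentSeries ℚ) →
      ((ℓ : ℕ) : modularFunctionFieldFull N) * a ∈ A → a ∈ A) :
    ∃ ρ : A →+* LaurentSeries (ZMod ℓ),
      ∀ a : A, ρ a = 0 → ∃ b : A, a = (ℓ : A) * b := by
  obtain ⟨OT, redT, hOT, -, hker⟩ := exists_redT' ℓ
  let incl : A →+* OT :=
    ((algebraMap (modularFunctionFieldFull N) (LaurentSeries ℚ)).comp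
      A.val.toRingHom).codRestrict OT
      (fun a => (hOT _).2 (h1 (a : modularFunctionFieldFull N) a.2))
  have hincl : ∀ a : A, ((incl a : OT) : LaurentSeries ℚ) =
      ((a : modularFunctionFieldFull N) : LaurentSeries ℚ) := fun _ => rfl
  refine ⟨redT.comp incl, fun a ha => ?_⟩
  obtain ⟨s, hs⟩ := hker (incl a) ha
  have hs' : ((a : modularFunctionFieldFull N) : LaurentSeries ℚ) =
      (ℓ : LaurentSeries ℚ) * (s : LaurentSeries ℚ) := by
    have := congrArg (Subtype.val) hs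
    rw [hincl] at this
    simpa using this
  have hℓ : (ℓ : LaurentSeries ℚ) ≠ 0 := natCast_ne_zero' ℓ
  have hsF : (s : LaurentSeries ℚ) ∈ modularFunctionFieldFull N := by
    have : (s : LaurentSeries ℚ) =
        (ℓ : LaurentSeries ℚ)⁻¹ * ((a : modularFunctionFieldFull N) : LaurentSeries ℚ) := by
      rw [hs', ← mul_assoc, inv_mul_cancel₀ hℓ, one_mul]
    rw [this]
    exact mul_mem (inv_mem (natCast_mem _ ℓ)) (a : modularFunctionFieldFull N).2
  have hmem : (⟨s, hsF⟩ : modularFunctionFieldFull N) ∈ A := by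
    refine h2 _ ((hOT _).1 s.2) ?_
    have : ((ℓ : ℕ) : modularFunctionFieldFull N) * ⟨s, hsF⟩ = (a : modularFunctionFieldFull N) := by
      apply Subtype.ext
      rw [hs']
      simp
    rw [this]
    exact a.2
  refine ⟨⟨⟨s, hsF⟩, hmem⟩, ?_⟩
  apply Subtype.ext
  apply Subtype.ext
  rw [hs']
  simp

end Fermat.Agent.S28.Asm

namespace Fermat.Agent.S28

open Fermat.Agent.S28.Asm

/-- II.d  q-expansion principle: reduction mod `ℓ` on the finite chart. -/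
theorem exists_reduction_chartAlgFin (N ℓ : ℕ) [NeZero N] [Fact ℓ.Prime] (D : IgusaInput N ℓ) :
    ∃ ρ : chartAlgFin N ℓ →+* LaurentSeries (ZMod ℓ),
      ∀ a : chartAlgFin N ℓ, ρ a = 0 → ∃ b : chartAlgFin N ℓ, a = (ℓ : chartAlgFin N ℓ) * b := by
  refine exists_reduction_of_core N ℓ (chartAlgFin N ℓ) (fun a ha => ?_) (fun a hOT ha => ?_)
  · have h := (mem_chartAlgFin_iff' N ℓ a).1 ha
    rw [← embR_jqModC ℓ] at h
    exact inOT_of_isIntegralElem N ℓ D _ _ a.2 h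
  · refine (mem_chartAlgFin_iff' N ℓ a).2 (core_fin N ℓ D _ a.2 hOT ?_)
    have h := (mem_chartAlgFin_iff' N ℓ _).1 ha
    simpa using h

theorem exists_reduction_chartAlgInf (N ℓ : ℕ) [NeZero N] [Fact ℓ.Prime] (D : IgusaInput N ℓ) :
    ∃ ρ : chartAlgInf N ℓ →+* LaurentSeries (ZMod ℓ),
      ∀ a : chartAlgInf N ℓ, ρ a = 0 → ∃ b : chartAlgInf N ℓ, a = (ℓ : chartAlgInf N ℓ) * b := by
  obtain ⟨jinv, hjinv, -⟩ := exists_jqInvR' ℓ
  refine exists_reduction_of_core N ℓ (chartAlgInf N ℓ) (fun a ha => ?_) (fun a hOT ha => ?_)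
  · have h := (mem_chartAlgInf_iff' N ℓ a).1 ha
    rw [← hjinv] at h
    exact inOT_of_isIntegralElem N ℓ D _ _ a.2 h
  · refine (mem_chartAlgInf_iff' N ℓ a).2 (core_inf N ℓ D _ a.2 hOT ?_)
    have h := (mem_chartAlgInf_iff' N ℓ _).1 ha
    simpa using h

end Fermat.Agent.S28
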