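import Mathlib

/-!
# The reflection trick (S28, Part I)

If `P ∈ S[Y][X]` is monic in `X` of degree `I`, with `deg_Y (coeff_{I-i} P) ≤ m·i`, and
`P(x, u) = 0` in a field, then `u / x^m` is a root of a monic polynomial `Q ∈ S[Y][X]`
evaluated at `Y = 1/x`.
-/

set_option autoImplicit false

open Polynomial

namespace Fermat.Agent.S28

section

variable {S : Type*} [CommRing S]

/-- the reflected polynomial `Q = ∑ₖ reflect (m (I - k)) (coeff_k P) · X^k`. -/
noncomputable def h44ReflectPoly (P : Polynomial (Polynomial S)) (m : ℕ) :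
    Polynomial (Polynomial S) :=
  ∑ k ∈ Finset.range (P.natDegree + 1),
    C (reflect (m * (P.natDegree - k)) (P.coeff k)) * X ^ k

theorem h44ReflectPoly_monic (P : Polynomial (Polynomial S)) (hP : P.Monic) (m : ℕ) :
    (h44ReflectPoly P m).Monic := by
  classical
  unfold h44ReflectPoly
  rw [Finset.sum_range_succ]
  have hlead : C (reflect (m * (P.natDegree - P.natDegree)) (P.coeff P.natDegree)) *
      X ^ P.natDegree = (X : Polynomial (Polynomial S)) ^ P.natDegree := by
    rw [Nat.sub_self, mul_zero, Polynomial.coeff_natDegree, hP.leadingCoeff, reflect_one,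
      pow_zero, map_one, one_mul]
  rw [hlead, add_comm]
  apply Polynomial.monic_X_pow_add
  refine lt_of_le_of_lt (Polynomial.degree_sum_le _ _) ?_
  rw [Finset.sup_lt_iff (WithBot.bot_lt_coe _)]
  intro k hk
  refine lt_of_le_of_lt (Polynomial.degree_C_mul_X_pow_le _ _) ?_
  exact_mod_cast Finset.mem_range.mp hk

theorem h44ReflectPoly_eval {L : Type*} [Field L] (φ : S →+* L)
    (P : Polynomial (Polynomial S)) (m : ℕ)
    (hdeg : ∀ i : ℕ, i ≤ P.natDegree → (P.coeff (P.natDegree - i)).natDegree ≤ m * i)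
    (x u : L) (hx : x ≠ 0) :
    (h44ReflectPoly P m).eval₂ (Polynomial.eval₂RingHom φ x⁻¹) (u * (x⁻¹) ^ m) =
      (x⁻¹) ^ (m * P.natDegree) * P.eval₂ (Polynomial.eval₂RingHom φ x) u := by
  classical
  let _ : Invertible x := invertibleOfNonzero hx
  unfold h44ReflectPoly
  rw [Polynomial.eval₂_finsetSum, Polynomial.eval₂_eq_sum_range, Finset.mul_sum]
  refine Finset.sum_congr rfl fun k hk => ?_
  have hk' : k ≤ P.natDegree := Nat.lt_succ_iff.mp (Finset.mem_range.mp hk)
  have hd : (P.coeff k).natDegree ≤ m * (P.natDegree - k) := by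
    have := hdeg (P.natDegree - k) (Nat.sub_le _ _)
    rwa [Nat.sub_sub_self hk'] at this
  have h1 := Polynomial.eval₂_reflect_mul_pow φ x (m * (P.natDegree - k)) (P.coeff k) hd
  rw [invOf_eq_inv] at h1
  rw [Polynomial.eval₂_mul, Polynomial.eval₂_C, Polynomial.eval₂_pow, Polynomial.eval₂_X,
    Polynomial.coe_eval₂RingHom, Polynomial.coe_eval₂RingHom, ← h1]
  have h2 : m * P.natDegree = m * (P.natDegree - k) + m * k := by
    rw [← Nat.mul_add, Nat.sub_add_cancel hk']
  rw [h2, pow_add, mul_pow, ← pow_mul]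
  have h3 : x ^ (m * (P.natDegree - k)) * x⁻¹ ^ (m * (P.natDegree - k)) = 1 := by
    rw [← mul_pow, mul_inv_cancel₀ hx, one_pow]
  linear_combination (-(eval₂ φ x⁻¹ (reflect (m * (P.natDegree - k)) (P.coeff k)) *
    u ^ k * x⁻¹ ^ (m * k))) * h3

end

end Fermat.Agent.S28
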