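import Mathlib

/-!
# S28 / T6d (formal part): Laurent series with coefficients in a subring

Pure `LaurentSeries` algebra over a field `K` with a subring `S ⊆ K`:

* `Cusp.coeffSubring S` : the subring of Laurent series all of whose coefficients lie in `S`;
* `Cusp.IsUnitLead S s` : `s` has coefficients in `S` and its leading coefficient is a unit of `S`;
  this class is closed under `*`, `⁻¹`, `zpow`, finite products, and orders add up.
-/

set_option autoImplicit false

noncomputable section

namespace Fermat.Agent.S28.Cusp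

open HahnSeries

variable {K : Type*} [Field K]

/-- Laurent series with all coefficients in the subring `S`. -/
def coeffSubring (S : Subring K) : Subring (LaurentSeries K) where
  carrier := {s | ∀ n, s.coeff n ∈ S}
  mul_mem' := by
    intro a b ha hb n
    rw [HahnSeries.coeff_mul]
    exact Subring.sum_mem _ fun ij _ => S.mul_mem (ha _) (hb _)
  one_mem' := by
    intro n
    rw [HahnSeries.coeff_one]
    split_ifs
    · exact S.one_mem
    · exact S.zero_mem
  add_mem' := by
    intro a b ha hb n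
    rw [HahnSeries.coeff_add]
    exact S.add_mem (ha _) (hb _)
  zero_mem' := by
    intro n
    rw [HahnSeries.coeff_zero]
    exact S.zero_mem
  neg_mem' := by
    intro a ha n
    rw [HahnSeries.coeff_neg]
    exact S.neg_mem (ha _)

theorem mem_coeffSubring {S : Subring K} {s : LaurentSeries K} :
    s ∈ coeffSubring S ↔ ∀ n, s.coeff n ∈ S := Iff.rfl

theorem single_mem_coeffSubring {S : Subring K} (n : ℤ) {a : K} (ha : a ∈ S) :
    (HahnSeries.single n a : LaurentSeries K) ∈ coeffSubring S := by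
  intro k
  by_cases h : k = n
  · subst h; rw [HahnSeries.coeff_single_same]; exact ha
  · rw [HahnSeries.coeff_single_of_ne h]; exact S.zero_mem

theorem C_mem_coeffSubring {S : Subring K} {a : K} (ha : a ∈ S) :
    (HahnSeries.C a : LaurentSeries K) ∈ coeffSubring S :=
  single_mem_coeffSubring 0 ha

/-- The coercion of a power series with coefficients in `S` has coefficients in `S`. -/
theorem ofPowerSeries_mem_coeffSubring {S : Subring K} (P : PowerSeries K)
    (hP : ∀ n, PowerSeries.coeff n P ∈ S) :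
    (HahnSeries.ofPowerSeries ℤ K P : LaurentSeries K) ∈ coeffSubring S := by
  intro k
  rcases lt_or_ge k 0 with hk | hk
  · have : (HahnSeries.ofPowerSeries ℤ K P).coeff k = 0 := by
      rw [PowerSeries.coeff_coe, if_pos hk]
    rw [this]; exact S.zero_mem
  · obtain ⟨m, rfl⟩ := Int.eq_ofNat_of_zero_le hk
    rw [HahnSeries.ofPowerSeries_apply_coeff]
    exact hP m

/-- `s` has coefficients in `S` and its leading coefficient is a unit of `S`. -/
structure IsUnitLead (S : Subring K) (s : LaurentSeries K) : Prop where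
  mem : s ∈ coeffSubring S
  unit : ∃ u ∈ S, u * s.leadingCoeff = 1

namespace IsUnitLead

variable {S : Subring K} {s t : LaurentSeries K}

theorem leadingCoeff_ne_zero (hs : IsUnitLead S s) : s.leadingCoeff ≠ 0 := by
  obtain ⟨u, -, hu⟩ := hs.unit
  exact right_ne_zero_of_mul_eq_one hu

theorem ne_zero (hs : IsUnitLead S s) : s ≠ 0 :=
  HahnSeries.leadingCoeff_ne_zero.mp hs.leadingCoeff_ne_zero

theorem leadingCoeff_mem (hs : IsUnitLead S s) : s.leadingCoeff ∈ S := by
  rw [HahnSeries.leadingCoeff_eq]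
  exact hs.mem _

theorem one : IsUnitLead S (1 : LaurentSeries K) :=
  ⟨(coeffSubring S).one_mem, 1, S.one_mem, by rw [HahnSeries.leadingCoeff_one, mul_one]⟩

theorem single (n : ℤ) {a u : K} (ha : a ∈ S) (hu : u ∈ S) (hua : u * a = 1) :
    IsUnitLead S (HahnSeries.single n a : LaurentSeries K) := by
  refine ⟨single_mem_coeffSubring n ha, u, hu, ?_⟩
  have ha0 : a ≠ 0 := right_ne_zero_of_mul_eq_one hua
  rw [HahnSeries.leadingCoeff_of_single, hua]

theorem mul (hs : IsUnitLead S s) (ht : IsUnitLead S t) : IsUnitLead S (s * t) := by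
  refine ⟨(coeffSubring S).mul_mem hs.mem ht.mem, ?_⟩
  obtain ⟨u, hu, hus⟩ := hs.unit
  obtain ⟨v, hv, hvt⟩ := ht.unit
  refine ⟨u * v, S.mul_mem hu hv, ?_⟩
  rw [HahnSeries.leadingCoeff_mul]
  calc u * v * (s.leadingCoeff * t.leadingCoeff)
      = (u * s.leadingCoeff) * (v * t.leadingCoeff) := by ring
    _ = 1 := by rw [hus, hvt, mul_one]

theorem order_mul (hs : IsUnitLead S s) (ht : IsUnitLead S t) :
    (s * t).order = s.order + t.order :=
  HahnSeries.order_mul hs.ne_zero ht.ne_zero

/-- The inverse of a series with `S`-coefficients and unit leading coefficient again has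
`S`-coefficients. -/
theorem inv_mem (hs : IsUnitLead S s) : s⁻¹ ∈ coeffSubring S := by
  obtain ⟨u, hu, hus⟩ := hs.unit
  -- the power series part, lifted to `S`
  let P : PowerSeries S := PowerSeries.mk fun k => ⟨s.coeff (s.order + k), hs.mem _⟩
  have hPmap : P.map S.subtype = s.powerSeriesPart := by
    ext k
    rw [PowerSeries.coeff_map, PowerSeries.coeff_mk, LaurentSeries.powerSeriesPart_coeff]
    rfl
  have hconst : PowerSeries.constantCoeff P = ⟨s.leadingCoeff, hs.leadingCoeff_mem⟩ := by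
    rw [← PowerSeries.coeff_zero_eq_constantCoeff_apply, PowerSeries.coeff_mk]
    apply Subtype.ext
    simp [HahnSeries.leadingCoeff_eq]
  have hunit : IsUnit (PowerSeries.constantCoeff P) := by
    rw [hconst]
    refine IsUnit.of_mul_eq_one (⟨u, hu⟩ : S) ?_
    apply Subtype.ext
    simpa [mul_comm] using hus
  obtain ⟨Q, hQ⟩ := (PowerSeries.isUnit_iff_constantCoeff.mpr hunit).exists_right_inv
  have hPQ : (s.powerSeriesPart) * (Q.map S.subtype) = 1 := by
    rw [← hPmap, ← map_mul, hQ, map_one]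
  have hs_eq := LaurentSeries.single_order_mul_powerSeriesPart s
  have hinv : s⁻¹ = HahnSeries.single (-s.order) (1 : K) *
      HahnSeries.ofPowerSeries ℤ K (Q.map S.subtype) := by
    apply inv_eq_of_mul_eq_one_right
    calc s * (HahnSeries.single (-s.order) (1 : K) *
          HahnSeries.ofPowerSeries ℤ K (Q.map S.subtype))
        = (HahnSeries.single s.order (1 : K) * HahnSeries.ofPowerSeries ℤ K s.powerSeriesPart) *
          (HahnSeries.single (-s.order) (1 : K) *
            HahnSeries.ofPowerSeries ℤ K (Q.map S.subtype)) := by rw [hs_eq]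
      _ = (HahnSeries.single s.order (1 : K) * HahnSeries.single (-s.order) (1 : K)) *
          (HahnSeries.ofPowerSeries ℤ K s.powerSeriesPart *
            HahnSeries.ofPowerSeries ℤ K (Q.map S.subtype)) := by ring
      _ = 1 := by
          have h1 : HahnSeries.single s.order (1 : K) * HahnSeries.single (-s.order) (1 : K)
              = 1 := by
            rw [HahnSeries.single_mul_single, add_neg_cancel, mul_one]
            rfl
          have h2 : HahnSeries.ofPowerSeries ℤ K s.powerSeriesPart *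
              HahnSeries.ofPowerSeries ℤ K (Q.map S.subtype) = 1 := by
            rw [← map_mul, hPQ, map_one]
          rw [h1, h2, mul_one]
  rw [hinv]
  refine (coeffSubring S).mul_mem (single_mem_coeffSubring _ S.one_mem)
    (ofPowerSeries_mem_coeffSubring _ fun k => ?_)
  rw [PowerSeries.coeff_map]
  exact (PowerSeries.coeff k Q).2

theorem inv (hs : IsUnitLead S s) : IsUnitLead S s⁻¹ := by
  refine ⟨hs.inv_mem, s.leadingCoeff, hs.leadingCoeff_mem, ?_⟩
  rw [mul_comm, ← HahnSeries.leadingCoeff_mul, inv_mul_cancel₀ hs.ne_zero,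
    HahnSeries.leadingCoeff_one]

theorem pow (hs : IsUnitLead S s) (n : ℕ) : IsUnitLead S (s ^ n) := by
  induction n with
  | zero => rw [pow_zero]; exact one
  | succ n ih => rw [pow_succ]; exact ih.mul hs

theorem zpow (hs : IsUnitLead S s) (n : ℤ) : IsUnitLead S (s ^ n) := by
  cases n with
  | ofNat n => rw [Int.ofNat_eq_natCast, zpow_natCast]; exact hs.pow n
  | negSucc n => rw [zpow_negSucc]; exact (hs.pow _).inv

theorem prod {ι : Type*} (F : Finset ι) (f : ι → LaurentSeries K)
    (hf : ∀ i ∈ F, IsUnitLead S (f i)) : IsUnitLead S (∏ i ∈ F, f i) := by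
  classical
  induction F using Finset.induction_on with
  | empty => rw [Finset.prod_empty]; exact one
  | insert a F ha ih =>
    rw [Finset.prod_insert ha]
    exact (hf a (Finset.mem_insert_self a F)).mul
      (ih fun i hi => hf i (Finset.mem_insert_of_mem hi))

end IsUnitLead

/-! ### order bookkeeping for nonzero Laurent series over a field -/

theorem order_inv' {s : LaurentSeries K} (hs : s ≠ 0) : (s⁻¹).order = -s.order := by
  have h := HahnSeries.order_mul hs (inv_ne_zero hs)
  rw [mul_inv_cancel₀ hs, HahnSeries.order_one] at h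
  omega

theorem order_pow' (s : LaurentSeries K) (n : ℕ) : (s ^ n).order = n * s.order := by
  rw [HahnSeries.order_pow, nsmul_eq_mul]

theorem order_zpow' {s : LaurentSeries K} (hs : s ≠ 0) (n : ℤ) :
    (s ^ n).order = n * s.order := by
  cases n with
  | ofNat n => rw [Int.ofNat_eq_natCast, zpow_natCast, order_pow']
  | negSucc n =>
    rw [zpow_negSucc, order_inv' (pow_ne_zero _ hs), order_pow', Int.negSucc_eq]
    push_cast
    ring

theorem order_prod' {ι : Type*} (F : Finset ι) (f : ι → LaurentSeries K)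
    (hf : ∀ i ∈ F, f i ≠ 0) : (∏ i ∈ F, f i).order = ∑ i ∈ F, (f i).order := by
  classical
  induction F using Finset.induction_on with
  | empty => rw [Finset.prod_empty, Finset.sum_empty, HahnSeries.order_one]
  | insert a F ha ih =>
    rw [Finset.prod_insert ha, Finset.sum_insert ha,
      HahnSeries.order_mul (hf a (Finset.mem_insert_self a F))
        (Finset.prod_ne_zero_iff.mpr fun i hi => hf i (Finset.mem_insert_of_mem hi)),
      ih fun i hi => hf i (Finset.mem_insert_of_mem hi)]

/-! ### units of a subring of a field -/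

/-- `x` is a unit of the subring `S` of the field `K`. -/
structure IsUnitIn (S : Subring K) (x : K) : Prop where
  mem : x ∈ S
  inv_mem : x⁻¹ ∈ S
  ne_zero : x ≠ 0

namespace IsUnitIn

variable {S : Subring K} {x y : K}

theorem one : IsUnitIn S (1 : K) := ⟨S.one_mem, by rw [inv_one]; exact S.one_mem, one_ne_zero⟩

theorem mul (hx : IsUnitIn S x) (hy : IsUnitIn S y) : IsUnitIn S (x * y) :=
  ⟨S.mul_mem hx.mem hy.mem, by rw [mul_inv]; exact S.mul_mem hx.inv_mem hy.inv_mem,
    mul_ne_zero hx.ne_zero hy.ne_zero⟩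

theorem inv (hx : IsUnitIn S x) : IsUnitIn S x⁻¹ :=
  ⟨hx.inv_mem, by rw [inv_inv]; exact hx.mem, inv_ne_zero hx.ne_zero⟩

theorem pow (hx : IsUnitIn S x) (n : ℕ) : IsUnitIn S (x ^ n) :=
  ⟨S.pow_mem hx.mem n, by rw [← inv_pow]; exact S.pow_mem hx.inv_mem n, pow_ne_zero n hx.ne_zero⟩

theorem zpow (hx : IsUnitIn S x) (n : ℤ) : IsUnitIn S (x ^ n) := by
  cases n with
  | ofNat n => rw [Int.ofNat_eq_natCast, zpow_natCast]; exact hx.pow n
  | negSucc n => rw [zpow_negSucc]; exact (hx.pow _).inv

theorem prod {ι : Type*} (F : Finset ι) (f : ι → K) (hf : ∀ i ∈ F, IsUnitIn S (f i)) :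
    IsUnitIn S (∏ i ∈ F, f i) := by
  classical
  induction F using Finset.induction_on with
  | empty => rw [Finset.prod_empty]; exact one
  | insert a F ha ih =>
    rw [Finset.prod_insert ha]
    exact (hf a (Finset.mem_insert_self a F)).mul
      (ih fun i hi => hf i (Finset.mem_insert_of_mem hi))

/-- A constant series with unit value. -/
theorem isUnitLead_C (hx : IsUnitIn S x) : IsUnitLead S (HahnSeries.C x : LaurentSeries K) :=
  IsUnitLead.single 0 hx.mem hx.inv_mem (inv_mul_cancel₀ hx.ne_zero)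

end IsUnitIn

theorem order_C_ne_zero {x : K} (_hx : x ≠ 0) : (HahnSeries.C x : LaurentSeries K).order = 0 :=
  HahnSeries.order_C

/-! ### order and leading coefficient from coefficient data -/

theorem order_eq_of_coeff {t : LaurentSeries K} {m : ℤ} (hm : t.coeff m ≠ 0)
    (hlt : ∀ k < m, t.coeff k = 0) : t.order = m := by
  refine le_antisymm (HahnSeries.order_le_of_coeff_ne_zero hm) ?_
  by_contra h
  rw [not_le] at h
  exact (HahnSeries.ne_zero_of_coeff_ne_zero hm) (HahnSeries.coeff_order_eq_zero.mp (hlt _ h))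

theorem leadingCoeff_eq_of_coeff {t : LaurentSeries K} {m : ℤ} (hm : t.coeff m ≠ 0)
    (hlt : ∀ k < m, t.coeff k = 0) : t.leadingCoeff = t.coeff m := by
  rw [HahnSeries.leadingCoeff_eq, order_eq_of_coeff hm hlt]

/-! ### twisted dilation `q^n ↦ ζ^n T^(e n)` -/

/-- `t` is the twisted dilation of `s`: the coefficient of `T^(e n)` in `t` is `s_n ζ^n`, and all
other coefficients vanish. (Expansion of `F((aτ+b)/d)` in `T = q^(1/N)` when `F = Σ s_n q^n`,
with `e = a (N/d)` and `ζ = exp(2πi b/d)`.) -/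
structure IsTwistDilate (ζ : K) (e : ℤ) (s t : LaurentSeries K) : Prop where
  coeff_mul : ∀ n : ℤ, t.coeff (e * n) = s.coeff n * ζ ^ n
  coeff_of_not_dvd : ∀ k : ℤ, ¬ e ∣ k → t.coeff k = 0

theorem twistDilate_bddBelow (ζ : K) (e : ℤ) (he : 0 < e) (s : LaurentSeries K) :
    BddBelow (Function.support
      (fun k : ℤ => if e ∣ k then s.coeff (k / e) * ζ ^ (k / e) else 0)) := by
  refine ⟨e * s.order, fun k hk => ?_⟩
  by_contra hcon
  rw [not_le] at hcon
  refine hk ?_
  show (if e ∣ k then s.coeff (k / e) * ζ ^ (k / e) else 0) = 0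
  split_ifs with h
  · obtain ⟨n, rfl⟩ := h
    rw [Int.mul_ediv_cancel_left _ he.ne']
    have hn : n < s.order := lt_of_mul_lt_mul_left hcon he.le
    rw [HahnSeries.coeff_eq_zero_of_lt_order hn, zero_mul]
  · rfl

/-- The twisted dilation as an explicit series. -/
def twistDilate (ζ : K) (e : ℤ) (he : 0 < e) (s : LaurentSeries K) : LaurentSeries K :=
  HahnSeries.ofSuppBddBelow (fun k => if e ∣ k then s.coeff (k / e) * ζ ^ (k / e) else 0)
    (twistDilate_bddBelow ζ e he s)

theorem isTwistDilate_twistDilate (ζ : K) (e : ℤ) (he : 0 < e) (s : LaurentSeries K) :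
    IsTwistDilate ζ e s (twistDilate ζ e he s) := by
  constructor
  · intro n
    rw [twistDilate, HahnSeries.coeff_ofSuppBddBelow]
    show (if e ∣ e * n then s.coeff (e * n / e) * ζ ^ (e * n / e) else 0) = _
    rw [if_pos (Dvd.intro n rfl), Int.mul_ediv_cancel_left _ he.ne']
  · intro k hk
    rw [twistDilate, HahnSeries.coeff_ofSuppBddBelow]
    show (if e ∣ k then s.coeff (k / e) * ζ ^ (k / e) else 0) = _
    rw [if_neg hk]

namespace IsTwistDilate

variable {ζ : K} {e : ℤ} {s t : LaurentSeries K}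

theorem unique {t' : LaurentSeries K} (h : IsTwistDilate ζ e s t) (h' : IsTwistDilate ζ e s t') :
    t = t' := by
  ext k
  by_cases hk : e ∣ k
  · obtain ⟨n, rfl⟩ := hk
    rw [h.coeff_mul, h'.coeff_mul]
  · rw [h.coeff_of_not_dvd k hk, h'.coeff_of_not_dvd k hk]

theorem mem_coeffSubring {S : Subring K} (h : IsTwistDilate ζ e s t) (hs : s ∈ coeffSubring S)
    (hζ : ζ ∈ S) (hζ' : ζ⁻¹ ∈ S) : t ∈ coeffSubring S := by
  intro k
  have hzpow : ∀ n : ℤ, ζ ^ n ∈ S := by
    intro n
    cases n with
    | ofNat n => rw [Int.ofNat_eq_natCast, zpow_natCast]; exact S.pow_mem hζ n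
    | negSucc n => rw [zpow_negSucc, ← inv_pow]; exact S.pow_mem hζ' _
  by_cases hk : e ∣ k
  · obtain ⟨n, rfl⟩ := hk
    rw [h.coeff_mul]
    exact S.mul_mem (hs n) (hzpow n)
  · rw [h.coeff_of_not_dvd k hk]; exact S.zero_mem

theorem coeff_order_mul_ne_zero (h : IsTwistDilate ζ e s t) (hζ : ζ ≠ 0) (hs : s ≠ 0) :
    t.coeff (e * s.order) ≠ 0 := by
  rw [h.coeff_mul]
  exact mul_ne_zero (fun h0 => hs (HahnSeries.coeff_order_eq_zero.mp h0)) (zpow_ne_zero _ hζ)

theorem coeff_eq_zero_of_lt (h : IsTwistDilate ζ e s t) (he : 0 < e) {k : ℤ}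
    (hk : k < e * s.order) : t.coeff k = 0 := by
  by_cases hdvd : e ∣ k
  · obtain ⟨n, rfl⟩ := hdvd
    rw [h.coeff_mul]
    have hn : n < s.order := lt_of_mul_lt_mul_left hk he.le
    rw [HahnSeries.coeff_eq_zero_of_lt_order hn, zero_mul]
  · exact h.coeff_of_not_dvd k hdvd

theorem order_eq (h : IsTwistDilate ζ e s t) (he : 0 < e) (hζ : ζ ≠ 0) (hs : s ≠ 0) :
    t.order = e * s.order :=
  order_eq_of_coeff (h.coeff_order_mul_ne_zero hζ hs) fun _ hk => h.coeff_eq_zero_of_lt he hk

theorem leadingCoeff_eq (h : IsTwistDilate ζ e s t) (he : 0 < e) (hζ : ζ ≠ 0) (hs : s ≠ 0) :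
    t.leadingCoeff = s.leadingCoeff * ζ ^ s.order := by
  rw [leadingCoeff_eq_of_coeff (h.coeff_order_mul_ne_zero hζ hs)
    fun _ hk => h.coeff_eq_zero_of_lt he hk, h.coeff_mul, HahnSeries.leadingCoeff_eq]

theorem ne_zero (h : IsTwistDilate ζ e s t) (hζ : ζ ≠ 0) (hs : s ≠ 0) : t ≠ 0 :=
  HahnSeries.ne_zero_of_coeff_ne_zero (h.coeff_order_mul_ne_zero hζ hs)

theorem isUnitLead {S : Subring K} (h : IsTwistDilate ζ e s t) (he : 0 < e)
    (hs : IsUnitLead S s) (hζ : ζ ∈ S) (hζ' : ζ⁻¹ ∈ S) (hζ0 : ζ ≠ 0) : IsUnitLead S t := by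
  refine ⟨h.mem_coeffSubring hs.mem hζ hζ', ?_⟩
  obtain ⟨u, hu, hus⟩ := hs.unit
  have hzpow : ∀ n : ℤ, ζ ^ n ∈ S := by
    intro n
    cases n with
    | ofNat n => rw [Int.ofNat_eq_natCast, zpow_natCast]; exact S.pow_mem hζ n
    | negSucc n => rw [zpow_negSucc, ← inv_pow]; exact S.pow_mem hζ' _
  refine ⟨u * ζ ^ (-s.order), S.mul_mem hu (hzpow _), ?_⟩
  rw [h.leadingCoeff_eq he hζ0 hs.ne_zero]
  calc u * ζ ^ (-s.order) * (s.leadingCoeff * ζ ^ s.order)
      = (u * s.leadingCoeff) * (ζ ^ (-s.order) * ζ ^ s.order) := by ring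
    _ = 1 := by
        rw [hus, one_mul, ← zpow_add₀ hζ0, neg_add_cancel, zpow_zero]

end IsTwistDilate

end Fermat.Agent.S28.Cusp
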