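import Fermat.Agent.S28.ADefs2
import Fermat.Agent.S28.CuspAlg
import Fermat.Agent.S28.Hermite
import Fermat.Agent.S28.Invariance
import Fermat.Agent.S28.TExp
import Fermat.Agent.S28.H84BridgeTExp

/-!
# S28 / T6d: expansions of `U` and `j(d·)` at all cusps
-/

set_option autoImplicit false

open ModularCurve UpperHalfPlane Complex
open scoped MatrixGroups Manifold ModularForm

noncomputable section

namespace Fermat.Agent.S28

open Cusp

namespace Cusp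

/-! ## Step 1: formal facts about `cEmb deltaSeries` and `cEmb jq` -/

theorem cEmb_coeff (s : LaurentSeries ℚ) (n : ℤ) : (cEmb s).coeff n = (s.coeff n : ℂ) := rfl

theorem cEmb_ne_zero {s : LaurentSeries ℚ} (hs : s ≠ 0) : cEmb s ≠ 0 := by
  intro h
  apply hs
  ext n
  have := congrArg (fun t => HahnSeries.coeff t n) h
  simpa [cEmb_coeff] using this

theorem cEmb_order {s : LaurentSeries ℚ} (hs : s ≠ 0) : (cEmb s).order = s.order := by
  refine order_eq_of_coeff ?_ fun k hk => ?_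
  · rw [cEmb_coeff]
    exact_mod_cast (fun h => hs (HahnSeries.coeff_order_eq_zero.mp h))
  · rw [cEmb_coeff, HahnSeries.coeff_eq_zero_of_lt_order hk]
    simp

theorem cEmb_leadingCoeff (s : LaurentSeries ℚ) :
    (cEmb s).leadingCoeff = (s.leadingCoeff : ℂ) := by
  by_cases hs : s = 0
  · subst hs; simp
  · rw [HahnSeries.leadingCoeff_eq, cEmb_order hs, cEmb_coeff, HahnSeries.leadingCoeff_eq]

theorem cEmb_deltaSeries_eq :
    cEmb deltaSeries = HahnSeries.single (1 : ℤ) (1 : ℂ) *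
      HahnSeries.ofPowerSeries ℤ ℂ (dedekindEtaUnit.map (Int.castRingHom ℂ)) := by
  rw [cEmb, deltaSeries, map_mul, coeffMap_single, map_one, coeffMap_ofPowerSeries,
    dedekindEtaUnitQ, ← RingHom.comp_apply (PowerSeries.map (algebraMap ℚ ℂ))
      (PowerSeries.map (Int.castRingHom ℚ)),
    ← PowerSeries.map_comp,
    RingHom.ext_int ((algebraMap ℚ ℂ).comp (Int.castRingHom ℚ)) (Int.castRingHom ℂ)]

theorem cEmb_deltaSeries_mem (S : Subring ℂ) : cEmb deltaSeries ∈ coeffSubring S := by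
  rw [cEmb_deltaSeries_eq]
  refine (coeffSubring S).mul_mem (single_mem_coeffSubring _ S.one_mem)
    (ofPowerSeries_mem_coeffSubring _ fun n => ?_)
  rw [PowerSeries.coeff_map]
  exact intCast_mem S _

theorem isUnitLead_cEmb_deltaSeries (S : Subring ℂ) : IsUnitLead S (cEmb deltaSeries) := by
  refine ⟨cEmb_deltaSeries_mem S, 1, S.one_mem, ?_⟩
  rw [cEmb_leadingCoeff, isMonicOfOrder_deltaSeries.2]
  simp

theorem order_cEmb_deltaSeries : (cEmb deltaSeries).order = 1 := by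
  rw [cEmb_order deltaSeries_ne_zero, isMonicOfOrder_deltaSeries.1]

theorem cEmb_jq_mem (S : Subring ℂ) : cEmb jq ∈ coeffSubring S := by
  intro n
  have h : cEmb jq = jqModC ℂ := by
    rw [cEmb, ← jqModC_rat, coeffMap_jqModC]
  rw [h, coeff_jqModC_eq_intCast]
  exact intCast_mem S _

theorem order_cEmb_jq : (cEmb jq).order = -1 := by
  rw [cEmb_order jq_ne_zero]
  exact order_eq_of_coeff (by rw [coeff_jq_neg_one]; exact one_ne_zero)
    fun k hk => coeff_jq_of_lt hk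

/-! ## Step 2: elements of `cycRing N` -/

theorem zetaN_mem_cycRing (N : ℕ) : Complex.exp (2 * Real.pi * Complex.I / N) ∈ cycRing N :=
  Subring.subset_closure (by simp)

theorem natCast_inv_mem_cycRing' (N : ℕ) : ((N : ℂ))⁻¹ ∈ cycRing N :=
  Subring.subset_closure (by simp)

theorem zetaN_pow_self {N : ℕ} (hN : 0 < N) :
    Complex.exp (2 * Real.pi * Complex.I / N) ^ N = 1 := by
  have hN' : (N : ℂ) ≠ 0 := by exact_mod_cast hN.ne'
  rw [← Complex.exp_nat_mul, mul_div_cancel₀ _ hN', Complex.exp_two_pi_mul_I]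

theorem zetaN_inv_mem_cycRing {N : ℕ} (hN : 0 < N) :
    (Complex.exp (2 * Real.pi * Complex.I / N))⁻¹ ∈ cycRing N := by
  have h : (Complex.exp (2 * Real.pi * Complex.I / N))⁻¹ =
      Complex.exp (2 * Real.pi * Complex.I / N) ^ (N - 1) := by
    apply inv_eq_of_mul_eq_one_right
    rw [← pow_succ', Nat.sub_add_cancel hN, zetaN_pow_self hN]
  rw [h]
  exact (cycRing N).pow_mem (zetaN_mem_cycRing N) _

theorem zetaN_zpow_mem_cycRing {N : ℕ} (hN : 0 < N) (k : ℤ) :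
    Complex.exp (2 * Real.pi * Complex.I / N) ^ k ∈ cycRing N := by
  cases k with
  | ofNat n => rw [Int.ofNat_eq_natCast, zpow_natCast]; exact (cycRing N).pow_mem (zetaN_mem_cycRing N) n
  | negSucc n =>
    rw [zpow_negSucc, ← inv_pow]
    exact (cycRing N).pow_mem (zetaN_inv_mem_cycRing hN) _

/-- `exp (2πi b/d) ∈ ℤ[ζ_N, 1/N]` for `d ∣ N`. -/
theorem exp_mem_cycRing {N : ℕ} (hN : 0 < N) {d : ℕ} (hd : d ∣ N) (b : ℤ) :
    Complex.exp (2 * Real.pi * Complex.I * b / d) ∈ cycRing N := by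
  obtain ⟨m, rfl⟩ := hd
  have hd0 : 0 < d := Nat.pos_of_mul_pos_right hN
  have hm0 : 0 < m := Nat.pos_of_mul_pos_left hN
  have hd' : (d : ℂ) ≠ 0 := by exact_mod_cast hd0.ne'
  have hm' : (m : ℂ) ≠ 0 := by exact_mod_cast hm0.ne'
  have h : Complex.exp (2 * Real.pi * Complex.I * b / d) =
      Complex.exp (2 * Real.pi * Complex.I / (d * m : ℕ)) ^ (b * m) := by
    rw [← Complex.exp_int_mul]
    congr 1
    push_cast
    field_simp
  rw [h]
  exact zetaN_zpow_mem_cycRing hN _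

theorem exp_inv_mem_cycRing {N : ℕ} (hN : 0 < N) {d : ℕ} (hd : d ∣ N) (b : ℤ) :
    (Complex.exp (2 * Real.pi * Complex.I * b / d))⁻¹ ∈ cycRing N := by
  have h : (Complex.exp (2 * Real.pi * Complex.I * b / d))⁻¹ =
      Complex.exp (2 * Real.pi * Complex.I * ((-b : ℤ) : ℂ) / d) := by
    rw [← Complex.exp_neg]
    congr 1
    push_cast
    ring
  rw [h]
  exact exp_mem_cycRing hN hd _

theorem natCast_inv_mem_cycRing {N : ℕ} (hN : 0 < N) {d : ℕ} (hd : d ∣ N) :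
    ((d : ℂ))⁻¹ ∈ cycRing N := by
  obtain ⟨m, rfl⟩ := hd
  have hd0 : 0 < d := Nat.pos_of_mul_pos_right hN
  have hm0 : 0 < m := Nat.pos_of_mul_pos_left hN
  have hd' : (d : ℂ) ≠ 0 := by exact_mod_cast hd0.ne'
  have hm' : (m : ℂ) ≠ 0 := by exact_mod_cast hm0.ne'
  have h : ((d : ℂ))⁻¹ = (m : ℂ) * (((d * m : ℕ) : ℂ))⁻¹ := by
    push_cast
    field_simp
  rw [h]
  exact (cycRing (d * m)).mul_mem (natCast_mem _ m) (natCast_inv_mem_cycRing' _)

/-! ## Step 4: arithmetic and pointwise identities -/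

theorem deltaAn_ne_zero (τ : ℍ) : deltaAn τ ≠ 0 := ModularForm.discriminant_ne_zero τ

/-- Pointwise transformation formula for `U` under `γ ∈ SL(2, ℤ)`, given the transformation
of each `Δ(δ·)`. -/
theorem UAn_smul_eq_of (N : ℕ) (hN : 0 < N) (γ : SL(2, ℤ)) (d : ℕ → ℕ) (g : ℕ → ℍ → ℂ)
    (hdelta : ∀ δ ∈ N.divisors, ∀ τ : ℍ, deltaAt δ (γ • τ) =
      ((((γ 1 0 : ℤ) : ℂ) * τ + ((γ 1 1 : ℤ) : ℂ)) / d δ) ^ 12 * g δ τ) (τ : ℍ) :
    UAn N (γ • τ) =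
      (∏ δ ∈ N.divisors, (((d δ : ℂ) ^ 12)⁻¹) ^ ((δ : ℤ) * ArithmeticFunction.moebius (N / δ))) *
      (∏ δ ∈ N.divisors, g δ τ ^ ((δ : ℤ) * ArithmeticFunction.moebius (N / δ))) *
      (deltaAn τ ^ N.totient)⁻¹ := by
  set D : ℂ := (((γ 1 0 : ℤ) : ℂ) * τ + ((γ 1 1 : ℤ) : ℂ)) ^ 12 with hD
  have hD0 : D ≠ 0 := pow_ne_zero _ (denom_ne_zero_SL γ τ)
  have h1 : ∀ δ ∈ N.divisors, deltaAt δ (γ • τ) ^ ((δ : ℤ) * ArithmeticFunction.moebius (N / δ)) =
      D ^ ((δ : ℤ) * ArithmeticFunction.moebius (N / δ)) *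
      (((d δ : ℂ) ^ 12)⁻¹) ^ ((δ : ℤ) * ArithmeticFunction.moebius (N / δ)) *
      g δ τ ^ ((δ : ℤ) * ArithmeticFunction.moebius (N / δ)) := by
    intro δ hδ
    rw [hdelta δ hδ τ, div_pow, ← hD, mul_zpow, div_eq_mul_inv, mul_zpow]
  have h2 : deltaAn (γ • τ) = D * deltaAn τ := discriminant_smul γ τ
  rw [UAn, Finset.prod_congr rfl h1, Finset.prod_mul_distrib, Finset.prod_mul_distrib,
    prod_zpow_eq_zpow_sum _ _ hD0, sum_divisors_mul_moebius_eq_totient N hN, zpow_natCast]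
  change _ * (deltaAn (γ • τ) ^ N.totient)⁻¹ = _
  rw [h2, mul_pow, mul_inv]
  have hDφ : D ^ N.totient ≠ 0 := pow_ne_zero _ hD0
  field_simp

/-! ## Step 4b: per-`δ` Hermite data in `ADefs` shape -/

/-- Per-`δ` cusp data: `Δ(δ γτ)` and `j(δ γτ)` in terms of `Δ`, `j` at `(aτ+b)/d`. -/
theorem cusp_exists_data (δ : ℕ) (hδ : 0 < δ) (γ : SL(2, ℤ)) :
    ∃ (a d : ℕ) (b : ℤ) (φ : ℍ → ℍ), 0 < a ∧ 0 < d ∧ a * d = δ ∧ a = Int.gcd δ (γ 1 0) ∧
      0 ≤ b ∧ b < d ∧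
      (∀ τ : ℍ, ((φ τ : ℍ) : ℂ) = (a * τ + b) / d) ∧
      (∀ τ : ℍ, deltaAt δ (γ • τ) =
        ((((γ 1 0 : ℤ) : ℂ) * τ + ((γ 1 1 : ℤ) : ℂ)) / d) ^ 12 * deltaAn (φ τ)) ∧
      (∀ τ : ℍ, jAt δ (γ • τ) = jAn (φ τ)) := by
  obtain ⟨γ', a, b, d, ha, hd, had, hgcd, hb0, hbd, hmat⟩ := exists_hermite δ hδ γ
  lift a to ℕ using ha.le
  lift d to ℕ using hd.le
  have ha' : 0 < a := by exact_mod_cast ha
  have hd' : 0 < d := by exact_mod_cast hd
  have haR : (0 : ℝ) < (a : ℝ) := by exact_mod_cast ha'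
  have hdR : (0 : ℝ) < (d : ℝ) := by exact_mod_cast hd'
  have hφ : ∀ τ : ℍ, ((affH (a : ℝ) (b : ℝ) (d : ℝ) haR hdR τ : ℍ) : ℂ) =
      (((a : ℤ) : ℂ) * (τ : ℂ) + (b : ℂ)) / ((d : ℤ) : ℂ) := by
    intro τ
    rw [coe_affH]
    push_cast
    rfl
  refine ⟨a, d, b, affH (a : ℝ) (b : ℝ) (d : ℝ) haR hdR, ha', hd', by exact_mod_cast had,
    by exact_mod_cast hgcd, hb0, hbd, ?_, ?_, ?_⟩
  · intro τ
    rw [hφ τ]
    push_cast
    rfl
  · intro τ
    have h := discriminant_transform hd hmat (τ := τ) (z := scaleH δ (γ • τ))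
      (z' := affH (a : ℝ) (b : ℝ) (d : ℝ) haR hdR τ) (coe_scaleH hδ _) (hφ τ)
    rw [deltaAt, deltaAn, h]
    push_cast
    rfl
  · intro τ
    have h := invariant_transform (F := jAn) jAn_smul hd hmat (τ := τ)
      (z := scaleH δ (γ • τ))
      (z' := affH (a : ℝ) (b : ℝ) (d : ℝ) haR hdR τ) (coe_scaleH hδ _) (hφ τ)
    rw [jAt, h]

end Cusp

/-! ## Step 4c: affine substitution for twisted dilations -/

/-- Affine substitution `τ ↦ (aτ+b)/d` (`d ∣ N`) in a `q`-expansion. -/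
theorem HasTExp.affine_twistDilate {N : ℕ} (hN : 0 < N) {F : ℍ → ℂ} {s : LaurentSeries ℂ}
    (hF : HasTExp 1 F s) (φ : ℍ → ℍ) (a d : ℕ) (b : ℤ) (ha : 0 < a) (hd : 0 < d) (hdN : d ∣ N)
    (hφ : ∀ τ : ℍ, ((φ τ : ℍ) : ℂ) = (a * τ + b) / d) (t : LaurentSeries ℂ)
    (ht : IsTwistDilate (Complex.exp (2 * Real.pi * Complex.I * b / d))
      ((a * (N / d) : ℕ) : ℤ) s t) :
    HasTExp N (fun τ => F (φ τ)) t := by
  have he : a * N = (a * (N / d)) * (d * 1) := by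
    rw [mul_one, mul_assoc, Nat.div_mul_cancel hdN]
  have hpos : 0 < a * (N / d) :=
    Nat.mul_pos ha (Nat.div_pos (Nat.le_of_dvd hN hdN) hd)
  refine hF.subst φ (Complex.exp (2 * Real.pi * Complex.I * b / d)) (a * (N / d)) hpos
    (fun τ => ?_) t ht.coeff_mul ht.coeff_of_not_dvd
  have := tParam_affine hd one_pos hN he τ (φ τ) (hφ τ)
  simpa using this

namespace Cusp

/-! ## Step 5: the expansion of `U ∘ γ` -/

/-- `qExpand` is a twisted dilation with trivial twist. -/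
theorem isTwistDilate_qExpand (N : ℕ) [NeZero N] (s : LaurentSeries ℂ) :
    IsTwistDilate (1 : ℂ) (N : ℤ) s (qExpand ℂ N s) :=
  ⟨fun n => by rw [qExpand_coeff_mul, one_zpow, mul_one],
    fun _ hk => qExpand_coeff_of_not_dvd N s hk⟩

/-- **T6d (strong form)**: expansion of `U ∘ γ` in `𝕋 = q^(1/N)`, with coefficients in
`ℤ[ζ_N, 1/N]`, unit leading coefficient, and explicit order. -/
theorem hasTExp_UAn_translate_strong (N : ℕ) (hN : 0 < N) (γ : SL(2, ℤ)) :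
    ∃ s : LaurentSeries ℂ, HasTExp N (fun τ => UAn N (γ • τ)) s ∧ IsUnitLead (cycRing N) s ∧
      s.order = (N : ℤ) * ((if (N : ℤ) ∣ γ 1 0 then jordanTwo N else 0) - N.totient) := by
  classical
  have : NeZero N := ⟨hN.ne'⟩
  -- Hermite data
  have hdata : ∀ δ : ℕ, ∃ (a d : ℕ) (b : ℤ) (φ : ℍ → ℍ), δ ∈ N.divisors →
      (0 < a ∧ 0 < d ∧ a * d = δ ∧ a = Int.gcd δ (γ 1 0) ∧
      (∀ τ : ℍ, ((φ τ : ℍ) : ℂ) = (a * τ + b) / d) ∧
      (∀ τ : ℍ, deltaAt δ (γ • τ) =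
        ((((γ 1 0 : ℤ) : ℂ) * τ + ((γ 1 1 : ℤ) : ℂ)) / d) ^ 12 * deltaAn (φ τ)) ∧
      (∀ τ : ℍ, jAt δ (γ • τ) = jAn (φ τ))) := by
    intro δ
    by_cases hδ : δ ∈ N.divisors
    · obtain ⟨a, d, b, φ, h1, h2, h3, h4, -, -, h5⟩ :=
        cusp_exists_data δ (Nat.pos_of_mem_divisors hδ) γ
      exact ⟨a, d, b, φ, fun _ => ⟨h1, h2, h3, h4, h5⟩⟩
    · exact ⟨0, 0, 0, id, fun h => absurd h hδ⟩
  choose a d b φ hD using hdata
  set e : ℕ → ℤ := fun δ => (δ : ℤ) * ArithmeticFunction.moebius (N / δ) with he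
  have hdN : ∀ δ ∈ N.divisors, d δ ∣ N := fun δ hδ =>
    (Dvd.intro_left (a δ) (hD δ hδ).2.2.1).trans (Nat.dvd_of_mem_divisors hδ)
  -- the twisted dilations
  set ζ : ℕ → ℂ := fun δ => Complex.exp (2 * Real.pi * Complex.I * b δ / d δ) with hζdef
  set ε : ℕ → ℤ := fun δ => ((a δ * (N / d δ) : ℕ) : ℤ) with hεdef
  set t : ℕ → LaurentSeries ℂ := fun δ =>
    if h : 0 < ε δ then twistDilate (ζ δ) (ε δ) h (cEmb deltaSeries) else 1 with htdef
  have hε : ∀ δ ∈ N.divisors, 0 < ε δ := by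
    intro δ hδ
    have h1 : 0 < a δ := (hD δ hδ).1
    have h2 : 0 < N / d δ := Nat.div_pos (Nat.le_of_dvd hN (hdN δ hδ)) (hD δ hδ).2.1
    show (0 : ℤ) < ((a δ * (N / d δ) : ℕ) : ℤ)
    exact_mod_cast Nat.mul_pos h1 h2
  have ht : ∀ δ ∈ N.divisors, IsTwistDilate (ζ δ) (ε δ) (cEmb deltaSeries) (t δ) := by
    intro δ hδ
    simp only [htdef, dif_pos (hε δ hδ)]
    exact isTwistDilate_twistDilate _ _ _ _
  have hζ : ∀ δ, ζ δ ≠ 0 := fun _ => Complex.exp_ne_zero _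
  have htexp : ∀ δ ∈ N.divisors, HasTExp N (fun τ => deltaAn (φ δ τ)) (t δ) := by
    intro δ hδ
    obtain ⟨ha, hd, hmul, hgcd, hφ, -, -⟩ := hD δ hδ
    exact h84_hasTExp_deltaAn.affine_twistDilate hN (φ δ) (a δ) (d δ) (b δ) ha hd (hdN δ hδ) hφ
      (t δ) (ht δ hδ)
  have htU : ∀ δ ∈ N.divisors, IsUnitLead (cycRing N) (t δ) := fun δ hδ =>
    (ht δ hδ).isUnitLead (hε δ hδ) (isUnitLead_cEmb_deltaSeries _)
      (exp_mem_cycRing hN (hdN δ hδ) _) (exp_inv_mem_cycRing hN (hdN δ hδ) _) (hζ δ)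
  have hto : ∀ δ ∈ N.divisors, (t δ).order = ε δ := fun δ hδ => by
    rw [(ht δ hδ).order_eq (hε δ hδ) (hζ δ) (cEmb_ne_zero deltaSeries_ne_zero),
      order_cEmb_deltaSeries, mul_one]
  -- the constant
  set Cst : ℂ := ∏ δ ∈ N.divisors, (((d δ : ℂ) ^ 12)⁻¹) ^ e δ with hCst
  have hCstU : IsUnitIn (cycRing N) Cst := by
    refine IsUnitIn.prod _ _ fun δ hδ => IsUnitIn.zpow ?_ _
    have hd0 : (d δ : ℂ) ≠ 0 := by exact_mod_cast (hD δ hδ).2.1.ne'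
    exact (IsUnitIn.pow ⟨natCast_mem _ _, natCast_inv_mem_cycRing hN (hdN δ hδ), hd0⟩ 12).inv
  -- `Δ` at level `N`
  set sΔ : LaurentSeries ℂ := qExpand ℂ N (cEmb deltaSeries) with hsΔ
  have hsΔ_td : IsTwistDilate (1 : ℂ) (N : ℤ) (cEmb deltaSeries) sΔ := isTwistDilate_qExpand N _
  have hNpos : (0 : ℤ) < (N : ℤ) := by exact_mod_cast hN
  have hsΔU : IsUnitLead (cycRing N) sΔ :=
    hsΔ_td.isUnitLead hNpos (isUnitLead_cEmb_deltaSeries _) (one_mem _)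
      (by rw [inv_one]; exact one_mem _) one_ne_zero
  have hsΔo : sΔ.order = N := by
    rw [hsΔ_td.order_eq hNpos one_ne_zero (cEmb_ne_zero deltaSeries_ne_zero),
      order_cEmb_deltaSeries, mul_one]
  have hsΔexp : HasTExp N deltaAn sΔ := h84_hasTExp_deltaAn.of_one
  have hprodU : IsUnitLead (cycRing N) (∏ δ ∈ N.divisors, t δ ^ e δ) :=
    IsUnitLead.prod _ _ fun δ hδ => (htU δ hδ).zpow _
  refine ⟨HahnSeries.C Cst * (∏ δ ∈ N.divisors, t δ ^ e δ) * (sΔ ^ N.totient)⁻¹, ?_, ?_, ?_⟩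
  · -- the expansion
    have h1 := HasTExp.const N Cst
    have h2 := HasTExp.finset_prod hN N.divisors (g := fun δ τ => deltaAn (φ δ τ) ^ e δ)
      (s := fun δ => t δ ^ e δ)
      (fun δ hδ => (htexp δ hδ).zpow hN (fun τ => deltaAn_ne_zero _) (e δ))
    have h3 := (hsΔexp.pow hN N.totient).inv hN
      (fun τ => by simpa using pow_ne_zero _ (deltaAn_ne_zero τ))
    have h := (h1.mul hN h2).mul hN h3
    convert h using 1
    funext τ
    simp only [Pi.mul_apply, Finset.prod_apply, Pi.pow_apply]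
    exact UAn_smul_eq_of N hN γ d (fun δ τ => deltaAn (φ δ τ))
      (fun δ hδ τ => (hD δ hδ).2.2.2.2.2.1 τ) τ
  · exact (hCstU.isUnitLead_C.mul hprodU).mul (hsΔU.pow _).inv
  · -- the order
    have hC0 : (HahnSeries.C Cst : LaurentSeries ℂ) ≠ 0 := hCstU.isUnitLead_C.ne_zero
    rw [HahnSeries.order_mul (mul_ne_zero hC0 hprodU.ne_zero) (hsΔU.pow _).inv.ne_zero,
      HahnSeries.order_mul hC0 hprodU.ne_zero, HahnSeries.order_C, zero_add,
      order_prod' _ _ (fun δ hδ => ((htU δ hδ).zpow _).ne_zero),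
      order_inv' (hsΔU.pow _).ne_zero, order_pow', hsΔo]
    have hterm : ∀ δ ∈ N.divisors, (t δ ^ e δ).order =
        (N : ℤ) * ((ArithmeticFunction.moebius (N / δ) : ℤ) * ((Int.gcd δ (γ 1 0) : ℤ)) ^ 2) := by
      intro δ hδ
      obtain ⟨ha, hd, hmul, hgcd, -, -, -⟩ := hD δ hδ
      rw [order_zpow' (htU δ hδ).ne_zero, hto δ hδ]
      have hNd : (d δ : ℤ) * ((N / d δ : ℕ) : ℤ) = (N : ℤ) := by
        exact_mod_cast Nat.mul_div_cancel' (hdN δ hδ)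
      have hδ' : (δ : ℤ) = (a δ : ℤ) * (d δ : ℤ) := by exact_mod_cast hmul.symm
      have hgcd' : ((Int.gcd δ (γ 1 0) : ℕ) : ℤ) = (a δ : ℤ) := by exact_mod_cast hgcd.symm
      simp only [he, hεdef]
      rw [hgcd', ← hNd, hδ']
      push_cast
      ring
    rw [Finset.sum_congr rfl hterm, ← Finset.mul_sum, sum_moebius_gcd_sq_eq N hN (γ 1 0)]
    ring

theorem mem_Gamma0_iff_dvd (N : ℕ) (γ : SL(2, ℤ)) :
    γ ∈ CongruenceSubgroup.Gamma0 N ↔ (N : ℤ) ∣ γ 1 0 := by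
  rw [CongruenceSubgroup.Gamma0_mem, ZMod.intCast_zmod_eq_zero_iff_dvd]

end Cusp

/-- **T6d** (`SKEL1` form): expansion of `U ∘ γ` at every cusp. -/
theorem hasTExp_UAn_translate (N : ℕ) (hN : 0 < N) (γ : SL(2, ℤ)) :
    ∃ s : LaurentSeries ℂ, HasTExp N (fun τ => UAn N (γ • τ)) s ∧ CoeffIn (cycRing N) s ∧
      s ≠ 0 ∧
      (γ ∈ CongruenceSubgroup.Gamma0 N → s.order = (N : ℤ) * (jordan2 N - N.totient)) ∧
      (γ ∉ CongruenceSubgroup.Gamma0 N → s.order = -((N : ℤ) * N.totient)) := by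
  obtain ⟨s, hs, hU, ho⟩ := Cusp.hasTExp_UAn_translate_strong N hN γ
  refine ⟨s, hs, hU.mem, hU.ne_zero, fun hγ => ?_, fun hγ => ?_⟩
  · rw [ho, if_pos ((mem_Gamma0_iff_dvd N γ).mp hγ), jordan2_eq_jordanTwo]
  · rw [ho, if_neg (fun h => hγ ((mem_Gamma0_iff_dvd N γ).mpr h))]
    ring

/-! ## Step 6: the expansion of `j(d·) ∘ γ` -/

/-- **T6d**: expansion of `j(d·) ∘ γ` at every cusp, with pole bound; the `q`-expansion of `j`
is taken as a hypothesis (T6b). -/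
theorem hasTExp_jAt_translate_of (hasTExp_jAn : HasTExp 1 jAn (cEmb jq))
    (N d : ℕ) (hN : 0 < N) (hd : d ∣ N) (γ : SL(2, ℤ)) :
    ∃ s : LaurentSeries ℂ, HasTExp N (fun τ => jAt d (γ • τ)) s ∧ CoeffIn (cycRing N) s ∧
      ∀ n : ℤ, n < -((N : ℤ) * N) → s.coeff n = 0 := by
  have hd0 : 0 < d := Nat.pos_of_dvd_of_pos hd hN
  obtain ⟨a, d', b, φ, ha, hd', hmul, -, -, -, hφ, -, hj⟩ := cusp_exists_data d hd0 γ
  have hd'N : d' ∣ N := (Dvd.intro_left a hmul).trans hd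
  have hεpos : (0 : ℤ) < ((a * (N / d') : ℕ) : ℤ) := by
    exact_mod_cast Nat.mul_pos ha (Nat.div_pos (Nat.le_of_dvd hN hd'N) hd')
  obtain ⟨t, ht⟩ : ∃ t, IsTwistDilate (Complex.exp (2 * Real.pi * Complex.I * b / d'))
      ((a * (N / d') : ℕ) : ℤ) (cEmb jq) t :=
    ⟨_, isTwistDilate_twistDilate _ _ hεpos _⟩
  refine ⟨t, ?_, ?_, ?_⟩
  · have h := hasTExp_jAn.affine_twistDilate hN φ a d' b ha hd' hd'N hφ _ ht
    exact h.congr fun τ => (hj τ).symm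
  · exact ht.mem_coeffSubring (cEmb_jq_mem _) (exp_mem_cycRing hN hd'N b)
      (exp_inv_mem_cycRing hN hd'N b)
  · intro n hn
    apply ht.coeff_eq_zero_of_lt hεpos
    rw [order_cEmb_jq]
    have h1 : a ≤ N := by
      have : a ∣ N := (Dvd.intro d' hmul).trans hd
      exact Nat.le_of_dvd hN this
    have h2 : N / d' ≤ N := Nat.div_le_self _ _
    have h3 : ((a * (N / d') : ℕ) : ℤ) ≤ (N : ℤ) * N := by
      exact_mod_cast Nat.mul_le_mul h1 h2
    linarith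

end Fermat.Agent.S28
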