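import Fermat.Agent.S28.ADefs
import Fermat.Prelude.Thm_ModularCurve_coeff_jqModC_pow_of_lt
import Fermat.Prelude.Thm_ModularCurve_coeff_jqModC_pow_self

/-!
# S28 / T6f: the level-one theorem (core)

An `SL(2,ℤ)`-invariant holomorphic function on `ℍ` with a `q`-expansion with finitely many
negative terms and coefficients in a subring `S ⊆ ℂ` is a polynomial in `j` with
coefficients in `S`.

The only inputs about `j` (holomorphy, invariance, `q`-expansion calculus) are taken as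
hypotheses of `levelOne_poly_core`; they are provided by the tasks T6a/T6b/T6c.
-/

set_option autoImplicit false

open ModularCurve UpperHalfPlane Complex
open scoped MatrixGroups Manifold ModularForm

noncomputable section

namespace Fermat.Agent.S28

namespace LevelOne

/-- An `SL(2,ℤ)`-invariant holomorphic function which is bounded at `i∞` is constant. -/
theorem levelOne_const_of_bdd (g : ℍ → ℂ) (hg : MDiff g)
    (hinv : ∀ (γ : SL(2, ℤ)) (τ : ℍ), g (γ • τ) = g τ)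
    (hb : IsBoundedAtImInfty g) : ∃ c : ℂ, ∀ τ, g τ = c := by
  have hslash : ∀ γ : SL(2, ℤ), g ∣[(0 : ℤ)] γ = g := by
    intro γ
    ext τ
    rw [ModularForm.SL_slash_apply, hinv]
    simp
  let f : ModularForm 𝒮ℒ 0 :=
    { toFun := g
      slash_action_eq' := by
        rintro _ ⟨γ, rfl⟩
        exact hslash γ
      holo' := hg
      bdd_at_cusps' := by
        intro c hc
        rw [OnePoint.isBoundedAt_iff_forall_SL2Z hc]
        intro γ _
        rw [hslash γ]
        exact hb }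
  obtain ⟨c, hc⟩ := ModularFormClass.levelOne_weight_zero_const f
  exact ⟨c, fun τ => congrFun hc τ⟩

/-- Normal form of a `𝕋`-expansion without negative terms: it is an honest power series
expansion. -/
theorem hasSum_of_coeff_neg_eq_zero {N : ℕ} {g : ℍ → ℂ} {s : LaurentSeries ℂ}
    (hs : HasTExp N g s) (h0 : ∀ n : ℤ, n < 0 → s.coeff n = 0) (τ : ℍ) :
    HasSum (fun n : ℕ => s.coeff (n : ℤ) * tParam N τ ^ n) (g τ) := by
  obtain ⟨M, p, rfl, hsum⟩ := hs
  have ht : tParam N τ ≠ 0 := Function.Periodic.qParam_ne_zero _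
  have hcoeff : ∀ k : ℕ, (HahnSeries.single (-(M : ℤ)) (1 : ℂ) *
      HahnSeries.ofPowerSeries ℤ ℂ p).coeff ((k : ℤ) - M) = PowerSeries.coeff k p := by
    intro k
    rw [HahnSeries.coeff_single_mul, one_mul, sub_neg_eq_add, sub_add_cancel,
      HahnSeries.ofPowerSeries_apply_coeff]
  have hp0 : ∀ k : ℕ, k < M → PowerSeries.coeff k p = 0 := by
    intro k hk
    rw [← hcoeff k]
    exact h0 _ (by omega)
  have h1 := (hasSum_nat_add_iff' (f := fun n : ℕ => PowerSeries.coeff n p * tParam N τ ^ n)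
    M).mpr (hsum τ)
  have hzero : ∑ i ∈ Finset.range M, PowerSeries.coeff i p * tParam N τ ^ i = 0 :=
    Finset.sum_eq_zero fun i hi => by rw [hp0 i (Finset.mem_range.mp hi), zero_mul]
  rw [hzero, sub_zero] at h1
  have h2 : HasSum (fun n : ℕ => (PowerSeries.coeff (n + M) p * tParam N τ ^ n) *
      tParam N τ ^ M) (g τ * tParam N τ ^ M) := by
    simpa [pow_add, mul_assoc] using h1
  have h3 := (hasSum_mul_right_iff (pow_ne_zero M ht)).mp h2
  have hfun : (fun n : ℕ => (HahnSeries.single (-(M : ℤ)) (1 : ℂ) *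
      HahnSeries.ofPowerSeries ℤ ℂ p).coeff (n : ℤ) * tParam N τ ^ n) =
      fun n : ℕ => PowerSeries.coeff (n + M) p * tParam N τ ^ n := by
    funext n
    rw [← hcoeff (n + M)]
    congr 2
    push_cast
    ring
  rw [hfun]
  exact h3

/-- `‖𝕋‖ = exp (-2π Im τ)` for the period-one parameter. -/
theorem norm_tParam_one (τ : ℍ) : ‖tParam 1 τ‖ = Real.exp (-2 * Real.pi * τ.im) := by
  unfold tParam
  rw [Function.Periodic.norm_qParam]
  simp

/-- Key estimate: a function with a power series expansion in `q` converges to the constant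
term exponentially fast at `i∞`. -/
theorem exists_bound_of_hasSum (a : ℕ → ℂ) (g : ℍ → ℂ)
    (h : ∀ τ : ℍ, HasSum (fun n : ℕ => a n * tParam 1 τ ^ n) (g τ)) :
    ∃ C : ℝ, 0 ≤ C ∧ ∀ τ : ℍ, 2 ≤ τ.im → ‖g τ - a 0‖ ≤ C * ‖tParam 1 τ‖ := by
  set r : ℝ := Real.exp (-2 * Real.pi) with hr
  have hr0 : 0 < r := Real.exp_pos _
  have hr1 : r < 1 := by
    rw [hr, Real.exp_lt_one_iff]
    nlinarith [Real.pi_pos]
  have hI : ‖tParam 1 UpperHalfPlane.I‖ = r := by
    rw [norm_tParam_one, UpperHalfPlane.I_im, mul_one]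
  -- the terms at `τ = i` are bounded
  obtain ⟨B, hB⟩ : ∃ B : ℝ, ∀ n : ℕ, ‖a n‖ * r ^ n ≤ B := by
    have hs : Summable (fun n : ℕ => a n * tParam 1 UpperHalfPlane.I ^ n) :=
      (h UpperHalfPlane.I).summable
    have ht := hs.tendsto_atTop_zero
    obtain ⟨B, hB⟩ := (Metric.isBounded_range_of_tendsto _ ht).exists_norm_le
    refine ⟨B, fun n => ?_⟩
    have := hB _ (Set.mem_range_self n)
    rwa [norm_mul, norm_pow, hI] at this
  have hB0 : 0 ≤ B := le_trans (by positivity) (hB 0)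
  refine ⟨B / (r * (1 - r)), div_nonneg hB0 (mul_nonneg hr0.le (by linarith)), fun τ hτ => ?_⟩
  set t := tParam 1 τ with ht
  have htn : ‖t‖ ≤ r * r := by
    rw [ht, norm_tParam_one, hr, ← Real.exp_add]
    apply Real.exp_le_exp.mpr
    nlinarith [Real.pi_pos]
  have htn0 : 0 ≤ ‖t‖ := norm_nonneg _
  have h1 := (hasSum_nat_add_iff' (f := fun n : ℕ => a n * t ^ n) 1).mpr (h τ)
  simp only [Finset.range_one, Finset.sum_singleton, pow_zero, mul_one] at h1
  have hgeom : HasSum (fun n : ℕ => B * (‖t‖ / r) * r ^ n) (B * (‖t‖ / r) * (1 - r)⁻¹) :=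
    (hasSum_geometric_of_lt_one hr0.le hr1).mul_left _
  have hle : ∀ n : ℕ, ‖a (n + 1) * t ^ (n + 1)‖ ≤ B * (‖t‖ / r) * r ^ n := by
    intro n
    have hq : ‖t‖ / r ≤ r := by
      rw [div_le_iff₀ hr0]
      exact htn
    have hq0 : 0 ≤ ‖t‖ / r := div_nonneg htn0 hr0.le
    have e1 : ‖a (n + 1) * t ^ (n + 1)‖ = (‖a (n + 1)‖ * r ^ (n + 1)) * (‖t‖ / r) ^ (n + 1) := by
      rw [norm_mul, norm_pow, div_pow]
      field_simp
    rw [e1]
    calc (‖a (n + 1)‖ * r ^ (n + 1)) * (‖t‖ / r) ^ (n + 1)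
        ≤ B * (‖t‖ / r) ^ (n + 1) :=
          mul_le_mul_of_nonneg_right (hB (n + 1)) (pow_nonneg hq0 _)
      _ = B * (‖t‖ / r) * (‖t‖ / r) ^ n := by rw [pow_succ]; ring
      _ ≤ B * (‖t‖ / r) * r ^ n :=
          mul_le_mul_of_nonneg_left (pow_le_pow_left₀ hq0 hq n) (mul_nonneg hB0 hq0)
  have := h1.norm_le_of_bounded hgeom hle
  calc ‖g τ - a 0‖ ≤ B * (‖t‖ / r) * (1 - r)⁻¹ := this
    _ = B / (r * (1 - r)) * ‖t‖ := by
        have : (1 - r) ≠ 0 := by linarith
        field_simp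

/-- Base case of the level-one theorem: no pole at `i∞` implies constant. -/
theorem levelOne_const (g : ℍ → ℂ) (hg : MDiff g)
    (hinv : ∀ (γ : SL(2, ℤ)) (τ : ℍ), g (γ • τ) = g τ)
    (s : LaurentSeries ℂ) (hs : HasTExp 1 g s) (h0 : ∀ n : ℤ, n < 0 → s.coeff n = 0) :
    ∀ τ, g τ = s.coeff 0 := by
  have hsum := fun τ => hasSum_of_coeff_neg_eq_zero hs h0 τ
  obtain ⟨C, hC0, hC⟩ := exists_bound_of_hasSum (fun n : ℕ => s.coeff (n : ℤ)) g hsum
  have hnorm_le_one : ∀ τ : ℍ, ‖tParam 1 τ‖ ≤ 1 := by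
    intro τ
    rw [norm_tParam_one]
    apply Real.exp_le_one_iff.mpr
    nlinarith [Real.pi_pos, τ.im_pos]
  have hb : IsBoundedAtImInfty g := by
    rw [UpperHalfPlane.isBoundedAtImInfty_iff]
    refine ⟨‖s.coeff 0‖ + C, 2, fun τ hτ => ?_⟩
    have h1 := hC τ hτ
    have h2 : ‖g τ‖ ≤ ‖g τ - s.coeff 0‖ + ‖s.coeff 0‖ := by
      simpa using norm_add_le (g τ - s.coeff 0) (s.coeff 0)
    have h3 : C * ‖tParam 1 τ‖ ≤ C := by
      simpa using mul_le_mul_of_nonneg_left (hnorm_le_one τ) hC0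
    simp only [Nat.cast_zero] at h1
    linarith
  obtain ⟨c, hc⟩ := levelOne_const_of_bdd g hg hinv hb
  suffices hcs : c = s.coeff 0 by
    intro τ
    rw [hc τ, hcs]
  -- `‖c - s₀‖ ≤ C exp (-2π y)` for all `y ≥ 2`
  by_contra hne
  have hpos : 0 < ‖c - s.coeff 0‖ := norm_pos_iff.mpr (sub_ne_zero.mpr hne)
  have hlim : Filter.Tendsto (fun y : ℝ => C * Real.exp (-2 * Real.pi * y)) Filter.atTop
      (nhds (C * 0)) := by
    apply Filter.Tendsto.const_mul
    have : Filter.Tendsto (fun y : ℝ => -(2 * Real.pi * y)) Filter.atTop Filter.atBot := by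
      apply Filter.tendsto_neg_atTop_atBot.comp
      exact Filter.Tendsto.const_mul_atTop (by positivity) Filter.tendsto_id
    refine (Real.tendsto_exp_atBot.comp this).congr fun y => ?_
    simp only [Function.comp_apply]
    congr 1
    ring
  rw [mul_zero] at hlim
  have hev := hlim.eventually (gt_mem_nhds hpos)
  obtain ⟨y, hy⟩ := (hev.and (Filter.eventually_ge_atTop (2 : ℝ))).exists
  have hy0 : (0 : ℝ) < y := by linarith [hy.2]
  have h1 := hC ⟨⟨0, y⟩, by simpa using hy0⟩ (by simpa using hy.2)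
  rw [hc, norm_tParam_one] at h1
  simp only [Nat.cast_zero] at h1
  have him : (⟨⟨0, y⟩, by simpa using hy0⟩ : ℍ).im = y := rfl
  rw [him] at h1
  linarith [hy.1]

/-- `cEmb jq` is the `j`-series with complex coefficients. -/
theorem cEmb_jq : cEmb jq = jqModC ℂ := by
  rw [← jqModC_rat]
  exact coeffMap_jqModC (algebraMap ℚ ℂ)

/-- All coefficients of powers of the `j`-series are integers, hence lie in every subring. -/
theorem coeffIn_cEmb_jq_pow (S : Subring ℂ) (k : ℕ) : CoeffIn S ((cEmb jq) ^ k) := by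
  intro n
  have h : (cEmb jq) ^ k = coeffMap (Int.castRingHom ℂ) ((jqModC ℤ) ^ k) := by
    rw [map_pow, coeffMap_jqModC, cEmb_jq]
  rw [h, coeffMap_coeff]
  exact intCast_mem S _

theorem coeff_C_mul (a : ℂ) (x : LaurentSeries ℂ) (n : ℤ) :
    (HahnSeries.C a * x).coeff n = a * x.coeff n := by
  rw [HahnSeries.C_mul_eq_smul, HahnSeries.coeff_smul, smul_eq_mul]

end LevelOne

open LevelOne in
/-- **Level-one theorem (core form).**  The facts about `j` are hypotheses. -/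
theorem levelOne_poly_core
    (hjholo : MDiff jAn)
    (hjinv : ∀ (γ : SL(2, ℤ)) (τ : ℍ), jAn (γ • τ) = jAn τ)
    (hjexp : ∀ (a : ℂ) (M : ℕ) (g : ℍ → ℂ) (s : LaurentSeries ℂ), HasTExp 1 g s →
      HasTExp 1 (fun τ => g τ - a * jAn τ ^ M) (s - HahnSeries.C a * (cEmb jq) ^ M))
    (S : Subring ℂ) (g : ℍ → ℂ) (hg : MDiff g)
    (hinv : ∀ (γ : SL(2, ℤ)) (τ : ℍ), g (γ • τ) = g τ)
    (s : LaurentSeries ℂ) (hs : HasTExp 1 g s) (hS : CoeffIn S s)
    (M : ℕ) (hM : ∀ n : ℤ, n < -(M : ℤ) → s.coeff n = 0) :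
    ∃ Q : Polynomial S, Q.natDegree ≤ M ∧ ∀ τ, g τ = (Q.map S.subtype).eval (jAn τ) := by
  induction M generalizing g s with
  | zero =>
    have hconst := levelOne_const g hg hinv s hs (by simpa using hM)
    refine ⟨Polynomial.C ⟨s.coeff 0, hS 0⟩, by simp, fun τ => ?_⟩
    rw [hconst τ]
    simp
  | succ M ih =>
    set a : ℂ := s.coeff (-((M + 1 : ℕ) : ℤ)) with ha
    have haS : a ∈ S := hS _
    set g₁ : ℍ → ℂ := fun τ => g τ - a * jAn τ ^ (M + 1) with hg₁
    set s₁ : LaurentSeries ℂ := s - HahnSeries.C a * (cEmb jq) ^ (M + 1) with hs₁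
    have hg₁holo : MDiff g₁ := by
      have h1 : MDiff (fun τ => jAn τ ^ (M + 1)) := hjholo.pow (M + 1)
      have h2 : MDiff (fun τ => a * jAn τ ^ (M + 1)) := mdifferentiable_const.mul h1
      exact hg.sub h2
    have hg₁inv : ∀ (γ : SL(2, ℤ)) (τ : ℍ), g₁ (γ • τ) = g₁ τ := by
      intro γ τ
      simp only [hg₁, hinv γ τ, hjinv γ τ]
    have hs₁exp : HasTExp 1 g₁ s₁ := hjexp a (M + 1) g s hs
    have hcoeff : ∀ n : ℤ, s₁.coeff n = s.coeff n - a * ((cEmb jq) ^ (M + 1)).coeff n := by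
      intro n
      rw [hs₁, HahnSeries.coeff_sub, coeff_C_mul]
    have hs₁S : CoeffIn S s₁ := by
      intro n
      rw [hcoeff]
      exact S.sub_mem (hS n) (S.mul_mem haS (coeffIn_cEmb_jq_pow S (M + 1) n))
    have hs₁M : ∀ n : ℤ, n < -(M : ℤ) → s₁.coeff n = 0 := by
      intro n hn
      rw [hcoeff, cEmb_jq]
      rcases lt_or_eq_of_le (show n ≤ -((M + 1 : ℕ) : ℤ) by push_cast; omega) with h | h
      · rw [hM n h, coeff_jqModC_pow_of_lt ℂ h, mul_zero, sub_zero]
      · rw [h, coeff_jqModC_pow_self ℂ (M + 1), mul_one, ← ha, sub_self]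
    obtain ⟨Q₁, hQ₁deg, hQ₁⟩ := ih g₁ hg₁holo hg₁inv s₁ hs₁exp hs₁S hs₁M
    refine ⟨Q₁ + Polynomial.C ⟨a, haS⟩ * Polynomial.X ^ (M + 1), ?_, fun τ => ?_⟩
    · refine (Polynomial.natDegree_add_le _ _).trans (max_le (hQ₁deg.trans (Nat.le_succ M)) ?_)
      exact Polynomial.natDegree_C_mul_X_pow_le _ _
    · have h1 := hQ₁ τ
      simp only [hg₁] at h1
      rw [Polynomial.map_add, Polynomial.eval_add, ← h1]
      simp

end Fermat.Agent.S28
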