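import Fermat.Statements.S28
import Fermat.Prelude.Def_ModularCurve_ModularUnit

/-!
# S28 (Igusa): shared definitions

Blueprint (helper28).  `R = ℤ_(ℓ)`, `ℓ ∤ N`.

* `deltaSub δ`   : formal `Δ(q^δ)` in `ℚ((q))` (junk value `1` for `δ = 0`).
* `unitW N`      : `∏_{δ ∣ N} Δ(q^δ)^(δ·μ(N/δ))`   (weight `12·φ(N)`; only zero is the cusp `∞`).
* `modUnit N`    : `U = W / Δ^φ(N)`.
* `IgusaInput`   : the package of characteristic-zero facts about `U` that the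
  commutative-algebra part (Part II) consumes.
-/

set_option autoImplicit false

open ModularCurve

noncomputable section

namespace Fermat.Agent.S28

/-- Formal `Δ(q^δ)`; junk value `1` when `δ = 0`. -/
def deltaSub (δ : ℕ) : LaurentSeries ℚ :=
  if h : δ = 0 then 1 else @deltaSeriesN δ ⟨h⟩

/-- Formal `j(q^d)`; junk value `1` when `d = 0`. -/
def jSub (d : ℕ) : LaurentSeries ℚ :=
  if h : d = 0 then 1 else @qExpand ℚ _ d ⟨h⟩ jq

/-- `W = ∏_{δ ∣ N} Δ(q^δ)^(δ·μ(N/δ))`. -/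
def unitW (N : ℕ) : LaurentSeries ℚ :=
  ∏ δ ∈ N.divisors, deltaSub δ ^ ((δ : ℤ) * ArithmeticFunction.moebius (N / δ))

/-- The modular unit `U = W / Δ^φ(N)`. -/
def modUnit (N : ℕ) : LaurentSeries ℚ :=
  unitW N * (deltaSeries ^ N.totient)⁻¹

/-- Evaluation `R[Y] → ℚ((q))`, `Y ↦ x`, for a subring `R ⊆ ℚ`. -/
def evalAt (R : Subring ℚ) (x : LaurentSeries ℚ) : Polynomial R →+* LaurentSeries ℚ :=
  Polynomial.eval₂RingHom ((algebraMap ℚ (LaurentSeries ℚ)).comp R.subtype) x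

/-- Evaluation `ℚ[Y] → ℚ((q))`, `Y ↦ x`. -/
def evalAtQ (x : LaurentSeries ℚ) : Polynomial ℚ →+* LaurentSeries ℚ :=
  Polynomial.eval₂RingHom (algebraMap ℚ (LaurentSeries ℚ)) x

/-- The characteristic-zero input to the commutative algebra part.
`m ≥ 1`, `I ≥ 1` (`I` = index of `Γ₀(N)`), and a series `U` with:
* ℓ-integral coefficients, order `m (I - 1)`, leading coefficient `1`;
* `U` integral over `R[j]`, `U / j^m` integral over `R[1/j]`;
* every element of `ℚ[j(q^d) (d ∣ N), U]` is a root of a nonzero polynomial of `X`-degree `≤ I`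
  over `ℚ[j]`. -/
structure IgusaInput (N ℓ : ℕ) where
  U : LaurentSeries ℚ
  m : ℕ
  I : ℕ
  m_pos : 0 < m
  I_pos : 0 < I
  U_coeff : ∀ n : ℤ, U.coeff n ∈ GaloisRep.ratLocalizedAt ℓ
  U_monic : IsMonicOfOrder U ((m : ℤ) * ((I : ℤ) - 1))
  U_int : ∃ P : Polynomial (Polynomial (GaloisRep.ratLocalizedAt ℓ)), P.Monic ∧
    P.eval₂ (evalAt (GaloisRep.ratLocalizedAt ℓ) jq) U = 0
  Uj_int : ∃ P : Polynomial (Polynomial (GaloisRep.ratLocalizedAt ℓ)), P.Monic ∧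
    P.eval₂ (evalAt (GaloisRep.ratLocalizedAt ℓ) jq⁻¹) (U * (jq⁻¹) ^ m) = 0
  deg_le : ∀ f ∈ Algebra.adjoin ℚ (insert U (divisorExpansions N)),
    ∃ P : Polynomial (Polynomial ℚ), P ≠ 0 ∧ P.natDegree ≤ I ∧ P.eval₂ (evalAtQ jq) f = 0

end Fermat.Agent.S28
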