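import Fermat.Agent.S28.RDefs

/-!
# S28, task T5a: arithmetic of `ℤ_(ℓ)`

`R = GaloisRep.ratLocalizedAt ℓ = {q : ℚ | q.den.Coprime ℓ}`.

* `mem_ratLocalizedAt_iff_padicValRat`: `x ∈ R ↔ x = 0 ∨ 0 ≤ padicValRat ℓ x`;
* `resL_eq_zero_iff`: the kernel of the residue map is `(ℓ)`;
* `prime_natCast_ratLocalizedAt`: `ℓ` is a prime element of `R`;
* `isIntegrallyClosed_ratLocalizedAt`: `R` is integrally closed (it is a valuation subring of `ℚ`);
* `exists_normalize_family`: `ℓ`-adic normalisation of a nonzero family of rational polynomials.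
-/

set_option autoImplicit false

open ModularCurve

noncomputable section

namespace Fermat.Agent.S28

/-- Membership in `ℤ_(ℓ)` in terms of the `ℓ`-adic valuation. -/
theorem mem_ratLocalizedAt_iff_padicValRat (ℓ : ℕ) [hℓ : Fact ℓ.Prime] (x : ℚ) :
    x ∈ GaloisRep.ratLocalizedAt ℓ ↔ x = 0 ∨ 0 ≤ padicValRat ℓ x := by
  have hmem : x ∈ GaloisRep.ratLocalizedAt ℓ ↔ x.den.Coprime ℓ := Iff.rfl
  rw [hmem, Nat.coprime_comm, Nat.Prime.coprime_iff_not_dvd hℓ.out]
  constructor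
  · intro h
    right
    rw [padicValRat_def, padicValNat.eq_zero_of_not_dvd h]
    simp
  · rintro (rfl | h) hdvd
    · simp at hdvd
      exact hℓ.out.one_lt.ne' hdvd
    · have h1 : 1 ≤ padicValNat ℓ x.den := one_le_padicValNat_of_dvd x.den_ne_zero hdvd
      have h2 : ¬ (ℓ : ℤ) ∣ x.num := by
        intro hnum
        have h3 : ℓ ∣ x.num.natAbs := Int.natCast_dvd.mp hnum
        have h4 : ℓ ∣ Nat.gcd x.num.natAbs x.den := Nat.dvd_gcd h3 hdvd
        rw [x.reduced] at h4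
        exact hℓ.out.one_lt.ne' (Nat.dvd_one.mp h4)
      rw [padicValRat_def, padicValInt.eq_zero_of_not_dvd h2] at h
      omega

theorem mem_ratLocalizedAt_of_padicValRat_nonneg (ℓ : ℕ) [Fact ℓ.Prime] {x : ℚ}
    (h : 0 ≤ padicValRat ℓ x) : x ∈ GaloisRep.ratLocalizedAt ℓ :=
  (mem_ratLocalizedAt_iff_padicValRat ℓ x).mpr (Or.inr h)

theorem padicValRat_nonneg_of_mem (ℓ : ℕ) [Fact ℓ.Prime] {x : ℚ}
    (h : x ∈ GaloisRep.ratLocalizedAt ℓ) : 0 ≤ padicValRat ℓ x := by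
  rcases (mem_ratLocalizedAt_iff_padicValRat ℓ x).mp h with rfl | h
  · simp
  · exact h

theorem natCast_mem_ratLocalizedAt (ℓ : ℕ) (n : ℕ) : (n : ℚ) ∈ GaloisRep.ratLocalizedAt ℓ :=
  natCast_mem _ n

/-- The kernel of the residue map `ℤ_(ℓ) → 𝔽_ℓ` is the ideal generated by `ℓ`. -/
theorem resL_eq_zero_iff (ℓ : ℕ) [Fact ℓ.Prime] (x : GaloisRep.ratLocalizedAt ℓ) :
    resL ℓ x = 0 ↔ ∃ y : GaloisRep.ratLocalizedAt ℓ, x = (ℓ : GaloisRep.ratLocalizedAt ℓ) * y := by
  have hℓ : ℓ.Prime := Fact.out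
  constructor
  · intro h
    rw [resL_apply, Rat.cast_def, div_eq_zero_iff] at h
    have hden := den_ne_zero_of_mem ℓ x.2
    rcases h with h | h
    · rw [ZMod.intCast_zmod_eq_zero_iff_dvd] at h
      obtain ⟨k, hk⟩ := h
      have hℓ0 : (ℓ : ℚ) ≠ 0 := by exact_mod_cast hℓ.ne_zero
      have hxy : (x : ℚ) = (ℓ : ℚ) * ((x : ℚ) / ℓ) := by field_simp
      have hx0 : (x : ℚ) = (ℓ : ℚ) * ((k : ℚ) / (x : ℚ).den) := by
        conv_lhs => rw [← Rat.num_div_den (x : ℚ), hk]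
        push_cast
        ring
      have hy : (k : ℚ) / (x : ℚ).den ∈ GaloisRep.ratLocalizedAt ℓ := by
        by_cases hk0 : k = 0
        · simp [hk0]
        · apply mem_ratLocalizedAt_of_padicValRat_nonneg
          have hd0 : ((x : ℚ).den : ℚ) ≠ 0 := by exact_mod_cast (x : ℚ).den_ne_zero
          rw [padicValRat.div (by exact_mod_cast hk0) hd0]
          have h1 : padicValRat ℓ ((x : ℚ).den : ℚ) = 0 := by
            rw [padicValRat.of_nat]
            have : ¬ ℓ ∣ (x : ℚ).den := by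
              rw [← Nat.Prime.coprime_iff_not_dvd hℓ, Nat.coprime_comm]
              exact x.2
            rw [padicValNat.eq_zero_of_not_dvd this]
            rfl
          rw [h1, sub_zero, padicValRat.of_int]
          exact Int.natCast_nonneg _
      refine ⟨⟨_, hy⟩, Subtype.ext ?_⟩
      rw [Subring.coe_mul, Subring.coe_natCast]
      exact hx0
    · exact absurd h hden
  · rintro ⟨y, rfl⟩
    rw [map_mul, map_natCast, ZMod.natCast_self, zero_mul]

theorem natCast_dvd_iff_resL (ℓ : ℕ) [Fact ℓ.Prime] (x : GaloisRep.ratLocalizedAt ℓ) :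
    (ℓ : GaloisRep.ratLocalizedAt ℓ) ∣ x ↔ resL ℓ x = 0 :=
  (resL_eq_zero_iff ℓ x).symm

/-- `ℓ` is a prime element of `ℤ_(ℓ)`. -/
theorem prime_natCast_ratLocalizedAt (ℓ : ℕ) [Fact ℓ.Prime] :
    Prime ((ℓ : ℕ) : GaloisRep.ratLocalizedAt ℓ) := by
  have hℓ : ℓ.Prime := Fact.out
  refine ⟨?_, ?_, fun a b hab => ?_⟩
  · intro h
    have := congrArg (Subtype.val : GaloisRep.ratLocalizedAt ℓ → ℚ) h
    rw [Subring.coe_natCast, Subring.coe_zero] at this
    exact hℓ.ne_zero (by exact_mod_cast this)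
  · intro hu
    have h1 := hu.map (resL ℓ)
    rw [map_natCast, ZMod.natCast_self] at h1
    exact not_isUnit_zero h1
  · rw [natCast_dvd_iff_resL] at hab ⊢
    rw [natCast_dvd_iff_resL]
    rw [map_mul] at hab
    exact mul_eq_zero.mp hab

/-- `ℤ_(ℓ)` as a valuation subring of `ℚ`. -/
def ratLocalizedAtValuationSubring (ℓ : ℕ) [Fact ℓ.Prime] : ValuationSubring ℚ :=
  { GaloisRep.ratLocalizedAt ℓ with
    mem_or_inv_mem' := fun x => by
      by_cases h : 0 ≤ padicValRat ℓ x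
      · exact Or.inl (mem_ratLocalizedAt_of_padicValRat_nonneg ℓ h)
      · refine Or.inr (mem_ratLocalizedAt_of_padicValRat_nonneg ℓ ?_)
        rw [padicValRat.inv]
        omega }

/-- `ℤ_(ℓ)` is integrally closed. -/
theorem isIntegrallyClosed_ratLocalizedAt (ℓ : ℕ) [Fact ℓ.Prime] :
    IsIntegrallyClosed (GaloisRep.ratLocalizedAt ℓ) :=
  inferInstanceAs (IsIntegrallyClosed (ratLocalizedAtValuationSubring ℓ).toSubring)

/-- An element of `ℤ_(ℓ)` of valuation `0` has nonzero residue. -/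
theorem resL_ne_zero_of_padicValRat_eq_zero (ℓ : ℕ) [Fact ℓ.Prime]
    (x : GaloisRep.ratLocalizedAt ℓ) (hx0 : (x : ℚ) ≠ 0) (hx : padicValRat ℓ (x : ℚ) = 0) :
    resL ℓ x ≠ 0 := by
  have hℓ : ℓ.Prime := Fact.out
  intro h
  obtain ⟨y, hy⟩ := (resL_eq_zero_iff ℓ x).mp h
  have hxy : (x : ℚ) = (ℓ : ℚ) * (y : ℚ) := by
    rw [hy, Subring.coe_mul, Subring.coe_natCast]
  have hy0 : (y : ℚ) ≠ 0 := by
    rintro h0
    rw [h0, mul_zero] at hxy
    exact hx0 hxy
  have hℓ0 : (ℓ : ℚ) ≠ 0 := by exact_mod_cast hℓ.ne_zero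
  rw [hxy, padicValRat.mul hℓ0 hy0, padicValRat.self hℓ.one_lt] at hx
  have := padicValRat_nonneg_of_mem ℓ y.2
  omega

/-- `ℓ`-adic normalisation of a nonzero finite family of rational polynomials. -/
theorem exists_normalize_family (ℓ : ℕ) [Fact ℓ.Prime] {n : ℕ} (P : Fin n → Polynomial ℚ)
    (hP : P ≠ 0) :
    ∃ (b : ℤ) (P' : Fin n → Polynomial (GaloisRep.ratLocalizedAt ℓ)),
      (∃ i, (P' i).map (resL ℓ) ≠ 0) ∧
      ∀ i, P i = Polynomial.C ((ℓ : ℚ) ^ b) * (P' i).map (GaloisRep.ratLocalizedAt ℓ).subtype := by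
  classical
  have hℓ : ℓ.Prime := Fact.out
  have hℓ0 : (ℓ : ℚ) ≠ 0 := by exact_mod_cast hℓ.ne_zero
  -- the finite set of positions of nonzero coefficients
  let T : Finset (Σ _ : Fin n, ℕ) := Finset.univ.sigma fun i => (P i).support
  have hT : T.Nonempty := by
    by_contra hne
    rw [Finset.not_nonempty_iff_eq_empty] at hne
    apply hP
    funext i
    rw [Pi.zero_apply, ← Polynomial.support_eq_empty]
    rw [Finset.eq_empty_iff_forall_notMem]
    intro k hk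
    have : (⟨i, k⟩ : Σ _ : Fin n, ℕ) ∈ T := Finset.mem_sigma.mpr ⟨Finset.mem_univ _, hk⟩
    rw [hne] at this
    exact absurd this (Finset.notMem_empty _)
  obtain ⟨⟨i₀, k₀⟩, h₀T, hmin⟩ :=
    Finset.exists_min_image T (fun t => padicValRat ℓ ((P t.1).coeff t.2)) hT
  have hc₀ : (P i₀).coeff k₀ ≠ 0 := by
    have := (Finset.mem_sigma.mp h₀T).2
    exact Polynomial.mem_support_iff.mp this
  set b : ℤ := padicValRat ℓ ((P i₀).coeff k₀) with hb
  have hval : ∀ i k, (P i).coeff k ≠ 0 → b ≤ padicValRat ℓ ((P i).coeff k) := by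
    intro i k hik
    exact hmin ⟨i, k⟩ (Finset.mem_sigma.mpr ⟨Finset.mem_univ _, Polynomial.mem_support_iff.mpr hik⟩)
  -- the normalised polynomials over `ℚ`
  let Q : Fin n → Polynomial ℚ := fun i => Polynomial.C ((ℓ : ℚ) ^ (-b)) * P i
  have hQcoeff : ∀ i k, (Q i).coeff k = (ℓ : ℚ) ^ (-b) * (P i).coeff k := fun i k =>
    Polynomial.coeff_C_mul _
  have hQval : ∀ i k, (P i).coeff k ≠ 0 →
      padicValRat ℓ ((Q i).coeff k) = padicValRat ℓ ((P i).coeff k) - b := by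
    intro i k hik
    rw [hQcoeff, padicValRat.mul (zpow_ne_zero _ hℓ0) hik, padicValRat.zpow,
      padicValRat.self hℓ.one_lt]
    ring
  have hQmem : ∀ i k, (Q i).coeff k ∈ GaloisRep.ratLocalizedAt ℓ := by
    intro i k
    by_cases hik : (P i).coeff k = 0
    · rw [hQcoeff, hik, mul_zero]
      exact zero_mem _
    · apply mem_ratLocalizedAt_of_padicValRat_nonneg
      rw [hQval i k hik]
      have := hval i k hik
      omega
  have hQsub : ∀ i, (↑(Q i).coeffs : Set ℚ) ⊆ GaloisRep.ratLocalizedAt ℓ := by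
    intro i c hc
    obtain ⟨k, -, rfl⟩ := Polynomial.mem_coeffs_iff.mp hc
    exact hQmem i k
  refine ⟨b, fun i => (Q i).toSubring (GaloisRep.ratLocalizedAt ℓ) (hQsub i), ⟨i₀, ?_⟩, ?_⟩
  · intro h
    have h1 := congrArg (fun p => Polynomial.coeff p k₀) h
    simp only [Polynomial.coeff_map, Polynomial.coeff_zero] at h1
    refine resL_ne_zero_of_padicValRat_eq_zero ℓ _ ?_ ?_ h1
    · rw [Polynomial.coeff_toSubring, hQcoeff]
      exact mul_ne_zero (zpow_ne_zero _ hℓ0) hc₀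
    · rw [Polynomial.coeff_toSubring, hQval i₀ k₀ hc₀]
      exact sub_self _
  · intro i
    rw [Polynomial.map_toSubring]
    show P i = Polynomial.C ((ℓ : ℚ) ^ b) * (Polynomial.C ((ℓ : ℚ) ^ (-b)) * P i)
    rw [← mul_assoc, ← Polynomial.C_mul, ← zpow_add₀ hℓ0, add_neg_cancel, zpow_zero,
      Polynomial.C_1, one_mul]

end Fermat.Agent.S28
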