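import Fermat.Agent.S28.ADefs

/-!
# S28 Part I (T6h): pure algebra for the assembly

* `h52_descent` : a nonzero polynomial relation over `ℂ` between (the images of) two rational
  Laurent series descends to a nonzero rational one with the same `X`-degree bound.
* `h52_integral_transfer` : a monic relation with coefficients in `ℤ[ζ_N, 1/N][Y]` gives a monic
  relation with coefficients in `ℤ_(ℓ)[Y]` when `ℓ ∤ N`.
-/

set_option autoImplicit false

open ModularCurve Polynomial

noncomputable section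

namespace Fermat.Agent.S28

/-- `cEmb` is injective. -/
theorem h52_cEmb_injective : Function.Injective cEmb := by
  intro x y h
  ext n
  have := congrArg (fun s : LaurentSeries ℂ => s.coeff n) h
  simpa [cEmb] using this

/-- Coefficientwise application of a `ℚ`-linear functional `ℂ → ℚ`. -/
def h52_lamMap (lam : ℂ →ₗ[ℚ] ℚ) (s : LaurentSeries ℂ) : LaurentSeries ℚ :=
  s.map (⟨lam, map_zero lam⟩ : ZeroHom ℂ ℚ)

@[simp] theorem h52_lamMap_coeff (lam : ℂ →ₗ[ℚ] ℚ) (s : LaurentSeries ℂ) (n : ℤ) :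
    (h52_lamMap lam s).coeff n = lam (s.coeff n) := rfl

theorem h52_lamMap_zero (lam : ℂ →ₗ[ℚ] ℚ) : h52_lamMap lam 0 = 0 := by
  ext n; simp

theorem h52_lamMap_add (lam : ℂ →ₗ[ℚ] ℚ) (s t : LaurentSeries ℂ) :
    h52_lamMap lam (s + t) = h52_lamMap lam s + h52_lamMap lam t := by
  ext n; simp

theorem h52_lamMap_sum (lam : ℂ →ₗ[ℚ] ℚ) {ι : Type*} (t : Finset ι)
    (g : ι → LaurentSeries ℂ) :
    h52_lamMap lam (∑ i ∈ t, g i) = ∑ i ∈ t, h52_lamMap lam (g i) := by
  classical
  induction t using Finset.induction_on with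
  | empty => simp [h52_lamMap_zero]
  | insert a s ha ih => rw [Finset.sum_insert ha, Finset.sum_insert ha, h52_lamMap_add, ih]

theorem h52_lamMap_C_mul_cEmb (lam : ℂ →ₗ[ℚ] ℚ) (c : ℂ) (y : LaurentSeries ℚ) :
    h52_lamMap lam (HahnSeries.C c * cEmb y) = HahnSeries.C (lam c) * y := by
  ext n
  rw [h52_lamMap_coeff, HahnSeries.C_mul_eq_smul, HahnSeries.C_mul_eq_smul,
    HahnSeries.coeff_smul, HahnSeries.coeff_smul]
  simp only [cEmb, coeffMap_coeff, smul_eq_mul]
  have : c * (algebraMap ℚ ℂ) (y.coeff n) = (y.coeff n) • c := by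
    rw [Algebra.smul_def]; ring
  rw [this, map_smul, smul_eq_mul, mul_comm]

theorem h52_descent (x f : LaurentSeries ℚ) (I : ℕ) (P : Polynomial (Polynomial ℂ))
    (hP : P ≠ 0) (hdeg : P.natDegree ≤ I)
    (h : P.eval₂ (Polynomial.eval₂RingHom (HahnSeries.C : ℂ →+* LaurentSeries ℂ) (cEmb x))
      (cEmb f) = 0) :
    ∃ Q : Polynomial (Polynomial ℚ), Q ≠ 0 ∧ Q.natDegree ≤ I ∧ Q.eval₂ (evalAtQ x) f = 0 := by
  classical
  -- a nonzero coefficient
  obtain ⟨b₀, hb₀⟩ : ∃ b, P.coeff b ≠ 0 := by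
    by_contra hcon
    push Not at hcon
    exact hP (Polynomial.ext fun n => by simpa using hcon n)
  obtain ⟨a₀, ha₀⟩ : ∃ a, (P.coeff b₀).coeff a ≠ 0 := by
    by_contra hcon
    push Not at hcon
    exact hb₀ (Polynomial.ext fun n => by simpa using hcon n)
  obtain ⟨lam, hlam⟩ : ∃ lam : ℂ →ₗ[ℚ] ℚ, lam ((P.coeff b₀).coeff a₀) ≠ 0 := by
    by_contra hcon
    push Not at hcon
    exact ha₀ ((Module.forall_dual_apply_eq_zero_iff ℚ _).mp hcon)
  -- the descended polynomial
  set D : ℕ := (Finset.range (P.natDegree + 1)).sup fun b => (P.coeff b).natDegree with hD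
  set Q : Polynomial (Polynomial ℚ) :=
    ∑ b ∈ Finset.range (P.natDegree + 1), ∑ a ∈ Finset.range (D + 1),
      Polynomial.monomial b (Polynomial.monomial a (lam ((P.coeff b).coeff a))) with hQ
  have hb₀le : b₀ ≤ P.natDegree := Polynomial.le_natDegree_of_ne_zero hb₀
  have ha₀le : a₀ ≤ D := by
    have h1 : a₀ ≤ (P.coeff b₀).natDegree := Polynomial.le_natDegree_of_ne_zero ha₀
    have h2 : (P.coeff b₀).natDegree ≤ D :=
      Finset.le_sup (f := fun b => (P.coeff b).natDegree)
        (Finset.mem_range.mpr (Nat.lt_succ_of_le hb₀le))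
    exact h1.trans h2
  have hQcoeff : ∀ b a, b ≤ P.natDegree → a ≤ D →
      (Q.coeff b).coeff a = lam ((P.coeff b).coeff a) := by
    intro b a hb ha
    simp only [hQ, Polynomial.finsetSum_coeff, Polynomial.coeff_monomial]
    rw [Finset.sum_eq_single b]
    · rw [Finset.sum_eq_single a]
      · simp
      · intro a' _ ha'
        simp [Polynomial.coeff_monomial, ha']
      · intro ha'
        exact absurd (Finset.mem_range.mpr (Nat.lt_succ_of_le ha)) ha'
    · intro b' _ hb'
      simp [hb']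
    · intro hb'
      exact absurd (Finset.mem_range.mpr (Nat.lt_succ_of_le hb)) hb'
  refine ⟨Q, ?_, ?_, ?_⟩
  · intro hQ0
    have := hQcoeff b₀ a₀ hb₀le ha₀le
    rw [hQ0] at this
    simp at this
    exact hlam this.symm
  · refine (Polynomial.natDegree_sum_le _ _).trans ?_
    rw [Finset.fold_max_le]
    refine ⟨Nat.zero_le _, fun b hb => ?_⟩
    refine (Polynomial.natDegree_sum_le _ _).trans ?_
    rw [Finset.fold_max_le]
    refine ⟨Nat.zero_le _, fun a _ => ?_⟩
    refine (Polynomial.natDegree_monomial_le _).trans ?_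
    exact (Nat.lt_succ_iff.mp (Finset.mem_range.mp hb)).trans hdeg
  · -- evaluation
    have hPexp : P.eval₂ (Polynomial.eval₂RingHom (HahnSeries.C : ℂ →+* LaurentSeries ℂ)
        (cEmb x)) (cEmb f) =
        ∑ b ∈ Finset.range (P.natDegree + 1), ∑ a ∈ Finset.range (D + 1),
          HahnSeries.C ((P.coeff b).coeff a) * cEmb (x ^ a * f ^ b) := by
      rw [Polynomial.eval₂_eq_sum_range]
      refine Finset.sum_congr rfl fun b hb => ?_
      have hbD : (P.coeff b).natDegree ≤ D :=
        Finset.le_sup (f := fun b => (P.coeff b).natDegree) hb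
      rw [Polynomial.coe_eval₂RingHom,
        Polynomial.eval₂_eq_sum_range' _ (Nat.lt_succ_of_le hbD), Finset.sum_mul]
      refine Finset.sum_congr rfl fun a _ => ?_
      rw [map_mul, map_pow, map_pow]
      ring
    have hQexp : Q.eval₂ (evalAtQ x) f =
        ∑ b ∈ Finset.range (P.natDegree + 1), ∑ a ∈ Finset.range (D + 1),
          HahnSeries.C (lam ((P.coeff b).coeff a)) * (x ^ a * f ^ b) := by
      rw [hQ, Polynomial.eval₂_finsetSum]
      refine Finset.sum_congr rfl fun b _ => ?_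
      rw [Polynomial.eval₂_finsetSum]
      refine Finset.sum_congr rfl fun a _ => ?_
      rw [Polynomial.eval₂_monomial, evalAtQ, Polynomial.coe_eval₂RingHom,
        Polynomial.eval₂_monomial]
      have : algebraMap ℚ (LaurentSeries ℚ) (lam ((P.coeff b).coeff a)) =
          HahnSeries.C (lam ((P.coeff b).coeff a)) := by
        rw [algebraMap_apply_eq_single]; rfl
      rw [this]
      ring
    rw [hQexp]
    have := congrArg (h52_lamMap lam) (hPexp.symm.trans h)
    rw [h52_lamMap_zero, h52_lamMap_sum] at this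
    rw [← this]
    refine Finset.sum_congr rfl fun b _ => ?_
    rw [h52_lamMap_sum]
    refine Finset.sum_congr rfl fun a _ => ?_
    rw [h52_lamMap_C_mul_cEmb]

/-- `1/N` lies in `ℤ_(ℓ)` when `ℓ ∤ N`. -/
theorem h52_inv_mem_ratLocalizedAt (N ℓ : ℕ) [Fact ℓ.Prime] (hN : 0 < N) (hℓN : ¬ ℓ ∣ N) :
    ((N : ℚ)⁻¹) ∈ GaloisRep.ratLocalizedAt ℓ := by
  show ((N : ℚ)⁻¹).den.Coprime ℓ
  have hden : ((N : ℚ)⁻¹).den = N := by
    rw [Rat.inv_natCast_den]
    simp [hN.ne']
  rw [hden]
  exact (Nat.Coprime.symm ((Nat.Prime.coprime_iff_not_dvd (Fact.out : ℓ.Prime)).mpr hℓN))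

theorem h52_cEmb_algebraMap (r : ℚ) :
    cEmb (algebraMap ℚ (LaurentSeries ℚ) r) = HahnSeries.C (r : ℂ) := by
  rw [algebraMap_apply_eq_single, cEmb, coeffMap_single]
  rfl

theorem h52_integral_transfer (N ℓ : ℕ) [Fact ℓ.Prime] (hN : 0 < N) (hℓN : ¬ ℓ ∣ N)
    (x f : LaurentSeries ℚ) (P : Polynomial (Polynomial (cycRing N))) (hP : P.Monic)
    (h : (P.map (Polynomial.mapRingHom (cycRing N).subtype)).eval₂
      (Polynomial.eval₂RingHom (HahnSeries.C : ℂ →+* LaurentSeries ℂ) (cEmb x)) (cEmb f) = 0) :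
    ∃ Q : Polynomial (Polynomial (GaloisRep.ratLocalizedAt ℓ)), Q.Monic ∧
      Q.eval₂ (evalAt (GaloisRep.ratLocalizedAt ℓ) x) f = 0 := by
  classical
  let φ : Polynomial (GaloisRep.ratLocalizedAt ℓ) →+* LaurentSeries ℂ :=
    cEmb.comp (evalAt (GaloisRep.ratLocalizedAt ℓ) x)
  let _inst : Algebra (Polynomial (GaloisRep.ratLocalizedAt ℓ)) (LaurentSeries ℂ) := φ.toAlgebra
  have hφ : ∀ p, algebraMap (Polynomial (GaloisRep.ratLocalizedAt ℓ)) (LaurentSeries ℂ) p
      = cEmb (evalAt (GaloisRep.ratLocalizedAt ℓ) x p) := fun p => rfl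
  -- constants from `ℤ_(ℓ)` are integral
  have hconst : ∀ r : GaloisRep.ratLocalizedAt ℓ,
      IsIntegral (Polynomial (GaloisRep.ratLocalizedAt ℓ))
        (HahnSeries.C ((r : ℚ) : ℂ) : LaurentSeries ℂ) := by
    intro r
    have : (HahnSeries.C ((r : ℚ) : ℂ) : LaurentSeries ℂ) =
        algebraMap (Polynomial (GaloisRep.ratLocalizedAt ℓ)) (LaurentSeries ℂ)
          (Polynomial.C r) := by
      rw [hφ, evalAt, Polynomial.coe_eval₂RingHom, Polynomial.eval₂_C, RingHom.comp_apply,
        h52_cEmb_algebraMap]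
      rfl
    rw [this]
    exact isIntegral_algebraMap
  -- `cEmb x` is integral
  have hx : IsIntegral (Polynomial (GaloisRep.ratLocalizedAt ℓ)) (cEmb x) := by
    have : cEmb x = algebraMap (Polynomial (GaloisRep.ratLocalizedAt ℓ)) (LaurentSeries ℂ)
        Polynomial.X := by
      rw [hφ, evalAt, Polynomial.coe_eval₂RingHom, Polynomial.eval₂_X]
    rw [this]
    exact isIntegral_algebraMap
  -- constants from `cycRing N` are integral
  have hC : ∀ s ∈ cycRing N, IsIntegral (Polynomial (GaloisRep.ratLocalizedAt ℓ))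
      (HahnSeries.C s : LaurentSeries ℂ) := by
    have hle : cycRing N ≤ (integralClosure (Polynomial (GaloisRep.ratLocalizedAt ℓ))
        (LaurentSeries ℂ)).toSubring.comap (HahnSeries.C : ℂ →+* LaurentSeries ℂ) := by
      rw [cycRing, Subring.closure_le]
      rintro s (rfl | rfl)
      · -- root of unity
        show IsIntegral _ _
        refine IsIntegral.of_pow hN ?_
        rw [← map_pow, ← Complex.exp_nat_mul]
        have hN0 : (N : ℂ) ≠ 0 := by exact_mod_cast hN.ne'
        have : (N : ℂ) * (2 * Real.pi * Complex.I / N) = 2 * Real.pi * Complex.I := by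
          field_simp
        rw [this, Complex.exp_two_pi_mul_I, map_one]
        exact isIntegral_one
      · show IsIntegral _ _
        have := hconst ⟨(N : ℚ)⁻¹, h52_inv_mem_ratLocalizedAt N ℓ hN hℓN⟩
        simpa using this
    intro s hs
    exact hle hs
  -- the coefficient polynomials are integral
  have hψ : ∀ p : Polynomial (cycRing N), IsIntegral (Polynomial (GaloisRep.ratLocalizedAt ℓ))
      (Polynomial.eval₂ (HahnSeries.C : ℂ →+* LaurentSeries ℂ) (cEmb x)
        (p.map (cycRing N).subtype)) := by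
    intro p
    rw [Polynomial.eval₂_eq_sum_range]
    refine IsIntegral.sum _ fun a _ => ?_
    refine IsIntegral.mul ?_ (hx.pow a)
    rw [Polynomial.coeff_map]
    exact hC _ (p.coeff a).2
  -- `cEmb f` is integral
  have hf : IsIntegral (Polynomial (GaloisRep.ratLocalizedAt ℓ)) (cEmb f) := by
    set p : Polynomial (LaurentSeries ℂ) :=
      (P.map (Polynomial.mapRingHom (cycRing N).subtype)).map
        (Polynomial.eval₂RingHom (HahnSeries.C : ℂ →+* LaurentSeries ℂ) (cEmb x)) with hp
    have hmonic : p.Monic := (hP.map _).map _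
    have hev : Polynomial.eval (cEmb f) p = 0 := by
      rw [hp, Polynomial.eval_map]; exact h
    have hdeg : p.natDegree ≠ 0 := by
      intro h0
      have h1 : p = 1 := Polynomial.eq_one_of_monic_natDegree_zero hmonic h0
      rw [h1, Polynomial.eval_one] at hev
      exact one_ne_zero hev
    refine IsIntegral.of_aeval_monic_of_isIntegral_coeff hmonic hdeg ?_ ?_
    · rw [hev]; exact isIntegral_zero
    · intro i
      rw [hp, Polynomial.coeff_map, Polynomial.coeff_map, Polynomial.coe_eval₂RingHom,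
        Polynomial.coe_mapRingHom]
      exact hψ _
  obtain ⟨Q, hQ, hev⟩ := hf
  refine ⟨Q, hQ, h52_cEmb_injective ?_⟩
  rw [map_zero, Polynomial.hom_eval₂]
  exact hev

end Fermat.Agent.S28
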