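import Mathlib
import Fermat.Prelude.Def_ModularCurve_X0
import Fermat.Prelude.Def_ModularCurve_JqCoeff
import Fermat.Agent.S28.H84Bridge

/-!
# S28 helper (helper84): the level-one principle

Every level-one modular form `g` of weight `12 n` is a polynomial of degree `≤ n` in `j`
times `Δ^n`; the coefficients lie in any subring of `ℂ` containing the first `n + 1`
`q`-expansion coefficients of `g`.
-/

namespace Fermat.Agent.S28.H84

open UpperHalfPlane ModularForm ModularFormClass MatrixGroups EisensteinSeries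

noncomputable section

/-- `f` has coefficients in `A` up to (and including) degree `n`. -/
def IntUpTo (A : Subring ℂ) (n : ℕ) (f : PowerSeries ℂ) : Prop :=
  ∀ i ≤ n, PowerSeries.coeff i f ∈ A

theorem IntUpTo.mono {A : Subring ℂ} {n m : ℕ} {f : PowerSeries ℂ} (h : IntUpTo A n f)
    (hmn : m ≤ n) : IntUpTo A m f := fun i hi => h i (hi.trans hmn)

theorem IntUpTo.sub {A : Subring ℂ} {n : ℕ} {f g : PowerSeries ℂ} (hf : IntUpTo A n f)
    (hg : IntUpTo A n g) : IntUpTo A n (f - g) := fun i hi => by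
  rw [map_sub]; exact A.sub_mem (hf i hi) (hg i hi)

theorem IntUpTo.add {A : Subring ℂ} {n : ℕ} {f g : PowerSeries ℂ} (hf : IntUpTo A n f)
    (hg : IntUpTo A n g) : IntUpTo A n (f + g) := fun i hi => by
  rw [map_add]; exact A.add_mem (hf i hi) (hg i hi)

theorem IntUpTo.mul {A : Subring ℂ} {n : ℕ} {f g : PowerSeries ℂ} (hf : IntUpTo A n f)
    (hg : IntUpTo A n g) : IntUpTo A n (f * g) := fun i hi => by
  rw [PowerSeries.coeff_mul]
  refine A.sum_mem fun x hx => ?_
  have hx' := Finset.HasAntidiagonal.mem_antidiagonal.mp hx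
  exact A.mul_mem (hf _ (by omega)) (hg _ (by omega))

theorem IntUpTo.pow {A : Subring ℂ} {n : ℕ} {f : PowerSeries ℂ} (hf : IntUpTo A n f) (m : ℕ) :
    IntUpTo A n (f ^ m) := by
  induction m with
  | zero =>
    intro i _
    rw [pow_zero, PowerSeries.coeff_one]
    split_ifs
    · exact A.one_mem
    · exact A.zero_mem
  | succ m ih => rw [pow_succ]; exact ih.mul hf

theorem IntUpTo.C {A : Subring ℂ} {n : ℕ} {a : ℂ} (ha : a ∈ A) :
    IntUpTo A n (PowerSeries.C a) := fun i _ => by
  rw [PowerSeries.coeff_C]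
  split_ifs
  · exact ha
  · exact A.zero_mem

theorem IntUpTo.map_int (A : Subring ℂ) (n : ℕ) (F : PowerSeries ℤ) :
    IntUpTo A n (F.map (Int.castRingHom ℂ)) := fun i _ => by
  rw [PowerSeries.coeff_map]
  exact intCast_mem A _

theorem IntUpTo.of_X_mul {A : Subring ℂ} {n : ℕ} {f : PowerSeries ℂ}
    (h : IntUpTo A (n + 1) (PowerSeries.X * f)) : IntUpTo A n f := fun i hi => by
  have := h (i + 1) (by omega)
  rwa [PowerSeries.coeff_succ_X_mul] at this

/-- The formal `η^24` over `ℂ`. -/
def etaU : PowerSeries ℂ := (ModularCurve.dedekindEtaUnit).map (Int.castRingHom ℂ)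

/-- The formal `η^{-24}` over `ℂ`. -/
def etaUInv : PowerSeries ℂ := (ModularCurve.dedekindEtaUnitInv).map (Int.castRingHom ℂ)

theorem etaU_mul_etaUInv : etaU * etaUInv = 1 := by
  rw [etaU, etaUInv, ← map_mul, ModularCurve.dedekindEtaUnit_mul_inv, map_one]

theorem qExpansion_discriminant_eq' :
    qExpansion 1 ModularForm.discriminant = PowerSeries.X * etaU := by
  rw [qExpansion_discriminant_eq, etaU, ModularCurve.dedekindEtaUnit]

theorem coeff_zero_qExpansion_E4_pow (m : ℕ) :
    PowerSeries.coeff 0 (qExpansion 1 E₄ ^ m) = 1 := by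
  rw [PowerSeries.coeff_zero_eq_constantCoeff, map_pow,
    ← PowerSeries.coeff_zero_eq_constantCoeff_apply, E_qExpansion_coeff_zero _ ⟨2, rfl⟩, one_pow]

/-- `E₄ ^ m` as a modular form of weight `k = 4 m`. -/
def E4pow (m : ℕ) (k : ℤ) (hk : (m : ℤ) * 4 = k) : ModularForm 𝒮ℒ k :=
  ModularForm.mcast hk (E₄.pow m)

theorem qExpansion_E4pow (m : ℕ) (k : ℤ) (hk : (m : ℤ) * 4 = k) :
    qExpansion 1 (E4pow m k hk) = qExpansion 1 E₄ ^ m := by
  rw [E4pow, ModularForm.qExpansion_mcast,
    ModularForm.qExpansion_pow one_pos one_mem_strictPeriods_SL]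

/-- **Level-one principle**, power series form. -/
theorem levelOne_principle_aux (A : Subring ℂ) (n : ℕ) :
    ∀ (k : ℤ) (_ : k = 12 * n) (g : ModularForm 𝒮ℒ k) (_ : IntUpTo A n (qExpansion 1 g)),
    ∃ c : ℕ → ℂ, (∀ i, c i ∈ A) ∧
      qExpansion 1 g = ∑ i ∈ Finset.range (n + 1),
        PowerSeries.C (c i) * (qExpansion 1 E₄) ^ (3 * i) *
          (qExpansion 1 ModularForm.discriminant) ^ (n - i) := by
  induction n with
  | zero =>
    intro k hk g hA
    simp only [Nat.cast_zero, mul_zero] at hk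
    subst hk
    obtain ⟨c, hc⟩ := levelOne_weight_zero_const g
    have hq : qExpansion 1 g = PowerSeries.C c := by
      have : (g : ℍ → ℂ) = c • (1 : ℍ → ℂ) := by
        rw [hc]; funext z; simp
      rw [this, UpperHalfPlane.qExpansion_smul (by
        rw [show (1 : ℍ → ℂ) = ((1 : ModularForm 𝒮ℒ 0) : ℍ → ℂ) from rfl]
        exact ModularFormClass.analyticAt_cuspFunction_zero (1 : ModularForm 𝒮ℒ 0) one_pos
          one_mem_strictPeriods_SL), qExpansion_one]
      ext i
      simp [PowerSeries.coeff_C, PowerSeries.coeff_one]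
    refine ⟨fun _ => c, fun _ => ?_, ?_⟩
    · have := hA 0 le_rfl
      rwa [hq, PowerSeries.coeff_C, if_pos rfl] at this
    · simp [hq]
  | succ n ih =>
    intro k hk g hA
    set a : ℂ := PowerSeries.coeff 0 (qExpansion 1 g) with ha
    have haA : a ∈ A := hA 0 (Nat.zero_le _)
    have hk4 : ((3 * (n + 1) : ℕ) : ℤ) * 4 = k := by rw [hk]; push_cast; ring
    set g₁ : ModularForm 𝒮ℒ k := g - a • E4pow (3 * (n + 1)) k hk4 with hg₁
    have hq₁ : qExpansion 1 g₁ = qExpansion 1 g -
        PowerSeries.C a * qExpansion 1 E₄ ^ (3 * (n + 1)) := by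
      rw [hg₁, FunLike.coe_sub, ModularForm.qExpansion_sub one_pos one_mem_strictPeriods_SL,
        FunLike.coe_smul,
        ModularForm.qExpansion_smul one_pos one_mem_strictPeriods_SL, qExpansion_E4pow,
        PowerSeries.smul_eq_C_mul]
    have hcusp : PowerSeries.coeff 0 (qExpansion 1 g₁) = 0 := by
      rw [hq₁, map_sub, PowerSeries.coeff_C_mul, coeff_zero_qExpansion_E4_pow, mul_one, ← ha,
        sub_self]
    set g' : ModularForm 𝒮ℒ (k - 12) := CuspForm.discriminantEquiv (toCuspForm g₁ hcusp)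
      with hg'
    have hfac : qExpansion 1 g₁ = qExpansion 1 ModularForm.discriminant * qExpansion 1 g' :=
      qExpansion_eq_qExpansion_discriminant_mul g₁ hcusp
    have hk' : k - 12 = 12 * (n : ℤ) := by rw [hk]; push_cast; ring
    have hA₁ : IntUpTo A (n + 1) (qExpansion 1 g₁) := by
      rw [hq₁]
      refine hA.sub ((IntUpTo.C haA).mul (IntUpTo.pow ?_ _))
      rw [qExpansion_E4_eq]
      exact IntUpTo.map_int A _ _
    have hA' : IntUpTo A n (qExpansion 1 g') := by
      apply IntUpTo.of_X_mul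
      have e : PowerSeries.X * qExpansion 1 g' = etaUInv * qExpansion 1 g₁ := by
        rw [hfac, qExpansion_discriminant_eq']
        calc PowerSeries.X * qExpansion 1 g'
            = (etaU * etaUInv) * (PowerSeries.X * qExpansion 1 g') := by
              rw [etaU_mul_etaUInv, one_mul]
          _ = etaUInv * (PowerSeries.X * etaU * qExpansion 1 g') := by ring
      rw [e]
      exact (IntUpTo.map_int A _ _).mul hA₁
    obtain ⟨c', hc'A, hc'⟩ := ih (k - 12) hk' g' hA'
    refine ⟨fun i => if i = n + 1 then a else c' i, fun i => ?_, ?_⟩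
    · dsimp only
      split_ifs
      · exact haA
      · exact hc'A i
    · have hg : qExpansion 1 g = PowerSeries.C a * qExpansion 1 E₄ ^ (3 * (n + 1)) +
          qExpansion 1 ModularForm.discriminant * qExpansion 1 g' := by
        rw [← hfac, hq₁]; ring
      rw [hg, hc', Finset.sum_range_succ _ (n + 1), Finset.mul_sum]
      simp only [if_true, Nat.sub_self, pow_zero, mul_one]
      rw [add_comm]
      congr 1
      refine Finset.sum_congr rfl fun i hi => ?_
      have hi' : i < n + 1 := Finset.mem_range.mp hi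
      rw [if_neg (by omega), show n + 1 - i = (n - i) + 1 by omega, pow_succ]
      ring

end

end Fermat.Agent.S28.H84
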