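import Fermat.Agent.S28.TExp

/-!
# S28 Part I, task T6b (helper19): bridge formal ↔ analytic, base part

* `h19_hasSum_eulerProd` : for `‖q‖ < 1`, `∏' (1 - q^(n+1)) = Σ etaProd.coeff n * q^n`
  (Taylor coefficients of a locally uniform limit of polynomials).
* `h19_hasSum_E4`        : `E₄ τ = Σ eisenstein4.coeff n * q^n`.
* `h19_hasTExp_E4`, `h19_hasTExp_eulerProd`, `h19_hasTExp_tParam` : the `HasTExp` forms.
* `h19_cEmb_deltaSeries`, `h19_cEmb_jq` : the formal identities over `ℂ`.
* `h19_hasTExp_scale`    : `τ ↦ d τ` corresponds to `qExpand d`.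
-/

set_option autoImplicit false

open ModularCurve UpperHalfPlane Complex Filter Topology
open scoped MatrixGroups

noncomputable section

namespace Fermat.Agent.S28

/-! ### Taylor coefficients of locally uniform limits -/

/-- iterated derivatives of a locally uniform limit of holomorphic functions. -/
theorem h19_tendsto_iteratedDeriv {ι : Type*} {φ : Filter ι} [φ.NeBot] {F : ι → ℂ → ℂ}
    {f : ℂ → ℂ} {U : Set ℂ} (hU : IsOpen U) (hF : TendstoLocallyUniformlyOn F f φ U)
    (hd : ∀ᶠ n in φ, DifferentiableOn ℂ (F n) U) (k : ℕ) :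
    TendstoLocallyUniformlyOn (fun n => iteratedDeriv k (F n)) (iteratedDeriv k f) φ U ∧
      ∀ᶠ n in φ, DifferentiableOn ℂ (iteratedDeriv k (F n)) U := by
  induction k with
  | zero =>
    simp only [iteratedDeriv_zero]
    exact ⟨hF, hd⟩
  | succ k ih =>
    obtain ⟨h1, h2⟩ := ih
    refine ⟨?_, ?_⟩
    · have := h1.deriv h2 hU
      simp only [iteratedDeriv_succ]
      exact this
    · filter_upwards [h2] with n hn
      rw [iteratedDeriv_succ]
      exact hn.deriv hU

/-- iterated derivatives of a polynomial function. -/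
theorem h19_iteratedDeriv_polynomial (p : Polynomial ℂ) (k : ℕ) (x : ℂ) :
    iteratedDeriv k (fun x => p.eval x) x = ((Polynomial.derivative)^[k] p).eval x := by
  induction k generalizing x with
  | zero => simp
  | succ k ih =>
    rw [iteratedDeriv_succ]
    have : iteratedDeriv k (fun x => p.eval x) =
        fun x => ((Polynomial.derivative)^[k] p).eval x := funext ih
    rw [this, Polynomial.deriv, Function.iterate_succ_apply']

/-- Taylor coefficients of a polynomial function at `0`. -/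
theorem h19_iteratedDeriv_polynomial_zero (p : Polynomial ℂ) (k : ℕ) :
    iteratedDeriv k (fun x => p.eval x) 0 = (k.factorial : ℂ) * p.coeff k := by
  rw [h19_iteratedDeriv_polynomial, ← Polynomial.coeff_zero_eq_eval_zero,
    Polynomial.coeff_iterate_derivative]
  simp [Nat.descFactorial_self]

/-! ### the Euler product -/

theorem h19_pentagonalSeries_map :
    (PowerSeries.pentagonalSeries ℤ).map (Int.castRingHom ℂ) = PowerSeries.pentagonalSeries ℂ := by
  ext n
  simp only [PowerSeries.coeff_map, PowerSeries.pentagonalSeries, PowerSeries.coeff_mk]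
  split_ifs <;> simp

theorem h19_etaProd_eq : etaProd = PowerSeries.pentagonalSeries ℤ := by
  rw [etaProd]
  exact PowerSeries.WithPiTopology.tprod_one_sub_X_pow ℤ

/-- The Taylor coefficients of the analytic Euler product are the formal ones. -/
theorem h19_iteratedDeriv_eulerProd (k : ℕ) :
    iteratedDeriv k (fun q : ℂ => ∏' n : ℕ, (1 - q ^ (n + 1))) 0 =
      (k.factorial : ℂ) * PowerSeries.coeff k (PowerSeries.pentagonalSeries ℂ) := by
  have hloc := ModularForm.multipliableLocallyUniformlyOn_one_sub_pow.hasProdLocallyUniformlyOn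
  rw [HasProdLocallyUniformlyOn] at hloc
  set pt : Finset ℕ → Polynomial ℂ := fun t => ∏ n ∈ t, (1 - Polynomial.X ^ (n + 1)) with hpt
  have hF : ∀ t : Finset ℕ,
      (fun q : ℂ => ∏ n ∈ t, (1 - q ^ (n + 1))) = fun q => (pt t).eval q := by
    intro t
    funext q
    simp [hpt, Polynomial.eval_prod]
  have hloc' : TendstoLocallyUniformlyOn (fun (t : Finset ℕ) (q : ℂ) => (pt t).eval q)
      (fun q : ℂ => ∏' n : ℕ, (1 - q ^ (n + 1))) atTop (Metric.ball 0 1) := by
    convert hloc using 1
    funext t q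
    exact (congrFun (hF t) q).symm
  have h1 := (h19_tendsto_iteratedDeriv Metric.isOpen_ball hloc'
    (Eventually.of_forall fun t => (Polynomial.differentiable _).differentiableOn) k).1
  have h2 := h1.tendsto_at (a := 0) (Metric.mem_ball_self one_pos)
  simp only [h19_iteratedDeriv_polynomial_zero] at h2
  have h3 : ∀ᶠ t : Finset ℕ in atTop, (k.factorial : ℂ) * (pt t).coeff k =
      (k.factorial : ℂ) * PowerSeries.coeff k (PowerSeries.pentagonalSeries ℂ) := by
    filter_upwards [PowerSeries.coeff_prod_one_sub_X_pow_eventually_eq ℂ k] with t ht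
    rw [← ht, ← Polynomial.coeff_coe]
    congr 2
    have := map_prod (Polynomial.coeToPowerSeries.ringHom (R := ℂ))
      (fun n : ℕ => (1 - Polynomial.X ^ (n + 1) : Polynomial ℂ)) t
    simp only [Polynomial.coeToPowerSeries.ringHom_apply] at this
    rw [hpt, this]
    refine Finset.prod_congr rfl fun n _ => ?_
    simp
  exact tendsto_nhds_unique h2 (tendsto_nhds_of_eventually_eq h3)

/-- The analytic Euler product is the sum of its formal expansion. -/
theorem h19_hasSum_eulerProd {q : ℂ} (hq : ‖q‖ < 1) :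
    HasSum (fun n : ℕ => ((PowerSeries.coeff n etaProd : ℤ) : ℂ) * q ^ n)
      (∏' n : ℕ, (1 - q ^ (n + 1))) := by
  have hq' : q ∈ Metric.ball (0 : ℂ) 1 := by simpa using hq
  have h := hasSum_taylorSeries_on_ball ModularForm.differentiableOn_tprod_one_sub_pow hq'
  have hfun : (fun n : ℕ => ((PowerSeries.coeff n etaProd : ℤ) : ℂ) * q ^ n) =
      fun n : ℕ => ((n.factorial : ℂ))⁻¹ • (q - 0) ^ n •
        iteratedDeriv n (fun q : ℂ => ∏' n : ℕ, (1 - q ^ (n + 1))) 0 := by
    funext n
    rw [h19_iteratedDeriv_eulerProd, h19_etaProd_eq, ← h19_pentagonalSeries_map,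
      PowerSeries.coeff_map]
    have hn : (n.factorial : ℂ) ≠ 0 := by exact_mod_cast n.factorial_ne_zero
    simp only [sub_zero, smul_eq_mul, eq_intCast]
    field_simp
  rw [hfun]
  exact h

/-! ### `E₄` -/

theorem h19_qExpansion_E4_coeff (n : ℕ) :
    PowerSeries.coeff n (qExpansion 1 ModularForm.E₄) =
      ((PowerSeries.coeff n eisenstein4 : ℤ) : ℂ) := by
  rw [EisensteinSeries.E_qExpansion_coeff _ ⟨2, rfl⟩]
  simp only [eisenstein4, PowerSeries.coeff_mk]
  split_ifs with h
  · simp
  · rw [show bernoulli 4 = -1 / 30 by decide +kernel]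
    simp only [ArithmeticFunction.sigma_apply]
    push_cast
    ring

theorem h19_hasSum_E4 (τ : ℍ) :
    HasSum (fun n : ℕ => ((PowerSeries.coeff n eisenstein4 : ℤ) : ℂ) * tParam 1 τ ^ n)
      (ModularForm.E₄ τ) := by
  have h := ModularForm.hasSum_qExpansion (f := ModularForm.E₄) (h := 1) one_pos
    one_mem_strictPeriods_SL τ
  simp only [h19_qExpansion_E4_coeff] at h
  simpa [tParam] using h

/-! ### base `HasTExp` statements -/

theorem h19_hasTExp_of_powerSeries {N : ℕ} {g : ℍ → ℂ} {p : PowerSeries ℂ}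
    (h : ∀ τ : ℍ, HasSum (fun n : ℕ => PowerSeries.coeff n p * tParam N τ ^ n) (g τ)) :
    HasTExp N g (HahnSeries.ofPowerSeries ℤ ℂ p) := by
  refine ⟨0, p, ?_, ?_⟩
  · simp
  · simpa using h

/-- `E₄` has the expansion `1 + 240 Σ σ₃(n) qⁿ`. -/
theorem h19_hasTExp_E4 :
    HasTExp 1 (fun τ => ModularForm.E₄ τ)
      (HahnSeries.ofPowerSeries ℤ ℂ (eisenstein4.map (Int.castRingHom ℂ))) := by
  refine h19_hasTExp_of_powerSeries fun τ => ?_
  simpa [PowerSeries.coeff_map] using h19_hasSum_E4 τ

/-- The Euler product `∏ (1 - qⁿ)` has the expansion `etaProd`. -/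
theorem h19_hasTExp_eulerProd :
    HasTExp 1 (fun τ => ∏' n : ℕ, (1 - tParam 1 τ ^ (n + 1)))
      (HahnSeries.ofPowerSeries ℤ ℂ (etaProd.map (Int.castRingHom ℂ))) := by
  refine h19_hasTExp_of_powerSeries fun τ => ?_
  simpa [PowerSeries.coeff_map] using
    h19_hasSum_eulerProd (norm_tParam_lt_one one_pos τ)

/-- The parameter `q` itself. -/
theorem h19_hasTExp_tParam (N : ℕ) :
    HasTExp N (fun τ => tParam N τ) (HahnSeries.single (1 : ℤ) (1 : ℂ)) := by
  refine ⟨0, PowerSeries.X, ?_, fun τ => ?_⟩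
  · simp [HahnSeries.ofPowerSeries_X]
  · have h := hasSum_single (f := fun n : ℕ => PowerSeries.coeff n (PowerSeries.X : PowerSeries ℂ) *
      tParam N τ ^ n) 1 (fun n hn => by simp [PowerSeries.coeff_X, hn])
    simpa using h

theorem h19_deltaAn_eq (τ : ℍ) :
    deltaAn τ = tParam 1 τ * (∏' n : ℕ, (1 - tParam 1 τ ^ (n + 1))) ^ 24 := by
  have hq : ‖tParam 1 τ‖ < 1 := norm_tParam_lt_one one_pos τ
  rw [deltaAn, ModularForm.discriminant_eq_q_prod,
    ← (ModularForm.multipliable_one_sub_pow hq).tprod_pow]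
  simp only [tParam, Nat.cast_one, ModularForm.eta_q_eq_pow]

/-! ### formal identities -/

theorem h19_map_map_int (p : PowerSeries ℤ) :
    (p.map (Int.castRingHom ℚ)).map (algebraMap ℚ ℂ) = p.map (Int.castRingHom ℂ) := by
  ext n
  simp

/-- formal side: `Δ = q · (∏ (1 - qⁿ))^24` over `ℂ`. -/
theorem h19_cEmb_deltaSeries :
    cEmb deltaSeries = HahnSeries.single (1 : ℤ) (1 : ℂ) *
      (HahnSeries.ofPowerSeries ℤ ℂ (etaProd.map (Int.castRingHom ℂ))) ^ 24 := by
  rw [cEmb, deltaSeries, map_mul, coeffMap_single, map_one, coeffMap_ofPowerSeries, ← map_pow,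
    dedekindEtaUnitQ, dedekindEtaUnit, ← map_pow, h19_map_map_int]

theorem h19_cEmb_deltaSeries_ne_zero : cEmb deltaSeries ≠ 0 := by
  intro h
  have := congrArg (fun s : LaurentSeries ℂ => s.coeff 1) h
  simp [cEmb, isMonicOfOrder_deltaSeries.coeff_self] at this

/-- formal side: `j = E₄³ / Δ` over `ℂ`. -/
theorem h19_cEmb_jq :
    cEmb jq = (HahnSeries.ofPowerSeries ℤ ℂ (eisenstein4.map (Int.castRingHom ℂ))) ^ 3 *
      (cEmb deltaSeries)⁻¹ := by
  rw [eq_mul_inv_iff_mul_eq₀ h19_cEmb_deltaSeries_ne_zero, ← map_mul, ← map_pow, ← map_pow]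
  have h1 : jq * deltaSeries =
      HahnSeries.ofPowerSeries ℤ ℚ ((eisenstein4 ^ 3).map (Int.castRingHom ℚ)) := by
    rw [jq, deltaSeries, mul_mul_mul_comm, HahnSeries.single_mul_single, ← map_mul]
    simp only [neg_add_cancel, mul_one]
    rw [show (HahnSeries.single (0 : ℤ) (1 : ℚ)) = 1 from rfl, one_mul, jNumQ, dedekindEtaUnitQ,
      ← map_mul, jNum, mul_assoc, mul_comm dedekindEtaUnitInv, dedekindEtaUnit_mul_inv, mul_one]
  rw [h1, cEmb, coeffMap_ofPowerSeries, h19_map_map_int]

/-! ### scaling `τ ↦ d τ` -/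

theorem h19_coe_scaleH (d : ℕ) (hd : 0 < d) (τ : ℍ) :
    ((scaleH d τ : ℍ) : ℂ) = (d : ℂ) * τ := by
  simp only [scaleH, hd, dite_true]

theorem h19_tParam_scaleH (N d : ℕ) (hd : 0 < d) (τ : ℍ) :
    tParam N (scaleH d τ) = tParam N τ ^ d := by
  simp only [tParam, Function.Periodic.qParam]
  rw [← Complex.exp_nat_mul, h19_coe_scaleH d hd]
  congr 1
  ring

/-- the power series `p(X^d)`. -/
def h19_expand (d : ℕ) (p : PowerSeries ℂ) : PowerSeries ℂ :=
  PowerSeries.mk fun n => if d ∣ n then PowerSeries.coeff (n / d) p else 0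

theorem h19_qExpand_ofPowerSeries (d : ℕ) [NeZero d] (p : PowerSeries ℂ) :
    qExpand ℂ d (HahnSeries.ofPowerSeries ℤ ℂ p) =
      HahnSeries.ofPowerSeries ℤ ℂ (h19_expand d p) := by
  have hd : 0 < d := Nat.pos_of_ne_zero (NeZero.ne d)
  ext k
  rcases le_or_gt 0 k with hk | hk
  · lift k to ℕ using hk
    rw [HahnSeries.ofPowerSeries_apply_coeff, h19_expand, PowerSeries.coeff_mk]
    split_ifs with h
    · obtain ⟨m, rfl⟩ := h
      rw [Nat.mul_div_cancel_left _ hd]
      push_cast
      rw [qExpand_coeff_mul, HahnSeries.ofPowerSeries_apply_coeff]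
    · apply qExpand_coeff_of_not_dvd
      intro h'
      exact h (by exact_mod_cast h')
  · rw [ofPowerSeries_coeff_of_neg _ hk]
    by_cases h : (d : ℤ) ∣ k
    · obtain ⟨m, rfl⟩ := h
      rw [qExpand_coeff_mul]
      apply ofPowerSeries_coeff_of_neg
      have : (0 : ℤ) < d := by exact_mod_cast hd
      by_contra hm
      rw [not_lt] at hm
      nlinarith
    · exact qExpand_coeff_of_not_dvd _ _ h

/-- substitution `τ ↦ d τ` on the analytic side is `q ↦ q^d` on the formal side. -/
theorem h19_hasTExp_scale {N : ℕ} {g : ℍ → ℂ} {s : LaurentSeries ℂ} (d : ℕ) [NeZero d]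
    (h : HasTExp N g s) : HasTExp N (fun τ => g (scaleH d τ)) (qExpand ℂ d s) := by
  have hd : 0 < d := Nat.pos_of_ne_zero (NeZero.ne d)
  obtain ⟨M, p, hs, hsum⟩ := h
  refine ⟨d * M, h19_expand d p, ?_, fun τ => ?_⟩
  · rw [hs, map_mul, qExpand_single, h19_qExpand_ofPowerSeries]
    congr 2
    push_cast
    rw [mul_neg]
  · have h1 := hsum (scaleH d τ)
    rw [h19_tParam_scaleH N d hd] at h1
    have hinj : Function.Injective (fun n : ℕ => d * n) := fun a b hab =>
      Nat.eq_of_mul_eq_mul_left hd hab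
    rw [pow_mul]
    refine (hinj.hasSum_iff ?_).mp ?_
    · intro n hn
      have hn' : ¬ d ∣ n := fun ⟨m, hm⟩ => hn ⟨m, hm.symm⟩
      simp [h19_expand, hn']
    · convert h1 using 1
      funext n
      simp only [Function.comp_apply, h19_expand, PowerSeries.coeff_mk, dvd_mul_right, if_true,
        Nat.mul_div_cancel_left _ hd, pow_mul]

end Fermat.Agent.S28
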