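import Mathlib
import Fermat.Prelude.Def_GaloisRep_Flat
import Fermat.Prelude.Def_ModularCurve_LaurentCoeff

/-!
# S28, task T2 (II.e): base change of the reduction map

If `ρ : A →+* 𝔽_ℓ((q))` has kernel `ℓ A`, then `A ⊗[ℤ_(ℓ)] K` embeds into `K((q))`
for every field `K` of characteristic `ℓ`; in particular it is a domain.
-/

set_option autoImplicit false

open scoped TensorProduct
open ModularCurve

noncomputable section

namespace Fermat.Agent.S28

/-- The denominator of an element of `ℤ_(ℓ)` is a unit of `ℤ_(ℓ)`. -/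
theorem ratLocalizedAt_den_mul_inv {ℓ : ℕ} (r : GaloisRep.ratLocalizedAt ℓ) :
    ∃ u : GaloisRep.ratLocalizedAt ℓ, ((r : ℚ).den : GaloisRep.ratLocalizedAt ℓ) * u = 1 ∧
      r = ((r : ℚ).num : GaloisRep.ratLocalizedAt ℓ) * u := by
  have hden : ((r : ℚ).den : ℚ) ≠ 0 := Nat.cast_ne_zero.mpr (r : ℚ).den_ne_zero
  have hmem : (((r : ℚ).den : ℚ))⁻¹ ∈ GaloisRep.ratLocalizedAt ℓ := by
    show ((((r : ℚ).den : ℚ))⁻¹).den.Coprime ℓ
    have h1 : ((((r : ℚ).den : ℚ))⁻¹).den = (r : ℚ).den := by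
      have := Rat.inv_natCast_den (r : ℚ).den
      simp [(r : ℚ).den_ne_zero] at this ⊢
    rw [h1]
    exact r.2
  refine ⟨⟨_, hmem⟩, Subtype.ext ?_, Subtype.ext ?_⟩
  · simp [hden]
  · simp only [Subring.coe_mul, Subring.coe_intCast]
    rw [← div_eq_mul_inv, Rat.num_div_den]

/-- Ring homomorphisms out of `ℤ_(ℓ)` are unique. -/
theorem ratLocalizedAt_ringHom_ext {ℓ : ℕ} {S : Type*} [Ring S]
    (f g : GaloisRep.ratLocalizedAt ℓ →+* S) : f = g := by
  refine RingHom.ext fun r => ?_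
  obtain ⟨u, hu, hr⟩ := ratLocalizedAt_den_mul_inv r
  have hfu : (((r : ℚ).den : ℕ) : S) * f u = 1 := by
    rw [← map_natCast f, ← map_mul, hu, map_one]
  have hgu : (((r : ℚ).den : ℕ) : S) * g u = 1 := by
    rw [← map_natCast g, ← map_mul, hu, map_one]
  have hfu' : f u * (((r : ℚ).den : ℕ) : S) = 1 := by
    rw [← map_natCast f, ← map_mul, mul_comm, hu, map_one]
  have huu : f u = g u := by
    calc f u = f u * ((((r : ℚ).den : ℕ) : S) * g u) := by rw [hgu, mul_one]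
      _ = (f u * (((r : ℚ).den : ℕ) : S)) * g u := by rw [mul_assoc]
      _ = g u := by rw [hfu', one_mul]
  rw [hr, map_mul, map_mul, map_intCast, map_intCast, huu]

/-- If a family `b` spans the `R`-module `K`, every element of `M ⊗[R] K` is a finite sum
`∑ mᵢ ⊗ bᵢ`. -/
theorem exists_finsupp_tmul_of_span_eq_top {R M K ι : Type*} [CommRing R] [AddCommGroup M]
    [Module R M] [AddCommGroup K] [Module R K] (b : ι → K)
    (hb : Submodule.span R (Set.range b) = ⊤) (z : M ⊗[R] K) :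
    ∃ f : ι →₀ M, z = f.sum fun i m => m ⊗ₜ[R] b i := by
  classical
  induction z using TensorProduct.induction_on with
  | zero => exact ⟨0, by simp⟩
  | tmul m c =>
    have hc : c ∈ Submodule.span R (Set.range b) := by rw [hb]; trivial
    obtain ⟨s, hs⟩ := (Finsupp.mem_span_range_iff_exists_finsupp).mp hc
    refine ⟨s.mapRange (fun r => r • m) (zero_smul R m), ?_⟩
    rw [Finsupp.sum_mapRange_index (h := fun i (m' : M) => m' ⊗ₜ[R] b i)
      (fun i => TensorProduct.zero_tmul _ _), ← hs, Finsupp.sum,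
      TensorProduct.tmul_sum, Finsupp.sum]
    refine Finset.sum_congr rfl fun i _ => ?_
    rw [TensorProduct.smul_tmul]
  | add x y hx hy =>
    obtain ⟨f, rfl⟩ := hx
    obtain ⟨g, rfl⟩ := hy
    refine ⟨f + g, ?_⟩
    rw [Finsupp.sum_add_index' (h := fun i (m' : M) => m' ⊗ₜ[R] b i)
      (fun i => TensorProduct.zero_tmul _ _) (fun i m₁ m₂ => TensorProduct.add_tmul _ _ _)]

/-- Since ring homomorphisms out of `ℤ_(ℓ)` are unique, any pair of ring homomorphisms
`φ : A →+* S`, `ψ : K →+* S` out of two `ℤ_(ℓ)`-algebras induces a ring homomorphism out of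
`A ⊗[ℤ_(ℓ)] K`. -/
theorem exists_tensor_ringHom (ℓ : ℕ) (A K S : Type*) [CommRing A] [CommRing K] [CommRing S]
    [Algebra (GaloisRep.ratLocalizedAt ℓ) A] [Algebra (GaloisRep.ratLocalizedAt ℓ) K]
    (φ : A →+* S) (ψ : K →+* S) :
    ∃ Ψ : (A ⊗[GaloisRep.ratLocalizedAt ℓ] K) →+* S, ∀ (a : A) (c : K),
      Ψ (a ⊗ₜ c) = φ a * ψ c := by
  let _ : Algebra (GaloisRep.ratLocalizedAt ℓ) S := (ψ.comp (algebraMap _ K)).toAlgebra
  let f : A →ₐ[GaloisRep.ratLocalizedAt ℓ] S :=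
    { φ with
      commutes' := fun r => DFunLike.congr_fun
        (ratLocalizedAt_ringHom_ext (φ.comp (algebraMap _ A))
          (algebraMap (GaloisRep.ratLocalizedAt ℓ) S)) r }
  let g : K →ₐ[GaloisRep.ratLocalizedAt ℓ] S :=
    { ψ with commutes' := fun _ => rfl }
  refine ⟨(Algebra.TensorProduct.productMap f g).toRingHom, fun a c => ?_⟩
  show Algebra.TensorProduct.productMap f g (a ⊗ₜ c) = _
  rw [Algebra.TensorProduct.productMap_apply_tmul]
  rfl

section BaseChange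

variable (ℓ : ℕ) [Fact ℓ.Prime]
  (A : Type) [CommRing A] [Algebra (GaloisRep.ratLocalizedAt ℓ) A]
  (ρ : A →+* LaurentSeries (ZMod ℓ))
  (K : Type) [Field K] [CharP K ℓ] [Algebra (GaloisRep.ratLocalizedAt ℓ) K]

omit [Fact ℓ.Prime] in
/-- The prime `ℓ` acts as zero on a field of characteristic `ℓ`. -/
theorem ratLocalizedAt_natCast_smul_eq_zero (c : K) :
    ((ℓ : ℕ) : GaloisRep.ratLocalizedAt ℓ) • c = 0 := by
  rw [Algebra.smul_def, map_natCast, CharP.cast_eq_zero, zero_mul]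

/-- The comparison map `A ⊗[ℤ_(ℓ)] K → K((q))`, `a ⊗ c ↦ (ρ a)_K * c`. -/
theorem exists_tensor_to_laurent :
    ∃ Ψ : (A ⊗[GaloisRep.ratLocalizedAt ℓ] K) →+* LaurentSeries K,
      ∀ (a : A) (c : K),
        Ψ (a ⊗ₜ c) = coeffMap (ZMod.castHom (dvd_refl ℓ) K) (ρ a) * HahnSeries.C c :=
  exists_tensor_ringHom ℓ A K (LaurentSeries K)
    ((coeffMap (ZMod.castHom (dvd_refl ℓ) K)).comp ρ) (HahnSeries.C : K →+* LaurentSeries K)

/-- A `𝔽_ℓ`-basis of `K` spans `K` over `ℤ_(ℓ)`. -/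
theorem span_ratLocalizedAt_eq_top_of_basis {ι : Type*}
    (b : letI := ZMod.algebra K ℓ; Module.Basis ι (ZMod ℓ) K) :
    Submodule.span (GaloisRep.ratLocalizedAt ℓ) (Set.range fun i => (b i : K)) = ⊤ := by
  let _ := ZMod.algebra K ℓ
  have : NeZero ℓ := ⟨(Fact.out : ℓ.Prime).ne_zero⟩
  rw [eq_top_iff]
  intro c hc0
  clear hc0
  have hc : c ∈ Submodule.span (ZMod ℓ) (Set.range fun i => (b i : K)) := by
    rw [b.span_eq]; trivial
  induction hc using Submodule.span_induction with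
  | mem x hx => exact Submodule.subset_span hx
  | zero => exact zero_mem _
  | add x y _ _ hx hy => exact add_mem hx hy
  | smul a x _ hx =>
    have : a • x = ((a.val : ℕ) : GaloisRep.ratLocalizedAt ℓ) • x := by
      rw [Algebra.smul_def, Algebra.smul_def, map_natCast]
      show ZMod.castHom (dvd_refl ℓ) K a * x = _
      rw [ZMod.castHom_apply, ZMod.natCast_val]
    rw [this]
    exact Submodule.smul_mem _ _ hx

/-- The comparison map is injective as soon as `ker ρ ⊆ ℓ A`. -/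
theorem tensor_to_laurent_injective
    (hρ : ∀ a : A, ρ a = 0 → ∃ b : A, a = (ℓ : A) * b)
    (Ψ : (A ⊗[GaloisRep.ratLocalizedAt ℓ] K) →+* LaurentSeries K)
    (hΨ : ∀ (a : A) (c : K),
      Ψ (a ⊗ₜ c) = coeffMap (ZMod.castHom (dvd_refl ℓ) K) (ρ a) * HahnSeries.C c) :
    Function.Injective Ψ := by
  classical
  let _ := ZMod.algebra K ℓ
  let b := Module.Free.chooseBasis (ZMod ℓ) K
  rw [injective_iff_map_eq_zero]
  intro z hz
  obtain ⟨f, rfl⟩ := exists_finsupp_tmul_of_span_eq_top (M := A) (fun i => (b i : K))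
    (span_ratLocalizedAt_eq_top_of_basis ℓ K b) z
  -- all the `ρ (f i)` vanish
  have hvan : ∀ i ∈ f.support, ρ (f i) = 0 := by
    intro i hi
    ext n
    have hcoeff : ∑ j ∈ f.support, ((ρ (f j)).coeff n) • (b j : K) = 0 := by
      have := congrArg (fun x : LaurentSeries K => x.coeff n) hz
      simp only [Finsupp.sum, map_sum, hΨ, HahnSeries.coeff_sum, HahnSeries.coeff_zero] at this
      rw [← this]
      refine Finset.sum_congr rfl fun j _ => ?_
      rw [Algebra.smul_def]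
      show ZMod.castHom (dvd_refl ℓ) K ((ρ (f j)).coeff n) * b j = _
      rw [HahnSeries.C_apply, HahnSeries.coeff_mul_single_zero, coeffMap_coeff]
    exact linearIndependent_iff'.mp b.linearIndependent f.support
      (fun j => (ρ (f j)).coeff n) hcoeff i hi
  -- hence every summand vanishes
  rw [Finsupp.sum]
  refine Finset.sum_eq_zero fun i hi => ?_
  obtain ⟨a', ha'⟩ := hρ (f i) (hvan i hi)
  have h1 : f i = ((ℓ : ℕ) : GaloisRep.ratLocalizedAt ℓ) • a' := by
    rw [ha', Algebra.smul_def, map_natCast]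
  rw [h1, TensorProduct.smul_tmul, ratLocalizedAt_natCast_smul_eq_zero, TensorProduct.tmul_zero]

end BaseChange

/-- **Task T2 (II.e)**: if `ρ : A →+* 𝔽_ℓ((q))` has kernel contained in `ℓ A`, then
`A ⊗[ℤ_(ℓ)] K` is a domain for every field `K` of characteristic `ℓ`. -/
theorem isDomain_tensor_of_reduction (ℓ : ℕ) [Fact ℓ.Prime]
    (A : Type) [CommRing A] [Algebra (GaloisRep.ratLocalizedAt ℓ) A]
    (ρ : A →+* LaurentSeries (ZMod ℓ))
    (hρ : ∀ a : A, ρ a = 0 → ∃ b : A, a = (ℓ : A) * b)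
    (K : Type) [Field K] [CharP K ℓ] [Algebra (GaloisRep.ratLocalizedAt ℓ) K] :
    IsDomain (A ⊗[GaloisRep.ratLocalizedAt ℓ] K) := by
  obtain ⟨Ψ, hΨ⟩ := exists_tensor_to_laurent ℓ A ρ K
  exact Function.Injective.isDomain Ψ (tensor_to_laurent_injective ℓ A ρ K hρ Ψ hΨ)

/-- Variant of T2 exposing the injective comparison map. -/
theorem exists_injective_tensor_to_laurent (ℓ : ℕ) [Fact ℓ.Prime]
    (A : Type) [CommRing A] [Algebra (GaloisRep.ratLocalizedAt ℓ) A]
    (ρ : A →+* LaurentSeries (ZMod ℓ))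
    (hρ : ∀ a : A, ρ a = 0 → ∃ b : A, a = (ℓ : A) * b)
    (K : Type) [Field K] [CharP K ℓ] [Algebra (GaloisRep.ratLocalizedAt ℓ) K] :
    ∃ Ψ : (A ⊗[GaloisRep.ratLocalizedAt ℓ] K) →+* LaurentSeries K,
      Function.Injective Ψ ∧ ∀ (a : A) (c : K),
        Ψ (a ⊗ₜ c) = coeffMap (ZMod.castHom (dvd_refl ℓ) K) (ρ a) * HahnSeries.C c := by
  obtain ⟨Ψ, hΨ⟩ := exists_tensor_to_laurent ℓ A ρ K
  exact ⟨Ψ, tensor_to_laurent_injective ℓ A ρ K hρ Ψ hΨ, hΨ⟩

end Fermat.Agent.S28
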