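import Mathlib.AlgebraicGeometry.Pullbacks
import Mathlib.AlgebraicGeometry.Properties
import Mathlib.Topology.Sets.OpenCover
import Fermat.Prelude.Def_ModularCurve_IgusaScheme

set_option autoImplicit false

open AlgebraicGeometry CategoryTheory CategoryTheory.Limits ModularCurve ModularCurve.IgusaScheme
open TensorProduct

noncomputable section

namespace Fermat.Agent.S28

universe u

/-- A scheme covered by two integral open subschemes (given as open immersions) whose images
meet is integral. -/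
theorem isIntegral_of_two_charts {P U V W : Scheme.{u}} (i : U ⟶ P) (j : V ⟶ P)
    [IsOpenImmersion i] [IsOpenImmersion j] [IsIntegral U] [IsIntegral V]
    (hcov : ∀ x : P, x ∈ Set.range i ∨ x ∈ Set.range j)
    [Nonempty W] (a : W ⟶ U) (b : W ⟶ V) (h : a ≫ i = b ≫ j) : IsIntegral P := by
  -- reducedness, stalkwise via the cover
  have hred : IsReduced P := by
    let 𝒰 : P.OpenCover :=
      Scheme.Cover.mkOfCovers Bool (fun t => Bool.rec V U t)
        (fun t => Bool.rec (motive := fun t => (Bool.rec V U t : Scheme.{u}) ⟶ P) j i t)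
        (fun x => by
          rcases hcov x with ⟨y, hy⟩ | ⟨y, hy⟩
          · exact ⟨true, y, hy⟩
          · exact ⟨false, y, hy⟩)
        (fun t => by cases t <;> infer_instance)
    have : ∀ t, IsReduced (𝒰.X t) := fun t => by
      cases t
      · exact (inferInstance : IsReduced V)
      · exact (inferInstance : IsReduced U)
    exact IsReduced.of_openCover P 𝒰
  -- irreducibility
  have hirr : IrreducibleSpace P := by
    let Uo : Bool → TopologicalSpace.Opens P := fun t => Bool.rec j.opensRange i.opensRange t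
    have hUirr : IsIrreducible (Set.range i) := by
      have := (IrreducibleSpace.isIrreducible_univ U).image i i.continuous.continuousOn
      rwa [Set.image_univ] at this
    have hVirr : IsIrreducible (Set.range j) := by
      have := (IrreducibleSpace.isIrreducible_univ V).image j j.continuous.continuousOn
      rwa [Set.image_univ] at this
    obtain ⟨w⟩ := (inferInstance : Nonempty W)
    have hw1 : (a ≫ i) w ∈ Set.range i := ⟨a w, rfl⟩
    have hw2 : (a ≫ i) w ∈ Set.range j := by
      rw [h]; exact ⟨b w, rfl⟩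
    have hn : Pairwise (Function.onFun (¬ Disjoint · ·) Uo) := by
      intro s t hst
      have key : ¬ Disjoint i.opensRange j.opensRange := by
        intro hd
        have hle : i.opensRange ⊓ j.opensRange ≤ ⊥ := hd.le_bot
        exact hle (show (a ≫ i) w ∈ i.opensRange ⊓ j.opensRange from ⟨hw1, hw2⟩)
      cases s <;> cases t
      · exact absurd rfl hst
      · exact fun hd => key hd.symm
      · exact key
      · exact absurd rfl hst
    have hpre : IsPreirreducible (Set.univ : Set P) := by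
      refine IsPreirreducible.of_subset_iUnion (U := Uo) hn ?_ isOpen_univ ?_
      · intro t
        cases t
        · exact hVirr.2
        · exact hUirr.2
      · intro x _
        rcases hcov x with hx | hx
        · exact Set.mem_iUnion.mpr ⟨true, hx⟩
        · exact Set.mem_iUnion.mpr ⟨false, hx⟩
    have : PreirreducibleSpace P := ⟨hpre⟩
    exact ⟨⟨(a ≫ i) w⟩⟩
  exact isIntegral_of_irreducibleSpace_of_isReduced P

/-- A scheme isomorphic to `Spec` of a domain is integral. -/
theorem isIntegral_of_iso_spec_domain {X : Scheme.{u}} {R : Type u} [CommRing R] [IsDomain R]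
    (e : X ≅ Spec (.of R)) : IsIntegral X := by
  have hS : IsIntegral (Spec (.of R)) := (affine_isIntegral_iff (.of R)).mpr ‹IsDomain R›
  have hne : Nonempty ↑X := Nonempty.map e.inv inferInstance
  exact isIntegral_of_isOpenImmersion e.hom

/-- A scheme isomorphic to `Spec` of a nontrivial ring is nonempty. -/
theorem nonempty_of_iso_spec_nontrivial {X : Scheme.{u}} {R : Type u} [CommRing R]
    [Nontrivial R] (e : X ≅ Spec (.of R)) : Nonempty ↑X := by
  have : Nonempty ↑(Spec (.of R)) := inferInstanceAs (Nonempty (PrimeSpectrum R))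
  exact Nonempty.map e.inv this

section Igusa

variable (N : ℕ) [NeZero N] (ℓ : ℕ) [Fact ℓ.Prime]

/-- PART III of the S28 blueprint: once the two affine charts of the special fibre are domains
and the overlap chart is nontrivial, the base-changed Igusa scheme is integral. -/
theorem isIntegral_pullback_of_charts
    (K : Type) [Field K] [Algebra ↥(GaloisRep.ratLocalizedAt ℓ) K]
    (hA : IsDomain (↥(chartAlgFin N ℓ) ⊗[↥(GaloisRep.ratLocalizedAt ℓ)] K))
    (hB : IsDomain (↥(chartAlgInf N ℓ) ⊗[↥(GaloisRep.ratLocalizedAt ℓ)] K))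
    (hC : Nontrivial (↥(chartAlgMid N ℓ) ⊗[↥(GaloisRep.ratLocalizedAt ℓ)] K)) :
    IsIntegral ↑(pullback (igusaTo N ℓ)
      (Spec.map (CommRingCat.ofHom (algebraMap ↥(GaloisRep.ratLocalizedAt ℓ) K)))) := by
  -- notation
  set gK := Spec.map (CommRingCat.ofHom (algebraMap ↥(GaloisRep.ratLocalizedAt ℓ) K)) with hgK
  set sA := Spec.map (CommRingCat.ofHom
    (algebraMap ↥(GaloisRep.ratLocalizedAt ℓ) (chartAlgFin N ℓ))) with hsA
  set sB := Spec.map (CommRingCat.ofHom
    (algebraMap ↥(GaloisRep.ratLocalizedAt ℓ) (chartAlgInf N ℓ))) with hsB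
  set sC := Spec.map (CommRingCat.ofHom
    (algebraMap ↥(GaloisRep.ratLocalizedAt ℓ) (chartAlgMid N ℓ))) with hsC
  have eA : sA ≫ 𝟙 _ = ιFin N ℓ ≫ igusaTo N ℓ := by rw [Category.comp_id, ιFin_igusaTo]
  have eB : sB ≫ 𝟙 _ = ιInf N ℓ ≫ igusaTo N ℓ := by rw [Category.comp_id, ιInf_igusaTo]
  have eK : gK ≫ 𝟙 _ = 𝟙 _ ≫ gK := by rw [Category.comp_id, Category.id_comp]
  have eCA : sC ≫ 𝟙 _ = fFin N ℓ ≫ sA := by
    rw [Category.comp_id, hsC, hsA, ← Spec.map_comp, ← CommRingCat.ofHom_comp]
    congr 2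
  have eCB : sC ≫ 𝟙 _ = fInf N ℓ ≫ sB := by
    rw [Category.comp_id, hsC, hsB, ← Spec.map_comp, ← CommRingCat.ofHom_comp]
    congr 2
  let mA : pullback sA gK ⟶ pullback (igusaTo N ℓ) gK :=
    pullback.map sA gK (igusaTo N ℓ) gK (ιFin N ℓ) (𝟙 _) (𝟙 _) eA eK
  let mB : pullback sB gK ⟶ pullback (igusaTo N ℓ) gK :=
    pullback.map sB gK (igusaTo N ℓ) gK (ιInf N ℓ) (𝟙 _) (𝟙 _) eB eK
  let mCA : pullback sC gK ⟶ pullback sA gK :=
    pullback.map sC gK sA gK (fFin N ℓ) (𝟙 _) (𝟙 _) eCA eK
  let mCB : pullback sC gK ⟶ pullback sB gK :=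
    pullback.map sC gK sB gK (fInf N ℓ) (𝟙 _) (𝟙 _) eCB eK
  have hcomm : mCA ≫ mA = mCB ≫ mB := by
    apply pullback.hom_ext
    · simp only [mCA, mA, mCB, mB, Category.assoc, pullback.lift_fst, pullback.lift_fst_assoc,
        pullback.map]
      rw [glue_condition]
    · simp only [mCA, mA, mCB, mB, Category.assoc, pullback.lift_snd, pullback.lift_snd_assoc,
        pullback.map]
  -- the three affine schemes
  have hUint : IsIntegral (pullback sA gK) :=
    isIntegral_of_iso_spec_domain
      (pullbackSpecIso ↥(GaloisRep.ratLocalizedAt ℓ) (chartAlgFin N ℓ) K)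
  have hVint : IsIntegral (pullback sB gK) :=
    isIntegral_of_iso_spec_domain
      (pullbackSpecIso ↥(GaloisRep.ratLocalizedAt ℓ) (chartAlgInf N ℓ) K)
  have hWne : Nonempty ↑(pullback sC gK) :=
    nonempty_of_iso_spec_nontrivial
      (pullbackSpecIso ↥(GaloisRep.ratLocalizedAt ℓ) (chartAlgMid N ℓ) K)
  have hcov : ∀ x : ↑(pullback (igusaTo N ℓ) gK), x ∈ Set.range mA ∨ x ∈ Set.range mB := by
    intro x
    have hrA := Scheme.Pullback.range_map sA gK (igusaTo N ℓ) gK (ιFin N ℓ) (𝟙 _) (𝟙 _) eA eK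
    have hrB := Scheme.Pullback.range_map sB gK (igusaTo N ℓ) gK (ιInf N ℓ) (𝟙 _) (𝟙 _) eB eK
    rcases mem_range_ιFin_or_mem_range_ιInf N ℓ (pullback.fst (igusaTo N ℓ) gK x) with h | h
    · left
      show x ∈ Set.range (pullback.map sA gK (igusaTo N ℓ) gK (ιFin N ℓ) (𝟙 _) (𝟙 _) eA eK)
      rw [hrA]
      exact ⟨h, ⟨pullback.snd (igusaTo N ℓ) gK x, rfl⟩⟩
    · right
      show x ∈ Set.range (pullback.map sB gK (igusaTo N ℓ) gK (ιInf N ℓ) (𝟙 _) (𝟙 _) eB eK)
      rw [hrB]
      exact ⟨h, ⟨pullback.snd (igusaTo N ℓ) gK x, rfl⟩⟩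
  exact isIntegral_of_two_charts mA mB hcov mCA mCB hcomm

end Igusa

end Fermat.Agent.S28
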