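import Mathlib
import Fermat.Prelude.Def_ModularCurve_IgusaScheme
import Fermat.Prelude.Def_ModularCurve_X0ModL
import Fermat.Agent.S28.BaseChange

/-!
# S28, task T3 (II.f): the overlap chart of the special fibre is nonempty

`ℓ` is not a unit of `chartAlgMid N ℓ` (the integral closure of `ℤ_(ℓ)[j, j⁻¹]`), because
`ℤ_(ℓ)[j, j⁻¹]` consists of Laurent series with `ℓ`-integral coefficients.  Hence
`chartAlgMid ⊗[ℤ_(ℓ)] K` maps to the nontrivial ring `(chartAlgMid / ℓ) ⊗[𝔽_ℓ] K`.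
-/

set_option autoImplicit false

open scoped TensorProduct
open ModularCurve ModularCurve.IgusaScheme

noncomputable section

namespace Fermat.Agent.S28

/-- If `y` is integral over `B` and is the inverse of (the image of) an element of `B`,
then `y` comes from `B`. -/
theorem exists_algebraMap_eq_of_isIntegral_of_mul_eq_one {B F : Type*} [CommRing B]
    [CommRing F] [Algebra B F] (x : B) (y : F) (hy : IsIntegral B y)
    (hxy : algebraMap B F x * y = 1) : ∃ b : B, algebraMap B F b = y := by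
  obtain ⟨p, hp, hroot⟩ := hy
  let _ : Invertible y := ⟨algebraMap B F x, hxy, by rw [mul_comm]; exact hxy⟩
  have h1 := Polynomial.eval₂_reverse_mul_pow (algebraMap B F) y p
  rw [hroot] at h1
  have h2 : Polynomial.eval₂ (algebraMap B F) (algebraMap B F x) p.reverse = 0 := by
    have h := congrArg (· * (algebraMap B F x) ^ p.natDegree) h1
    simp only [zero_mul] at h
    rw [mul_assoc, ← mul_pow, mul_comm y, hxy, one_pow, mul_one] at h
    exact h
  rw [Polynomial.eval₂_at_apply] at h2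
  have h3 := Polynomial.divX_mul_X_add p.reverse
  rw [Polynomial.coeff_zero_reverse, hp.leadingCoeff] at h3
  have h4 : Polynomial.eval x p.reverse = Polynomial.eval x p.reverse.divX * x + 1 := by
    conv_lhs => rw [← h3]
    simp
  rw [h4, map_add, map_mul, map_one] at h2
  refine ⟨-(Polynomial.eval x p.reverse.divX), ?_⟩
  have h5 : algebraMap B F (Polynomial.eval x p.reverse.divX) * algebraMap B F x = -1 :=
    eq_neg_of_add_eq_zero_left h2
  calc algebraMap B F (-(Polynomial.eval x p.reverse.divX))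
      = -(algebraMap B F (Polynomial.eval x p.reverse.divX)) * (algebraMap B F x * y) := by
        rw [hxy, mul_one, map_neg]
    _ = -(algebraMap B F (Polynomial.eval x p.reverse.divX) * algebraMap B F x) * y := by ring
    _ = y := by rw [h5, neg_neg, one_mul]

/-- The subring of Laurent series over `ℚ` with `ℓ`-integral coefficients. -/
def ellIntegralSeries (ℓ : ℕ) : Subring (LaurentSeries ℚ) :=
  (coeffMap (GaloisRep.ratLocalizedAt ℓ).subtype).range

theorem coeff_mem_of_mem_ellIntegralSeries {ℓ : ℕ} {x : LaurentSeries ℚ}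
    (hx : x ∈ ellIntegralSeries ℓ) (n : ℤ) : x.coeff n ∈ GaloisRep.ratLocalizedAt ℓ := by
  obtain ⟨s, rfl⟩ := hx
  rw [coeffMap_coeff]
  exact (s.coeff n).2

/-- `j` is a unit in `R((q))` for every commutative ring `R`. -/
theorem isUnit_jqModC (R : Type*) [CommRing R] : IsUnit (jqModC R) := by
  rw [jqModC]
  refine IsUnit.mul ?_ ?_
  · refine IsUnit.of_mul_eq_one (HahnSeries.single (1 : ℤ) (1 : R)) ?_
    rw [HahnSeries.single_mul_single]
    simp
  · refine IsUnit.map (HahnSeries.ofPowerSeries ℤ R) ?_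
    rw [PowerSeries.isUnit_iff_constantCoeff, ← PowerSeries.coeff_zero_eq_constantCoeff,
      PowerSeries.coeff_map, PowerSeries.coeff_zero_eq_constantCoeff, constantCoeff_jNum, map_one]
    exact isUnit_one

theorem jq_mem_ellIntegralSeries (ℓ : ℕ) : jq ∈ ellIntegralSeries ℓ :=
  ⟨jqModC _, coeffMap_jqModC _⟩

theorem jq_inv_mem_ellIntegralSeries (ℓ : ℕ) : jq⁻¹ ∈ ellIntegralSeries ℓ := by
  obtain ⟨u, hu⟩ := isUnit_jqModC (GaloisRep.ratLocalizedAt ℓ)
  refine ⟨((u⁻¹ : (LaurentSeries (GaloisRep.ratLocalizedAt ℓ))ˣ) :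
    LaurentSeries (GaloisRep.ratLocalizedAt ℓ)), ?_⟩
  refine eq_inv_of_mul_eq_one_left ?_
  have hj : jq = coeffMap (GaloisRep.ratLocalizedAt ℓ).subtype (u : LaurentSeries _) := by
    rw [hu]; exact (coeffMap_jqModC _).symm
  rw [hj, ← map_mul, Units.inv_mul, map_one]

section Igusa

variable (N : ℕ) [NeZero N] (ℓ : ℕ) [Fact ℓ.Prime]

omit [Fact ℓ.Prime] in
/-- Elements of `ℤ_(ℓ)[j, j⁻¹]` have `ℓ`-integral `q`-expansions. -/
theorem coe_mem_ellIntegralSeries_of_mem_adjoin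
    {x : ↥(modularFunctionFieldFull N)}
    (hx : x ∈ Algebra.adjoin ↥(GaloisRep.ratLocalizedAt ℓ)
      ({jFull N, (jFull N)⁻¹} : Set ↥(modularFunctionFieldFull N))) :
    (x : LaurentSeries ℚ) ∈ ellIntegralSeries ℓ := by
  induction hx using Algebra.adjoin_induction with
  | mem y hy =>
    rcases hy with rfl | hy
    · exact jq_mem_ellIntegralSeries ℓ
    · rw [Set.mem_singleton_iff] at hy
      subst hy
      exact jq_inv_mem_ellIntegralSeries ℓ
  | algebraMap r =>
    refine ⟨HahnSeries.single 0 r, ?_⟩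
    rw [coeffMap_single]
    show _ = ((algebraMap ℚ ↥(modularFunctionFieldFull N) (r : ℚ) :
      ↥(modularFunctionFieldFull N)) : LaurentSeries ℚ)
    have h1 : ((algebraMap ℚ ↥(modularFunctionFieldFull N) (r : ℚ) :
        ↥(modularFunctionFieldFull N)) : LaurentSeries ℚ)
        = algebraMap ℚ (LaurentSeries ℚ) (r : ℚ) := by
      simp
    rw [h1, algebraMap_laurentSeries_eq_single]
    rfl
  | add y z _ _ hy hz => exact add_mem hy hz
  | mul y z _ _ hy hz => exact mul_mem hy hz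

/-- `ℓ` is not a unit of the overlap chart ring. -/
theorem not_isUnit_natCast_chartAlgMid : ¬ IsUnit ((ℓ : ℕ) : ↥(chartAlgMid N ℓ)) := by
  rintro ⟨u, hu⟩
  -- the inverse of `ℓ` in `F`
  set y : ↥(modularFunctionFieldFull N) :=
    (((u⁻¹ : (↥(chartAlgMid N ℓ))ˣ) : ↥(chartAlgMid N ℓ)) : ↥(modularFunctionFieldFull N))
    with hy
  have hyint : IsIntegral (Algebra.adjoin ↥(GaloisRep.ratLocalizedAt ℓ)
      ({jFull N, (jFull N)⁻¹} : Set ↥(modularFunctionFieldFull N))) y :=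
    (mem_chartAlg_iff N ℓ).mp ((u⁻¹ : (↥(chartAlgMid N ℓ))ˣ) : ↥(chartAlgMid N ℓ)).2
  have hmul : ((ℓ : ℕ) : ↥(modularFunctionFieldFull N)) * y = 1 := by
    have h : ((u : ↥(chartAlgMid N ℓ)) : ↥(modularFunctionFieldFull N)) * y = 1 := by
      rw [hy, ← Subalgebra.coe_mul, Units.mul_inv, Subalgebra.coe_one]
    have hcast : (((ℓ : ℕ) : ↥(chartAlgMid N ℓ)) : ↥(modularFunctionFieldFull N))
        = ((ℓ : ℕ) : ↥(modularFunctionFieldFull N)) :=
      map_natCast (chartAlgMid N ℓ).val ℓ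
    rw [hu, hcast] at h
    exact h
  obtain ⟨b, hb⟩ := exists_algebraMap_eq_of_isIntegral_of_mul_eq_one
    (((ℓ : ℕ) : Algebra.adjoin ↥(GaloisRep.ratLocalizedAt ℓ)
      ({jFull N, (jFull N)⁻¹} : Set ↥(modularFunctionFieldFull N)))) y hyint
    (by rw [map_natCast]; exact hmul)
  have hbmem : ((y : ↥(modularFunctionFieldFull N)) : LaurentSeries ℚ) ∈ ellIntegralSeries ℓ := by
    rw [← hb]
    exact coe_mem_ellIntegralSeries_of_mem_adjoin N ℓ b.2
  -- coefficient `0`
  have hcoeff := coeff_mem_of_mem_ellIntegralSeries hbmem 0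
  have hmul' : ((ℓ : ℕ) : LaurentSeries ℚ) * (y : LaurentSeries ℚ) = 1 := by
    have h := congrArg (fun z : ↥(modularFunctionFieldFull N) => (z : LaurentSeries ℚ)) hmul
    simpa using h
  have h0 : (ℓ : ℚ) * (y : LaurentSeries ℚ).coeff 0 = 1 := by
    have h := congrArg (fun z : LaurentSeries ℚ => z.coeff 0) hmul'
    simp only [HahnSeries.coeff_one, if_true] at h
    rw [← h, ← nsmul_eq_mul, ← nsmul_eq_mul]
    rfl
  have hℓ : (ℓ : ℚ) ≠ 0 := Nat.cast_ne_zero.mpr (Fact.out : ℓ.Prime).ne_zero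
  have hval : (y : LaurentSeries ℚ).coeff 0 = ((ℓ : ℕ) : ℚ)⁻¹ :=
    eq_inv_of_mul_eq_one_right h0
  rw [hval] at hcoeff
  have hden : (((ℓ : ℕ) : ℚ)⁻¹).den = ℓ := by
    have := Rat.inv_natCast_den ℓ
    simp [(Fact.out : ℓ.Prime).ne_zero] at this ⊢
  have hcop : (((ℓ : ℕ) : ℚ)⁻¹).den.Coprime ℓ := hcoeff
  rw [hden, Nat.coprime_self] at hcop
  exact (Fact.out : ℓ.Prime).ne_one hcop

end Igusa

/-- If `ℓ` is not a unit of the `ℤ_(ℓ)`-algebra `C`, then `C ⊗[ℤ_(ℓ)] K` is nontrivial for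
every field `K` of characteristic `ℓ`. -/
theorem nontrivial_tensor_of_not_isUnit (ℓ : ℕ) [Fact ℓ.Prime] (C : Type) [CommRing C]
    [Algebra (GaloisRep.ratLocalizedAt ℓ) C] (hC : ¬ IsUnit ((ℓ : ℕ) : C))
    (K : Type) [Field K] [CharP K ℓ] [Algebra (GaloisRep.ratLocalizedAt ℓ) K] :
    Nontrivial (C ⊗[GaloisRep.ratLocalizedAt ℓ] K) := by
  have hchar : CharP (C ⧸ (Ideal.span {((ℓ : ℕ) : C)} : Ideal C)) ℓ := CharP.quotient _ ℓ hC
  have hnt : Nontrivial (C ⧸ (Ideal.span {((ℓ : ℕ) : C)} : Ideal C)) :=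
    CharP.nontrivial_of_char_ne_one (Fact.out : ℓ.Prime).ne_one
  let _ := ZMod.algebra (C ⧸ (Ideal.span {((ℓ : ℕ) : C)} : Ideal C)) ℓ
  let _ := ZMod.algebra K ℓ
  have hnt2 : Nontrivial ((C ⧸ (Ideal.span {((ℓ : ℕ) : C)} : Ideal C)) ⊗[ZMod ℓ] K) :=
    Algebra.TensorProduct.nontrivial_of_algebraMap_injective_of_flat_left (R := ZMod ℓ) _ K
      (algebraMap (ZMod ℓ) K).injective
  obtain ⟨Ψ, -⟩ := exists_tensor_ringHom ℓ C K
    ((C ⧸ (Ideal.span {((ℓ : ℕ) : C)} : Ideal C)) ⊗[ZMod ℓ] K)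
    ((Algebra.TensorProduct.includeLeftRingHom).comp (Ideal.Quotient.mk _))
    (Algebra.TensorProduct.includeRight.toRingHom)
  exact Ψ.domain_nontrivial

/-- **Task T3 (II.f)**: the overlap chart of the special fibre is nonempty.
(The hypothesis `hFin` is not needed; it is kept to match the agreed interface.) -/
theorem nontrivial_tensor_chartAlgMid (N ℓ : ℕ) [NeZero N] [Fact ℓ.Prime]
    (K : Type) [Field K] [CharP K ℓ] [Algebra (GaloisRep.ratLocalizedAt ℓ) K]
    (_hFin : IsDomain ((chartAlgFin N ℓ) ⊗[GaloisRep.ratLocalizedAt ℓ] K)) :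
    Nontrivial ((chartAlgMid N ℓ) ⊗[GaloisRep.ratLocalizedAt ℓ] K) :=
  nontrivial_tensor_of_not_isUnit ℓ ↥(chartAlgMid N ℓ) (not_isUnit_natCast_chartAlgMid N ℓ) K

end Fermat.Agent.S28
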