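import Mathlib

/-!
# The arithmetic identity `∑_{δ ∣ N} μ(N/δ) gcd(δ, c)² = 0` for `N ∤ c`  (S28, task T6e)

We use Jordan's totient `J₂ = μ * id²` and Möbius inversion:
`gcd(n, c)² = ∑_{e ∣ gcd(n, c)} J₂(e) = ∑_{e ∣ n} J₂(e) [e ∣ c]`.
-/

set_option autoImplicit false

open ArithmeticFunction Finset

namespace Fermat.Agent.S28

/-- Jordan's totient function `J₂`, with values in `ℤ`. -/
def jordanTwo (n : ℕ) : ℤ :=
  ∑ x ∈ n.divisorsAntidiagonal, (ArithmeticFunction.moebius x.1 : ℤ) * (x.2 : ℤ) ^ 2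

lemma jordanTwo_eq_sum_divisors (n : ℕ) :
    jordanTwo n = ∑ δ ∈ n.divisors, (ArithmeticFunction.moebius (n / δ) : ℤ) * (δ : ℤ) ^ 2 :=
  Nat.sum_divisorsAntidiagonal' (fun a b => (ArithmeticFunction.moebius a : ℤ) * (b : ℤ) ^ 2)

lemma sum_divisors_jordanTwo {n : ℕ} (hn : 0 < n) :
    ∑ e ∈ n.divisors, jordanTwo e = (n : ℤ) ^ 2 :=
  (sum_eq_iff_sum_mul_moebius_eq (R := ℤ) (f := jordanTwo)
    (g := fun n => (n : ℤ) ^ 2)).mpr (fun _ _ => rfl) n hn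

lemma filter_dvd_divisors_eq {n : ℕ} (hn : 0 < n) (c : ℤ) :
    (n.divisors.filter fun e : ℕ => (e : ℤ) ∣ c) = (Int.gcd (n : ℤ) c).divisors := by
  have hn' : (n : ℤ) ≠ 0 := by exact_mod_cast hn.ne'
  have hg : 0 < Int.gcd (n : ℤ) c := Int.gcd_pos_of_ne_zero_left c hn'
  ext e
  simp only [mem_filter, Nat.mem_divisors]
  constructor
  · rintro ⟨⟨h1, -⟩, h2⟩
    exact ⟨Int.dvd_gcd (Int.natCast_dvd_natCast.mpr h1) h2, hg.ne'⟩
  · rintro ⟨h1, -⟩
    have h2 : (e : ℤ) ∣ (Int.gcd (n : ℤ) c : ℤ) := Int.natCast_dvd_natCast.mpr h1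
    exact ⟨⟨Int.natCast_dvd_natCast.mp (h2.trans (Int.gcd_dvd_left _ _)), hn.ne'⟩,
      h2.trans (Int.gcd_dvd_right _ _)⟩

open Classical in
lemma sum_divisors_ite_jordanTwo {n : ℕ} (hn : 0 < n) (c : ℤ) :
    ∑ e ∈ n.divisors, (if (e : ℤ) ∣ c then jordanTwo e else 0) = ((Int.gcd (n : ℤ) c : ℕ) : ℤ) ^ 2 := by
  have hn' : (n : ℤ) ≠ 0 := by exact_mod_cast hn.ne'
  have hg : 0 < Int.gcd (n : ℤ) c := Int.gcd_pos_of_ne_zero_left c hn'
  rw [← Finset.sum_filter, ← sum_divisors_jordanTwo hg]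
  refine Finset.sum_congr ?_ fun _ _ => rfl
  convert filter_dvd_divisors_eq hn c using 2

open Classical in
/-- Möbius inversion of `gcd(·, c)²`. -/
theorem sum_moebius_gcd_sq_eq (N : ℕ) (hN : 0 < N) (c : ℤ) :
    ∑ δ ∈ N.divisors, (ArithmeticFunction.moebius (N / δ) : ℤ) * ((Int.gcd δ c : ℤ)) ^ 2 =
      if (N : ℤ) ∣ c then jordanTwo N else 0 := by
  have key := (sum_eq_iff_sum_mul_moebius_eq (R := ℤ)
    (f := fun e : ℕ => if (e : ℤ) ∣ c then jordanTwo e else 0)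
    (g := fun n : ℕ => ((Int.gcd (n : ℤ) c : ℕ) : ℤ) ^ 2)).mp
    (fun n hn => sum_divisors_ite_jordanTwo hn c) N hN
  rw [← key]
  exact (Nat.sum_divisorsAntidiagonal'
    (fun a b => (ArithmeticFunction.moebius a : ℤ) * ((Int.gcd (b : ℤ) c : ℕ) : ℤ) ^ 2)).symm

/-- **Task T6e**: `∑_{δ ∣ N} μ(N/δ) gcd(δ, c)² = 0` if `N ∤ c`. -/
theorem sum_moebius_gcd_sq (N : ℕ) (hN : 0 < N) (c : ℤ) (hc : ¬ (N : ℤ) ∣ c) :
    ∑ δ ∈ N.divisors, (ArithmeticFunction.moebius (N / δ) : ℤ) * ((Int.gcd δ c : ℤ)) ^ 2 = 0 := by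
  rw [sum_moebius_gcd_sq_eq N hN c, if_neg hc]

/-- Companion of T6e: if `N ∣ c` the sum is `J₂(N) = ∑_{δ ∣ N} μ(N/δ) δ²`. -/
theorem sum_moebius_gcd_sq_of_dvd (N : ℕ) (hN : 0 < N) (c : ℤ) (hc : (N : ℤ) ∣ c) :
    ∑ δ ∈ N.divisors, (ArithmeticFunction.moebius (N / δ) : ℤ) * ((Int.gcd δ c : ℤ)) ^ 2 =
      ∑ δ ∈ N.divisors, (ArithmeticFunction.moebius (N / δ) : ℤ) * (δ : ℤ) ^ 2 := by
  rw [sum_moebius_gcd_sq_eq N hN c, if_pos hc, jordanTwo_eq_sum_divisors]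

/-! ### Jordan's totient: positivity and divisibility by `φ` -/

/-- `jordanTwo` is the Dirichlet convolution `μ * id²`. -/
lemma jordanTwo_eq_mul_apply (n : ℕ) :
    jordanTwo n = ((ArithmeticFunction.moebius : ArithmeticFunction ℤ) *
      ((ArithmeticFunction.pow 2 : ArithmeticFunction ℕ) : ArithmeticFunction ℤ)) n := by
  rw [ArithmeticFunction.mul_apply]
  unfold jordanTwo
  refine Finset.sum_congr rfl fun x _ => ?_
  rw [ArithmeticFunction.natCoe_apply, ArithmeticFunction.pow_apply]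
  simp

lemma jordanTwo_mul_of_coprime {a b : ℕ} (h : a.Coprime b) :
    jordanTwo (a * b) = jordanTwo a * jordanTwo b := by
  have hm : ((ArithmeticFunction.moebius : ArithmeticFunction ℤ) *
      ((ArithmeticFunction.pow 2 : ArithmeticFunction ℕ) : ArithmeticFunction ℤ)).IsMultiplicative :=
    ArithmeticFunction.isMultiplicative_moebius.mul
      (ArithmeticFunction.isMultiplicative_pow.natCast)
  simp only [jordanTwo_eq_mul_apply]
  exact hm.map_mul_of_coprime h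

lemma jordanTwo_one : jordanTwo 1 = 1 := by
  simp [jordanTwo]

lemma jordanTwo_prime_pow {p : ℕ} (hp : p.Prime) (m : ℕ) :
    jordanTwo (p ^ (m + 1)) = ((p : ℤ) ^ m * ((p : ℤ) - 1)) * ((p : ℤ) ^ m * ((p : ℤ) + 1)) := by
  rw [jordanTwo_eq_sum_divisors, Nat.sum_divisors_prime_pow hp, Finset.sum_range_succ,
    Finset.sum_range_succ, Finset.sum_eq_zero]
  · have h1 : p ^ (m + 1) / p ^ m = p := by
      rw [pow_succ, Nat.mul_div_cancel_left _ (pow_pos hp.pos m)]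
    have h2 : p ^ (m + 1) / p ^ (m + 1) = 1 := Nat.div_self (pow_pos hp.pos _)
    rw [h1, h2, ArithmeticFunction.moebius_apply_prime hp, ArithmeticFunction.moebius_apply_one]
    push_cast
    ring
  · intro x hx
    have hx' : x < m := Finset.mem_range.mp hx
    have h3 : p ^ (m + 1) / p ^ x = p ^ (m + 1 - x) :=
      Nat.pow_div (by omega) hp.pos
    rw [h3, ArithmeticFunction.moebius_apply_prime_pow hp (by omega), if_neg (by omega)]
    simp

/-- `J₂(N) > 0` and `φ(N) ∣ J₂(N)`. -/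
theorem jordanTwo_pos_and_totient_dvd (N : ℕ) (hN : 0 < N) :
    0 < jordanTwo N ∧ ((N.totient : ℕ) : ℤ) ∣ jordanTwo N := by
  induction N using Nat.recOnPosPrimePosCoprime with
  | prime_pow p k hp hk =>
    obtain ⟨m, rfl⟩ : ∃ m, k = m + 1 := ⟨k - 1, by omega⟩
    rw [jordanTwo_prime_pow hp m, Nat.totient_prime_pow hp (Nat.succ_pos m)]
    have hp2 : (2 : ℤ) ≤ (p : ℤ) := by exact_mod_cast hp.two_le
    have hpm : (0 : ℤ) < (p : ℤ) ^ m := by positivity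
    constructor
    · apply mul_pos <;> apply mul_pos hpm <;> linarith
    · refine Dvd.intro ((p : ℤ) ^ m * ((p : ℤ) + 1)) ?_
      have h1 : 1 ≤ p := hp.one_le
      push_cast [h1]
      ring
  | zero => exact absurd hN (lt_irrefl 0)
  | one => simp [jordanTwo_one]
  | coprime a b ha hb hab iha ihb =>
    obtain ⟨pa, da⟩ := iha (by omega)
    obtain ⟨pb, db⟩ := ihb (by omega)
    rw [jordanTwo_mul_of_coprime hab, Nat.totient_mul hab]
    refine ⟨mul_pos pa pb, ?_⟩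
    push_cast
    exact mul_dvd_mul da db

/-- Optional part of T6e: positivity of `J₂(N) = ∑_{δ ∣ N} μ(N/δ) δ²`. -/
theorem sum_moebius_sq_pos (N : ℕ) (hN : 0 < N) :
    0 < ∑ δ ∈ N.divisors, (ArithmeticFunction.moebius (N / δ) : ℤ) * (δ : ℤ) ^ 2 := by
  rw [← jordanTwo_eq_sum_divisors]
  exact (jordanTwo_pos_and_totient_dvd N hN).1

/-- Optional part of T6e: `φ(N) ∣ J₂(N)`. -/
theorem totient_dvd_sum_moebius_sq (N : ℕ) :
    (N.totient : ℤ) ∣ ∑ δ ∈ N.divisors, (ArithmeticFunction.moebius (N / δ) : ℤ) * (δ : ℤ) ^ 2 := by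
  rcases Nat.eq_zero_or_pos N with rfl | hN
  · simp
  rw [← jordanTwo_eq_sum_divisors]
  exact (jordanTwo_pos_and_totient_dvd N hN).2

end Fermat.Agent.S28
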