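import Fermat.Agent.S28.ADefs
import Fermat.Agent.S28.GcdSum

/-!
# S28 Part I: shared definitions `Holo`, `jordan2` (exactly as in the Part I skeleton)

* `Holo g`    : `g : ℍ → ℂ` is holomorphic (`MDiff g`).
* `jordan2 N` : Jordan's totient `J₂(N) = ∑_{δ ∣ N} μ(N/δ) δ²` (equal to `jordanTwo N` of
  `GcdSum.lean`).
-/

set_option autoImplicit false

open ModularCurve UpperHalfPlane Complex
open scoped MatrixGroups Manifold

noncomputable section

namespace Fermat.Agent.S28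

/-- holomorphy on `ℍ` -/
def Holo (g : ℍ → ℂ) : Prop := MDiff g

/-- Jordan totient `J₂(N) = Σ_{δ ∣ N} μ(N/δ) δ²`. -/
def jordan2 (N : ℕ) : ℤ :=
  ∑ δ ∈ N.divisors, (ArithmeticFunction.moebius (N / δ) : ℤ) * (δ : ℤ) ^ 2

theorem jordan2_eq_jordanTwo (N : ℕ) : jordan2 N = jordanTwo N :=
  (jordanTwo_eq_sum_divisors N).symm

theorem jordan2_pos (N : ℕ) (hN : 0 < N) : 0 < jordan2 N :=
  sum_moebius_sq_pos N hN

theorem totient_dvd_jordan2 (N : ℕ) : (N.totient : ℤ) ∣ jordan2 N :=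
  totient_dvd_sum_moebius_sq N

end Fermat.Agent.S28
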