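import Mathlib

/-!
# S28, task T6g: the characteristic polynomial machine (abstract form)

Let `Γ ≤ SL(2, ℤ)` be a subgroup of finite index and `f : ℍ → ℂ` a `Γ`-invariant function.
The translates `τ ↦ f (g⁻¹ • τ)` only depend on the coset `g Γ`; their elementary symmetric
functions are `SL(2, ℤ)`-invariant.  If all translates lie in a class `Fil M` of functions
(closed under sums and products, graded by a "pole order" `M`) and every invariant function
in `Fil M` is a polynomial of degree `≤ M` in a fixed function `jAn` with coefficients in a ring `S`,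
then `f` is a root of a monic polynomial of degree `[SL(2, ℤ) : Γ]` over `S[jAn]`, with the
expected bounds on the degrees of the coefficients.
-/

set_option autoImplicit false
set_option linter.style.haveILetI false

namespace Fermat.Agent.S28

open UpperHalfPlane Polynomial
open scoped MatrixGroups

noncomputable section

/-- A family of sets of functions on `ℍ`, indexed by a bound `M` on the pole order, which is
closed under the ring operations in the graded sense. -/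
structure IsPoleFiltration (Fil : ℕ → Set (ℍ → ℂ)) : Prop where
  zero_mem : ∀ M, (0 : ℍ → ℂ) ∈ Fil M
  one_mem : (1 : ℍ → ℂ) ∈ Fil 0
  add_mem : ∀ {M : ℕ} {a b : ℍ → ℂ}, a ∈ Fil M → b ∈ Fil M → a + b ∈ Fil M
  neg_mem : ∀ {M : ℕ} {a : ℍ → ℂ}, a ∈ Fil M → -a ∈ Fil M
  mul_mem : ∀ {M M' : ℕ} {a b : ℍ → ℂ}, a ∈ Fil M → b ∈ Fil M' → a * b ∈ Fil (M + M')

namespace IsPoleFiltration

variable {Fil : ℕ → Set (ℍ → ℂ)} (hFil : IsPoleFiltration Fil)
include hFil

theorem sum_mem {ι : Type*} (s : Finset ι) (a : ι → ℍ → ℂ) {M : ℕ}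
    (ha : ∀ i ∈ s, a i ∈ Fil M) : (∑ i ∈ s, a i) ∈ Fil M := by
  classical
  induction s using Finset.induction_on with
  | empty => simpa using hFil.zero_mem M
  | insert i s hi ih =>
    rw [Finset.sum_insert hi]
    exact hFil.add_mem (ha i (Finset.mem_insert_self i s))
      (ih fun j hj => ha j (Finset.mem_insert_of_mem hj))

theorem prod_mem {ι : Type*} (s : Finset ι) (a : ι → ℍ → ℂ) {M : ℕ}
    (ha : ∀ i ∈ s, a i ∈ Fil M) : (∏ i ∈ s, a i) ∈ Fil (M * s.card) := by
  classical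
  induction s using Finset.induction_on with
  | empty => simpa using hFil.one_mem
  | insert i s hi ih =>
    rw [Finset.prod_insert hi, Finset.card_insert_of_notMem hi]
    have h1 := hFil.mul_mem (ha i (Finset.mem_insert_self i s))
      (ih fun j hj => ha j (Finset.mem_insert_of_mem hj))
    have e : M + M * s.card = M * (s.card + 1) := by ring
    rwa [e] at h1

theorem neg_one_pow_mul_mem (j : ℕ) {M : ℕ} {a : ℍ → ℂ} (ha : a ∈ Fil M) :
    ((-1 : ℍ → ℂ) ^ j * a) ∈ Fil M := by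
  rcases Nat.even_or_odd j with hj | hj
  · rw [hj.neg_one_pow, one_mul]; exact ha
  · rw [hj.neg_one_pow, neg_one_mul]; exact hFil.neg_mem ha

end IsPoleFiltration

section Translates

variable (Γ : Subgroup SL(2, ℤ)) (f : ℍ → ℂ) (hf : ∀ γ ∈ Γ, ∀ τ : ℍ, f (γ • τ) = f τ)

/-- The translate of the `Γ`-invariant function `f` attached to the coset `g Γ`,
namely `τ ↦ f (g⁻¹ • τ)`. -/
def cosetTranslate (q : SL(2, ℤ) ⧸ Γ) : ℍ → ℂ :=
  Quotient.liftOn' q (fun g τ => f (g⁻¹ • τ)) (by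
    intro g g' hgg'
    rw [QuotientGroup.leftRel_apply] at hgg'
    funext τ
    have h1 : g'⁻¹ = (g⁻¹ * g')⁻¹ * g⁻¹ := by group
    show f (g⁻¹ • τ) = f (g'⁻¹ • τ)
    rw [h1, mul_smul, hf _ (Γ.inv_mem hgg')])

@[simp]
theorem cosetTranslate_mk (g : SL(2, ℤ)) (τ : ℍ) :
    cosetTranslate Γ f hf (g : SL(2, ℤ) ⧸ Γ) τ = f (g⁻¹ • τ) := rfl

theorem cosetTranslate_one (τ : ℍ) :
    cosetTranslate Γ f hf ((1 : SL(2, ℤ)) : SL(2, ℤ) ⧸ Γ) τ = f τ := by
  simp

theorem cosetTranslate_smul (h : SL(2, ℤ)) (q : SL(2, ℤ) ⧸ Γ) (τ : ℍ) :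
    cosetTranslate Γ f hf q (h • τ) = cosetTranslate Γ f hf (h⁻¹ • q) τ := by
  induction q using QuotientGroup.induction_on with
  | H g =>
    rw [MulAction.Quotient.smul_mk, cosetTranslate_mk, cosetTranslate_mk, smul_eq_mul,
      mul_inv_rev, inv_inv, mul_smul]

variable [Γ.FiniteIndex]

/-- The characteristic polynomial `∏_q (X - f_q(τ))` of the translates of `f`. -/
def cosetCharPoly (τ : ℍ) : ℂ[X] :=
  letI := Fintype.ofFinite (SL(2, ℤ) ⧸ Γ)
  ∏ q : SL(2, ℤ) ⧸ Γ, (X - C (cosetTranslate Γ f hf q τ))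

theorem cosetCharPoly_monic (τ : ℍ) : (cosetCharPoly Γ f hf τ).Monic := by
  letI := Fintype.ofFinite (SL(2, ℤ) ⧸ Γ)
  exact monic_prod_of_monic _ _ fun q _ => monic_X_sub_C _

theorem cosetCharPoly_natDegree (τ : ℍ) : (cosetCharPoly Γ f hf τ).natDegree = Γ.index := by
  letI := Fintype.ofFinite (SL(2, ℤ) ⧸ Γ)
  rw [cosetCharPoly, natDegree_prod_of_monic _ _ fun q _ => monic_X_sub_C _]
  simp [Subgroup.index_eq_card, Nat.card_eq_fintype_card]

theorem cosetCharPoly_smul (h : SL(2, ℤ)) (τ : ℍ) :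
    cosetCharPoly Γ f hf (h • τ) = cosetCharPoly Γ f hf τ := by
  letI := Fintype.ofFinite (SL(2, ℤ) ⧸ Γ)
  simp only [cosetCharPoly, cosetTranslate_smul]
  exact Equiv.prod_comp (MulAction.toPerm (h⁻¹ : SL(2, ℤ)))
    (fun q : SL(2, ℤ) ⧸ Γ => (X - C (cosetTranslate Γ f hf q τ) : ℂ[X]))

theorem cosetCharPoly_eval_self (τ : ℍ) : (cosetCharPoly Γ f hf τ).eval (f τ) = 0 := by
  letI := Fintype.ofFinite (SL(2, ℤ) ⧸ Γ)
  rw [cosetCharPoly, eval_prod]
  refine Finset.prod_eq_zero (Finset.mem_univ ((1 : SL(2, ℤ)) : SL(2, ℤ) ⧸ Γ)) ?_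
  rw [cosetTranslate_one]
  simp

theorem cosetCharPoly_coeff_eq (τ : ℍ) {k : ℕ} (hk : k ≤ Γ.index) :
    letI := Fintype.ofFinite (SL(2, ℤ) ⧸ Γ)
    (cosetCharPoly Γ f hf τ).coeff k = (-1) ^ (Γ.index - k) *
      ∑ t ∈ Finset.powersetCard (Γ.index - k) (Finset.univ : Finset (SL(2, ℤ) ⧸ Γ)),
        ∏ q ∈ t, cosetTranslate Γ f hf q τ := by
  letI := Fintype.ofFinite (SL(2, ℤ) ⧸ Γ)
  have hcard : (Finset.univ : Finset (SL(2, ℤ) ⧸ Γ)).card = Γ.index := by
    simp [Subgroup.index_eq_card, Nat.card_eq_fintype_card]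
  have h1 : cosetCharPoly Γ f hf τ =
      (Multiset.map (fun t => X - C t)
        (Multiset.map (fun q => cosetTranslate Γ f hf q τ)
          (Finset.univ : Finset (SL(2, ℤ) ⧸ Γ)).val)).prod := by
    rw [cosetCharPoly, Multiset.map_map]
    rfl
  have hc : (Multiset.map (fun q => cosetTranslate Γ f hf q τ)
      (Finset.univ : Finset (SL(2, ℤ) ⧸ Γ)).val).card = Γ.index := by
    rw [Multiset.card_map]; exact hcard
  rw [h1, Multiset.prod_X_sub_C_coeff _ (by rw [hc]; exact hk), hc, Finset.esymm_map_val]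

/-- The coefficient functions of the characteristic polynomial are `SL(2, ℤ)`-invariant. -/
theorem cosetCharPoly_coeff_smul (h : SL(2, ℤ)) (τ : ℍ) (k : ℕ) :
    (cosetCharPoly Γ f hf (h • τ)).coeff k = (cosetCharPoly Γ f hf τ).coeff k := by
  rw [cosetCharPoly_smul]

/-- The coefficient functions of the characteristic polynomial lie in the expected step of the
pole filtration. -/
theorem cosetCharPoly_coeff_mem {Fil : ℕ → Set (ℍ → ℂ)} (hFil : IsPoleFiltration Fil) {M : ℕ}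
    (hfP : ∀ g : SL(2, ℤ), (fun τ => f (g • τ)) ∈ Fil M) {k : ℕ} (hk : k ≤ Γ.index) :
    (fun τ => (cosetCharPoly Γ f hf τ).coeff k) ∈ Fil (M * (Γ.index - k)) := by
  letI := Fintype.ofFinite (SL(2, ℤ) ⧸ Γ)
  have hq : ∀ q : SL(2, ℤ) ⧸ Γ, cosetTranslate Γ f hf q ∈ Fil M := by
    intro q
    induction q using QuotientGroup.induction_on with
    | H g => exact hfP g⁻¹
  have h1 : (fun τ => (cosetCharPoly Γ f hf τ).coeff k) =
      (-1 : ℍ → ℂ) ^ (Γ.index - k) *
        ∑ t ∈ Finset.powersetCard (Γ.index - k) (Finset.univ : Finset (SL(2, ℤ) ⧸ Γ)),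
          ∏ q ∈ t, cosetTranslate Γ f hf q := by
    funext τ
    rw [cosetCharPoly_coeff_eq Γ f hf τ hk]
    simp [Finset.sum_apply, Finset.prod_apply]
  rw [h1]
  refine hFil.neg_one_pow_mul_mem _ (hFil.sum_mem _ _ fun t ht => ?_)
  have h2 := hFil.prod_mem t (fun q => cosetTranslate Γ f hf q) (M := M) fun q _ => hq q
  rwa [(Finset.mem_powersetCard.mp ht).2] at h2

end Translates

/-- **The characteristic polynomial machine.**  See the module docstring. -/
theorem exists_monic_poly_of_translates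
    (Γ : Subgroup SL(2, ℤ)) [Γ.FiniteIndex]
    {S : Type*} [CommRing S] (ι : S →+* ℂ) (jAn : ℍ → ℂ)
    (Fil : ℕ → Set (ℍ → ℂ)) (hFil : IsPoleFiltration Fil)
    (hlev : ∀ (M : ℕ) (g : ℍ → ℂ), g ∈ Fil M → (∀ (γ : SL(2, ℤ)) (τ : ℍ), g (γ • τ) = g τ) →
      ∃ Q : S[X], Q.natDegree ≤ M ∧ ∀ τ, g τ = Q.eval₂ ι (jAn τ))
    (f : ℍ → ℂ) (hf : ∀ γ ∈ Γ, ∀ τ : ℍ, f (γ • τ) = f τ) (M : ℕ)
    (hfP : ∀ g : SL(2, ℤ), (fun τ => f (g • τ)) ∈ Fil M) :
    ∃ P : Polynomial (Polynomial S), P.Monic ∧ P.natDegree = Γ.index ∧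
      (∀ k ≤ Γ.index, (P.coeff k).natDegree ≤ M * (Γ.index - k)) ∧
      ∀ τ, P.eval₂ (Polynomial.eval₂RingHom ι (jAn τ)) (f τ) = 0 := by
  classical
  have : Nontrivial S := ι.domain_nontrivial
  set I := Γ.index with hI
  -- choose the coefficient polynomials
  have hex : ∀ k : ℕ, ∃ Q : S[X], (k ≤ I → Q.natDegree ≤ M * (I - k) ∧
      ∀ τ, (cosetCharPoly Γ f hf τ).coeff k = Q.eval₂ ι (jAn τ)) := by
    intro k
    by_cases hk : k ≤ I
    · obtain ⟨Q, hQ1, hQ2⟩ := hlev _ _ (cosetCharPoly_coeff_mem Γ f hf hFil hfP hk)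
        (fun γ τ => cosetCharPoly_coeff_smul Γ f hf γ τ k)
      exact ⟨Q, fun _ => ⟨hQ1, hQ2⟩⟩
    · exact ⟨0, fun h => absurd h hk⟩
  choose Q hQ using hex
  -- the polynomial
  set R : Polynomial (Polynomial S) := ∑ k ∈ Finset.range I, C (Q k) * X ^ k with hR
  have hRcoeff' : ∀ k, R.coeff k = if k < I then Q k else 0 := by
    intro k
    rw [hR, finsetSum_coeff]
    simp only [coeff_C_mul, coeff_X_pow]
    split_ifs with hk
    · rw [Finset.sum_eq_single k]
      · simp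
      · intro b _ hb
        simp [Ne.symm hb]
      · intro hkn
        exact absurd (Finset.mem_range.mpr hk) hkn
    · refine Finset.sum_eq_zero fun b hb => ?_
      have : k ≠ b := fun h => hk (h ▸ Finset.mem_range.mp hb)
      simp [this]
  have hRdeg : R.degree < I := by
    rw [degree_lt_iff_coeff_zero]
    intro m hm
    rw [hRcoeff', if_neg (not_lt.mpr hm)]
  have hRcoeff : ∀ k, k < I → R.coeff k = Q k := fun k hk => by rw [hRcoeff', if_pos hk]
  have hmonic : (X ^ I + R : Polynomial (Polynomial S)).Monic := monic_X_pow_add hRdeg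
  have hnat : (X ^ I + R : Polynomial (Polynomial S)).natDegree = I := by
    rw [natDegree_add_eq_left_of_degree_lt (by rwa [degree_X_pow]), natDegree_X_pow]
  refine ⟨X ^ I + R, hmonic, hnat, ?_, ?_⟩
  · intro k hk
    rcases hk.lt_or_eq with hlt | rfl
    · rw [coeff_add, coeff_X_pow, if_neg hlt.ne, zero_add, hRcoeff k hlt]
      exact ((hQ k) hk).1
    · rw [coeff_add, coeff_X_pow, if_pos rfl, coeff_eq_zero_of_degree_lt hRdeg, add_zero]
      simp
  · intro τ
    have h0 := cosetCharPoly_eval_self Γ f hf τ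
    rw [eval_eq_sum_range, cosetCharPoly_natDegree, Finset.sum_range_succ] at h0
    have hlead : (cosetCharPoly Γ f hf τ).coeff Γ.index = 1 := by
      have := (cosetCharPoly_monic Γ f hf τ).coeff_natDegree
      rwa [cosetCharPoly_natDegree] at this
    rw [hlead, one_mul] at h0
    rw [eval₂_add, eval₂_pow, eval₂_X, hR, eval₂_finsetSum, add_comm]
    rw [← h0]
    congr 1
    refine Finset.sum_congr rfl fun k hk => ?_
    rw [eval₂_mul, eval₂_C, eval₂_pow, eval₂_X, coe_eval₂RingHom,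
      ((hQ k) (Finset.mem_range.mp hk).le).2 τ]

end

end Fermat.Agent.S28
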