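import Fermat.Agent.S28.ADefs2
import Fermat.Agent.S28.TExp
import Fermat.Agent.S28.CharPoly

/-!
# S28, task T6g: the characteristic polynomial machine (analytic instantiation)

`charpoly_machine_core` is the statement `charpoly_machine` of the Part I skeleton, with the two
interface statements it consumes (`HasTExp.to_one` of T6a and `levelOne_poly` of T6f) as
explicit hypotheses.
-/

set_option autoImplicit false
set_option linter.style.haveILetI false

open ModularCurve UpperHalfPlane Complex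
open scoped MatrixGroups Manifold

noncomputable section

namespace Fermat.Agent.S28

/-- The interface statement `HasTExp.to_one` (task T6a) at level `N`. -/
def ToOneStatement (N : ℕ) [NeZero N] : Prop :=
  ∀ (g : ℍ → ℂ) (s : LaurentSeries ℂ), HasTExp N g s →
    (∀ τ : ℍ, g ((1 : ℝ) +ᵥ τ) = g τ) →
    ∃ s₁ : LaurentSeries ℂ, HasTExp 1 g s₁ ∧ s = qExpand ℂ N s₁

/-- The interface statement `levelOne_poly` (task T6f) for the subring `S`. -/
def LevelOnePolyStatement (S : Subring ℂ) : Prop :=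
  ∀ (g : ℍ → ℂ), Holo g → (∀ (γ : SL(2, ℤ)) (τ : ℍ), g (γ • τ) = g τ) →
    ∀ (s : LaurentSeries ℂ), HasTExp 1 g s → CoeffIn S s →
    ∀ (M : ℕ), (∀ n : ℤ, n < -(M : ℤ) → s.coeff n = 0) →
    ∃ Q : Polynomial S, Q.natDegree ≤ M ∧ ∀ τ, g τ = (Q.map S.subtype).eval (jAn τ)

/-- Functions which are holomorphic on `ℍ` and have a `𝕋`-expansion with coefficients in `S`
and a pole of order at most `k` (measured in `q = 𝕋 ^ N`) at `i∞`. -/
def poleFil (N : ℕ) (S : Subring ℂ) (k : ℕ) : Set (ℍ → ℂ) :=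
  {g | Holo g ∧ ∃ s : LaurentSeries ℂ, HasTExp N g s ∧ CoeffIn S s ∧
    ∀ n : ℤ, n < -((k : ℤ) * N) → s.coeff n = 0}

theorem h93_coeffIn_zero (S : Subring ℂ) : CoeffIn S 0 := fun n => by
  simp

theorem h93_coeffIn_one (S : Subring ℂ) : CoeffIn S 1 := fun n => by
  rw [HahnSeries.coeff_one]
  split_ifs
  · exact S.one_mem
  · exact S.zero_mem

theorem h93_coeffIn_add {S : Subring ℂ} {s₁ s₂ : LaurentSeries ℂ} (h₁ : CoeffIn S s₁)
    (h₂ : CoeffIn S s₂) : CoeffIn S (s₁ + s₂) := fun n => by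
  rw [HahnSeries.coeff_add]
  exact S.add_mem (h₁ n) (h₂ n)

theorem h93_coeffIn_neg {S : Subring ℂ} {s : LaurentSeries ℂ} (h : CoeffIn S s) :
    CoeffIn S (-s) := fun n => by
  rw [HahnSeries.coeff_neg]
  exact S.neg_mem (h n)

theorem h93_coeffIn_mul {S : Subring ℂ} {s₁ s₂ : LaurentSeries ℂ} (h₁ : CoeffIn S s₁)
    (h₂ : CoeffIn S s₂) : CoeffIn S (s₁ * s₂) := fun n => by
  rw [HahnSeries.coeff_mul]
  exact S.sum_mem fun ij _ => S.mul_mem (h₁ _) (h₂ _)

/-- Vanishing of the coefficients of a product below the sum of the bounds. -/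
theorem h93_coeff_mul_eq_zero_of_lt {s₁ s₂ : LaurentSeries ℂ} {a b : ℤ}
    (h₁ : ∀ n : ℤ, n < a → s₁.coeff n = 0) (h₂ : ∀ n : ℤ, n < b → s₂.coeff n = 0)
    {n : ℤ} (hn : n < a + b) : (s₁ * s₂).coeff n = 0 := by
  rw [HahnSeries.coeff_mul]
  refine Finset.sum_eq_zero fun ij hij => ?_
  rw [Finset.mem_antidiagonal] at hij
  obtain ⟨h1, h2, h3⟩ := hij
  by_cases hi : ij.1 < a
  · rw [h₁ _ hi, zero_mul]
  · have hj : ij.2 < b := by omega
    rw [h₂ _ hj, mul_zero]

theorem isPoleFiltration_poleFil {N : ℕ} (hN : 0 < N) (S : Subring ℂ) :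
    IsPoleFiltration (poleFil N S) where
  zero_mem M := ⟨mdifferentiable_const, 0, HasTExp.zero N, h93_coeffIn_zero S, fun n _ => by simp⟩
  one_mem := ⟨mdifferentiable_const, 1, HasTExp.one N, h93_coeffIn_one S, fun n hn => by
    rw [HahnSeries.coeff_one, if_neg]
    simp only [Nat.cast_zero, zero_mul, neg_zero] at hn
    exact hn.ne⟩
  add_mem := by
    rintro M a b ⟨ha, s, hs, hsS, hsM⟩ ⟨hb, t, ht, htS, htM⟩
    refine ⟨ha.add hb, s + t, hs.add ht, h93_coeffIn_add hsS htS, fun n hn => ?_⟩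
    rw [HahnSeries.coeff_add, hsM n hn, htM n hn, add_zero]
  neg_mem := by
    rintro M a ⟨ha, s, hs, hsS, hsM⟩
    refine ⟨ha.neg, -s, hs.neg, h93_coeffIn_neg hsS, fun n hn => ?_⟩
    rw [HahnSeries.coeff_neg, hsM n hn, neg_zero]
  mul_mem := by
    rintro M M' a b ⟨ha, s, hs, hsS, hsM⟩ ⟨hb, t, ht, htS, htM⟩
    refine ⟨ha.mul hb, s * t, hs.mul hN ht, h93_coeffIn_mul hsS htS, fun n hn => ?_⟩
    refine h93_coeff_mul_eq_zero_of_lt hsM htM ?_
    push_cast at hn
    linarith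

/-- Translation by an element of `SL(2, ℤ)` is holomorphic on `ℍ`. -/
theorem h93_holo_comp_smul {f : ℍ → ℂ} (hf : Holo f) (γ : SL(2, ℤ)) :
    Holo (fun τ => f (γ • τ)) := by
  have hdet : 0 < ((γ : GL (Fin 2) ℝ)).det.val := by
    simp
  exact hf.comp (UpperHalfPlane.mdifferentiable_smul hdet)

/-- **The characteristic polynomial machine**, core form: the interface statements
`HasTExp.to_one` and `levelOne_poly` are hypotheses. -/
theorem charpoly_machine_core (N : ℕ) [NeZero N] (S : Subring ℂ)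
    (hto : ToOneStatement N) (hlev : LevelOnePolyStatement S)
    (f : ℍ → ℂ) (hf : Holo f)
    (hinv : ∀ γ ∈ CongruenceSubgroup.Gamma0 N, ∀ τ : ℍ, f (γ • τ) = f τ)
    (M : ℕ)
    (hexp : ∀ γ : SL(2, ℤ), ∃ s : LaurentSeries ℂ, HasTExp N (fun τ => f (γ • τ)) s ∧
      CoeffIn S s ∧ ∀ n : ℤ, n < -((M : ℤ) * N) → s.coeff n = 0) :
    ∃ P : Polynomial (Polynomial S), P.Monic ∧
      P.natDegree = (CongruenceSubgroup.Gamma0 N).index ∧
      (∀ i : ℕ, i ≤ P.natDegree → (P.coeff (P.natDegree - i)).natDegree ≤ M * i) ∧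
      ∀ τ : ℍ, (P.map (Polynomial.mapRingHom S.subtype)).eval₂
        (Polynomial.evalRingHom (jAn τ)) (f τ) = 0 := by
  have hN : 0 < N := Nat.pos_of_ne_zero (NeZero.ne N)
  obtain ⟨P, hmonic, hdeg, hcoeff, hroot⟩ :=
    exists_monic_poly_of_translates (CongruenceSubgroup.Gamma0 N) S.subtype jAn
      (poleFil N S) (isPoleFiltration_poleFil hN S)
      (by
        rintro M' g ⟨hg, s, hs, hsS, hsM⟩ hginv
        have hper : ∀ τ : ℍ, g ((1 : ℝ) +ᵥ τ) = g τ := by
          intro τ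
          rw [← UpperHalfPlane.modular_T_smul, hginv]
        obtain ⟨s₁, hs₁, rfl⟩ := hto g s hs hper
        have hs₁S : CoeffIn S s₁ := by
          intro n
          have := hsS ((N : ℤ) * n)
          rwa [qExpand_coeff_mul] at this
        have hs₁M : ∀ n : ℤ, n < -(M' : ℤ) → s₁.coeff n = 0 := by
          intro n hn
          have := hsM ((N : ℤ) * n) (by
            have hN' : (0 : ℤ) < N := by exact_mod_cast hN
            nlinarith)
          rwa [qExpand_coeff_mul] at this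
        obtain ⟨Q, hQ1, hQ2⟩ := hlev g hg hginv s₁ hs₁ hs₁S M' hs₁M
        refine ⟨Q, hQ1, fun τ => ?_⟩
        rw [hQ2 τ, Polynomial.eval_map])
      f hinv M
      (fun γ => ⟨h93_holo_comp_smul hf γ, hexp γ⟩)
  refine ⟨P, hmonic, hdeg, ?_, fun τ => ?_⟩
  · intro i hi
    rw [hdeg] at hi ⊢
    have := hcoeff ((CongruenceSubgroup.Gamma0 N).index - i) (Nat.sub_le _ _)
    rwa [Nat.sub_sub_self hi] at this
  · rw [Polynomial.eval₂_map]
    have h := hroot τ
    convert h using 2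
    ext x
    · simp
    · simp

end Fermat.Agent.S28
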