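import Fermat.Agent.S28.TExp

/-!
# S28 Part I (T6h): transfer of polynomial identities from functions to formal series

If `x, f : ℍ → ℂ` have `𝕋`-expansions `sx, sf` then for every two-variable polynomial `P` the
function `τ ↦ P(x τ, f τ)` has the expansion `P(sx, sf)`; in particular an identity
`P(x τ, f τ) = 0` for all `τ` gives the formal identity `P(sx, sf) = 0`.
-/

set_option autoImplicit false

open ModularCurve UpperHalfPlane Polynomial

noncomputable section

namespace Fermat.Agent.S28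

theorem h52_hasTExp_eval {N : ℕ} (hN : 0 < N) (p : Polynomial ℂ) {x : ℍ → ℂ}
    {sx : LaurentSeries ℂ} (hx : HasTExp N x sx) :
    HasTExp N (fun τ => p.eval (x τ))
      (p.eval₂ (HahnSeries.C : ℂ →+* LaurentSeries ℂ) sx) := by
  rw [Polynomial.eval₂_eq_sum_range]
  have h := HasTExp.finset_sum (N := N) (Finset.range (p.natDegree + 1))
    (g := fun a τ => p.coeff a * (x ^ a) τ)
    (s := fun a => HahnSeries.C (p.coeff a) * sx ^ a)
    (fun a _ => HasTExp.const_mul hN (p.coeff a) (hx.pow hN a))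
  refine h.congr fun τ => ?_
  rw [Polynomial.eval_eq_sum_range, Finset.sum_apply]
  rfl

theorem h52_hasTExp_eval₂ {N : ℕ} (hN : 0 < N) (P : Polynomial (Polynomial ℂ)) {x f : ℍ → ℂ}
    {sx sf : LaurentSeries ℂ} (hx : HasTExp N x sx) (hf : HasTExp N f sf) :
    HasTExp N (fun τ => P.eval₂ (Polynomial.evalRingHom (x τ)) (f τ))
      (P.eval₂ (Polynomial.eval₂RingHom (HahnSeries.C : ℂ →+* LaurentSeries ℂ) sx) sf) := by
  rw [Polynomial.eval₂_eq_sum_range]
  have h := HasTExp.finset_sum (N := N) (Finset.range (P.natDegree + 1))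
    (g := fun b => (fun τ => (P.coeff b).eval (x τ)) * f ^ b)
    (s := fun b => (P.coeff b).eval₂ (HahnSeries.C : ℂ →+* LaurentSeries ℂ) sx * sf ^ b)
    (fun b _ => (h52_hasTExp_eval hN (P.coeff b) hx).mul hN (hf.pow hN b))
  refine h.congr fun τ => ?_
  rw [Polynomial.eval₂_eq_sum_range, Finset.sum_apply]
  rfl

/-- (H4) transfer of an identity `P(x τ, f τ) = 0` to formal series. -/
theorem h52_transfer {N : ℕ} (hN : 0 < N) (P : Polynomial (Polynomial ℂ)) {x f : ℍ → ℂ}
    {sx sf : LaurentSeries ℂ} (hx : HasTExp N x sx) (hf : HasTExp N f sf)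
    (h : ∀ τ : ℍ, P.eval₂ (Polynomial.evalRingHom (x τ)) (f τ) = 0) :
    P.eval₂ (Polynomial.eval₂RingHom (HahnSeries.C : ℂ →+* LaurentSeries ℂ) sx) sf = 0 :=
  HasTExp.eq_zero hN ((h52_hasTExp_eval₂ hN P hx hf).congr h)

/-- Variant of (H4) for a polynomial with coefficients in a subring `S ⊆ ℂ`, in the shape
produced by `charpoly_machine`. -/
theorem h52_transfer_subring {N : ℕ} (hN : 0 < N) (S : Subring ℂ)
    (P : Polynomial (Polynomial S)) {x f : ℍ → ℂ}
    {sx sf : LaurentSeries ℂ} (hx : HasTExp N x sx) (hf : HasTExp N f sf)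
    (h : ∀ τ : ℍ, (P.map (Polynomial.mapRingHom S.subtype)).eval₂
      (Polynomial.evalRingHom (x τ)) (f τ) = 0) :
    (P.map (Polynomial.mapRingHom S.subtype)).eval₂
      (Polynomial.eval₂RingHom (HahnSeries.C : ℂ →+* LaurentSeries ℂ) sx) sf = 0 :=
  h52_transfer hN _ hx hf h

end Fermat.Agent.S28
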