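import Fermat.Agent.S28.ADefs2
import Fermat.Agent.S21.C1.Index

/-!
# S28, task T6g: the index identity `[SL(2, ℤ) : Γ₀(N)] · φ(N) = J₂(N)`

Elementary route: `[SL(2, ℤ) : Γ₀(N)] = ψ(N)` (project ES, WP-C1) and `ψ · φ = J₂`
(all three functions are multiplicative).
-/

set_option autoImplicit false

open ModularCurve

namespace Fermat.Agent.S28

/-- `ψ(N) · φ(N) = J₂(N)`. -/
theorem dedekindPsi_mul_totient (N : ℕ) (hN : 0 < N) :
    (dedekindPsi N : ℤ) * (N.totient : ℤ) = jordanTwo N := by
  induction N using Nat.recOnPosPrimePosCoprime with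
  | prime_pow p k hp hk =>
    obtain ⟨j, rfl⟩ : ∃ j, k = j + 1 := ⟨k - 1, by omega⟩
    rw [Fermat.Agent.S21.C1.dedekindPsi_prime_pow hp hk, Nat.totient_prime_pow hp hk,
      jordanTwo_prime_pow hp j]
    have hp1 : 1 ≤ p := hp.pos
    simp only [Nat.add_sub_cancel]
    push_cast [Nat.cast_sub hp1]
    ring
  | zero => exact absurd hN (lt_irrefl 0)
  | one => simp [dedekindPsi_one, jordanTwo_one]
  | coprime a b ha hb hab iha ihb =>
    rw [Fermat.Agent.S21.C1.dedekindPsi_mul hab, Nat.totient_mul hab,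
      jordanTwo_mul_of_coprime hab, ← iha (by omega), ← ihb (by omega)]
    push_cast
    ring

/-- the index identity -/
theorem index_mul_totient (N : ℕ) [NeZero N] :
    ((CongruenceSubgroup.Gamma0 N).index : ℤ) * N.totient = jordan2 N := by
  rw [Fermat.Agent.S21.C1.index_Gamma0, jordan2_eq_jordanTwo]
  exact dedekindPsi_mul_totient N (Nat.pos_of_ne_zero (NeZero.ne N))

end Fermat.Agent.S28
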