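import Fermat.Agent.S28.ModFun
import Fermat.Agent.S28.Reflect
import Fermat.Agent.S28.H52Alg
import Fermat.Agent.S28.H52Formal
import Fermat.Agent.S28.H52Transfer
import Fermat.Agent.S28.LevelOne
import Fermat.Agent.S28.CharPolyMachine
import Fermat.Agent.S28.IndexTotient

/-!
# S28 Part I: assembly of `IgusaInput` (core form)

`exists_igusaInput_core` produces the characteristic-zero input `IgusaInput N ℓ` from the two
remaining interface statements `BridgeStatement N` (task T6b) and `CuspStatement N` (task T6d).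
-/

set_option autoImplicit false

open ModularCurve UpperHalfPlane Complex
open scoped MatrixGroups Manifold

noncomputable section

namespace Fermat.Agent.S28

/-- the level-one theorem (task T6f), from its core form and the `q`-expansion of `j`. -/
theorem h44_levelOne_poly (hj : HasTExp 1 jAn (cEmb jq)) (S : Subring ℂ) :
    LevelOnePolyStatement S := by
  intro g hg hinv s hs hS M hM
  refine levelOne_poly_core holo_jAn jAn_smul ?_ S g hg hinv s hs hS M hM
  intro a M g s hs
  exact hs.sub ((hj.pow one_pos M).const_mul one_pos a)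

/-- the characteristic polynomial machine (task T6g), from its core form. -/
theorem h44_charpoly_machine (hj : HasTExp 1 jAn (cEmb jq)) (N : ℕ) [NeZero N] (S : Subring ℂ)
    (f : ℍ → ℂ) (hf : Holo f)
    (hinv : ∀ γ ∈ CongruenceSubgroup.Gamma0 N, ∀ τ : ℍ, f (γ • τ) = f τ)
    (M : ℕ)
    (hexp : ∀ γ : SL(2, ℤ), ∃ s : LaurentSeries ℂ, HasTExp N (fun τ => f (γ • τ)) s ∧
      CoeffIn S s ∧ ∀ n : ℤ, n < -((M : ℤ) * N) → s.coeff n = 0) :
    ∃ P : Polynomial (Polynomial S), P.Monic ∧
      P.natDegree = (CongruenceSubgroup.Gamma0 N).index ∧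
      (∀ i : ℕ, i ≤ P.natDegree → (P.coeff (P.natDegree - i)).natDegree ≤ M * i) ∧
      ∀ τ : ℍ, (P.map (Polynomial.mapRingHom S.subtype)).eval₂
        (Polynomial.evalRingHom (jAn τ)) (f τ) = 0 :=
  charpoly_machine_core N S (fun _ _ h hp => HasTExp.to_one h hp) (h44_levelOne_poly hj S)
    f hf hinv M hexp

/-- the characteristic polynomial of `UAn N` over `ℤ[ζ_N, 1/N][j]`. -/
theorem h44_charpoly_UAn (N : ℕ) [NeZero N] (hb : BridgeStatement N) (hc : CuspStatement N) :
    ∃ P : Polynomial (Polynomial (cycRing N)), P.Monic ∧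
      P.natDegree = (CongruenceSubgroup.Gamma0 N).index ∧
      (∀ i : ℕ, i ≤ P.natDegree → (P.coeff (P.natDegree - i)).natDegree ≤ N.totient * i) ∧
      (P.map (Polynomial.mapRingHom (cycRing N).subtype)).eval₂
        (Polynomial.eval₂RingHom (HahnSeries.C : ℂ →+* LaurentSeries ℂ) (cEmb jq))
        (cEmb (modUnit N)) = 0 := by
  have hN : 0 < N := Nat.pos_of_ne_zero (NeZero.ne N)
  obtain ⟨P, hP, hdeg, hbound, hzero⟩ := h44_charpoly_machine hb.1 N (cycRing N) (UAn N)
    (holo_UAn N) (fun γ hγ τ => UAn_smul_of_mem_Gamma0 N hN γ hγ τ) N.totient hc.2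
  exact ⟨P, hP, hdeg, hbound, h52_transfer_subring one_pos _ P hb.1 hb.2.2 hzero⟩

theorem h44_cEmb_jq_ne_zero : cEmb jq ≠ 0 := by
  rw [Ne, map_eq_zero_iff cEmb h52_cEmb_injective]
  exact jq_ne_zero

theorem h44_eval₂_map (S : Subring ℂ) (P : Polynomial (Polynomial S)) (x u : LaurentSeries ℂ) :
    (P.map (Polynomial.mapRingHom S.subtype)).eval₂
      (Polynomial.eval₂RingHom (HahnSeries.C : ℂ →+* LaurentSeries ℂ) x) u =
    P.eval₂ (Polynomial.eval₂RingHom
      ((HahnSeries.C : ℂ →+* LaurentSeries ℂ).comp S.subtype) x) u := by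
  rw [Polynomial.eval₂_map]
  congr 1
  ext a
  · simp
  · simp

/-- **Part I of S28 (core form)**: the characteristic-zero input exists, given the bridge
(T6b) and cusp expansion (T6d) statements. -/
theorem exists_igusaInput_core (N ℓ : ℕ) [NeZero N] [Fact ℓ.Prime] (hℓN : ¬ ℓ ∣ N)
    (hb : BridgeStatement N) (hc : CuspStatement N) :
    Nonempty (IgusaInput N ℓ) := by
  have hN : 0 < N := Nat.pos_of_ne_zero (NeZero.ne N)
  have hI : (CongruenceSubgroup.Gamma0 N).index ≠ 0 := Subgroup.FiniteIndex.index_ne_zero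
  obtain ⟨P, hP, hPdeg, hPbound, hPzero⟩ := h44_charpoly_UAn N hb hc
  refine ⟨{
    U := modUnit N
    m := N.totient
    I := (CongruenceSubgroup.Gamma0 N).index
    m_pos := Nat.totient_pos.mpr hN
    I_pos := Nat.pos_of_ne_zero hI
    U_coeff := fun n => h52_modUnit_coeff N ℓ n
    U_monic := ?_
    U_int := ?_
    Uj_int := ?_
    deg_le := ?_ }⟩
  · have h := h52_modUnit_isMonicOfOrder N
    have h2 := index_mul_totient N
    have h3 : jordan2 N - (N.totient : ℤ) =
        (N.totient : ℤ) * (((CongruenceSubgroup.Gamma0 N).index : ℤ) - 1) := by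
      rw [← h2]; ring
    rwa [h3] at h
  · exact h52_integral_transfer N ℓ hN hℓN jq (modUnit N) P hP hPzero
  · have hQ := h44ReflectPoly_eval
      ((HahnSeries.C : ℂ →+* LaurentSeries ℂ).comp (cycRing N).subtype)
      P N.totient hPbound (cEmb jq) (cEmb (modUnit N)) h44_cEmb_jq_ne_zero
    have hPz : P.eval₂ (Polynomial.eval₂RingHom
        ((HahnSeries.C : ℂ →+* LaurentSeries ℂ).comp (cycRing N).subtype) (cEmb jq))
        (cEmb (modUnit N)) = 0 := by
      rw [← h44_eval₂_map]; exact hPzero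
    rw [hPz, mul_zero] at hQ
    refine h52_integral_transfer N ℓ hN hℓN jq⁻¹ (modUnit N * jq⁻¹ ^ N.totient)
      (h44ReflectPoly P N.totient) (h44ReflectPoly_monic P hP N.totient) ?_
    rw [h44_eval₂_map, map_mul, map_pow, map_inv₀]
    exact hQ
  · intro f hf
    obtain ⟨F, M, hholo, hinv, hexp1, hexpN⟩ := h44Good_of_mem_adjoin N hb hc hf
    obtain ⟨Q, hQ, hQdeg, -, hQzero⟩ := h44_charpoly_machine hb.1 N ⊤ F hholo hinv M
      (fun γ => let ⟨s, hs, hbd⟩ := hexpN γ; ⟨s, hs, fun _ => Subring.mem_top _, hbd⟩)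
    refine h52_descent jq f _ (Q.map (Polynomial.mapRingHom (⊤ : Subring ℂ).subtype))
      (hQ.map _).ne_zero ?_ (h52_transfer one_pos _ hb.1 hexp1 hQzero)
    rw [hQ.natDegree_map]
    exact hQdeg.le

end Fermat.Agent.S28
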