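import Mathlib

/-!
# Coset representatives and norms (S28, Part I)

For a finite index subgroup `Γ` of a group `G` acting on a type `X` we construct a finite set `R`
of representatives of the right cosets `Γ \ G` (containing `1`) such that for every `Γ`-invariant
function `f` on `X` the product `∏ γ ∈ R, f (γ • x)` is `G`-invariant.
-/

set_option autoImplicit false
set_option linter.style.haveILetI false

namespace Fermat.Agent.S28

section General

variable {G : Type*} [Group G] (Γ : Subgroup G)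

open Classical in
/-- a representative of a left coset, normalised so that the trivial coset has representative
`1`. -/
noncomputable def h44Rep (q : G ⧸ Γ) : G :=
  if q = ((1 : G) : G ⧸ Γ) then 1 else Quotient.out q

theorem h44Rep_mk (q : G ⧸ Γ) : ((h44Rep Γ q : G) : G ⧸ Γ) = q := by
  classical
  unfold h44Rep
  split_ifs with h
  · exact h.symm
  · exact Quotient.out_eq' q

theorem h44Rep_one : h44Rep Γ ((1 : G) : G ⧸ Γ) = 1 := by
  classical
  simp [h44Rep]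

theorem h44Rep_injective : Function.Injective (h44Rep Γ) := by
  intro q q' h
  rw [← h44Rep_mk Γ q, ← h44Rep_mk Γ q', h]

theorem h44Rep_mem_iff (q : G ⧸ Γ) : h44Rep Γ q ∈ Γ ↔ q = ((1 : G) : G ⧸ Γ) := by
  constructor
  · intro h
    rw [← h44Rep_mk Γ q]
    refine QuotientGroup.eq.mpr ?_
    simpa using Γ.inv_mem h
  · rintro rfl
    rw [h44Rep_one]
    exact Γ.one_mem

/-- `(rep q)⁻¹ * σ = γ * (rep (σ⁻¹ • q))⁻¹` with `γ ∈ Γ`. -/
theorem h44Rep_inv_mul (σ : G) (q : G ⧸ Γ) :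
    ∃ γ ∈ Γ, (h44Rep Γ q)⁻¹ * σ = γ * (h44Rep Γ (σ⁻¹ • q))⁻¹ := by
  refine ⟨(h44Rep Γ q)⁻¹ * σ * h44Rep Γ (σ⁻¹ • q), ?_, by group⟩
  have h1 : ((h44Rep Γ (σ⁻¹ • q) : G) : G ⧸ Γ) = ((σ⁻¹ * h44Rep Γ q : G) : G ⧸ Γ) := by
    rw [h44Rep_mk]
    conv_lhs => rw [← h44Rep_mk Γ q]
    rfl
  have h2 := QuotientGroup.eq.mp h1.symm
  have h3 : (σ⁻¹ * h44Rep Γ q)⁻¹ * h44Rep Γ (σ⁻¹ • q) =
      (h44Rep Γ q)⁻¹ * σ * h44Rep Γ (σ⁻¹ • q) := by group
  rwa [h3] at h2

variable [Γ.FiniteIndex]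

open Classical in
/-- the set of inverses of the normalised coset representatives -/
noncomputable def h44Reps : Finset G :=
  letI : Fintype (G ⧸ Γ) := Fintype.ofFinite _
  Finset.univ.image fun q : G ⧸ Γ => (h44Rep Γ q)⁻¹

theorem h44Reps_card : (h44Reps Γ).card = Γ.index := by
  classical
  letI : Fintype (G ⧸ Γ) := Fintype.ofFinite _
  unfold h44Reps
  rw [Finset.card_image_of_injective _
    (fun q q' h => h44Rep_injective Γ (inv_injective h)), Finset.card_univ, Subgroup.index,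
    Nat.card_eq_fintype_card]

theorem one_mem_h44Reps : (1 : G) ∈ h44Reps Γ := by
  classical
  letI : Fintype (G ⧸ Γ) := Fintype.ofFinite _
  unfold h44Reps
  rw [Finset.mem_image]
  exact ⟨((1 : G) : G ⧸ Γ), Finset.mem_univ _, by
    rw [h44Rep_one, inv_one]⟩

theorem eq_one_of_mem_h44Reps {γ : G} (hγ : γ ∈ h44Reps Γ) (hΓ : γ ∈ Γ) : γ = 1 := by
  classical
  letI : Fintype (G ⧸ Γ) := Fintype.ofFinite _
  unfold h44Reps at hγ
  rw [Finset.mem_image] at hγ
  obtain ⟨q, -, rfl⟩ := hγ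
  have h1 : h44Rep Γ q ∈ Γ := by simpa using Γ.inv_mem hΓ
  rw [(h44Rep_mem_iff Γ q).mp h1, h44Rep_one, inv_one]

theorem prod_h44Reps {M : Type*} [CommMonoid M] (F : G → M) :
    ∏ γ ∈ h44Reps Γ, F γ =
      letI : Fintype (G ⧸ Γ) := Fintype.ofFinite _
      ∏ q : G ⧸ Γ, F (h44Rep Γ q)⁻¹ := by
  classical
  letI : Fintype (G ⧸ Γ) := Fintype.ofFinite _
  unfold h44Reps
  rw [Finset.prod_image]
  intro q _ q' _ h
  exact h44Rep_injective Γ (inv_injective h)

/-- the norm over the coset representatives of a `Γ`-invariant function is `G`-invariant. -/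
theorem prod_h44Reps_smul {X : Type*} [MulAction G X] {M : Type*} [CommMonoid M] (f : X → M)
    (hf : ∀ γ ∈ Γ, ∀ x, f (γ • x) = f x) (σ : G) (x : X) :
    ∏ γ ∈ h44Reps Γ, f (γ • (σ • x)) = ∏ γ ∈ h44Reps Γ, f (γ • x) := by
  classical
  letI : Fintype (G ⧸ Γ) := Fintype.ofFinite _
  rw [prod_h44Reps Γ (fun γ => f (γ • (σ • x))), prod_h44Reps Γ (fun γ => f (γ • x))]
  have key : ∀ q : G ⧸ Γ, f ((h44Rep Γ q)⁻¹ • (σ • x)) = f ((h44Rep Γ (σ⁻¹ • q))⁻¹ • x) := by
    intro q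
    obtain ⟨γ, hγ, h⟩ := h44Rep_inv_mul Γ σ q
    rw [← mul_smul, h, mul_smul, hf γ hγ]
  simp only [key]
  exact Equiv.prod_comp (MulAction.toPerm (σ⁻¹ : G)) (fun q => f ((h44Rep Γ q)⁻¹ • x))

end General

end Fermat.Agent.S28
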