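import Mathlib.AlgebraicGeometry.Properties
import Mathlib.AlgebraicGeometry.Cover.Open
import Mathlib.Topology.Irreducible

/-!
# A scheme covered by integral open subschemes with pairwise nonempty overlaps is integral
-/

set_option autoImplicit false

universe u

open CategoryTheory AlgebraicGeometry TopologicalSpace

namespace Fermat.Agent.S28

/-- A topological space covered by a nonempty family of irreducible open subsets which
pairwise intersect is irreducible. -/
theorem irreducibleSpace_of_cover {X : Type*} [TopologicalSpace X] {ι : Type*} [Nonempty ι]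
    (R : ι → Set X) (hopen : ∀ i, IsOpen (R i)) (hirr : ∀ i, IsIrreducible (R i))
    (hcov : ∀ x, ∃ i, x ∈ R i) (hint : ∀ i j, (R i ∩ R j).Nonempty) :
    IrreducibleSpace X := by
  have : Nonempty X := by
    obtain ⟨i⟩ := ‹Nonempty ι›
    obtain ⟨x, -⟩ := (hirr i).nonempty
    exact ⟨x⟩
  refine { isPreirreducible_univ := ?_, toNonempty := inferInstance }
  rintro u v hu hv ⟨x, -, hxu⟩ ⟨y, -, hyv⟩
  obtain ⟨i, hxi⟩ := hcov x
  obtain ⟨j, hyj⟩ := hcov y
  -- `u` meets `R j`
  obtain ⟨z, hzi, hzu, hzj⟩ := (hirr i).isPreirreducible u (R j) hu (hopen j) ⟨x, hxi, hxu⟩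
    (hint i j)
  obtain ⟨w, -, hwu, hwv⟩ := (hirr j).isPreirreducible u v hu hv ⟨z, hzj, hzu⟩ ⟨y, hyj, hyv⟩
  exact ⟨w, Set.mem_univ _, hwu, hwv⟩

/-- A scheme with an open cover by integral schemes with pairwise intersecting images
is integral. -/
theorem isIntegral_of_openCover {X : Scheme.{u}} (𝒰 : X.OpenCover) [Nonempty 𝒰.I₀]
    [∀ i, IsIntegral (𝒰.X i)]
    (hint : ∀ i j, (Set.range (𝒰.f i) ∩ Set.range (𝒰.f j)).Nonempty) :
    IsIntegral X := by
  have : IsReduced X := IsReduced.of_openCover _ 𝒰
  have : IrreducibleSpace X := by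
    refine irreducibleSpace_of_cover (fun i => Set.range (𝒰.f i))
      (fun i => (𝒰.f i).isOpenEmbedding.isOpen_range) (fun i => ?_)
      (fun x => ?_) hint
    · rw [← Set.image_univ]
      exact (IrreducibleSpace.isIrreducible_univ _).image _ (𝒰.f i).continuous.continuousOn
    · obtain ⟨i, y, hy⟩ := 𝒰.exists_eq x
      exact ⟨i, y, hy⟩
  exact isIntegral_of_irreducibleSpace_of_isReduced X

end Fermat.Agent.S28
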