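import Mathlib
import Fermat.Prelude.Def_ModularCurve_LaurentCoeff
import Fermat.Prelude.Def_ModularCurve_X0

/-!
# S28, Part II (pure algebra), step 1: the Newton-polygon lemma

`k` a field, `J u : k((q))` with `ord J = -1`, `ord u = m (I - 1)`, `u` integral over `k[J]`,
`u / J^m` integral over `k[1/J]`.  Then `u` has degree `≥ I` over `k(J)`; and if a monic
polynomial of degree exactly `I` over `k[J]` kills `u`, its constant term is a nonzero constant
`c` and `P'(u) * u + c` has positive order.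
-/

set_option autoImplicit false

open Polynomial

noncomputable section

namespace Fermat.Agent.S28.H18Alg

variable {k : Type*} [Field k]

/-- Evaluation `k[X] → k((q))`, `X ↦ J`. -/
def evalL (J : LaurentSeries k) : Polynomial k →+* LaurentSeries k :=
  Polynomial.eval₂RingHom (algebraMap k (LaurentSeries k)) J

theorem evalL_apply (J : LaurentSeries k) (p : Polynomial k) :
    evalL J p = p.eval₂ (algebraMap k (LaurentSeries k)) J := rfl

theorem orderTop_algebraMap_of_ne_zero {c : k} (hc : c ≠ 0) :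
    (algebraMap k (LaurentSeries k) c).orderTop = 0 := by
  rw [ModularCurve.algebraMap_laurentSeries_eq_single, HahnSeries.orderTop_single hc]
  rfl

theorem zero_le_orderTop_algebraMap (c : k) :
    (0 : WithTop ℤ) ≤ (algebraMap k (LaurentSeries k) c).orderTop := by
  rw [ModularCurve.algebraMap_laurentSeries_eq_single]
  exact HahnSeries.orderTop_single_le

theorem orderTop_pow (x : LaurentSeries k) (n : ℕ) : (x ^ n).orderTop = n • x.orderTop := by
  have := (HahnSeries.addVal ℤ k).map_pow x n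
  rwa [HahnSeries.addVal_apply, HahnSeries.addVal_apply] at this

theorem orderTop_pow_of_eq {x : LaurentSeries k} {a : ℤ} (hx : x.orderTop = (a : WithTop ℤ))
    (n : ℕ) : (x ^ n).orderTop = ((n * a : ℤ) : WithTop ℤ) := by
  rw [orderTop_pow, hx, ← WithTop.coe_nsmul, nsmul_eq_mul]

/-- Lower bound: `ord p(J) ≥ -deg p` when `ord J = -1`. -/
theorem le_orderTop_evalL {J : LaurentSeries k} (hJ : J.orderTop = ((-1 : ℤ) : WithTop ℤ))
    (p : Polynomial k) (N : ℕ) (hN : p.natDegree ≤ N) :
    ((-(N : ℤ) : ℤ) : WithTop ℤ) ≤ (evalL J p).orderTop := by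
  rw [evalL_apply, Polynomial.eval₂_eq_sum_range]
  have := (HahnSeries.addVal ℤ k).map_le_sum (s := Finset.range (p.natDegree + 1))
    (f := fun i => algebraMap k (LaurentSeries k) (p.coeff i) * J ^ i)
    (g := ((-(N : ℤ) : ℤ) : WithTop ℤ)) ?_
  · simpa [HahnSeries.addVal_apply] using this
  · intro i hi
    rw [HahnSeries.addVal_apply, HahnSeries.orderTop_mul, orderTop_pow_of_eq hJ]
    have hi' : i ≤ N := by
      have := Finset.mem_range.mp hi
      omega
    calc ((-(N : ℤ) : ℤ) : WithTop ℤ) ≤ ((i * (-1) : ℤ) : WithTop ℤ) := by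
          exact_mod_cast (by omega : -(N : ℤ) ≤ i * (-1))
      _ = 0 + ((i * (-1) : ℤ) : WithTop ℤ) := by rw [zero_add]
      _ ≤ _ := by gcongr; exact zero_le_orderTop_algebraMap _

/-- Exact order: `ord p(J) = -deg p` for `p ≠ 0` when `ord J = -1`. -/
theorem orderTop_evalL {J : LaurentSeries k} (hJ : J.orderTop = ((-1 : ℤ) : WithTop ℤ))
    {p : Polynomial k} (hp : p ≠ 0) :
    (evalL J p).orderTop = ((-(p.natDegree : ℤ) : ℤ) : WithTop ℤ) := by
  rw [evalL_apply, Polynomial.eval₂_eq_sum_range, Finset.sum_range_succ]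
  have hlead : (algebraMap k (LaurentSeries k) (p.coeff p.natDegree) * J ^ p.natDegree).orderTop
      = ((-(p.natDegree : ℤ) : ℤ) : WithTop ℤ) := by
    rw [HahnSeries.orderTop_mul, orderTop_pow_of_eq hJ, orderTop_algebraMap_of_ne_zero, zero_add]
    · congr 1; ring
    · exact Polynomial.leadingCoeff_ne_zero.mpr hp
  rw [HahnSeries.orderTop_add_eq_right, hlead]
  rw [hlead]
  rcases Nat.eq_zero_or_pos p.natDegree with h0 | hpos
  · rw [h0]; simp
  · have := (HahnSeries.addVal ℤ k).map_le_sum (s := Finset.range p.natDegree)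
      (f := fun i => algebraMap k (LaurentSeries k) (p.coeff i) * J ^ i)
      (g := ((-((p.natDegree - 1 : ℕ) : ℤ) : ℤ) : WithTop ℤ)) ?_
    · rw [HahnSeries.addVal_apply] at this
      refine lt_of_lt_of_le ?_ this
      exact_mod_cast (by omega : -(p.natDegree : ℤ) < -((p.natDegree - 1 : ℕ) : ℤ))
    · intro i hi
      rw [HahnSeries.addVal_apply, HahnSeries.orderTop_mul, orderTop_pow_of_eq hJ]
      have hi' : i ≤ p.natDegree - 1 := by
        have := Finset.mem_range.mp hi
        omega
      calc ((-((p.natDegree - 1 : ℕ) : ℤ) : ℤ) : WithTop ℤ) ≤ ((i * (-1) : ℤ) : WithTop ℤ) := by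
            exact_mod_cast (by omega : -((p.natDegree - 1 : ℕ) : ℤ) ≤ i * (-1))
        _ = 0 + ((i * (-1) : ℤ) : WithTop ℤ) := by rw [zero_add]
        _ ≤ _ := by gcongr; exact zero_le_orderTop_algebraMap _

theorem evalL_injective {J : LaurentSeries k} (hJ : J.orderTop = ((-1 : ℤ) : WithTop ℤ)) :
    Function.Injective (evalL J) := by
  rw [injective_iff_map_eq_zero]
  intro p hp
  by_contra hne
  have := orderTop_evalL hJ hne
  rw [hp, HahnSeries.orderTop_zero] at this
  exact WithTop.top_ne_coe this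

/-- If `0 ≤ ord J'` then `0 ≤ ord p(J')`. -/
theorem zero_le_orderTop_evalL {J' : LaurentSeries k} (hJ' : (0 : WithTop ℤ) ≤ J'.orderTop)
    (p : Polynomial k) : (0 : WithTop ℤ) ≤ (evalL J' p).orderTop := by
  rw [evalL_apply, Polynomial.eval₂_eq_sum_range]
  have := (HahnSeries.addVal ℤ k).map_le_sum (s := Finset.range (p.natDegree + 1))
    (f := fun i => algebraMap k (LaurentSeries k) (p.coeff i) * J' ^ i)
    (g := (0 : WithTop ℤ)) ?_
  · simpa [HahnSeries.addVal_apply] using this
  · intro i _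
    rw [HahnSeries.addVal_apply, HahnSeries.orderTop_mul, orderTop_pow]
    have h1 := zero_le_orderTop_algebraMap (p.coeff i)
    have h2 : (0 : WithTop ℤ) ≤ i • J'.orderTop := nsmul_nonneg hJ' i
    calc (0 : WithTop ℤ) = 0 + 0 := by simp
      _ ≤ _ := add_le_add h1 h2

/-! ### Power series inside Laurent series -/

theorem zero_le_orderTop_ofPowerSeries (p : PowerSeries k) :
    (0 : WithTop ℤ) ≤ (algebraMap (PowerSeries k) (LaurentSeries k) p).orderTop := by
  rw [HahnSeries.le_orderTop_iff_forall]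
  intro j hj
  have hj' : j < 0 := by exact_mod_cast hj
  rw [LaurentSeries.coe_algebraMap]
  exact ModularCurve.ofPowerSeries_coeff_of_neg p hj'

theorem mem_range_of_zero_le_orderTop {x : LaurentSeries k} (hx : (0 : WithTop ℤ) ≤ x.orderTop) :
    x ∈ Set.range (algebraMap (PowerSeries k) (LaurentSeries k)) := by
  have h0 : 0 ≤ x.order := HahnSeries.zero_le_orderTop_iff.mp hx
  obtain ⟨n, hn⟩ := Int.eq_ofNat_of_zero_le h0
  refine ⟨PowerSeries.X ^ n * x.powerSeriesPart, ?_⟩
  rw [LaurentSeries.coe_algebraMap]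
  exact LaurentSeries.X_order_mul_powerSeriesPart hn.symm

/-! ### Bounded polynomials and Gauss's lemma -/

/-- `IsBdd m G`: the coefficient of `Y^j` in `G` has order `≥ -m (deg G - j)`. -/
def IsBdd (m : ℕ) (G : Polynomial (LaurentSeries k)) : Prop :=
  ∀ j : ℕ, ((-((m * (G.natDegree - j) : ℕ) : ℤ) : ℤ) : WithTop ℤ) ≤ (G.coeff j).orderTop

theorem orderTop_single_one (a : ℤ) :
    (HahnSeries.single a (1 : k)).orderTop = (a : WithTop ℤ) :=
  HahnSeries.orderTop_single one_ne_zero

theorem isBdd_iff_scaleRoots (m : ℕ) (G : Polynomial (LaurentSeries k)) :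
    IsBdd m G ↔ ∀ j : ℕ, (0 : WithTop ℤ) ≤
      ((G.scaleRoots (HahnSeries.single (m : ℤ) (1 : k))).coeff j).orderTop := by
  unfold IsBdd
  refine forall_congr' fun j => ?_
  rw [Polynomial.coeff_scaleRoots, HahnSeries.orderTop_mul,
    orderTop_pow_of_eq (orderTop_single_one (m : ℤ))]
  rcases eq_or_ne (G.coeff j) 0 with h0 | h0
  · simp [h0]
  · obtain ⟨a, ha⟩ := WithTop.ne_top_iff_exists.mp (HahnSeries.orderTop_ne_top.mpr h0)
    rw [← ha, ← WithTop.coe_add]
    constructor
    · intro h
      have h' : -((m * (G.natDegree - j) : ℕ) : ℤ) ≤ a := by exact_mod_cast h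
      have : (0 : ℤ) ≤ a + ((G.natDegree - j : ℕ) : ℤ) * (m : ℤ) := by
        push_cast at h' ⊢; nlinarith
      exact_mod_cast this
    · intro h
      have h' : (0 : ℤ) ≤ a + ((G.natDegree - j : ℕ) : ℤ) * (m : ℤ) := by exact_mod_cast h
      have : -((m * (G.natDegree - j) : ℕ) : ℤ) ≤ a := by
        push_cast at h' ⊢; nlinarith
      exact_mod_cast this

/-- Gauss's lemma for `k[[q]] ⊂ k((q))`: a monic divisor of a monic bounded polynomial is
bounded. -/
theorem IsBdd.of_dvd {m : ℕ} {G H : Polynomial (LaurentSeries k)} (hG : G.Monic) (hH : H.Monic)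
    (hdvd : G ∣ H) (hb : IsBdd m H) : IsBdd m G := by
  rw [isBdd_iff_scaleRoots] at hb ⊢
  set s : LaurentSeries k := HahnSeries.single (m : ℤ) (1 : k)
  have hHs : (H.scaleRoots s).Monic := (Polynomial.monic_scaleRoots_iff s).mpr hH
  have hGs : (G.scaleRoots s).Monic := (Polynomial.monic_scaleRoots_iff s).mpr hG
  have hlift : H.scaleRoots s ∈ Polynomial.lifts (algebraMap (PowerSeries k) (LaurentSeries k)) := by
    rw [Polynomial.lifts_iff_coeff_lifts]
    intro n
    exact mem_range_of_zero_le_orderTop (hb n)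
  obtain ⟨H0, hH0, -, hH0m⟩ := Polynomial.lifts_and_natDegree_eq_and_monic hlift hHs
  have hd : G.scaleRoots s ∣ H0.map (algebraMap (PowerSeries k) (LaurentSeries k)) := by
    rw [hH0]
    exact Polynomial.scaleRoots_dvd _ _ hdvd
  obtain ⟨g', hg'⟩ := IsIntegrallyClosed.eq_map_mul_C_of_dvd (LaurentSeries k) hH0m hd
  rw [hGs.leadingCoeff, map_one, mul_one] at hg'
  intro j
  rw [← hg', Polynomial.coeff_map]
  exact zero_le_orderTop_ofPowerSeries _

/-! ### The Newton polygon argument -/

theorem term_bound {m I : ℕ} {u : LaurentSeries k}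
    (hu : u.orderTop = (((m * (I - 1) : ℕ) : ℤ) : WithTop ℤ))
    {G : Polynomial (LaurentSeries k)} (hG : IsBdd m G) (j : ℕ) :
    ((((m : ℤ) * ((j : ℤ) * (I : ℤ) - (G.natDegree : ℤ)) : ℤ)) : WithTop ℤ) ≤
      (G.coeff j * u ^ j).orderTop := by
  rcases eq_or_ne (G.coeff j) 0 with h0 | h0
  · simp [h0]
  · have hj : j ≤ G.natDegree := Polynomial.le_natDegree_of_ne_zero h0
    rw [HahnSeries.orderTop_mul, orderTop_pow_of_eq hu]
    have h1 := hG j
    obtain ⟨a, ha⟩ := WithTop.ne_top_iff_exists.mp (HahnSeries.orderTop_ne_top.mpr h0)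
    rw [← ha] at h1 ⊢
    rw [← WithTop.coe_add]
    have h1' : -((m * (G.natDegree - j) : ℕ) : ℤ) ≤ a := by exact_mod_cast h1
    have key : (m : ℤ) * ((j : ℤ) * (I : ℤ) - (G.natDegree : ℤ)) ≤
        a + (j : ℤ) * ((m * (I - 1) : ℕ) : ℤ) := by
      have e1 : ((m * (G.natDegree - j) : ℕ) : ℤ) = (m : ℤ) * ((G.natDegree : ℤ) - (j : ℤ)) := by
        rw [Nat.cast_mul, Nat.cast_sub hj]
      rw [e1] at h1'
      rcases Nat.eq_zero_or_pos I with hI | hI
      · subst hI
        simp only [Nat.zero_sub, Nat.cast_zero, mul_zero, add_zero, zero_sub]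
        have : (0 : ℤ) ≤ (m : ℤ) * (j : ℤ) := by positivity
        nlinarith
      · have e2 : ((m * (I - 1) : ℕ) : ℤ) = (m : ℤ) * ((I : ℤ) - 1) := by
          rw [Nat.cast_mul, Nat.cast_sub hI]; simp
        rw [e2]
        nlinarith
    exact_mod_cast key

/-- **Newton polygon lemma** (degree bound). -/
theorem natDegree_ge_of_isBdd {m I : ℕ} (hm : 1 ≤ m) {u : LaurentSeries k}
    (hu : u.orderTop = (((m * (I - 1) : ℕ) : ℤ) : WithTop ℤ))
    {G : Polynomial (LaurentSeries k)} (hG : IsBdd m G)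
    (h0 : (G.coeff 0).orderTop ≤ 0) (hroot : G.eval u = 0) : I ≤ G.natDegree := by
  by_contra hlt
  rw [not_le] at hlt
  have hsum : G.eval u = ∑ i ∈ Finset.range (G.natDegree + 1), G.coeff i * u ^ i :=
    Polynomial.eval_eq_sum_range u
  rw [Finset.sum_range_succ'] at hsum
  have hpos : (0 : WithTop ℤ) <
      (∑ i ∈ Finset.range G.natDegree, G.coeff (i + 1) * u ^ (i + 1)).orderTop := by
    have := (HahnSeries.addVal ℤ k).map_lt_sum (s := Finset.range G.natDegree)
      (f := fun i => G.coeff (i + 1) * u ^ (i + 1)) (g := (0 : WithTop ℤ)) (by simp) ?_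
    · simpa [HahnSeries.addVal_apply] using this
    · intro i _
      rw [HahnSeries.addVal_apply]
      refine lt_of_lt_of_le ?_ (term_bound hu hG (i + 1))
      have : (0 : ℤ) < (m : ℤ) * (((i + 1 : ℕ) : ℤ) * (I : ℤ) - (G.natDegree : ℤ)) := by
        have h1 : (G.natDegree : ℤ) + 1 ≤ (I : ℤ) := by exact_mod_cast hlt
        have h2 : (1 : ℤ) ≤ (m : ℤ) := by exact_mod_cast hm
        have h3 : (0 : ℤ) ≤ (i : ℤ) := by positivity
        have h4 : (0 : ℤ) ≤ (I : ℤ) := by positivity
        push_cast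
        have : (0 : ℤ) < ((i : ℤ) + 1) * (I : ℤ) - (G.natDegree : ℤ) := by nlinarith
        positivity
      exact_mod_cast this
  have hord : (G.eval u).orderTop = (G.coeff 0).orderTop := by
    rw [hsum, pow_zero, mul_one]
    exact HahnSeries.orderTop_add_eq_right (lt_of_le_of_lt h0 hpos)
  rw [hroot, HahnSeries.orderTop_zero] at hord
  rw [← hord] at h0
  exact absurd h0 (by simp)

/-- **Newton polygon lemma** (structure in the extremal case `deg G = I`): the constant term
has order `0` and `G'(u) u + G(0)` has positive order. -/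
theorem newton_structure_of_isBdd {m I : ℕ} (hm : 1 ≤ m) {u : LaurentSeries k}
    (hu : u.orderTop = (((m * (I - 1) : ℕ) : ℤ) : WithTop ℤ))
    {G : Polynomial (LaurentSeries k)} (hG : IsBdd m G) (hd : G.natDegree = I)
    (h0 : (G.coeff 0).orderTop ≤ 0) (hroot : G.eval u = 0) :
    (G.coeff 0).orderTop = 0 ∧
      (0 : WithTop ℤ) < ((Polynomial.derivative G).eval u * u + G.coeff 0).orderTop := by
  have hm' : (1 : ℤ) ≤ (m : ℤ) := by exact_mod_cast hm
  have hI0 : (0 : ℤ) ≤ (I : ℤ) := by positivity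
  constructor
  · refine le_antisymm h0 ?_
    have hsum : G.eval u = ∑ i ∈ Finset.range (G.natDegree + 1), G.coeff i * u ^ i :=
      Polynomial.eval_eq_sum_range u
    rw [Finset.sum_range_succ', hroot, pow_zero, mul_one] at hsum
    have hc0 : G.coeff 0 = -(∑ i ∈ Finset.range G.natDegree, G.coeff (i + 1) * u ^ (i + 1)) := by
      rw [eq_neg_iff_add_eq_zero, add_comm]; exact hsum.symm
    rw [hc0, HahnSeries.orderTop_neg]
    have := (HahnSeries.addVal ℤ k).map_le_sum (s := Finset.range G.natDegree)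
      (f := fun i => G.coeff (i + 1) * u ^ (i + 1)) (g := (0 : WithTop ℤ)) ?_
    · simpa [HahnSeries.addVal_apply] using this
    · intro i _
      rw [HahnSeries.addVal_apply]
      refine le_trans ?_ (term_bound hu hG (i + 1))
      have : (0 : ℤ) ≤ (m : ℤ) * (((i + 1 : ℕ) : ℤ) * (I : ℤ) - (G.natDegree : ℤ)) := by
        rw [hd]
        have h3 : (0 : ℤ) ≤ (i : ℤ) := by positivity
        push_cast
        have : (0 : ℤ) ≤ ((i : ℤ) + 1) * (I : ℤ) - (I : ℤ) := by nlinarith
        positivity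
      exact_mod_cast this
  · set D : Polynomial (LaurentSeries k) :=
      Polynomial.X * Polynomial.derivative G - G + Polynomial.C (G.coeff 0) with hD
    have hDeval : D.eval u = (Polynomial.derivative G).eval u * u + G.coeff 0 := by
      simp only [hD, Polynomial.eval_add, Polynomial.eval_sub, Polynomial.eval_mul,
        Polynomial.eval_X, Polynomial.eval_C, hroot, sub_zero]
      ring
    have hDcoeff : ∀ j : ℕ, D.coeff j = if j = 0 then 0 else ((j : LaurentSeries k) - 1) * G.coeff j := by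
      intro j
      rcases j with _ | j
      · simp [hD]
      · simp only [hD, Polynomial.coeff_add, Polynomial.coeff_sub, Polynomial.coeff_X_mul,
          Polynomial.coeff_derivative, Polynomial.coeff_C_succ, add_zero, Nat.succ_ne_zero,
          if_false]
        push_cast
        ring
    have hDdeg : D.natDegree < G.natDegree + 1 := by
      rw [Nat.lt_succ_iff, Polynomial.natDegree_le_iff_coeff_eq_zero]
      intro j hj
      rw [hDcoeff j, if_neg (by omega), Polynomial.coeff_eq_zero_of_natDegree_lt hj, mul_zero]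
    rw [← hDeval, Polynomial.eval_eq_sum_range' hDdeg]
    have := (HahnSeries.addVal ℤ k).map_lt_sum (s := Finset.range (G.natDegree + 1))
      (f := fun i => D.coeff i * u ^ i) (g := (0 : WithTop ℤ)) (by simp) ?_
    · simpa [HahnSeries.addVal_apply] using this
    · intro j _
      rw [HahnSeries.addVal_apply, hDcoeff j]
      rcases j with _ | j
      · simp
      rcases j with _ | j
      · simp
      rw [if_neg (by omega), mul_assoc, HahnSeries.orderTop_mul]
      have hscal : (0 : WithTop ℤ) ≤ (((j + 1 + 1 : ℕ) : LaurentSeries k) - 1).orderTop := by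
        have : (((j + 1 + 1 : ℕ) : LaurentSeries k) - 1) =
            algebraMap k (LaurentSeries k) ((j : k) + 1) := by
          push_cast; simp
        rw [this]
        exact zero_le_orderTop_algebraMap _
      have hterm : (0 : WithTop ℤ) < (G.coeff (j + 1 + 1) * u ^ (j + 1 + 1)).orderTop := by
        refine lt_of_lt_of_le ?_ (term_bound hu hG (j + 1 + 1))
        rcases eq_or_ne (G.coeff (j + 1 + 1)) 0 with hz | hz
        · -- degenerate: still need the integer inequality; use `I ≥ 1` from degree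
          have hI1 : (1 : ℤ) ≤ (I : ℤ) := by
            by_contra hcon
            have hI : I = 0 := by omega
            -- then `G` has degree 0 and is a nonzero constant with a root
            have hG0 : G = Polynomial.C (G.coeff 0) :=
              Polynomial.eq_C_of_natDegree_eq_zero (by rw [hd, hI])
            rw [hG0, Polynomial.eval_C] at hroot
            rw [hroot, HahnSeries.orderTop_zero] at h0
            exact absurd h0 (by simp)
          have : (0 : ℤ) < (m : ℤ) * (((j + 1 + 1 : ℕ) : ℤ) * (I : ℤ) - (G.natDegree : ℤ)) := by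
            rw [hd]
            have h3 : (0 : ℤ) ≤ (j : ℤ) := by positivity
            push_cast
            have : (0 : ℤ) < ((j : ℤ) + 1 + 1) * (I : ℤ) - (I : ℤ) := by nlinarith
            positivity
          exact_mod_cast this
        · have hjd : j + 1 + 1 ≤ G.natDegree := Polynomial.le_natDegree_of_ne_zero hz
          have hI1 : (1 : ℤ) ≤ (I : ℤ) := by
            have : 1 ≤ I := by omega
            exact_mod_cast this
          have : (0 : ℤ) < (m : ℤ) * (((j + 1 + 1 : ℕ) : ℤ) * (I : ℤ) - (G.natDegree : ℤ)) := by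
            rw [hd]
            have h3 : (0 : ℤ) ≤ (j : ℤ) := by positivity
            push_cast
            have : (0 : ℤ) < ((j : ℤ) + 1 + 1) * (I : ℤ) - (I : ℤ) := by nlinarith
            positivity
          exact_mod_cast this
      exact lt_of_lt_of_le hterm (le_add_of_nonneg_left hscal)

/-! ### Abstract minimal polynomials over an integrally closed domain (ring-hom form) -/

/-- Over an integrally closed domain `A` mapping injectively into a domain `E`, an integral
element `u` has a monic minimal polynomial dividing every polynomial that kills `u`. -/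
theorem exists_monic_dvd_of_integral {A E : Type*} [CommRing A] [IsDomain A]
    [IsIntegrallyClosed A] [CommRing E] [IsDomain E] (φ : A →+* E)
    (hφ : Function.Injective φ) (u : E)
    (hint : ∃ P : Polynomial A, P.Monic ∧ P.eval₂ φ u = 0) :
    ∃ g : Polynomial A, g.Monic ∧ g.eval₂ φ u = 0 ∧
      (∀ Q : Polynomial A, Q.eval₂ φ u = 0 → g ∣ Q) ∧ (u ≠ 0 → g.coeff 0 ≠ 0) := by
  let _ : Algebra A E := φ.toAlgebra
  have : Module.IsTorsionFree A E := Module.isTorsionFree_iff_algebraMap_injective.mpr hφ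
  have hu : IsIntegral A u := hint
  have hdvd : ∀ Q : Polynomial A, Q.eval₂ φ u = 0 → minpoly A u ∣ Q := fun Q hQ =>
    minpoly.isIntegrallyClosed_dvd hu (p := Q) hQ
  refine ⟨minpoly A u, minpoly.monic hu, minpoly.aeval A u, hdvd, ?_⟩
  intro hu0 hc
  obtain ⟨g', hg'⟩ := Polynomial.X_dvd_iff.mpr hc
  have hg'0 : g' ≠ 0 := by
    rintro rfl
    rw [mul_zero] at hg'
    exact (minpoly.monic hu).ne_zero hg'
  have hroot : g'.eval₂ φ u = 0 := by
    have h1 : (minpoly A u).eval₂ φ u = 0 := minpoly.aeval A u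
    rw [hg', Polynomial.eval₂_mul, Polynomial.eval₂_X] at h1
    exact (mul_eq_zero.mp h1).resolve_left hu0
  have h2 := Polynomial.natDegree_le_of_dvd (hdvd g' hroot) hg'0
  rw [hg', Polynomial.natDegree_X_mul hg'0] at h2
  omega

/-! ### Newton data -/

/-- The hypotheses of the Newton lemma. -/
structure NewtonData (J u : LaurentSeries k) (m I : ℕ) : Prop where
  hm : 1 ≤ m
  hJ : J.orderTop = ((-1 : ℤ) : WithTop ℤ)
  hu : u.orderTop = (((m * (I - 1) : ℕ) : ℤ) : WithTop ℤ)
  int1 : ∃ P : Polynomial (Polynomial k), P.Monic ∧ P.eval₂ (evalL J) u = 0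
  int2 : ∃ P : Polynomial (Polynomial k), P.Monic ∧ P.eval₂ (evalL J⁻¹) (u * J⁻¹ ^ m) = 0

namespace NewtonData

variable {J u : LaurentSeries k} {m I : ℕ}

theorem J_ne_zero (h : NewtonData J u m I) : J ≠ 0 := by
  intro h0
  have := h.hJ
  rw [h0, HahnSeries.orderTop_zero] at this
  exact WithTop.top_ne_coe this

theorem u_ne_zero (h : NewtonData J u m I) : u ≠ 0 := by
  intro h0
  have := h.hu
  rw [h0, HahnSeries.orderTop_zero] at this
  exact WithTop.top_ne_coe this

theorem orderTop_inv (h : NewtonData J u m I) : (J⁻¹).orderTop = ((1 : ℤ) : WithTop ℤ) := by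
  have hJ0 := h.J_ne_zero
  have h1 : (J * J⁻¹).orderTop = 0 := by
    rw [mul_inv_cancel₀ hJ0]; exact HahnSeries.orderTop_one
  rw [HahnSeries.orderTop_mul, h.hJ] at h1
  obtain ⟨a, ha⟩ := WithTop.ne_top_iff_exists.mp
    (HahnSeries.orderTop_ne_top.mpr (inv_ne_zero hJ0))
  rw [← ha, ← WithTop.coe_add] at h1
  rw [← ha]
  have : (-1 : ℤ) + a = 0 := by exact_mod_cast h1
  have : a = 1 := by omega
  rw [this]

/-- For `p` of degree `≤ M`, `J^M * p(1/J)` is a polynomial in `J`. -/
theorem pow_mul_evalL_inv_mem_range (h : NewtonData J u m I) (p : Polynomial k) (M : ℕ)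
    (hM : p.natDegree ≤ M) : J ^ M * evalL J⁻¹ p ∈ (evalL J).range := by
  have hJ0 := h.J_ne_zero
  rw [evalL_apply, Polynomial.eval₂_eq_sum_range' _ (Nat.lt_succ_of_le hM), Finset.mul_sum]
  refine Subring.sum_mem _ fun i hi => ?_
  have hi' : i ≤ M := Nat.lt_succ_iff.mp (Finset.mem_range.mp hi)
  refine ⟨Polynomial.C (p.coeff i) * Polynomial.X ^ (M - i), ?_⟩
  simp only [evalL, Polynomial.coe_eval₂RingHom, Polynomial.eval₂_mul, Polynomial.eval₂_C,
    Polynomial.eval₂_pow, Polynomial.eval₂_X]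
  have : J ^ M * J⁻¹ ^ i = J ^ (M - i) := by
    rw [inv_pow, pow_sub₀ J hJ0 hi']
  rw [mul_left_comm, this]

/-- Clearing denominators: `J^M * scaleRoots (P2(1/J, Y)) (J^m)` has coefficients in `k[J]`. -/
theorem exists_lift_scaleRoots (h : NewtonData J u m I) (P2 : Polynomial (Polynomial k)) :
    ∃ (Q : Polynomial (Polynomial k)) (M : ℕ),
      Q.map (evalL J) = Polynomial.C (J ^ M) * (P2.map (evalL J⁻¹)).scaleRoots (J ^ m) := by
  set H0 : Polynomial (LaurentSeries k) := P2.map (evalL J⁻¹) with hH0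
  set M : ℕ := (Finset.range (P2.natDegree + 1)).sup (fun j => (P2.coeff j).natDegree) with hM
  have hlift : Polynomial.C (J ^ M) * H0.scaleRoots (J ^ m) ∈ Polynomial.lifts (evalL J) := by
    rw [Polynomial.lifts_iff_coeff_lifts]
    intro j
    rw [Polynomial.coeff_C_mul, Polynomial.coeff_scaleRoots, hH0, Polynomial.coeff_map,
      ← mul_assoc]
    rcases le_or_gt j P2.natDegree with hj | hj
    · have hMj : (P2.coeff j).natDegree ≤ M :=
        Finset.le_sup (f := fun j => (P2.coeff j).natDegree)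
          (Finset.mem_range.mpr (Nat.lt_succ_of_le hj))
      obtain ⟨a, ha⟩ := h.pow_mul_evalL_inv_mem_range (P2.coeff j) M hMj
      refine ⟨a * (Polynomial.X ^ m) ^ ((Polynomial.map (evalL J⁻¹) P2).natDegree - j), ?_⟩
      rw [map_mul, ha, map_pow, map_pow]
      simp [evalL]
    · rw [Polynomial.coeff_eq_zero_of_natDegree_lt hj]
      exact ⟨0, by simp⟩
  obtain ⟨Q, hQ⟩ := (Polynomial.mem_lifts _).mp hlift
  exact ⟨Q, M, hQ⟩

theorem eval_scaleRoots_eq_zero (h : NewtonData J u m I) {H0 : Polynomial (LaurentSeries k)}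
    (hH0 : H0.eval (u * J⁻¹ ^ m) = 0) : (H0.scaleRoots (J ^ m)).eval u = 0 := by
  have hJ0 := h.J_ne_zero
  have := Polynomial.scaleRoots_eval₂_mul (p := H0) (RingHom.id (LaurentSeries k))
    (u * J⁻¹ ^ m) (J ^ m)
  rw [RingHom.id_apply] at this
  have e : J ^ m * (u * J⁻¹ ^ m) = u := by
    rw [mul_left_comm, inv_pow, mul_inv_cancel₀ (pow_ne_zero _ hJ0), mul_one]
  rw [e] at this
  rw [Polynomial.eval, this]
  have h2 : Polynomial.eval₂ (RingHom.id (LaurentSeries k)) (u * J⁻¹ ^ m) H0 = 0 := hH0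
  rw [h2, mul_zero]

theorem evalL_inv_injective (h : NewtonData J u m I) : Function.Injective (evalL J⁻¹) := by
  rw [injective_iff_map_eq_zero]
  intro p hp
  have hJ0 := h.J_ne_zero
  have key : evalL J (p.reflect p.natDegree) = J ^ p.natDegree * evalL J⁻¹ p := by
    have : Invertible (J⁻¹) := invertibleOfNonzero (inv_ne_zero hJ0)
    have h1 := Polynomial.eval₂_reflect_mul_pow (algebraMap k (LaurentSeries k)) (J⁻¹)
      p.natDegree p le_rfl
    have h2 : ⅟(J⁻¹) = J := by
      rw [invOf_eq_inv, inv_inv]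
    rw [h2] at h1
    rw [evalL_apply, evalL_apply, ← h1, mul_comm, mul_assoc, ← mul_pow,
      inv_mul_cancel₀ hJ0, one_pow, mul_one]
  rw [hp, mul_zero] at key
  have := evalL_injective h.hJ (key.trans (map_zero _).symm)
  exact (Polynomial.reflect_eq_zero_iff).mp this

/-- The auxiliary bounded polynomial `H` built from the integrality of `u / J^m`. -/
theorem exists_bdd_multiple (h : NewtonData J u m I) :
    ∃ H : Polynomial (LaurentSeries k), H.Monic ∧ IsBdd m H ∧
      ∀ G : Polynomial (Polynomial k),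
        (∀ Q : Polynomial (Polynomial k), Q.eval₂ (evalL J) u = 0 → G ∣ Q) →
        G.map (evalL J) ∣ H := by
  obtain ⟨P2, hP2m, hP2⟩ := h.int2
  have hJ0 := h.J_ne_zero
  set H0 : Polynomial (LaurentSeries k) := P2.map (evalL J⁻¹) with hH0
  have hH0m : H0.Monic := hP2m.map _
  set H : Polynomial (LaurentSeries k) := H0.scaleRoots (J ^ m) with hH
  have hHm : H.Monic := (Polynomial.monic_scaleRoots_iff _).mpr hH0m
  have hHdeg : H.natDegree = H0.natDegree := Polynomial.natDegree_scaleRoots _ _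
  have hHcoeff : ∀ j, H.coeff j = H0.coeff j * (J ^ m) ^ (H0.natDegree - j) :=
    fun j => Polynomial.coeff_scaleRoots _ _ _
  have hHroot : H.eval u = 0 :=
    h.eval_scaleRoots_eq_zero (by rw [hH0, Polynomial.eval_map]; exact hP2)
  refine ⟨H, hHm, ?_, ?_⟩
  · intro j
    rw [hHcoeff, hHdeg, HahnSeries.orderTop_mul, ← pow_mul,
      orderTop_pow_of_eq h.hJ]
    have h1 : (0 : WithTop ℤ) ≤ (H0.coeff j).orderTop := by
      rw [hH0, Polynomial.coeff_map]
      exact zero_le_orderTop_evalL (by rw [h.orderTop_inv]; exact_mod_cast zero_le_one) _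
    have e : ((-((m * (H0.natDegree - j) : ℕ) : ℤ) : ℤ) : WithTop ℤ) =
        (((m * (H0.natDegree - j) : ℕ) : ℤ) * (-1) : ℤ) := by
      congr 1; ring
    rw [e]
    exact le_add_of_nonneg_left h1
  · intro G hG
    obtain ⟨Q, M, hQ⟩ := h.exists_lift_scaleRoots P2
    have hQroot : Q.eval₂ (evalL J) u = 0 := by
      rw [← Polynomial.eval_map, hQ, Polynomial.eval_mul, hHroot, mul_zero]
    have hdvd := Polynomial.map_dvd (evalL J) (hG Q hQroot)
    rw [hQ] at hdvd
    have hunit : IsUnit (Polynomial.C (J ^ M) : Polynomial (LaurentSeries k)) :=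
      Polynomial.isUnit_C.mpr (IsUnit.mk0 _ (pow_ne_zero _ hJ0))
    exact (hunit.dvd_mul_left).mp hdvd

/-- The minimal polynomial of `u` over `k[J]` and its properties. -/
theorem exists_minpoly (h : NewtonData J u m I) :
    ∃ g : Polynomial (Polynomial k), g.Monic ∧ g.eval₂ (evalL J) u = 0 ∧
      (∀ Q : Polynomial (Polynomial k), Q.eval₂ (evalL J) u = 0 → g ∣ Q) ∧
      IsBdd m (g.map (evalL J)) ∧ ((g.map (evalL J)).coeff 0).orderTop ≤ 0 ∧
      I ≤ g.natDegree := by
  obtain ⟨g, hgm, hgroot, hgdvd, hg0⟩ :=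
    exists_monic_dvd_of_integral (evalL J) (evalL_injective h.hJ) u h.int1
  obtain ⟨H, hHm, hHb, hHdvd⟩ := h.exists_bdd_multiple
  have hb : IsBdd m (g.map (evalL J)) := IsBdd.of_dvd (hgm.map _) hHm (hHdvd g hgdvd) hHb
  have h0 : ((g.map (evalL J)).coeff 0).orderTop ≤ 0 := by
    rw [Polynomial.coeff_map, orderTop_evalL h.hJ (hg0 h.u_ne_zero)]
    exact_mod_cast (by omega : -((g.coeff 0).natDegree : ℤ) ≤ 0)
  refine ⟨g, hgm, hgroot, hgdvd, hb, h0, ?_⟩
  have := natDegree_ge_of_isBdd h.hm h.hu hb h0 (by rw [Polynomial.eval_map]; exact hgroot)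
  rwa [hgm.natDegree_map] at this

/-- **Newton lemma, degree bound**: any nonzero polynomial over `k[J]` killing `u` has degree
at least `I`. -/
theorem le_natDegree (h : NewtonData J u m I) {Q : Polynomial (Polynomial k)} (hQ0 : Q ≠ 0)
    (hQ : Q.eval₂ (evalL J) u = 0) : I ≤ Q.natDegree := by
  obtain ⟨g, -, -, hgdvd, -, -, hI⟩ := h.exists_minpoly
  exact hI.trans (Polynomial.natDegree_le_of_dvd (hgdvd Q hQ) hQ0)

/-- **Newton lemma, extremal case**: a monic polynomial of degree exactly `I` killing `u` is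
bounded, has nonzero constant constant term `c`, and `P'(u) u + c` has positive order. -/
theorem structure_of_natDegree_eq (h : NewtonData J u m I) {P : Polynomial (Polynomial k)}
    (hPm : P.Monic) (hPd : P.natDegree = I) (hP : P.eval₂ (evalL J) u = 0) :
    IsBdd m (P.map (evalL J)) ∧ ∃ c : k, c ≠ 0 ∧ P.coeff 0 = Polynomial.C c ∧
      (0 : WithTop ℤ) < ((Polynomial.derivative P).eval₂ (evalL J) u * u +
        algebraMap k (LaurentSeries k) c).orderTop := by
  obtain ⟨g, hgm, hgroot, hgdvd, hb, h0, hI⟩ := h.exists_minpoly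
  have hPg : P = g :=
    Polynomial.eq_of_monic_of_dvd_of_natDegree_le hgm hPm (hgdvd P hP) (by omega)
  subst hPg
  refine ⟨hb, ?_⟩
  have hroot' : (P.map (evalL J)).eval u = 0 := by rw [Polynomial.eval_map]; exact hgroot
  obtain ⟨hc0, hpos⟩ := newton_structure_of_isBdd h.hm h.hu hb
    (by rw [hgm.natDegree_map]; exact hPd) h0 hroot'
  rw [Polynomial.coeff_map] at hc0
  have hne : P.coeff 0 ≠ 0 := by
    intro hz
    rw [hz, map_zero, HahnSeries.orderTop_zero] at hc0
    exact absurd hc0 (by simp)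
  rw [orderTop_evalL h.hJ hne] at hc0
  have hdeg0 : (P.coeff 0).natDegree = 0 := by
    have : (-((P.coeff 0).natDegree : ℤ)) = 0 := by exact_mod_cast hc0
    omega
  have hC : P.coeff 0 = Polynomial.C ((P.coeff 0).coeff 0) :=
    Polynomial.eq_C_of_natDegree_eq_zero hdeg0
  refine ⟨(P.coeff 0).coeff 0, ?_, hC, ?_⟩
  · intro hz
    rw [hz, map_zero] at hC
    exact hne hC
  · rw [Polynomial.derivative_map, Polynomial.eval_map, Polynomial.coeff_map] at hpos
    rw [hC] at hpos
    simpa [evalL] using hpos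

/-- **Newton lemma at the chart at infinity**: any nonzero polynomial over `k[1/J]` killing
`u / J^m` has degree at least `I`. -/
theorem le_natDegree_inv (h : NewtonData J u m I) {Q : Polynomial (Polynomial k)} (hQ0 : Q ≠ 0)
    (hQ : Q.eval₂ (evalL J⁻¹) (u * J⁻¹ ^ m) = 0) : I ≤ Q.natDegree := by
  have hJ0 := h.J_ne_zero
  have hinj := h.evalL_inv_injective
  set H0 : Polynomial (LaurentSeries k) := Q.map (evalL J⁻¹) with hH0
  have hH00 : H0 ≠ 0 := (Polynomial.map_ne_zero_iff hinj).mpr hQ0
  have hH0d : H0.natDegree = Q.natDegree := Polynomial.natDegree_map_eq_of_injective hinj Q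
  obtain ⟨Q', M, hQ'⟩ := h.exists_lift_scaleRoots Q
  have hroot : (H0.scaleRoots (J ^ m)).eval u = 0 :=
    h.eval_scaleRoots_eq_zero (by rw [hH0, Polynomial.eval_map]; exact hQ)
  have hQ'root : Q'.eval₂ (evalL J) u = 0 := by
    rw [← Polynomial.eval_map, hQ', Polynomial.eval_mul, hroot, mul_zero]
  have hne : (Polynomial.C (J ^ M) * H0.scaleRoots (J ^ m)) ≠ 0 :=
    mul_ne_zero (Polynomial.C_ne_zero.mpr (pow_ne_zero _ hJ0))
      (Polynomial.scaleRoots_ne_zero hH00 _)
  have hQ'0 : Q' ≠ 0 := by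
    rintro rfl
    rw [Polynomial.map_zero] at hQ'
    exact hne hQ'.symm
  have h1 := h.le_natDegree hQ'0 hQ'root
  have h2 : Q'.natDegree = Q.natDegree := by
    rw [← Polynomial.natDegree_map_eq_of_injective (evalL_injective h.hJ) Q', hQ',
      Polynomial.natDegree_C_mul (pow_ne_zero _ hJ0), Polynomial.natDegree_scaleRoots, hH0d]
  omega

end NewtonData

end Fermat.Agent.S28.H18Alg
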