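import Fermat.Agent.S28.Newton

/-!
# S28: the Newton lemma at the chart at infinity

Same hypotheses as `newton_linearIndependent`; conclusion: `1, v, …, v^(I-1)` with
`v = u / x^m` are linearly independent over `k[1/x]`.
-/

set_option autoImplicit false

open Polynomial

namespace Fermat.Agent.S28

/-- **Newton polygon lemma, chart at infinity.** -/
theorem newton_linearIndependent_inv (k : Type) [Field k] (x u : LaurentSeries k) (m I : ℕ)
    (hm : 0 < m) (hI : 0 < I) (hx0 : x ≠ 0) (hx : x.order = -1)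
    (hu0 : u ≠ 0) (hu : (m : ℤ) * ((I : ℤ) - 1) ≤ u.order)
    (hint : ∃ P : Polynomial (Polynomial k), P.Monic ∧
      P.eval₂ (Polynomial.eval₂RingHom (HahnSeries.C : k →+* LaurentSeries k) x) u = 0)
    (hint' : ∃ P : Polynomial (Polynomial k), P.Monic ∧
      P.eval₂ (Polynomial.eval₂RingHom (HahnSeries.C : k →+* LaurentSeries k) x⁻¹)
        (u * x⁻¹ ^ m) = 0)
    (c : Fin I → Polynomial k)
    (hc : ∑ i : Fin I, Polynomial.eval₂ (HahnSeries.C : k →+* LaurentSeries k) x⁻¹ (c i) *
      (u * x⁻¹ ^ m) ^ (i : ℕ) = 0) : c = 0 := by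
  classical
  set M : ℕ := Finset.univ.sup (fun i : Fin I => (c i).natDegree) with hM
  have hMi : ∀ i : Fin I, (c i).natDegree ≤ M := fun i =>
    Finset.le_sup (f := fun i : Fin I => (c i).natDegree) (Finset.mem_univ i)
  let c' : Fin I → Polynomial k := fun i =>
    Polynomial.reflect M (c i) * Polynomial.X ^ (m * (I - 1 - (i : ℕ)))
  have hrefl : ∀ i : Fin I,
      Polynomial.eval₂ (HahnSeries.C : k →+* LaurentSeries k) x (Polynomial.reflect M (c i)) =
        x ^ M * Polynomial.eval₂ (HahnSeries.C : k →+* LaurentSeries k) x⁻¹ (c i) := by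
    intro i
    have : Invertible (x⁻¹) := invertibleOfNonzero (inv_ne_zero hx0)
    have h1 := Polynomial.eval₂_reflect_mul_pow (HahnSeries.C : k →+* LaurentSeries k) (x⁻¹)
      M (c i) (hMi i)
    have h2 : ⅟(x⁻¹) = x := by rw [invOf_eq_inv, inv_inv]
    rw [h2] at h1
    rw [← h1, mul_comm, mul_assoc, ← mul_pow, inv_mul_cancel₀ hx0, one_pow, mul_one]
  have hc' : ∑ i : Fin I, Polynomial.eval₂ (HahnSeries.C : k →+* LaurentSeries k) x (c' i) *
      u ^ (i : ℕ) = 0 := by
    have key : ∀ i : Fin I,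
        Polynomial.eval₂ (HahnSeries.C : k →+* LaurentSeries k) x (c' i) * u ^ (i : ℕ) =
          x ^ (M + m * (I - 1)) *
            (Polynomial.eval₂ (HahnSeries.C : k →+* LaurentSeries k) x⁻¹ (c i) *
              (u * x⁻¹ ^ m) ^ (i : ℕ)) := by
      intro i
      have hi : (i : ℕ) ≤ I - 1 := by have := i.2; omega
      simp only [c', Polynomial.eval₂_mul, Polynomial.eval₂_pow, Polynomial.eval₂_X, hrefl i]
      have e1 : m * (I - 1) = m * (I - 1 - (i : ℕ)) + m * (i : ℕ) := by
        rw [← Nat.mul_add, Nat.sub_add_cancel hi]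
      have e2 : x ^ (m * (i : ℕ)) * (x⁻¹ ^ m) ^ (i : ℕ) = 1 := by
        rw [← pow_mul, ← mul_pow, mul_inv_cancel₀ hx0, one_pow]
      rw [pow_add, e1, pow_add, mul_pow]
      linear_combination (-(x ^ M * eval₂ HahnSeries.C x⁻¹ (c i) *
        x ^ (m * (I - 1 - (i : ℕ))) * u ^ (i : ℕ))) * e2
    simp_rw [key]
    rw [← Finset.mul_sum, hc, mul_zero]
  have h0 := newton_linearIndependent k x u m I hm hI hx0 hx hu0 hu hint hint' c' hc'
  funext i
  have hi0 : c' i = 0 := congrFun h0 i
  have hX : (Polynomial.X : Polynomial k) ^ (m * (I - 1 - (i : ℕ))) ≠ 0 :=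
    pow_ne_zero _ Polynomial.X_ne_zero
  have hr : Polynomial.reflect M (c i) = 0 := (mul_eq_zero.mp hi0).resolve_right hX
  exact (Polynomial.reflect_eq_zero_iff).mp hr

end Fermat.Agent.S28
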