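import Fermat.Agent.S28.Defs
import Fermat.Prelude.Def_ModularCurve_JqCoeff

set_option autoImplicit false

open ModularCurve

noncomputable section

namespace Fermat.Agent.S28

theorem den_ne_zero_of_mem (ℓ : ℕ) [Fact ℓ.Prime] {x : ℚ}
    (hx : x ∈ GaloisRep.ratLocalizedAt ℓ) : ((x.den : ℕ) : ZMod ℓ) ≠ 0 := by
  have h : x.den.Coprime ℓ := hx
  rw [Ne, ZMod.natCast_eq_zero_iff]
  intro hdvd
  have := Nat.Coprime.eq_one_of_dvd h.symm hdvd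
  exact (Fact.out : ℓ.Prime).one_lt.ne' this

/-- The residue map `ℤ_(ℓ) → 𝔽_ℓ`. -/
def resL (ℓ : ℕ) [Fact ℓ.Prime] : GaloisRep.ratLocalizedAt ℓ →+* ZMod ℓ where
  toFun x := ((x : ℚ) : ZMod ℓ)
  map_one' := by simp
  map_zero' := by simp
  map_add' x y := by
    simpa using Rat.cast_add_of_ne_zero (den_ne_zero_of_mem ℓ x.2) (den_ne_zero_of_mem ℓ y.2)
  map_mul' x y := by
    simpa using Rat.cast_mul_of_ne_zero (den_ne_zero_of_mem ℓ x.2) (den_ne_zero_of_mem ℓ y.2)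

@[simp] theorem resL_apply (ℓ : ℕ) [Fact ℓ.Prime] (x : GaloisRep.ratLocalizedAt ℓ) :
    resL ℓ x = ((x : ℚ) : ZMod ℓ) := rfl

/-- The embedding `ℤ_(ℓ)((q)) → ℚ((q))`. -/
def embR (ℓ : ℕ) : LaurentSeries (GaloisRep.ratLocalizedAt ℓ) →+* LaurentSeries ℚ :=
  coeffMap (GaloisRep.ratLocalizedAt ℓ).subtype

/-- Reduction mod `ℓ`: `ℤ_(ℓ)((q)) → 𝔽_ℓ((q))`. -/
def redR (ℓ : ℕ) [Fact ℓ.Prime] :
    LaurentSeries (GaloisRep.ratLocalizedAt ℓ) →+* LaurentSeries (ZMod ℓ) :=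
  coeffMap (resL ℓ)

/-- Evaluation `A[Y] → A((q))`, `Y ↦ x`, constants via `HahnSeries.C`. -/
def evalC {A : Type} [CommRing A] (x : LaurentSeries A) : Polynomial A →+* LaurentSeries A :=
  Polynomial.eval₂RingHom (HahnSeries.C : A →+* LaurentSeries A) x

/-- `x ∈ ℚ((q))` lies in the "Gauss-localised" ring: some `Q(j)·x` with `Q ≢ 0 mod ℓ`
has `ℓ`-integral coefficients. -/
def InOT (ℓ : ℕ) [Fact ℓ.Prime] (x : LaurentSeries ℚ) : Prop :=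
  ∃ Q : Polynomial (GaloisRep.ratLocalizedAt ℓ), Q.map (resL ℓ) ≠ 0 ∧
    ∃ y : LaurentSeries (GaloisRep.ratLocalizedAt ℓ),
      embR ℓ y = evalAt (GaloisRep.ratLocalizedAt ℓ) jq Q * x

end Fermat.Agent.S28
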